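/-
Project S56 (Taylor–Wiles primes), node [LOC-p-FLAT], cell [F-CLASS] part 1 (helper13).
Prefix `s56fc_`.  Namespace `Fermat.Agent.S56`.
THE TAME SYMBOL `θ_z(σ) = σ z / z mod 𝔪_A` AND WILD ELEMENTS, abstract vocabulary
(`hctx : mzo_Ctx r O L A Γ` + `hv : Γ preserves the valuation`).

* `s56fc_theta A σ z`       : `σ z / z mod 𝔪_A` in the residue field of `A` (`0` if not integral);
* `s56fc_theta_mul_left`    : `θ_z (σ τ) = θ_z σ * θ_z τ`;  `s56fc_theta_mul_right`: `θ_{z z'} = θ_z θ_{z'}`;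
* `s56fc_theta_congr`       : `θ_z` depends only on `v z`;
* `s56fc_theta_comm`        : `θ_z` kills commutators;
* `s56fc_theta_frob`        : FROBENIUS: `θ_z (φ σ φ⁻¹) = θ_z (σ) ^ r`;
* `s56fc_Wild A σ`          : `v (σ z - z) < v z` for all `z ≠ 0`;
* `s56fc_wild_fixed`        : (W1) a nonzero finite `Γ`-module with an order has a nonzero point
                              fixed by all wild elements (a point of minimal norm).
-/
import Mathlib
import Fermat.Agent.S56.Flat.Shape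

set_option autoImplicit false
set_option linter.unusedSectionVars false

noncomputable section

namespace Fermat.Agent.S56

open Fermat.Agent.MZ

section theta

variable {r : ℕ} {O : Type} [CommRing O] [IsDomain O] [IsDiscreteValuationRing O]
  {L : Type} [Field L] [Algebra O L] {A : ValuationSubring L}
  {Γ : Type} [Group Γ] [MulSemiringAction Γ L]

open scoped Classical in
/-- **the tame symbol** `θ_z (σ) = σ z / z mod 𝔪_A` (`0` if `σ z / z ∉ A`). -/
def s56fc_theta (A : ValuationSubring L) (σ : Γ) (z : L) : IsLocalRing.ResidueField ↥A :=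
  if h : σ • z / z ∈ A then IsLocalRing.residue ↥A ⟨σ • z / z, h⟩ else 0

theorem s56fc_theta_eq {σ : Γ} {z : L} (h : σ • z / z ∈ A) :
    s56fc_theta A σ z = IsLocalRing.residue ↥A ⟨σ • z / z, h⟩ := by
  unfold s56fc_theta
  exact dif_pos h

/-- equality of residues of two elements of `A`. -/
theorem s56fc_residue_eq_iff {a b : L} (ha : a ∈ A) (hb : b ∈ A) :
    IsLocalRing.residue ↥A ⟨a, ha⟩ = IsLocalRing.residue ↥A ⟨b, hb⟩ ↔ A.valuation (a - b) < 1 := by
  rw [← sub_eq_zero, ← map_sub, IsLocalRing.residue_eq_zero_iff, A.valuation_lt_one_iff]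
  rfl

theorem s56fc_div_mem (hv : ∀ (σ : Γ) (z : L), A.valuation (σ • z) = A.valuation z) (σ : Γ)
    {z : L} (hz : z ≠ 0) : σ • z / z ∈ A := by
  rw [← A.valuation_le_one_iff, map_div₀, hv, div_self ((map_ne_zero _).mpr hz)]

theorem s56fc_theta_eq' (hv : ∀ (σ : Γ) (z : L), A.valuation (σ • z) = A.valuation z) (σ : Γ)
    {z : L} (hz : z ≠ 0) :
    s56fc_theta A σ z = IsLocalRing.residue ↥A ⟨σ • z / z, s56fc_div_mem hv σ hz⟩ :=
  s56fc_theta_eq _

/-- `θ_z σ = 1` iff `v (σ z - z) < v z`. -/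
theorem s56fc_theta_eq_one_iff (hv : ∀ (σ : Γ) (z : L), A.valuation (σ • z) = A.valuation z)
    (σ : Γ) {z : L} (hz : z ≠ 0) :
    s56fc_theta A σ z = 1 ↔ A.valuation (σ • z - z) < A.valuation z := by
  have hvz : A.valuation z ≠ 0 := (map_ne_zero _).mpr hz
  rw [s56fc_theta_eq' hv σ hz]
  have h1 : (1 : IsLocalRing.ResidueField ↥A) = IsLocalRing.residue ↥A ⟨1, A.one_mem⟩ :=
    (map_one _).symm
  rw [h1, s56fc_residue_eq_iff]
  have e : σ • z / z - 1 = (σ • z - z) / z := by field_simp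
  rw [e, map_div₀, div_lt_one₀ (zero_lt_iff.mpr hvz)]

theorem s56fc_theta_one (z : L) (hz : z ≠ 0) : s56fc_theta A (1 : Γ) z = 1 := by
  have h : (1 : Γ) • z / z ∈ A := by rw [one_smul, div_self hz]; exact A.one_mem
  rw [s56fc_theta_eq h]
  have e : (⟨(1 : Γ) • z / z, h⟩ : ↥A) = 1 := by
    apply Subtype.ext
    show (1 : Γ) • z / z = 1
    rw [one_smul, div_self hz]
  rw [e, map_one]

/-- `θ_{z z'} = θ_z θ_{z'}`. -/
theorem s56fc_theta_mul_right (hv : ∀ (σ : Γ) (z : L), A.valuation (σ • z) = A.valuation z)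
    (σ : Γ) {z z' : L} (hz : z ≠ 0) (hz' : z' ≠ 0) :
    s56fc_theta A σ (z * z') = s56fc_theta A σ z * s56fc_theta A σ z' := by
  rw [s56fc_theta_eq' hv σ hz, s56fc_theta_eq' hv σ hz', s56fc_theta_eq' hv σ (mul_ne_zero hz hz'),
    ← map_mul]
  congr 1
  apply Subtype.ext
  show σ • (z * z') / (z * z') = σ • z / z * (σ • z' / z')
  rw [smul_mul']
  field_simp

theorem s56fc_theta_pow (hv : ∀ (σ : Γ) (z : L), A.valuation (σ • z) = A.valuation z)
    (σ : Γ) {z : L} (hz : z ≠ 0) (n : ℕ) :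
    s56fc_theta A σ (z ^ n) = s56fc_theta A σ z ^ n := by
  induction n with
  | zero =>
    rw [pow_zero, pow_zero, s56fc_theta_eq' hv σ one_ne_zero]
    have e : (⟨σ • (1 : L) / 1, s56fc_div_mem hv σ one_ne_zero⟩ : ↥A) = 1 := by
      apply Subtype.ext
      show σ • (1 : L) / 1 = 1
      rw [smul_one, div_one]
    rw [e, map_one]
  | succ n ih =>
    rw [pow_succ, pow_succ, s56fc_theta_mul_right hv σ (pow_ne_zero n hz) hz, ih]

/-- `θ_u = 1` for a unit `u` of `A` (`Γ` acts through inertia). -/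
theorem s56fc_theta_unit (hctx : mzo_Ctx r O L A Γ)
    (hv : ∀ (σ : Γ) (z : L), A.valuation (σ • z) = A.valuation z) (σ : Γ) {u : L}
    (hu : A.valuation u = 1) : s56fc_theta A σ u = 1 := by
  have hu0 : u ≠ 0 := by
    intro h
    rw [h, map_zero] at hu
    exact zero_ne_one hu
  rw [s56fc_theta_eq_one_iff hv σ hu0, hu]
  have h1 := hctx.inert σ u ((A.valuation_le_one_iff _).mp hu.le)
  rwa [ValuationSubring.mem_nonunits_iff] at h1

/-- `θ_z` depends only on the valuation of `z`. -/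
theorem s56fc_theta_congr (hctx : mzo_Ctx r O L A Γ)
    (hv : ∀ (σ : Γ) (z : L), A.valuation (σ • z) = A.valuation z) (σ : Γ) {z z' : L}
    (hz : z ≠ 0) (h : A.valuation z = A.valuation z') :
    s56fc_theta A σ z = s56fc_theta A σ z' := by
  have hz' : z' ≠ 0 := by
    intro h0
    rw [h0, map_zero, map_eq_zero] at h
    exact hz h
  have hu : A.valuation (z / z') = 1 := by
    rw [map_div₀, h, div_self ((map_ne_zero _).mpr hz')]
  have e : z = z / z' * z' := by field_simp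
  have hu0 : z / z' ≠ 0 := div_ne_zero hz hz'
  conv_lhs => rw [e]
  rw [s56fc_theta_mul_right hv σ hu0 hz', s56fc_theta_unit hctx hv σ hu, one_mul]

/-- `θ_z (σ τ) = θ_z σ * θ_z τ`. -/
theorem s56fc_theta_mul_left (hctx : mzo_Ctx r O L A Γ)
    (hv : ∀ (σ : Γ) (z : L), A.valuation (σ • z) = A.valuation z) (σ τ : Γ) {z : L}
    (hz : z ≠ 0) : s56fc_theta A (σ * τ) z = s56fc_theta A σ z * s56fc_theta A τ z := by
  have hτz : τ • z ≠ 0 := by
    intro h
    have := hv τ z
    rw [h, map_zero] at this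
    exact hz ((map_eq_zero _).mp this.symm)
  have h1 : s56fc_theta A σ (τ • z) = s56fc_theta A σ z :=
    s56fc_theta_congr hctx hv σ hτz (hv τ z)
  rw [← h1, s56fc_theta_eq' hv σ hτz, s56fc_theta_eq' hv τ hz, s56fc_theta_eq' hv (σ * τ) hz,
    ← map_mul]
  congr 1
  apply Subtype.ext
  show (σ * τ) • z / z = σ • τ • z / τ • z * (τ • z / z)
  rw [mul_smul]
  field_simp

theorem s56fc_theta_ne_zero (hv : ∀ (σ : Γ) (z : L), A.valuation (σ • z) = A.valuation z)
    (σ : Γ) {z : L} (hz : z ≠ 0) : s56fc_theta A σ z ≠ 0 := by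
  rw [s56fc_theta_eq' hv σ hz]
  intro h
  rw [IsLocalRing.residue_eq_zero_iff, A.valuation_lt_one_iff] at h
  have h2 : A.valuation (σ • z / z) = 1 := by
    rw [map_div₀, hv, div_self ((map_ne_zero _).mpr hz)]
  have h3 : A.valuation (σ • z / z) < 1 := h
  rw [h2] at h3
  exact lt_irrefl _ h3

theorem s56fc_theta_inv (hctx : mzo_Ctx r O L A Γ)
    (hv : ∀ (σ : Γ) (z : L), A.valuation (σ • z) = A.valuation z) (σ : Γ) {z : L}
    (hz : z ≠ 0) : s56fc_theta A σ⁻¹ z = (s56fc_theta A σ z)⁻¹ := by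
  have h1 := s56fc_theta_mul_left hctx hv σ σ⁻¹ hz
  rw [mul_inv_cancel, s56fc_theta_one z hz] at h1
  exact eq_inv_of_mul_eq_one_right h1.symm

/-- `θ_z` kills commutators. -/
theorem s56fc_theta_comm (hctx : mzo_Ctx r O L A Γ)
    (hv : ∀ (σ : Γ) (z : L), A.valuation (σ • z) = A.valuation z) (σ τ : Γ) {z : L}
    (hz : z ≠ 0) : s56fc_theta A (σ * τ * σ⁻¹ * τ⁻¹) z = 1 := by
  rw [s56fc_theta_mul_left hctx hv _ _ hz, s56fc_theta_mul_left hctx hv _ _ hz,
    s56fc_theta_mul_left hctx hv _ _ hz, s56fc_theta_inv hctx hv σ hz,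
    s56fc_theta_inv hctx hv τ hz]
  have h1 := s56fc_theta_ne_zero hv σ hz
  have h2 := s56fc_theta_ne_zero hv τ hz
  field_simp

end theta

/-! ### Frobenius -/

section frob

variable {r : ℕ} {O : Type} [CommRing O] [IsDomain O] [IsDiscreteValuationRing O]
  {L : Type} [Field L] [Algebra O L] {A : ValuationSubring L}
  {Γ : Type} [Group Γ] [MulSemiringAction Γ L]

/-- **FROBENIUS**: if `φ` is a ring automorphism of `L` preserving the valuation and inducing
`a ↦ a ^ r` on the residue field, and `σ' = φ σ φ⁻¹`, then `θ_z (σ') = θ_z (σ) ^ r`. -/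
theorem s56fc_theta_frob (hctx : mzo_Ctx r O L A Γ)
    (hv : ∀ (σ : Γ) (z : L), A.valuation (σ • z) = A.valuation z) (φ : L ≃+* L)
    (hφv : ∀ z : L, A.valuation (φ z) = A.valuation z)
    (hφ : ∀ a : L, a ∈ A → φ a - a ^ r ∈ A.nonunits) (σ σ' : Γ)
    (hσ' : ∀ a : L, σ' • a = φ (σ • φ.symm a)) {z : L} (hz : z ≠ 0) :
    s56fc_theta A σ' z = s56fc_theta A σ z ^ r := by
  set z' := φ.symm z with hz'def
  have hz' : z' ≠ 0 := by
    intro h
    have h1 : φ z' = z := φ.apply_symm_apply z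
    rw [h, map_zero] at h1
    exact hz h1.symm
  have hvz' : A.valuation z' = A.valuation z := by
    rw [← hφv z', hz'def, φ.apply_symm_apply]
  rw [← s56fc_theta_congr hctx hv σ hz' hvz', s56fc_theta_eq' hv σ' hz, s56fc_theta_eq' hv σ hz',
    ← map_pow]
  have hu : σ • z' / z' ∈ A := s56fc_div_mem hv σ hz'
  have e1 : σ' • z / z = φ (σ • z' / z') := by
    rw [map_div₀, hσ', hz'def, φ.apply_symm_apply]
  have hur : (σ • z' / z') ^ r ∈ A := pow_mem hu r
  have e2 : (⟨σ • z' / z', hu⟩ : ↥A) ^ r = ⟨(σ • z' / z') ^ r, hur⟩ := Subtype.ext rfl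
  have hφu : φ (σ • z' / z') ∈ A := by
    rw [← e1]
    exact s56fc_div_mem hv σ' hz
  have e3 : (⟨σ' • z / z, s56fc_div_mem hv σ' hz⟩ : ↥A) = ⟨φ (σ • z' / z'), hφu⟩ :=
    Subtype.ext e1
  rw [e2, e3, s56fc_residue_eq_iff]
  have := hφ _ hu
  rwa [ValuationSubring.mem_nonunits_iff] at this

end frob

/-! ### wild elements -/

section wild

variable {r : ℕ} {O : Type} [CommRing O] [IsDomain O] [IsDiscreteValuationRing O]
  {L : Type} [Field L] [Algebra O L] {A : ValuationSubring L}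
  {Γ : Type} [Group Γ] [MulSemiringAction Γ L]
  {G : Type} [AddCommGroup G] [DistribMulAction Γ G] {H : Subalgebra O (G → L)}

/-- `σ` is **wild**: `v (σ z - z) < v z` for all `z ≠ 0`. -/
def s56fc_Wild (A : ValuationSubring L) (σ : Γ) : Prop :=
  ∀ z : L, z ≠ 0 → A.valuation (σ • z - z) < A.valuation z

theorem s56fc_wild_iff (hv : ∀ (σ : Γ) (z : L), A.valuation (σ • z) = A.valuation z) (σ : Γ) :
    s56fc_Wild A σ ↔ ∀ z : L, z ≠ 0 → s56fc_theta A σ z = 1 := by
  constructor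
  · intro h z hz
    exact (s56fc_theta_eq_one_iff hv σ hz).mpr (h z hz)
  · intro h z hz
    exact (s56fc_theta_eq_one_iff hv σ hz).mp (h z hz)

/-- commutators are wild. -/
theorem s56fc_wild_comm (hctx : mzo_Ctx r O L A Γ)
    (hv : ∀ (σ : Γ) (z : L), A.valuation (σ • z) = A.valuation z) (σ τ : Γ) :
    s56fc_Wild A (σ * τ * σ⁻¹ * τ⁻¹) := by
  rw [s56fc_wild_iff hv]
  intro z hz
  exact s56fc_theta_comm hctx hv σ τ hz

/-- **(W1)** a nonzero finite module with an order has a nonzero point fixed by all wild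
elements (any point of minimal norm). -/
theorem s56fc_wild_fixed [Finite G] (hctx : mzo_Ctx r O L A Γ) (hH : mzo_IsOrder A Γ G H)
    (hnt : ∃ x : G, x ≠ 0) : ∃ x : G, x ≠ 0 ∧ ∀ σ : Γ, s56fc_Wild A σ → σ • x = x := by
  classical
  -- the norm
  have hex : ∀ x : G, ∃ φ₀ ∈ H, ∀ φ ∈ H, A.valuation (φ x - φ 0) ≤ A.valuation (φ₀ x - φ₀ 0) := by
    intro x
    obtain ⟨φ₀, hφ₀, x₀, hx₀, hmax⟩ := s56fl_exists_max hctx hH {x} (Finset.singleton_nonempty x)
    rw [Finset.mem_singleton] at hx₀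
    subst hx₀
    exact ⟨φ₀, hφ₀, fun φ hφ => hmax φ hφ _ (Finset.mem_singleton_self _)⟩
  choose Φ hΦ hΦmax using hex
  set N : G → A.ValueGroup := fun x => A.valuation (Φ x x - Φ x 0) with hN
  have hN0 : ∀ x : G, x ≠ 0 → N x ≠ 0 := by
    intro x hx h0
    obtain ⟨φ, hφ, hne⟩ := hH.sep x 0 hx
    have h1 := hΦmax x φ hφ
    rw [show A.valuation (Φ x x - Φ x 0) = 0 from h0, le_zero_iff, map_eq_zero, sub_eq_zero] at h1
    exact hne h1
  have : Nonempty {x : G // x ≠ 0} := by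
    obtain ⟨x, hx⟩ := hnt
    exact ⟨⟨x, hx⟩⟩
  obtain ⟨⟨x, hx⟩, hmin⟩ := Finite.exists_min (fun x : {x : G // x ≠ 0} => N x.1)
  refine ⟨x, hx, fun σ hσ => ?_⟩
  by_contra hne
  have hy : σ • x - x ≠ 0 := sub_ne_zero.mpr hne
  have hnear : s56fl_Near (s56fl_lt A (N x) (hN0 x hx)) H (σ • x - x) 0 := by
    rw [← s56fl_key hH (s56fl_lt_isIdeal (N x) (hN0 x hx))]
    intro φ hφ
    rw [s56fl_mem_lt]
    have e : σ • φ x - φ x = σ • (φ x - φ 0) - (φ x - φ 0) := by
      rw [smul_sub, ← hH.equiv φ hφ σ 0, smul_zero]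
      ring
    rw [e]
    by_cases hz : φ x - φ 0 = 0
    · rw [hz, smul_zero, sub_zero, map_zero]
      exact zero_lt_iff.mpr (hN0 x hx)
    · exact lt_of_lt_of_le (hσ _ hz) (hΦmax x φ hφ)
  have h1 : N (σ • x - x) < N x := by
    have := hnear (Φ (σ • x - x)) (hΦ _)
    rwa [s56fl_mem_lt] at this
  exact absurd (hmin ⟨σ • x - x, hy⟩) (not_le.mpr h1)

end wild

/-! ### groups preserving the valuation ring -/

section dec

variable {L : Type} [Field L] {A : ValuationSubring L} {D : Type} [Group D]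
  [MulSemiringAction D L]

theorem s56fc_val_le_smul (hD : ∀ (τ : D) (a : L), a ∈ A → τ • a ∈ A) (τ : D) {a b : L}
    (h : A.valuation a ≤ A.valuation b) : A.valuation (τ • a) ≤ A.valuation (τ • b) := by
  by_cases hb : b = 0
  · rw [hb, map_zero, le_zero_iff, map_eq_zero] at h
    rw [h, hb]
  · have hvb : A.valuation b ≠ 0 := (map_ne_zero _).mpr hb
    have hq : a / b ∈ A := by
      rw [← A.valuation_le_one_iff, map_div₀]
      exact (div_le_one₀ (zero_lt_iff.mpr hvb)).mpr h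
    have h1 := hD τ _ hq
    have e : τ • a = τ • (a / b) * τ • b := by
      rw [← smul_mul', div_mul_cancel₀ a hb]
    rw [e, map_mul]
    calc A.valuation (τ • (a / b)) * A.valuation (τ • b)
        ≤ 1 * A.valuation (τ • b) := mul_le_mul_left ((A.valuation_le_one_iff _).mpr h1) _
      _ = A.valuation (τ • b) := one_mul _

theorem s56fc_val_lt_smul (hD : ∀ (τ : D) (a : L), a ∈ A → τ • a ∈ A) (τ : D) {a b : L}
    (h : A.valuation a < A.valuation b) : A.valuation (τ • a) < A.valuation (τ • b) := by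
  by_contra hn
  rw [not_lt] at hn
  have h1 := s56fc_val_le_smul hD τ⁻¹ hn
  rw [inv_smul_smul, inv_smul_smul] at h1
  exact absurd h (not_lt.mpr h1)

theorem s56fc_val_smul_le (hD : ∀ (τ : D) (a : L), a ∈ A → τ • a ∈ A) (τ : D) {z : L} {m : ℕ}
    (hm : 0 < m) (hz : τ ^ m • z = z) : A.valuation (τ • z) ≤ A.valuation z := by
  by_contra hlt
  rw [not_le] at hlt
  have key : ∀ k : ℕ, A.valuation z < A.valuation (τ ^ (k + 1) • z) := by
    intro k
    induction k with
    | zero => simpa using hlt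
    | succ k ih =>
      have h1 := s56fc_val_lt_smul hD (τ ^ (k + 1)) hlt
      rw [← mul_smul, ← pow_succ] at h1
      exact ih.trans h1
  obtain ⟨k, rfl⟩ : ∃ k, m = k + 1 := ⟨m - 1, by omega⟩
  have h2 := key k
  rw [hz] at h2
  exact lt_irrefl _ h2

/-- a group preserving `A` preserves the valuation of the elements with finite orbits. -/
theorem s56fc_val_smul_of_pow (hD : ∀ (τ : D) (a : L), a ∈ A → τ • a ∈ A) (τ : D) {z : L}
    {m : ℕ} (hm : 0 < m) (hz : τ ^ m • z = z) : A.valuation (τ • z) = A.valuation z := by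
  refine le_antisymm (s56fc_val_smul_le hD τ hm hz) ?_
  have hz' : τ⁻¹ ^ m • (τ • z) = τ • z := by
    have h1 : τ⁻¹ ^ m • z = z := by
      rw [inv_pow, inv_smul_eq_iff, hz]
    have hc : τ⁻¹ ^ m * τ = τ * τ⁻¹ ^ m := ((Commute.refl τ).inv_left.pow_left m).eq
    rw [← mul_smul, hc, mul_smul, h1]
  have h2 := s56fc_val_smul_le hD τ⁻¹ hm hz'
  rwa [inv_smul_smul] at h2

end dec

end Fermat.Agent.S56
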