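/-
Project S56 (Taylor–Wiles primes), node [LOC-p-FLAT], cell [F-CLASS] part 2 (helper13).
Prefix `s56fc_`.  Namespace `Fermat.Agent.S56`.
A LINE WITH AN ORDER: `Γ` acts on the finite field `k` (`char k = r`) through a character
`χ : Γ →* kˣ`.

* `s56fc_Ch χ`        : the `Γ`-module `k` with `σ • a = χ σ * a` (global instances);
* `s56fc_line`        : an order on `s56fc_Ch χ`  ⟹  `χ = 1`  OR  there are `z ≠ 0`, `v z < 1`, a ring
                        homomorphism `ι` from the subring generated by the values of `χ` to the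
                        residue field of `A` with `ι (χ σ) = θ_z σ`, and `j ≥ 1` with
                        `v z ^ e = v r ^ j`, `j (r - 1) ≤ e`, `e = #χ(Γ)`;
* `s56fc_iota_injective` : such an `ι` is injective;
* `s56fc_line_conj`   : FROBENIUS: `χ (φ σ φ⁻¹) = χ σ ^ r`.
-/
import Mathlib
import Fermat.Agent.S56.Flat.Wild

set_option autoImplicit false
set_option linter.unusedSectionVars false

noncomputable section

namespace Fermat.Agent.S56

open Fermat.Agent.MZ

section Ch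

variable {Γ : Type} [Group Γ] {k : Type} [CommRing k]

/-- the module `k` with `Γ` acting through the character `χ`. -/
def s56fc_Ch (_χ : Γ →* kˣ) : Type := k

variable (χ : Γ →* kˣ)

instance : AddCommGroup (s56fc_Ch χ) := inferInstanceAs (AddCommGroup k)

instance : Module k (s56fc_Ch χ) := inferInstanceAs (Module k k)

instance [Finite k] : Finite (s56fc_Ch χ) := inferInstanceAs (Finite k)

/-- the underlying scalar -/
def s56fc_val (a : s56fc_Ch χ) : k := a

/-- the element with given scalar -/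
def s56fc_mk (a : k) : s56fc_Ch χ := a

instance : DistribMulAction Γ (s56fc_Ch χ) where
  smul σ a := s56fc_mk χ ((χ σ : k) * s56fc_val χ a)
  one_smul a := by
    show s56fc_mk χ ((χ 1 : k) * s56fc_val χ a) = a
    rw [map_one, Units.val_one, one_mul]
    rfl
  mul_smul σ τ a := by
    show s56fc_mk χ ((χ (σ * τ) : k) * s56fc_val χ a)
      = s56fc_mk χ ((χ σ : k) * s56fc_val χ (s56fc_mk χ ((χ τ : k) * s56fc_val χ a)))
    rw [map_mul, Units.val_mul, mul_assoc]
    rfl
  smul_zero σ := by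
    show s56fc_mk χ ((χ σ : k) * s56fc_val χ 0) = 0
    exact mul_zero (χ σ : k)
  smul_add σ a b := by
    show s56fc_mk χ ((χ σ : k) * s56fc_val χ (a + b)) = _
    exact mul_add (χ σ : k) (s56fc_val χ a) (s56fc_val χ b)

theorem s56fc_ch_smul (σ : Γ) (a : s56fc_Ch χ) : σ • a = ((χ σ : k)) • a := rfl

theorem s56fc_ch_smul_val (σ : Γ) (a : s56fc_Ch χ) :
    s56fc_val χ (σ • a) = (χ σ : k) * s56fc_val χ a := rfl

end Ch

section line

variable {r : ℕ} {O : Type} [CommRing O] [IsDomain O] [IsDiscreteValuationRing O]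
  {L : Type} [Field L] [Algebra O L] {A : ValuationSubring L}
  {Γ : Type} [Group Γ] [MulSemiringAction Γ L]
  {k : Type} [Field k] [Finite k]

/-- **the order of a line**: either `χ = 1` or the line is connected with a leading term. -/
theorem s56fc_line (hctx : mzo_Ctx r O L A Γ) (hrk : (r : k) = 0) (χ : Γ →* kˣ)
    {H : Subalgebra O (s56fc_Ch χ → L)} (hH : mzo_IsOrder A Γ (s56fc_Ch χ) H) :
    (∀ σ : Γ, χ σ = 1) ∨
    ∃ z : L, z ≠ 0 ∧ A.valuation z < 1 ∧ (∀ σ : Γ, σ • z / z ∈ A) ∧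
      (∃ ι : ↥(Subring.closure (Set.range fun σ : Γ => (χ σ : k))) →+*
          IsLocalRing.ResidueField ↥A,
        ∀ σ : Γ, ι ⟨(χ σ : k), Subring.subset_closure ⟨σ, rfl⟩⟩ = s56fc_theta A σ z) ∧
      ∃ j : ℕ, 1 ≤ j ∧ A.valuation z ^ Nat.card ↥χ.range = A.valuation (r : L) ^ j ∧
        j * (r - 1) ≤ Nat.card ↥χ.range := by
  by_cases hconn : ∀ x : s56fc_Ch χ, x ∈ s56fl_X0 hH
  · right
    obtain ⟨φ₀, x₀, ht⟩ := s56fl_exists_top hctx hH hconn ⟨s56fc_mk χ 1, (one_ne_zero : (1 : k) ≠ 0)⟩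
    have hz : φ₀ x₀ - φ₀ 0 ≠ 0 := fun h => ht.ne (by rw [h, map_zero])
    have hx₀ : x₀ ≠ 0 := by
      intro h
      rw [h, sub_self] at hz
      exact hz rfl
    refine ⟨φ₀ x₀ - φ₀ 0, hz, ht.lt, fun σ => s56fl_theta_mem hctx hH ht σ, ?_, ?_⟩
    · obtain ⟨ι, hι⟩ := s56fl_shape hctx hH ht (fun σ : Γ => (χ σ : k))
        (fun σ x => s56fc_ch_smul χ σ x)
      refine ⟨ι, fun σ => ?_⟩
      rw [hι σ, s56fc_theta_eq (s56fl_theta_mem hctx hH ht σ)]
    · obtain ⟨j, hj1, hj⟩ := s56fl_orbit_norm hctx hH ht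
      have hrx : r • x₀ = 0 := by
        have h1 : (r : ℕ) • s56fc_val χ x₀ = 0 := by rw [nsmul_eq_mul, hrk, zero_mul]
        exact h1
      have hb := s56fl_orbit_bound hctx hH ht hconn hrx hj
      have hcard : Nat.card ↥(MulAction.orbit Γ x₀) = Nat.card ↥χ.range := by
        symm
        refine Nat.card_congr (Equiv.ofBijective
          (fun u : ↥χ.range => (⟨s56fc_mk χ (((u : kˣ) : k) * s56fc_val χ x₀), ?_⟩ :
            ↥(MulAction.orbit Γ x₀))) ⟨?_, ?_⟩)
        · obtain ⟨σ, hσ⟩ := u.2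
          exact ⟨σ, by rw [← hσ]; rfl⟩
        · intro u u' h
          have h1 : ((u : kˣ) : k) * s56fc_val χ x₀ = ((u' : kˣ) : k) * s56fc_val χ x₀ :=
            congrArg Subtype.val h
          have hx₀k : s56fc_val χ x₀ ≠ 0 := hx₀
          exact Subtype.ext (Units.ext (mul_right_cancel₀ hx₀k h1))
        · rintro ⟨y, σ, rfl⟩
          exact ⟨⟨χ σ, σ, rfl⟩, rfl⟩
      rw [hcard] at hj hb
      exact ⟨j, hj1, hj, hb⟩
  · left
    intro σ
    by_contra hne
    apply hconn
    intro a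
    have hu : (χ σ : k) - 1 ≠ 0 := by
      intro h
      exact hne (Units.ext (sub_eq_zero.mp h))
    have h1 := s56fl_smul_sub_mem_X0 hctx hH σ (s56fc_mk χ (((χ σ : k) - 1)⁻¹ * s56fc_val χ a))
    have e : σ • s56fc_mk χ (((χ σ : k) - 1)⁻¹ * s56fc_val χ a)
        - s56fc_mk χ (((χ σ : k) - 1)⁻¹ * s56fc_val χ a) = a := by
      show (χ σ : k) * (((χ σ : k) - 1)⁻¹ * s56fc_val χ a)
        - ((χ σ : k) - 1)⁻¹ * s56fc_val χ a = s56fc_val χ a
      field_simp
    rwa [e] at h1

/-- a ring homomorphism from a subring of a finite field to a nontrivial ring is injective. -/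
theorem s56fc_iota_injective {Ω : Type} [CommRing Ω] [Nontrivial Ω] (S : Subring k)
    (ι : ↥S →+* Ω) : Function.Injective ι := by
  rw [injective_iff_map_eq_zero]
  intro x hx
  by_contra hne
  have hxk : (x : k) ≠ 0 := fun h => hne (Subtype.ext h)
  -- some power of `x` is `1`
  have hfin : IsOfFinOrder (Units.mk0 (x : k) hxk) := isOfFinOrder_of_finite _
  obtain ⟨n, hn, hpow⟩ := hfin.exists_pow_eq_one
  have h1 : x ^ n = 1 := by
    apply Subtype.ext
    have := congrArg (fun u : kˣ => (u : k)) hpow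
    simpa using this
  have h2 : ι x ^ n = 1 := by rw [← map_pow, h1, map_one]
  rw [hx, zero_pow hn.ne'] at h2
  exact zero_ne_one h2

/-- **FROBENIUS for a line**: `χ (φ σ φ⁻¹) = χ σ ^ r`. -/
theorem s56fc_line_conj (hctx : mzo_Ctx r O L A Γ)
    (hv : ∀ (σ : Γ) (z : L), A.valuation (σ • z) = A.valuation z) (χ : Γ →* kˣ) {z : L}
    (hz : z ≠ 0)
    (ι : ↥(Subring.closure (Set.range fun σ : Γ => (χ σ : k))) →+* IsLocalRing.ResidueField ↥A)
    (hι : ∀ σ : Γ, ι ⟨(χ σ : k), Subring.subset_closure ⟨σ, rfl⟩⟩ = s56fc_theta A σ z)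
    (φ : L ≃+* L) (hφv : ∀ z : L, A.valuation (φ z) = A.valuation z)
    (hφ : ∀ a : L, a ∈ A → φ a - a ^ r ∈ A.nonunits) (σ σ' : Γ)
    (hσ' : ∀ a : L, σ' • a = φ (σ • φ.symm a)) : χ σ' = χ σ ^ r := by
  have h1 := s56fc_theta_frob hctx hv φ hφv hφ σ σ' hσ' hz
  rw [← hι σ', ← hι σ, ← map_pow] at h1
  have h2 := s56fc_iota_injective _ ι h1
  apply Units.ext
  have h3 := congrArg Subtype.val h2
  simpa using h3

end line

end Fermat.Agent.S56
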