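/-
Project S56 (Taylor–Wiles primes), node [S56-FLAT], cell [S56-FLAT-BRIDGE] (helper13).
Prefix `s56fb_`.  Namespace `Fermat.Agent.S56`.

THE ADAPTER FROM THE FROZEN FLATNESS CONDITION `GaloisRepAdic.IsFlatAt` TO THE [HOPF] VOCABULARY
OF ORDERS (`MZ/Hopf/Defs.lean`, `mzo_IsOrder`).

A finite Hopf algebra `H` over `Λ = ℤ_(p)` whose `Q̄`-points (convolution group) are identified,
compatibly with the Galois action, with a finite module `M` gives, for every local setting
`(O, L = Q̄, P, Γ)` of [HOPF], an ORDER for the `Γ`-module `M`: the `O`-span of the functions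
`m ↦ (e.symm m) h`, `h ∈ H`.

* `s56fb_fn e h`            : the function `m ↦ (e.symm m) h`;
* `s56fb_order O e`         : the `O`-span of these functions, a subalgebra of `Map(M, Q̄)`;
* `s56fb_isOrder`           : it is an order (`mzo_IsOrder P Γ M (s56fb_order O e)`).
-/
import Mathlib
import Fermat.Prelude.Def_GaloisRep_Flat
import Fermat.Agent.MZ.Hopf.Defs
import Fermat.Agent.MZ.Hopf.Ctx
import Fermat.Agent.MZ.Hopf.DualOrder

set_option autoImplicit false
set_option linter.unusedSectionVars false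

noncomputable section

namespace Fermat.Agent.S56

open Fermat.Agent.MZ TensorProduct

/-! ### decompositions `F (x, y) = ∑ a_i (x) b_i (y)` with `a_i, b_i` in a subalgebra -/

section Dec

variable {O : Type} [CommRing O] {L : Type} [Field L] [Algebra O L] {G : Type}

/-- `F : G → G → L` is a finite sum of products `a (x) * b (y)` with `a, b ∈ H`. -/
def s56fb_Dec (H : Subalgebra O (G → L)) (F : G → G → L) : Prop :=
  ∃ (n : ℕ) (a b : Fin n → G → L), (∀ i, a i ∈ H) ∧ (∀ i, b i ∈ H) ∧
    ∀ x y : G, F x y = ∑ i, a i x * b i y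

theorem s56fb_dec_of_fintype (H : Subalgebra O (G → L)) {ι : Type} [Fintype ι]
    (a b : ι → G → L) (ha : ∀ i, a i ∈ H) (hb : ∀ i, b i ∈ H) {F : G → G → L}
    (hF : ∀ x y : G, F x y = ∑ i, a i x * b i y) : s56fb_Dec H F := by
  refine ⟨Fintype.card ι, fun j => a ((Fintype.equivFin ι).symm j),
    fun j => b ((Fintype.equivFin ι).symm j), fun j => ha _, fun j => hb _, fun x y => ?_⟩
  rw [hF]
  exact (Equiv.sum_comp (Fintype.equivFin ι).symm (fun i => a i x * b i y)).symm

theorem s56fb_dec_zero (H : Subalgebra O (G → L)) : s56fb_Dec H (fun _ _ => 0) :=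
  ⟨0, Fin.elim0, Fin.elim0, fun i => i.elim0, fun i => i.elim0, fun _ _ => by simp⟩

theorem s56fb_dec_add (H : Subalgebra O (G → L)) {F F' : G → G → L} (hF : s56fb_Dec H F)
    (hF' : s56fb_Dec H F') : s56fb_Dec H (fun x y => F x y + F' x y) := by
  obtain ⟨n, a, b, ha, hb, hab⟩ := hF
  obtain ⟨n', a', b', ha', hb', hab'⟩ := hF'
  refine s56fb_dec_of_fintype H (ι := Fin n ⊕ Fin n') (Sum.elim a a') (Sum.elim b b') ?_ ?_ ?_
  · rintro (i | i)
    · exact ha i
    · exact ha' i
  · rintro (i | i)
    · exact hb i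
    · exact hb' i
  · intro x y
    rw [Fintype.sum_sum_type, hab, hab']
    rfl

theorem s56fb_dec_smul (H : Subalgebra O (G → L)) (o : O) {F : G → G → L} (hF : s56fb_Dec H F) :
    s56fb_Dec H (fun x y => o • F x y) := by
  obtain ⟨n, a, b, ha, hb, hab⟩ := hF
  refine ⟨n, fun i => o • a i, b, fun i => H.smul_mem (ha i) o, hb, fun x y => ?_⟩
  show o • F x y = ∑ i, (o • a i) x * b i y
  rw [hab, Finset.smul_sum]
  refine Finset.sum_congr rfl fun i _ => ?_
  rw [Pi.smul_apply, smul_mul_assoc]

end Dec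

/-! ### the functions attached to the elements of the Hopf algebra -/

section Fn

variable {p : ℕ} {H : Type} [CommRing H] [HopfAlgebra (GaloisRep.ratLocalizedAt p) H]
  {M : Type} [AddCommGroup M]

/-- the rational numbers with denominator prime to `p` -/
abbrev s56fb_Lam (p : ℕ) : Subring ℚ := GaloisRep.ratLocalizedAt p

/-- the algebraic closure of `ℚ` -/
abbrev s56fb_Qb : Type := AlgebraicClosure ℚ

/-- the points of `H` -/
abbrev s56fb_X (p : ℕ) (H : Type) [CommRing H] [HopfAlgebra (GaloisRep.ratLocalizedAt p) H] :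
    Type :=
  WithConv (H →ₐ[GaloisRep.ratLocalizedAt p] AlgebraicClosure ℚ)

/-- the function `m ↦ (e.symm m) h` on `M` attached to `h ∈ H` -/
def s56fb_fn (e : s56fb_X p H ≃ M) (h : H) : M → s56fb_Qb := fun m => (e.symm m) h

theorem s56fb_fn_apply (e : s56fb_X p H ≃ M) (h : H) (m : M) :
    s56fb_fn e h m = (e.symm m) h := rfl

theorem s56fb_fn_one (e : s56fb_X p H ≃ M) : s56fb_fn e (1 : H) = 1 := by
  funext m
  exact map_one (e.symm m).ofConv

theorem s56fb_fn_mul (e : s56fb_X p H ≃ M) (h h' : H) :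
    s56fb_fn e (h * h') = s56fb_fn e h * s56fb_fn e h' := by
  funext m
  exact map_mul (e.symm m).ofConv h h'

theorem s56fb_fn_add (e : s56fb_X p H ≃ M) (h h' : H) :
    s56fb_fn e (h + h') = s56fb_fn e h + s56fb_fn e h' := by
  funext m
  exact map_add (e.symm m).ofConv h h'

theorem s56fb_fn_smul (e : s56fb_X p H ≃ M) (c : s56fb_Lam p) (h : H) (m : M) :
    s56fb_fn e (c • h) m = algebraMap (s56fb_Lam p) s56fb_Qb c * s56fb_fn e h m := by
  show (e.symm m).ofConv (c • h) = _
  rw [map_smul, Algebra.smul_def]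
  rfl

/-- the comultiplication: `φ_h (m + m') = ∑ φ_{a_i} (m) φ_{b_i} (m')` for `Δ h = ∑ a_i ⊗ b_i` -/
theorem s56fb_fn_comul (e : s56fb_X p H ≃ M) (he : ∀ f g : s56fb_X p H, e (f * g) = e f + e g)
    (h : H) :
    ∃ S : Finset (H × H), ∀ m m' : M,
      s56fb_fn e h (m + m') = ∑ i ∈ S, s56fb_fn e i.1 m * s56fb_fn e i.2 m' := by
  obtain ⟨S, hS⟩ := TensorProduct.exists_finset
    (CoalgebraStruct.comul (R := GaloisRep.ratLocalizedAt p) h)
  refine ⟨S, fun m m' => ?_⟩
  have h1 : e.symm (m + m') = e.symm m * e.symm m' := by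
    apply e.injective
    rw [he, Equiv.apply_symm_apply, Equiv.apply_symm_apply, Equiv.apply_symm_apply]
  show (e.symm (m + m')).ofConv h = _
  rw [h1, AlgHom.convMul_apply, hS, map_sum]
  refine Finset.sum_congr rfl fun i _ => ?_
  rw [Algebra.TensorProduct.lift_tmul]
  rfl

end Fn

/-! ### the order -/

section Order

variable {p : ℕ} {H : Type} [CommRing H] [HopfAlgebra (GaloisRep.ratLocalizedAt p) H]
  {M : Type} [AddCommGroup M]
  (O : Type) [CommRing O] [Algebra O s56fb_Qb]

/-- the `O`-span of the functions `φ_h`, `h ∈ H` -/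
def s56fb_span (e : s56fb_X p H ≃ M) : Submodule O (M → s56fb_Qb) :=
  Submodule.span O (Set.range (s56fb_fn e))

theorem s56fb_fn_mem_span (e : s56fb_X p H ≃ M) (h : H) : s56fb_fn e h ∈ s56fb_span O e :=
  Submodule.subset_span ⟨h, rfl⟩

theorem s56fb_span_mul (e : s56fb_X p H ≃ M) {φ ψ : M → s56fb_Qb} (hφ : φ ∈ s56fb_span O e)
    (hψ : ψ ∈ s56fb_span O e) : φ * ψ ∈ s56fb_span O e := by
  unfold s56fb_span at *
  induction hφ using Submodule.span_induction with
  | mem x hx =>
    obtain ⟨h, rfl⟩ := hx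
    induction hψ using Submodule.span_induction with
    | mem y hy =>
      obtain ⟨h', rfl⟩ := hy
      rw [← s56fb_fn_mul]
      exact Submodule.subset_span ⟨_, rfl⟩
    | zero => rw [mul_zero]; exact Submodule.zero_mem _
    | add y z _ _ hy hz => rw [mul_add]; exact Submodule.add_mem _ hy hz
    | smul o y _ hy => rw [mul_smul_comm]; exact Submodule.smul_mem _ o hy
  | zero => rw [zero_mul]; exact Submodule.zero_mem _
  | add x y _ _ hx hy => rw [add_mul]; exact Submodule.add_mem _ hx hy
  | smul o x _ hx => rw [smul_mul_assoc]; exact Submodule.smul_mem _ o hx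

/-- **the order attached to `(H, e)`**: the `O`-span of the functions `φ_h`, as a subalgebra -/
def s56fb_order (e : s56fb_X p H ≃ M) : Subalgebra O (M → s56fb_Qb) where
  carrier := s56fb_span O e
  mul_mem' := fun ha hb => s56fb_span_mul O e ha hb
  add_mem' := fun ha hb => Submodule.add_mem _ ha hb
  algebraMap_mem' := fun o => by
    have h1 : algebraMap O (M → s56fb_Qb) o = o • s56fb_fn e (1 : H) := by
      rw [s56fb_fn_one, Algebra.algebraMap_eq_smul_one]
    rw [h1]
    exact Submodule.smul_mem _ o (s56fb_fn_mem_span O e 1)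

theorem s56fb_mem_order (e : s56fb_X p H ≃ M) {φ : M → s56fb_Qb} :
    φ ∈ s56fb_order O e ↔ φ ∈ s56fb_span O e := Iff.rfl

theorem s56fb_fn_mem_order (e : s56fb_X p H ≃ M) (h : H) : s56fb_fn e h ∈ s56fb_order O e :=
  s56fb_fn_mem_span O e h

/-- induction principle for the order -/
theorem s56fb_order_induction (e : s56fb_X p H ≃ M) {C : (M → s56fb_Qb) → Prop}
    (hfn : ∀ h : H, C (s56fb_fn e h)) (h0 : C 0) (hadd : ∀ φ ψ, C φ → C ψ → C (φ + ψ))
    (hsmul : ∀ (o : O) φ, C φ → C (o • φ)) {φ : M → s56fb_Qb} (hφ : φ ∈ s56fb_order O e) :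
    C φ := by
  rw [s56fb_mem_order, s56fb_span] at hφ
  induction hφ using Submodule.span_induction with
  | mem x hx =>
    obtain ⟨h, rfl⟩ := hx
    exact hfn h
  | zero => exact h0
  | add x y _ _ hx hy => exact hadd x y hx hy
  | smul o x _ hx => exact hsmul o x hx

end Order

/-! ### it is an order -/

section IsOrder

variable {p : ℕ} {H : Type} [CommRing H] [HopfAlgebra (GaloisRep.ratLocalizedAt p) H]
  [Module.Finite (GaloisRep.ratLocalizedAt p) H]
  {M : Type} [AddCommGroup M]
  {O : Type} [CommRing O] [Algebra O s56fb_Qb]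
  {Γ : Type} [Group Γ] [MulSemiringAction Γ s56fb_Qb] [DistribMulAction Γ M]

/-- `Γ` fixes the image of `Λ = ℤ_(p)` in `Q̄` -/
theorem s56fb_smul_lam (σ : Γ) (c : s56fb_Lam p) :
    σ • algebraMap (s56fb_Lam p) s56fb_Qb c = algebraMap (s56fb_Lam p) s56fb_Qb c := by
  have h1 : algebraMap (s56fb_Lam p) s56fb_Qb c = (((c : ℚ) : ℚ) : s56fb_Qb) := by
    show algebraMap ℚ s56fb_Qb (c : ℚ) = _
    rw [eq_ratCast]
  rw [h1]
  exact map_ratCast (MulSemiringAction.toRingHom Γ s56fb_Qb σ) _

/-- the conjugate point `h ↦ σ • f h` -/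
def s56fb_conj (σ : Γ) (f : s56fb_X p H) : s56fb_X p H :=
  WithConv.toConv
    { toRingHom := (MulSemiringAction.toRingHom Γ s56fb_Qb σ).comp (f.ofConv : H →+* s56fb_Qb)
      commutes' := fun c => by
        show σ • f.ofConv (algebraMap (s56fb_Lam p) H c) = _
        rw [AlgHom.commutes]
        exact s56fb_smul_lam σ c }

theorem s56fb_conj_apply (σ : Γ) (f : s56fb_X p H) (h : H) :
    s56fb_conj σ f h = σ • f h := rfl

variable (P : ValuationSubring s56fb_Qb)

/-- **[S56-FLAT-BRIDGE]**: the `O`-span of the functions `m ↦ (e.symm m) h` is an ORDER for the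
`Γ`-module `M`. -/
theorem s56fb_isOrder (hOP : ∀ o : O, algebraMap O s56fb_Qb o ∈ P)
    (hOfix : ∀ (σ : Γ) (o : O), σ • algebraMap O s56fb_Qb o = algebraMap O s56fb_Qb o)
    (hΛ : ∀ c : s56fb_Lam p, ∃ o : O, algebraMap O s56fb_Qb o = algebraMap (s56fb_Lam p) s56fb_Qb c)
    (e : s56fb_X p H ≃ M) (he : ∀ f g : s56fb_X p H, e (f * g) = e f + e g)
    (hact : ∀ (σ : Γ) (f g : s56fb_X p H), (∀ h : H, g h = σ • f h) → e g = σ • e f) :
    mzo_IsOrder P Γ M (s56fb_order O e) := by
  have hΛP : ∀ c : s56fb_Lam p, algebraMap (s56fb_Lam p) s56fb_Qb c ∈ P := by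
    intro c
    obtain ⟨o, ho⟩ := hΛ c
    rw [← ho]
    exact hOP o
  refine ⟨?_, ?_, ?_, ?_, ?_⟩
  · -- integrality
    intro φ hφ
    refine s56fb_order_induction O e (C := fun φ => ∀ x : M, φ x ∈ P) ?_ ?_ ?_ ?_ hφ
    · intro h x
      have h1 : IsIntegral (s56fb_Lam p) h := Algebra.IsIntegral.isIntegral h
      have h2 : IsIntegral (s56fb_Lam p) ((e.symm x).ofConv h) := h1.map (e.symm x).ofConv
      exact mzo_mem_of_isIntegral P hΛP h2
    · intro x
      exact P.zero_mem
    · intro φ ψ h1 h2 x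
      exact P.add_mem _ _ (h1 x) (h2 x)
    · intro o φ h1 x
      rw [Pi.smul_apply, Algebra.smul_def]
      exact P.mul_mem _ _ (hOP o) (h1 x)
  · -- equivariance
    intro φ hφ
    refine s56fb_order_induction O e
      (C := fun φ => ∀ (σ : Γ) (x : M), φ (σ • x) = σ • φ x) ?_ ?_ ?_ ?_ hφ
    · intro h σ x
      have h1 : e (s56fb_conj σ (e.symm x)) = σ • x := by
        rw [hact σ (e.symm x) (s56fb_conj σ (e.symm x)) (fun _ => rfl), Equiv.apply_symm_apply]
      rw [s56fb_fn_apply, ← h1, Equiv.symm_apply_apply, s56fb_conj_apply]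
      rfl
    · intro σ x
      rw [Pi.zero_apply, Pi.zero_apply, smul_zero]
    · intro φ ψ h1 h2 σ x
      rw [Pi.add_apply, Pi.add_apply, h1, h2, smul_add]
    · intro o φ h1 σ x
      rw [Pi.smul_apply, Pi.smul_apply, h1, Algebra.smul_def, Algebra.smul_def, smul_mul', hOfix]
  · -- separation
    intro x y hxy
    by_contra hcon
    push Not at hcon
    apply hxy
    apply e.symm.injective
    apply WithConv.ext
    apply AlgHom.ext
    intro h
    exact hcon (s56fb_fn e h) (s56fb_fn_mem_order O e h)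
  · -- finiteness
    obtain ⟨S, hS⟩ := (Module.Finite.fg_top : (⊤ : Submodule (s56fb_Lam p) H).FG)
    have hle : s56fb_span O e ≤ Submodule.span O (s56fb_fn e '' (S : Set H)) := by
      unfold s56fb_span
      rw [Submodule.span_le]
      rintro _ ⟨h, rfl⟩
      have hh : h ∈ Submodule.span (s56fb_Lam p) (S : Set H) := by rw [hS]; trivial
      induction hh using Submodule.span_induction with
      | mem x hx => exact Submodule.subset_span ⟨x, hx, rfl⟩
      | zero =>
        have : s56fb_fn e (0 : H) = 0 := by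
          funext m
          exact map_zero (e.symm m).ofConv
        rw [this]
        exact Submodule.zero_mem _
      | add x y _ _ hx hy =>
        rw [s56fb_fn_add]
        exact Submodule.add_mem _ hx hy
      | smul c x _ hx =>
        obtain ⟨o, ho⟩ := hΛ c
        have : s56fb_fn e (c • x) = o • s56fb_fn e x := by
          funext m
          rw [s56fb_fn_smul, Pi.smul_apply, Algebra.smul_def, ho]
        rw [this]
        exact Submodule.smul_mem _ o hx
    have hfg : (s56fb_span O e).FG := by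
      have heq : s56fb_span O e = Submodule.span O (s56fb_fn e '' (S : Set H)) := by
        refine le_antisymm hle ?_
        unfold s56fb_span
        exact Submodule.span_mono (Set.image_subset_range _ _)
      rw [heq]
      exact Submodule.fg_span (S.finite_toSet.image _)
    exact Module.Finite.iff_fg.mpr hfg
  · -- comultiplication
    intro φ hφ
    have key : s56fb_Dec (s56fb_order O e) (fun x y => φ (x + y)) := by
      refine s56fb_order_induction O e
        (C := fun φ => s56fb_Dec (s56fb_order O e) (fun x y => φ (x + y))) ?_ ?_ ?_ ?_ hφ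
      · intro h
        obtain ⟨S, hS⟩ := s56fb_fn_comul e he h
        refine s56fb_dec_of_fintype (s56fb_order O e) (ι := ↥S)
          (fun i => s56fb_fn e i.1.1) (fun i => s56fb_fn e i.1.2)
          (fun i => s56fb_fn_mem_order O e _) (fun i => s56fb_fn_mem_order O e _) ?_
        intro x y
        rw [hS x y]
        exact (Finset.sum_coe_sort S (fun i => s56fb_fn e i.1 x * s56fb_fn e i.2 y)).symm
      · exact s56fb_dec_zero _
      · intro φ ψ h1 h2
        exact s56fb_dec_add _ h1 h2
      · intro o φ h1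
        exact s56fb_dec_smul _ o h1
    exact key

end IsOrder

end Fermat.Agent.S56
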