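/-
Project S56 (Taylor–Wiles primes), node [S56-FLAT], cell [S56-FLAT-BRIDGE], part 2 (helper13).
Prefix `s56fb_`.  Namespace `Fermat.Agent.S56`.

THE FROZEN `GaloisRepAdic.IsFlatAt` GIVES ORDERS: for `ρ : GaloisRepAdic A` flat at `p`, an ideal
`I` of finite index, and a place `P` of `Q̄` over `p` with inertia group `Γ = I_P`, the finite
`Γ`-module `M = V / I V` carries an order over `O = P ∩ Q̄^{I_P}` in the sense of [HOPF]
(`mzo_IsOrder P Γ M H_P`), with the local setting `mzg_ctx : mzo_Ctx p O Q̄ P Γ` of `MZ/Geo/Ctx`.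

* `s56fb_levelAct ρ I`   : the `G_ℚ`-action on `V / I V` (`σ • m = ρ.levelAction I σ m`), a
                           `DistribMulAction` (a reducible DEF, not a global instance);
* `s56fb_main`           : the order.
-/
import Mathlib
import Fermat.Agent.S56.Flat.Bridge
import Fermat.Agent.MZ.Geo.Ctx

set_option autoImplicit false
set_option linter.unusedSectionVars false

noncomputable section

namespace Fermat.Agent.S56

open Fermat.Agent.MZ Fermat.Agent.FF

variable {A : Type} [CommRing A] [IsLocalRing A]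

/-- the level-`I` quotient `V / I V` of a representation -/
abbrev s56fb_M (ρ : GaloisRepAdic A) (I : Ideal A) : Type :=
  ρ.V ⧸ (I • (⊤ : Submodule A ρ.V))

theorem s56fb_levelAction_mk (ρ : GaloisRepAdic A) (I : Ideal A) (σ : ff_GQ) (v : ρ.V) :
    ρ.levelAction I σ (Submodule.Quotient.mk v) = Submodule.Quotient.mk (ρ.ρ σ v) := rfl

theorem s56fb_levelAction_one (ρ : GaloisRepAdic A) (I : Ideal A) (m : s56fb_M ρ I) :
    ρ.levelAction I 1 m = m := by
  obtain ⟨v, rfl⟩ := Submodule.Quotient.mk_surjective _ m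
  rw [s56fb_levelAction_mk, map_one]
  rfl

theorem s56fb_levelAction_mul (ρ : GaloisRepAdic A) (I : Ideal A) (σ τ : ff_GQ)
    (m : s56fb_M ρ I) :
    ρ.levelAction I (σ * τ) m = ρ.levelAction I σ (ρ.levelAction I τ m) := by
  obtain ⟨v, rfl⟩ := Submodule.Quotient.mk_surjective _ m
  rw [s56fb_levelAction_mk, s56fb_levelAction_mk, s56fb_levelAction_mk, map_mul]
  rfl

/-- **the `G_ℚ`-action on `V / I V`** (a reducible definition, to be installed with `letI`) -/
@[reducible] def s56fb_levelAct (ρ : GaloisRepAdic A) (I : Ideal A) :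
    DistribMulAction ff_GQ (s56fb_M ρ I) where
  smul σ m := ρ.levelAction I σ m
  one_smul := s56fb_levelAction_one ρ I
  mul_smul := s56fb_levelAction_mul ρ I
  smul_zero σ := map_zero (ρ.levelAction I σ)
  smul_add σ := map_add (ρ.levelAction I σ)

theorem s56fb_levelAct_smul (ρ : GaloisRepAdic A) (I : Ideal A) (σ : ff_GQ) (m : s56fb_M ρ I) :
    letI := s56fb_levelAct ρ I
    σ • m = ρ.levelAction I σ m := rfl

/-- `ℤ_(p)` lies in `O = P ∩ Q̄^{I_P}` -/
theorem s56fb_lam_mem (p : ℕ) [Fact p.Prime] (P : ValuationSubring ff_Qb)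
    (hP : P.LiesOverPrime p) (c : s56fb_Lam p) :
    ∃ o : ↥(ffi_O P ↥(ffi_L P)), algebraMap ↥(ffi_O P ↥(ffi_L P)) ff_Qb o
      = algebraMap (s56fb_Lam p) ff_Qb c := by
  have hctx := mzg_ctx p P hP
  haveI : IsDiscreteValuationRing ↥(ffi_O P ↥(ffi_L P)) := mzg_ctx_dvr p P hP
  have hfix : ∀ σ : ↥(P.inertiaSubgroupIn ℚ),
      σ • algebraMap (s56fb_Lam p) ff_Qb c = algebraMap (s56fb_Lam p) ff_Qb c :=
    fun σ => s56fb_smul_lam σ c
  refine hctx.exists_of_fixed ?_ hfix
  -- integrality of a rational number with denominator prime to `p`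
  have hc : (c : ℚ).den.Coprime p := c.2
  have h1 : algebraMap (s56fb_Lam p) ff_Qb c = (((c : ℚ).num : ℤ) : ff_Qb) / (((c : ℚ).den : ℕ) : ff_Qb) := by
    show algebraMap ℚ ff_Qb (c : ℚ) = _
    rw [eq_ratCast, Rat.cast_def]
  rw [h1]
  have hden : P.valuation (((c : ℚ).den : ℕ) : ff_Qb) = 1 := by
    -- `a * den + b * p = 1`
    have hco : IsCoprime (((c : ℚ).den : ℕ) : ℤ) (p : ℤ) := Nat.isCoprime_iff_coprime.mpr hc
    obtain ⟨a, b, hab⟩ := hco
    have hle : P.valuation (((c : ℚ).den : ℕ) : ff_Qb) ≤ 1 :=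
      (P.valuation_le_one_iff _).mpr (natCast_mem P _)
    by_contra hne
    have hlt : P.valuation (((c : ℚ).den : ℕ) : ff_Qb) < 1 := lt_of_le_of_ne hle hne
    have hp : P.valuation ((p : ℕ) : ff_Qb) < 1 := by
      have := hctx.r_mem
      rwa [ValuationSubring.mem_nonunits_iff] at this
    have h2 : (a : ff_Qb) * (((c : ℚ).den : ℕ) : ff_Qb) + (b : ff_Qb) * ((p : ℕ) : ff_Qb) = 1 := by
      have := congrArg (fun n : ℤ => (n : ff_Qb)) hab
      push_cast at this
      exact this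
    have ha : P.valuation (a : ff_Qb) ≤ 1 := (P.valuation_le_one_iff _).mpr (intCast_mem P _)
    have hb : P.valuation (b : ff_Qb) ≤ 1 := (P.valuation_le_one_iff _).mpr (intCast_mem P _)
    have h3 : P.valuation ((a : ff_Qb) * (((c : ℚ).den : ℕ) : ff_Qb)
        + (b : ff_Qb) * ((p : ℕ) : ff_Qb)) < 1 := by
      refine lt_of_le_of_lt (P.valuation.map_add _ _) (max_lt ?_ ?_)
      · rw [map_mul]
        exact mul_lt_one_of_nonneg_of_lt_one_right ha zero_le hlt
      · rw [map_mul]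
        exact mul_lt_one_of_nonneg_of_lt_one_right hb zero_le hp
    rw [h2, map_one] at h3
    exact lt_irrefl _ h3
  rw [← P.valuation_le_one_iff, map_div₀, hden, div_one]
  exact (P.valuation_le_one_iff _).mpr (intCast_mem P _)

/-- **[S56-FLAT-BRIDGE]**: a representation that is flat at `p` gives, at every finite level
`V / I V` and every place `P` over `p`, an order for the inertia group `I_P` over
`O = P ∩ Q̄^{I_P}`. -/
theorem s56fb_main (ρ : GaloisRepAdic A) (p : ℕ) [Fact p.Prime] (hflat : ρ.IsFlatAt p)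
    (I : Ideal A) (hI : Finite (A ⧸ I)) (P : ValuationSubring ff_Qb) (hP : P.LiesOverPrime p) :
    letI := s56fb_levelAct ρ I
    ∃ HP : Subalgebra ↥(ffi_O P ↥(ffi_L P)) (s56fb_M ρ I → ff_Qb),
      mzo_IsOrder P ↥(P.inertiaSubgroupIn ℚ) (s56fb_M ρ I) HP := by
  letI := s56fb_levelAct ρ I
  obtain ⟨H, instR, instH, hfin, -, -, e, he, hact⟩ := hflat.2 I hI
  have hctx := mzg_ctx p P hP
  haveI : IsDiscreteValuationRing ↥(ffi_O P ↥(ffi_L P)) := mzg_ctx_dvr p P hP
  refine ⟨s56fb_order ↥(ffi_O P ↥(ffi_L P)) e, ?_⟩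
  refine s56fb_isOrder P (fun o => hctx.mem_A o) (fun σ o => hctx.fixed o σ)
    (s56fb_lam_mem p P hP) e he ?_
  intro σ f g hfg
  exact hact (σ : ff_GQ) f g hfg

end Fermat.Agent.S56
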