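/-
Project S56 (Taylor–Wiles primes), node [LOC-p-FLAT], cell [F-INST] (helper13).  Prefix `s56fi_`.
THE ORDERS OF A FLAT FRAMED DEFORMATION, MATRIX LEVEL.

* `s56fi_Mod B`   : for a monoid homomorphism `B : G_ℚ →* M₂(R)` the module `R²` (a type synonym of
                    `Fin 2 → R`) with the GLOBAL instances `AddCommGroup`, `Module R`,
                    `DistribMulAction G_ℚ` (`σ • v = (B σ).mulVec v`);
* `s56fi_order`   : `r : FramedRep A` (`A` finite local) flat at `p`, `P` a place over `p`: the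
                    `I_P`-module `s56fi_Mod r.toMonoidHom` carries an order over `O = P ∩ Q̄^{I_P}`
                    (`[S56-FLAT-BRIDGE]` at `I = ⊥` + transport along `V / (⊥ • ⊤) = V`);
* `s56fi_red`, `s56fi_eps` : for `r : FramedRep (DualNumber k)` the reduction mod `ε`
                    `k[ε]² → k²` (onto, equivariant) and the inclusion `ε : k² → k[ε]²` (injective,
                    equivariant), the target/source being `s56fi_Mod (s56t_bar r)`;
* `s56fi_orderBar`: the induced order on `s56fi_Mod (s56t_bar r)` (pull along the reduction).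
Every subquotient of `k[ε]²` gets its order from these by `mzo_restr` / `mzo_pull`.
-/
import Mathlib
import Fermat.Agent.S56.Flat.BridgeInst
import Fermat.Agent.S56.Tan.Cocycle
import Fermat.Agent.MZ.Hopf.Basic
import Fermat.Agent.MZ.Hopf.Quot

set_option autoImplicit false
set_option linter.unusedSectionVars false
set_option linter.style.haveILetI false

noncomputable section

namespace Fermat.Agent.S56

open Fermat.Agent.MZ Fermat.Agent.FF Fermat.Agent.S53

section Mod

variable {R : Type} [CommRing R]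

/-- the module `R²` with `G_ℚ` acting through `B : G_ℚ →* M₂(R)`. -/
def s56fi_Mod (_B : GQ →* Matrix (Fin 2) (Fin 2) R) : Type := Fin 2 → R

variable (B : GQ →* Matrix (Fin 2) (Fin 2) R)

instance : AddCommGroup (s56fi_Mod B) := inferInstanceAs (AddCommGroup (Fin 2 → R))

instance : Module R (s56fi_Mod B) := inferInstanceAs (Module R (Fin 2 → R))

instance [Finite R] : Finite (s56fi_Mod B) := inferInstanceAs (Finite (Fin 2 → R))

/-- the underlying vector -/
def s56fi_vec (v : s56fi_Mod B) : Fin 2 → R := v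

/-- the element of the module with given coordinates -/
def s56fi_of (v : Fin 2 → R) : s56fi_Mod B := v

instance : DistribMulAction GQ (s56fi_Mod B) where
  smul σ v := s56fi_of B ((B σ).mulVec (s56fi_vec B v))
  one_smul v := by
    show s56fi_of B ((B 1).mulVec (s56fi_vec B v)) = v
    rw [map_one, Matrix.one_mulVec]
    rfl
  mul_smul σ τ v := by
    show s56fi_of B ((B (σ * τ)).mulVec (s56fi_vec B v))
      = s56fi_of B ((B σ).mulVec (s56fi_vec B (s56fi_of B ((B τ).mulVec (s56fi_vec B v)))))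
    rw [map_mul, ← Matrix.mulVec_mulVec]
    rfl
  smul_zero σ := by
    show s56fi_of B ((B σ).mulVec (s56fi_vec B 0)) = 0
    exact Matrix.mulVec_zero _
  smul_add σ v w := by
    show s56fi_of B ((B σ).mulVec (s56fi_vec B (v + w))) = _
    exact Matrix.mulVec_add _ _ _

theorem s56fi_smul_def (σ : GQ) (v : s56fi_Mod B) :
    σ • v = s56fi_of B ((B σ).mulVec (s56fi_vec B v)) := rfl

theorem s56fi_smul_apply (σ : GQ) (v : s56fi_Mod B) (i : Fin 2) :
    s56fi_vec B (σ • v) i = ∑ j, B σ i j * s56fi_vec B v j := rfl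

/-- the action commutes with the scalars. -/
theorem s56fi_smul_comm (σ : GQ) (a : R) (v : s56fi_Mod B) : σ • (a • v) = a • (σ • v) := by
  show s56fi_of B ((B σ).mulVec (a • s56fi_vec B v)) = a • s56fi_of B ((B σ).mulVec (s56fi_vec B v))
  rw [Matrix.mulVec_smul]
  rfl

end Mod

/-! ### the order of a flat framed representation -/

section order

variable {A : Type} [CommRing A] [IsLocalRing A] [Finite A]

/-- **[F-INST]** the order of a flat framed representation over a finite local ring. -/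
theorem s56fi_order (r : FramedRep A) (p : ℕ) [Fact p.Prime]
    (hflat : r.toGaloisRepAdic.IsFlatAt p) (P : ValuationSubring ff_Qb)
    (hP : P.LiesOverPrime p) :
    ∃ H : Subalgebra ↥(ffi_O P ↥(ffi_L P)) (s56fi_Mod r.toMonoidHom → ff_Qb),
      mzo_IsOrder P ↥(P.inertiaSubgroupIn ℚ) (s56fi_Mod r.toMonoidHom) H := by
  letI := s56fb_levelAct r.toGaloisRepAdic ⊥
  have hfin : Finite (A ⧸ (⊥ : Ideal A)) :=
    Finite.of_surjective (Ideal.Quotient.mk (⊥ : Ideal A)) Ideal.Quotient.mk_surjective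
  obtain ⟨HP, hHP⟩ := s56fb_main r.toGaloisRepAdic p hflat ⊥ hfin P hP
  let ι : s56fi_Mod r.toMonoidHom →+ s56fb_M r.toGaloisRepAdic ⊥ :=
    (Submodule.mkQ ((⊥ : Ideal A) • (⊤ : Submodule A r.toGaloisRepAdic.V))).toAddMonoidHom
  have hι : Function.Injective ι := by
    intro v w h
    have h1 : (Submodule.mkQ ((⊥ : Ideal A) • (⊤ : Submodule A r.toGaloisRepAdic.V))) v
        = (Submodule.mkQ ((⊥ : Ideal A) • (⊤ : Submodule A r.toGaloisRepAdic.V))) w := h
    rw [Submodule.mkQ_apply, Submodule.mkQ_apply, Submodule.Quotient.eq, Submodule.bot_smul,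
      Submodule.mem_bot, sub_eq_zero] at h1
    exact h1
  have hιe : ∀ (σ : ↥(P.inertiaSubgroupIn ℚ)) (x : s56fi_Mod r.toMonoidHom),
      ι (σ • x) = σ • ι x := by
    intro σ x
    show Submodule.Quotient.mk _ = r.toGaloisRepAdic.levelAction ⊥ (σ : ff_GQ)
      (Submodule.Quotient.mk _)
    rw [s56fb_levelAction_mk, FramedRep.toGaloisRepAdic_ρ_apply]
    rfl
  exact ⟨mzo_restr (⇑ι) HP, mzo_restr_isOrder ι hι hιe hHP⟩

end order

/-! ### `k[ε]`: the reduction and the inclusion `ε` -/

section dual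

variable {k : Type} [Field k] (r : FramedRep (DualNumber k))

/-- the reduction modulo `ε`: `k[ε]² → k²`. -/
def s56fi_red : s56fi_Mod r.toMonoidHom →+ s56fi_Mod (s56t_bar r) where
  toFun v := s56fi_of _ fun i => (s56fi_vec _ v i).fst
  map_zero' := rfl
  map_add' _ _ := rfl

/-- the inclusion `ε : k² → k[ε]²`. -/
def s56fi_eps : s56fi_Mod (s56t_bar r) →+ s56fi_Mod r.toMonoidHom where
  toFun w := s56fi_of _ fun i => TrivSqZeroExt.inr (s56fi_vec _ w i)
  map_zero' := by
    show (s56fi_of _ fun i => TrivSqZeroExt.inr (0 : k)) = (0 : s56fi_Mod r.toMonoidHom)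
    funext i
    exact TrivSqZeroExt.inr_zero _
  map_add' v w := by
    show (s56fi_of _ fun i => TrivSqZeroExt.inr (s56fi_vec _ v i + s56fi_vec _ w i))
      = (s56fi_of _ fun i => TrivSqZeroExt.inr (s56fi_vec _ v i))
        + (s56fi_of _ fun i => TrivSqZeroExt.inr (s56fi_vec _ w i))
    funext i
    exact TrivSqZeroExt.inr_add _ _ _

theorem s56fi_red_apply (v : s56fi_Mod r.toMonoidHom) (i : Fin 2) :
    s56fi_vec _ (s56fi_red r v) i = (s56fi_vec _ v i).fst := rfl

theorem s56fi_eps_apply (w : s56fi_Mod (s56t_bar r)) (i : Fin 2) :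
    s56fi_vec _ (s56fi_eps r w) i = TrivSqZeroExt.inr (s56fi_vec _ w i) := rfl

theorem s56fi_red_surjective : Function.Surjective (s56fi_red r) := by
  intro w
  refine ⟨s56fi_of _ fun i => TrivSqZeroExt.inl (s56fi_vec _ w i), ?_⟩
  funext i
  exact TrivSqZeroExt.fst_inl k (s56fi_vec _ w i)

theorem s56fi_eps_injective : Function.Injective (s56fi_eps r) := by
  intro v w h
  funext i
  have h1 := congrArg (fun u : s56fi_Mod r.toMonoidHom => (s56fi_vec _ u i).snd) h
  simp only [s56fi_eps_apply, TrivSqZeroExt.snd_inr] at h1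
  exact h1

theorem s56fi_red_smul (σ : GQ) (v : s56fi_Mod r.toMonoidHom) :
    s56fi_red r (σ • v) = σ • s56fi_red r v := by
  funext i
  show (s56fi_vec _ (σ • v) i).fst = s56fi_vec _ (σ • s56fi_red r v) i
  rw [s56fi_smul_apply, s56fi_smul_apply, TrivSqZeroExt.fst_sum]
  refine Finset.sum_congr rfl fun j _ => ?_
  rw [TrivSqZeroExt.fst_mul]
  rfl

theorem s56fi_eps_smul (σ : GQ) (w : s56fi_Mod (s56t_bar r)) :
    s56fi_eps r (σ • w) = σ • s56fi_eps r w := by
  funext i
  show TrivSqZeroExt.inr (s56fi_vec _ (σ • w) i) = s56fi_vec _ (σ • s56fi_eps r w) i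
  rw [s56fi_smul_apply, s56fi_smul_apply]
  apply TrivSqZeroExt.ext
  · rw [TrivSqZeroExt.fst_inr, TrivSqZeroExt.fst_sum]
    refine (Finset.sum_eq_zero fun j _ => ?_).symm
    rw [TrivSqZeroExt.fst_mul, s56fi_eps_apply, TrivSqZeroExt.fst_inr, mul_zero]
  · rw [TrivSqZeroExt.snd_inr, TrivSqZeroExt.snd_sum]
    refine Finset.sum_congr rfl fun j _ => ?_
    rw [DualNumber.snd_mul, s56fi_eps_apply, TrivSqZeroExt.fst_inr, TrivSqZeroExt.snd_inr,
      mul_zero, add_zero]
    rfl

/-- the kernel of the reduction is the image of `ε`. -/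
theorem s56fi_red_eq_zero_iff (v : s56fi_Mod r.toMonoidHom) :
    s56fi_red r v = 0 ↔ ∃ w, s56fi_eps r w = v := by
  constructor
  · intro h
    refine ⟨s56fi_of _ fun i => (s56fi_vec _ v i).snd, ?_⟩
    funext i
    have h1 : (s56fi_vec _ v i).fst = 0 := congrFun h i
    show TrivSqZeroExt.inr (s56fi_vec _ v i).snd = s56fi_vec _ v i
    apply TrivSqZeroExt.ext
    · rw [TrivSqZeroExt.fst_inr, h1]
    · rw [TrivSqZeroExt.snd_inr]
  · rintro ⟨w, rfl⟩
    funext i
    show (s56fi_vec _ (s56fi_eps r w) i).fst = 0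
    rw [s56fi_eps_apply, TrivSqZeroExt.fst_inr]

/-- **[F-INST]** the order of the reduction of a flat framed deformation over `k[ε]`. -/
theorem s56fi_orderBar [Finite k] (p : ℕ) [Fact p.Prime]
    (hflat : r.toGaloisRepAdic.IsFlatAt p) (P : ValuationSubring ff_Qb)
    (hP : P.LiesOverPrime p) :
    ∃ H : Subalgebra ↥(ffi_O P ↥(ffi_L P)) (s56fi_Mod (s56t_bar r) → ff_Qb),
      mzo_IsOrder P ↥(P.inertiaSubgroupIn ℚ) (s56fi_Mod (s56t_bar r)) H := by
  have : Finite (DualNumber k) := inferInstanceAs (Finite (k × k))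
  obtain ⟨H, hH⟩ := s56fi_order r p hflat P hP
  have hctx := mzg_ctx p P hP
  have : IsDiscreteValuationRing ↥(ffi_O P ↥(ffi_L P)) := mzg_ctx_dvr p P hP
  exact ⟨mzo_pull (⇑(s56fi_red r)) H,
    (mzhp_seamQuot p _ _ P _ hctx _ _ (s56fi_red r) (s56fi_red_surjective r)
      (fun σ x => s56fi_red_smul r (σ : GQ) x) H hH).1⟩

end dual

end Fermat.Agent.S56
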