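/-
Project S56 (Taylor–Wiles primes), node [LOC-p-FLAT], cell [F-CLASS] part 5 (helper13).
Prefix `s56fc_`.  Namespace `Fermat.Agent.S56`.
THE GALOIS SIDE: `G_ℚ` acting on `Q̄`, a place `P` over `p`, `I_P ⊴ D_P`.

* `s56fc_exists_pow_fix`  : every element of `Q̄` is fixed by a positive power of `τ ∈ G_ℚ`;
* `s56fc_dec_val`         : the decomposition group preserves the valuation;
* `s56fc_in_val`          : the inertia group preserves the valuation (`hv` of `Flat/Wild.lean`);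
* `s56fc_in_le_dec`, `s56fc_conj_mem_in` : `I_P ≤ D_P`, `I_P` is normalised by `D_P`;
* `s56fc_wild_conj`       : the wild elements of `I_P` are normalised by `D_P`;
* `s56fc_zeta_pow`        : `σ ζ = ζ ^ a` on all `p`-th roots of unity.
-/
import Mathlib
import Fermat.Agent.S56.Flat.Wild
import Fermat.Agent.S56.Flat.Inst
import Fermat.Agent.S56.LocD.FrobGen

set_option autoImplicit false
set_option linter.unusedSectionVars false

noncomputable section

namespace Fermat.Agent.S56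

open Fermat.Agent.MZ Fermat.Agent.FF Fermat.Agent.S53 Fermat.Agent.S55
open scoped Pointwise

local notation "Qb" => AlgebraicClosure ℚ

/-- every element of `Q̄` is fixed by a positive power of `τ`. -/
theorem s56fc_exists_pow_fix (τ : GQ) (z : Qb) : ∃ m : ℕ, 0 < m ∧ (τ ^ m) z = z := by
  have hz : IsIntegral ℚ z := (AlgebraicClosure.isAlgebraic ℚ).isAlgebraic z |>.isIntegral
  have hfin : ((minpoly ℚ z).rootSet Qb).Finite := Polynomial.rootSet_finite _ _
  have hmem : ∀ n : ℕ, (τ ^ n) z ∈ (minpoly ℚ z).rootSet Qb := by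
    intro n
    rw [Polynomial.mem_rootSet]
    refine ⟨minpoly.ne_zero hz, ?_⟩
    have h1 := Polynomial.aeval_algHom_apply ((τ ^ n : GQ) : Qb →ₐ[ℚ] Qb) z (minpoly ℚ z)
    rw [minpoly.aeval, map_zero] at h1
    exact h1
  have := hfin.to_subtype
  obtain ⟨n, n', hne, h⟩ := Finite.exists_ne_map_eq_of_infinite
    (fun n : ℕ => (⟨(τ ^ n) z, hmem n⟩ : ↥((minpoly ℚ z).rootSet Qb)))
  have key : ∀ a b : ℕ, a < b → (τ ^ a) z = (τ ^ b) z → ∃ m : ℕ, 0 < m ∧ (τ ^ m) z = z := by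
    intro a b hab h1
    refine ⟨b - a, by omega, ?_⟩
    have e : τ ^ b = τ ^ a * τ ^ (b - a) := by
      rw [← pow_add]
      congr 1
      omega
    rw [e, AlgEquiv.mul_apply] at h1
    exact ((τ ^ a).injective h1).symm
  have h1 : (τ ^ n) z = (τ ^ n') z := congrArg Subtype.val h
  rcases lt_or_gt_of_ne hne with hlt | hlt
  · exact key n n' hlt h1
  · exact key n' n hlt h1.symm

variable (P : ValuationSubring Qb)

theorem s56fc_mem_dec_iff (τ : GQ) : τ ∈ P.decompositionSubgroup ℚ ↔ τ • P = P :=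
  MulAction.mem_stabilizer_iff

/-- the decomposition group preserves the valuation ring. -/
theorem s56fc_dec_mem {τ : GQ} (hτ : τ ∈ P.decompositionSubgroup ℚ) (a : Qb) (ha : a ∈ P) :
    τ a ∈ P :=
  (mzf3_tfq_mem_iff P ((s56fc_mem_dec_iff P τ).mp hτ) a).mp ha

/-- **the decomposition group preserves the valuation.** -/
theorem s56fc_dec_val {τ : GQ} (hτ : τ ∈ P.decompositionSubgroup ℚ) (z : Qb) :
    P.valuation (τ z) = P.valuation z := by
  obtain ⟨m, hm, hmz⟩ := s56fc_exists_pow_fix τ z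
  have hD : ∀ (τ : ↥(P.decompositionSubgroup ℚ)) (a : Qb), a ∈ P → τ • a ∈ P :=
    fun τ a ha => s56fc_dec_mem P τ.2 a ha
  exact s56fc_val_smul_of_pow hD ⟨τ, hτ⟩ hm (by
    show ((⟨τ, hτ⟩ : ↥(P.decompositionSubgroup ℚ)) ^ m : ↥(P.decompositionSubgroup ℚ)) • z = z
    exact hmz)

theorem s56fc_in_le_dec {σ : GQ} (hσ : σ ∈ P.inertiaSubgroupIn ℚ) :
    σ ∈ P.decompositionSubgroup ℚ :=
  (s56fc_mem_dec_iff P σ).mpr ((tl_mem_inertiaSubgroupIn_iff P σ).mp hσ).1

/-- **the inertia group preserves the valuation.** -/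
theorem s56fc_in_val (σ : ↥(P.inertiaSubgroupIn ℚ)) (z : Qb) :
    P.valuation (σ • z) = P.valuation z :=
  s56fc_dec_val P (s56fc_in_le_dec P σ.2) z

/-- the inertia group is normalised by the decomposition group. -/
theorem s56fc_conj_mem_in {τ σ : GQ} (hτ : τ ∈ P.decompositionSubgroup ℚ)
    (hσ : σ ∈ P.inertiaSubgroupIn ℚ) : τ * σ * τ⁻¹ ∈ P.inertiaSubgroupIn ℚ :=
  mzf3_tfq_conj_mem P ((s56fc_mem_dec_iff P τ).mp hτ) hσ

theorem s56fc_conj_mem_in' {τ σ : GQ} (hτ : τ ∈ P.decompositionSubgroup ℚ)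
    (hσ : σ ∈ P.inertiaSubgroupIn ℚ) : τ⁻¹ * σ * τ ∈ P.inertiaSubgroupIn ℚ := by
  have := s56fc_conj_mem_in P ((P.decompositionSubgroup ℚ).inv_mem hτ) hσ
  rwa [inv_inv] at this

/-- the wild elements are normalised by the decomposition group. -/
theorem s56fc_wild_conj {τ : GQ} (hτ : τ ∈ P.decompositionSubgroup ℚ)
    (σ σ' : ↥(P.inertiaSubgroupIn ℚ)) (hσ' : (σ' : GQ) = τ⁻¹ * (σ : GQ) * τ)
    (hσ : s56fc_Wild P σ) : s56fc_Wild P σ' := by
  intro z hz
  have hτz : τ z ≠ 0 := by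
    intro h
    exact hz ((map_eq_zero_iff τ τ.injective).mp h)
  have h1 := hσ (τ z) hτz
  have e : σ' • z - z = τ⁻¹ (σ • τ z - τ z) := by
    show (σ' : GQ) z - z = τ⁻¹ ((σ : GQ) (τ z) - τ z)
    rw [hσ', map_sub, AlgEquiv.mul_apply, AlgEquiv.mul_apply]
    congr 1
    exact (τ.symm_apply_apply z).symm
  rw [e, s56fc_dec_val P ((P.decompositionSubgroup ℚ).inv_mem hτ)]
  rwa [s56fc_dec_val P hτ] at h1

/-- the action on the `p`-th roots of unity is through a power. -/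
theorem s56fc_zeta_pow {p : ℕ} (hp : 0 < p) {ζ : Qb} (hζ : IsPrimitiveRoot ζ p) (σ : GQ) :
    ∃ a : ℕ, σ ζ = ζ ^ a ∧ ∀ μ : Qb, μ ^ p = 1 → σ μ = μ ^ a := by
  have : NeZero p := ⟨hp.ne'⟩
  have h1 : (σ ζ) ^ p = 1 := by rw [← map_pow, hζ.pow_eq_one, map_one]
  obtain ⟨a, -, ha⟩ := hζ.eq_pow_of_pow_eq_one h1
  refine ⟨a, ha.symm, fun μ hμ => ?_⟩
  obtain ⟨i, -, rfl⟩ := hζ.eq_pow_of_pow_eq_one hμ
  rw [map_pow, ← ha, ← pow_mul, ← pow_mul, mul_comm]

end Fermat.Agent.S56
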