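/-
Project S56 (Taylor–Wiles primes), node [LOC-p-FLAT], cell [F-CLASS] part 4 (helper13).
Prefix `s56fc_`.  Namespace `Fermat.Agent.S56`.  Mathlib only.
TWO-DIMENSIONAL LINEAR ALGEBRA AND CLIFFORD THEORY FOR `B : G →* M₂(k)`, `I ⊴ D ≤ G`.

* `s56fc_wedge u v`          : the determinant `u₀ v₁ - u₁ v₀`;
* `s56fc_wedge_mulVec`       : `wedge (M u) (M v) = det M * wedge u v`;
* `s56fc_eq_smul_of_wedge`   : `u ≠ 0`, `wedge u v = 0`  ⟹  `v = t • u`;
* `s56fc_decomp`             : Cramer: `v = (wedge v e₂ / wedge e₁ e₂) e₁ + (wedge e₁ v / wedge e₁ e₂) e₂`;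
* `s56fc_exists_eigen`       : a root of the characteristic polynomial is an eigenvalue;
* `s56fc_char_of_eigen`      : a common eigenvector of a subgroup gives a character;
* `s56fc_triv_of_fixed`      : (W2) a subset `N`, normalised by `D`, with a nonzero fixed vector acts
                               trivially if there is no `D`-stable line;
* `s56fc_cliff`              : (CLIFFORD) `B(I)` abelian, no `D`-stable line, `D` generated by `I` and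
                               `φ`, eigenvalues in `k`  ⟹  `B|I = χ₁ ⊕ χ₂` in a basis `e₁, e₂`,
                               `χ₁ ≠ χ₂`, every `τ ∈ D` preserves or swaps the two lines, `φ` swaps.
-/
import Mathlib

set_option autoImplicit false
set_option linter.unusedSectionVars false

noncomputable section

namespace Fermat.Agent.S56

open Matrix

section wedge

variable {k : Type} [Field k]

/-- the determinant of two vectors of `k²`. -/
def s56fc_wedge (u v : Fin 2 → k) : k := u 0 * v 1 - u 1 * v 0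

theorem s56fc_wedge_self (u : Fin 2 → k) : s56fc_wedge u u = 0 := by
  unfold s56fc_wedge
  ring

theorem s56fc_wedge_swap (u v : Fin 2 → k) : s56fc_wedge u v = - s56fc_wedge v u := by
  unfold s56fc_wedge
  ring

theorem s56fc_wedge_smul_right (u v : Fin 2 → k) (t : k) :
    s56fc_wedge u (t • v) = t * s56fc_wedge u v := by
  unfold s56fc_wedge
  simp only [Pi.smul_apply, smul_eq_mul]
  ring

theorem s56fc_wedge_smul_left (u v : Fin 2 → k) (t : k) :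
    s56fc_wedge (t • u) v = t * s56fc_wedge u v := by
  unfold s56fc_wedge
  simp only [Pi.smul_apply, smul_eq_mul]
  ring

theorem s56fc_wedge_add_right (u v w : Fin 2 → k) :
    s56fc_wedge u (v + w) = s56fc_wedge u v + s56fc_wedge u w := by
  unfold s56fc_wedge
  simp only [Pi.add_apply]
  ring

theorem s56fc_wedge_sub_right (u v w : Fin 2 → k) :
    s56fc_wedge u (v - w) = s56fc_wedge u v - s56fc_wedge u w := by
  unfold s56fc_wedge
  simp only [Pi.sub_apply]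
  ring

theorem s56fc_wedge_add_left (u v w : Fin 2 → k) :
    s56fc_wedge (u + v) w = s56fc_wedge u w + s56fc_wedge v w := by
  unfold s56fc_wedge
  simp only [Pi.add_apply]
  ring

theorem s56fc_wedge_mulVec (M : Matrix (Fin 2) (Fin 2) k) (u v : Fin 2 → k) :
    s56fc_wedge (M *ᵥ u) (M *ᵥ v) = M.det * s56fc_wedge u v := by
  unfold s56fc_wedge
  rw [Matrix.det_fin_two]
  simp only [Matrix.mulVec, dotProduct, Fin.sum_univ_two]
  ring

theorem s56fc_wedge_ne_left {u v : Fin 2 → k} (h : s56fc_wedge u v ≠ 0) : u ≠ 0 := by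
  rintro rfl
  apply h
  unfold s56fc_wedge
  simp

theorem s56fc_wedge_ne_right {u v : Fin 2 → k} (h : s56fc_wedge u v ≠ 0) : v ≠ 0 := by
  rintro rfl
  apply h
  unfold s56fc_wedge
  simp

/-- two vectors with vanishing determinant are proportional. -/
theorem s56fc_eq_smul_of_wedge {u v : Fin 2 → k} (hu : u ≠ 0) (h : s56fc_wedge u v = 0) :
    ∃ t : k, v = t • u := by
  unfold s56fc_wedge at h
  by_cases h0 : u 0 = 0
  · have h1 : u 1 ≠ 0 := by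
      intro h1
      apply hu
      funext i
      fin_cases i
      · exact h0
      · exact h1
    refine ⟨v 1 / u 1, ?_⟩
    funext i
    fin_cases i
    · show v 0 = v 1 / u 1 * u 0
      rw [h0, zero_mul, sub_eq_zero] at h
      rw [h0, mul_zero]
      have := h.symm
      rcases mul_eq_zero.mp this with h2 | h2
      · exact absurd h2 h1
      · exact h2
    · show v 1 = v 1 / u 1 * u 1
      field_simp
  · refine ⟨v 0 / u 0, ?_⟩
    funext i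
    fin_cases i
    · show v 0 = v 0 / u 0 * u 0
      field_simp
    · show v 1 = v 0 / u 0 * u 1
      field_simp
      linear_combination h

/-- Cramer's rule. -/
theorem s56fc_decomp {e₁ e₂ : Fin 2 → k} (h : s56fc_wedge e₁ e₂ ≠ 0) (v : Fin 2 → k) :
    v = (s56fc_wedge v e₂ / s56fc_wedge e₁ e₂) • e₁
      + (s56fc_wedge e₁ v / s56fc_wedge e₁ e₂) • e₂ := by
  unfold s56fc_wedge at h ⊢
  funext i
  fin_cases i
  · show v 0 = (v 0 * e₂ 1 - v 1 * e₂ 0) / (e₁ 0 * e₂ 1 - e₁ 1 * e₂ 0) * e₁ 0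
      + (e₁ 0 * v 1 - e₁ 1 * v 0) / (e₁ 0 * e₂ 1 - e₁ 1 * e₂ 0) * e₂ 0
    rw [div_mul_eq_mul_div, div_mul_eq_mul_div, ← add_div, eq_div_iff h]
    ring
  · show v 1 = (v 0 * e₂ 1 - v 1 * e₂ 0) / (e₁ 0 * e₂ 1 - e₁ 1 * e₂ 0) * e₁ 1
      + (e₁ 0 * v 1 - e₁ 1 * v 0) / (e₁ 0 * e₂ 1 - e₁ 1 * e₂ 0) * e₂ 1
    rw [div_mul_eq_mul_div, div_mul_eq_mul_div, ← add_div, eq_div_iff h]
    ring

/-- a linear map of `k²` that agrees with the identity on a basis is the identity. -/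
theorem s56fc_mulVec_eq_of_basis {e₁ e₂ : Fin 2 → k} (h : s56fc_wedge e₁ e₂ ≠ 0)
    {M M' : Matrix (Fin 2) (Fin 2) k} (h1 : M *ᵥ e₁ = M' *ᵥ e₁) (h2 : M *ᵥ e₂ = M' *ᵥ e₂)
    (v : Fin 2 → k) : M *ᵥ v = M' *ᵥ v := by
  rw [s56fc_decomp h v, Matrix.mulVec_add, Matrix.mulVec_add, Matrix.mulVec_smul,
    Matrix.mulVec_smul, Matrix.mulVec_smul, Matrix.mulVec_smul, h1, h2]

theorem s56fc_eq_of_mulVec {M M' : Matrix (Fin 2) (Fin 2) k}
    (h : ∀ v : Fin 2 → k, M *ᵥ v = M' *ᵥ v) : M = M' := by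
  ext i j
  have := congrFun (h (Pi.single j 1)) i
  simpa using this

/-- a root of the characteristic polynomial is an eigenvalue. -/
theorem s56fc_exists_eigen (M : Matrix (Fin 2) (Fin 2) k) (α : k)
    (h : M.charpoly.IsRoot α) : ∃ u : Fin 2 → k, u ≠ 0 ∧ M *ᵥ u = α • u := by
  have hdet : (α • (1 : Matrix (Fin 2) (Fin 2) k) - M).det = 0 := by
    rw [Matrix.charpoly_fin_two, Polynomial.IsRoot.def] at h
    simp only [Polynomial.eval_add, Polynomial.eval_sub, Polynomial.eval_pow, Polynomial.eval_X,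
      Polynomial.eval_mul, Polynomial.eval_C] at h
    rw [Matrix.det_fin_two]
    simp only [Matrix.sub_apply, Matrix.smul_apply, Matrix.one_apply_eq, smul_eq_mul, mul_one,
      Matrix.one_apply_ne (show (0 : Fin 2) ≠ 1 by decide),
      Matrix.one_apply_ne (show (1 : Fin 2) ≠ 0 by decide), mul_zero, zero_sub]
    rw [Matrix.trace_fin_two, Matrix.det_fin_two] at h
    linear_combination h
  obtain ⟨u, hu, h1⟩ := Matrix.exists_mulVec_eq_zero_iff.mpr hdet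
  refine ⟨u, hu, ?_⟩
  rw [Matrix.sub_mulVec, Matrix.smul_mulVec, Matrix.one_mulVec, sub_eq_zero] at h1
  exact h1.symm

end wedge

/-! ### a representation `B : G →* M₂(k)` -/

section cliff

variable {k : Type} [Field k] {G : Type} [Group G] (B : G →* Matrix (Fin 2) (Fin 2) k)

theorem s56fc_mul_inv_eq_one (σ : G) : B σ * B σ⁻¹ = 1 := by
  rw [← map_mul, mul_inv_cancel, map_one]

theorem s56fc_inv_mul_eq_one (σ : G) : B σ⁻¹ * B σ = 1 := by
  rw [← map_mul, inv_mul_cancel, map_one]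

theorem s56fc_det_ne_zero (σ : G) : (B σ).det ≠ 0 := by
  intro h
  have h1 := congrArg Matrix.det (s56fc_mul_inv_eq_one B σ)
  rw [Matrix.det_mul, h, zero_mul, Matrix.det_one] at h1
  exact zero_ne_one h1

theorem s56fc_inv_mulVec (σ : G) (v : Fin 2 → k) : B σ⁻¹ *ᵥ (B σ *ᵥ v) = v := by
  rw [Matrix.mulVec_mulVec, s56fc_inv_mul_eq_one, Matrix.one_mulVec]

theorem s56fc_mulVec_ne_zero (σ : G) {v : Fin 2 → k} (hv : v ≠ 0) : B σ *ᵥ v ≠ 0 := by
  intro h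
  have h1 := s56fc_inv_mulVec B σ v
  rw [h, Matrix.mulVec_zero] at h1
  exact hv h1.symm

/-- `B σ (B τ v) = B τ (B (τ⁻¹ σ τ) v)`. -/
theorem s56fc_conj_mulVec (σ τ : G) (v : Fin 2 → k) :
    B σ *ᵥ (B τ *ᵥ v) = B τ *ᵥ (B (τ⁻¹ * σ * τ) *ᵥ v) := by
  rw [Matrix.mulVec_mulVec, Matrix.mulVec_mulVec, ← map_mul, ← map_mul]
  congr 2
  group

theorem s56fc_pow_mulVec {M : Matrix (Fin 2) (Fin 2) k} {u : Fin 2 → k} {α : k}
    (h : M *ᵥ u = α • u) (n : ℕ) : (M ^ n) *ᵥ u = α ^ n • u := by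
  induction n with
  | zero => rw [pow_zero, pow_zero, Matrix.one_mulVec, one_smul]
  | succ n ih =>
    rw [pow_succ, ← Matrix.mulVec_mulVec, h, Matrix.mulVec_smul, ih, smul_smul, pow_succ,
      mul_comm]

theorem s56fc_smul_eq_smul {u : Fin 2 → k} (hu : u ≠ 0) {x y : k} (h : x • u = y • u) :
    x = y := smul_left_injective k hu h

/-- a common eigenvector of a subgroup gives a character. -/
theorem s56fc_char_of_eigen (I : Subgroup G) {u : Fin 2 → k} (hu : u ≠ 0)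
    (h : ∀ σ ∈ I, ∃ x : k, B σ *ᵥ u = x • u) :
    ∃ χ : ↥I →* kˣ, ∀ σ : ↥I, B (σ : G) *ᵥ u = ((χ σ : kˣ) : k) • u := by
  choose f hf using h
  let g : ↥I →* k :=
    { toFun := fun σ => f σ.1 σ.2
      map_one' := by
        apply s56fc_smul_eq_smul hu
        rw [← hf, one_smul]
        show B (1 : G) *ᵥ u = u
        rw [map_one, Matrix.one_mulVec]
      map_mul' := by
        intro σ τ
        apply s56fc_smul_eq_smul hu
        rw [← hf]
        show B ((σ : G) * (τ : G)) *ᵥ u = _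
        rw [map_mul, ← Matrix.mulVec_mulVec, hf τ.1 τ.2, Matrix.mulVec_smul, hf σ.1 σ.2,
          smul_smul, mul_comm] }
  refine ⟨g.toHomUnits, fun σ => ?_⟩
  rw [MonoidHom.coe_toHomUnits]
  exact hf σ.1 σ.2

/-- **(W2)** a subset `N` normalised by `D` with a nonzero fixed vector acts trivially, if there
is no `D`-stable line. -/
theorem s56fc_triv_of_fixed (D : Subgroup G) (N : Set G)
    (hN : ∀ τ ∈ D, ∀ σ ∈ N, τ⁻¹ * σ * τ ∈ N)
    (hirr : ¬ ∃ u : Fin 2 → k, u ≠ 0 ∧ ∀ τ ∈ D, ∃ x : k, B τ *ᵥ u = x • u)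
    (hfix : ∃ u : Fin 2 → k, u ≠ 0 ∧ ∀ σ ∈ N, B σ *ᵥ u = u) :
    ∀ σ ∈ N, B σ = 1 := by
  obtain ⟨u, hu, hfu⟩ := hfix
  by_cases hw : ∃ w : Fin 2 → k, (∀ σ ∈ N, B σ *ᵥ w = w) ∧ s56fc_wedge u w ≠ 0
  · obtain ⟨w, hfw, hne⟩ := hw
    intro σ hσ
    apply s56fc_eq_of_mulVec
    intro v
    refine s56fc_mulVec_eq_of_basis hne ?_ ?_ v
    · rw [hfu σ hσ, Matrix.one_mulVec]
    · rw [hfw σ hσ, Matrix.one_mulVec]
  · exfalso
    push Not at hw
    apply hirr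
    refine ⟨u, hu, fun τ hτ => ?_⟩
    have h1 : ∀ σ ∈ N, B σ *ᵥ (B τ *ᵥ u) = B τ *ᵥ u := by
      intro σ hσ
      rw [s56fc_conj_mulVec, hfu _ (hN τ hτ σ hσ)]
    exact s56fc_eq_smul_of_wedge hu (hw _ h1)

/-- **(CLIFFORD)** -/
theorem s56fc_cliff (I D : Subgroup G) (hID : I ≤ D)
    (hnorm : ∀ τ ∈ D, ∀ σ ∈ I, τ⁻¹ * σ * τ ∈ I)
    (habel : ∀ σ ∈ I, ∀ τ ∈ I, B σ * B τ = B τ * B σ)
    (heig : ∀ σ ∈ D, ∃ (α : k) (u : Fin 2 → k), u ≠ 0 ∧ B σ *ᵥ u = α • u)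
    (hirr : ¬ ∃ u : Fin 2 → k, u ≠ 0 ∧ ∀ τ ∈ D, ∃ x : k, B τ *ᵥ u = x • u)
    {φ : G} (hφ : φ ∈ D) (hgen : ∀ τ ∈ D, ∃ n : ℕ, ∃ i ∈ I, B τ = B φ ^ n * B i) :
    ∃ e₁ e₂ : Fin 2 → k, s56fc_wedge e₁ e₂ ≠ 0 ∧
      (∀ σ ∈ I, (∃ x : k, B σ *ᵥ e₁ = x • e₁) ∧ ∃ y : k, B σ *ᵥ e₂ = y • e₂) ∧
      (∃ σ₀ ∈ I, ∃ x y : k, x ≠ y ∧ B σ₀ *ᵥ e₁ = x • e₁ ∧ B σ₀ *ᵥ e₂ = y • e₂) ∧
      (∀ τ ∈ D, ((∃ x : k, B τ *ᵥ e₁ = x • e₁) ∧ ∃ y : k, B τ *ᵥ e₂ = y • e₂) ∨
        ((∃ x : k, B τ *ᵥ e₁ = x • e₂) ∧ ∃ y : k, B τ *ᵥ e₂ = y • e₁)) ∧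
      (∃ x : k, B φ *ᵥ e₁ = x • e₂) ∧ ∃ y : k, B φ *ᵥ e₂ = y • e₁ := by
  -- a `φ`-eigenline that is `I`-stable is `D`-stable
  have hstable : ∀ u : Fin 2 → k, u ≠ 0 → (∃ x : k, B φ *ᵥ u = x • u) →
      (∀ i ∈ I, ∃ t : k, B i *ᵥ u = t • u) → False := by
    intro u hu ⟨x, hx⟩ hI
    apply hirr
    refine ⟨u, hu, fun τ hτ => ?_⟩
    obtain ⟨n, i, hi, hτi⟩ := hgen τ hτ
    obtain ⟨t, ht⟩ := hI i hi
    refine ⟨t * x ^ n, ?_⟩
    rw [hτi, ← Matrix.mulVec_mulVec, ht, Matrix.mulVec_smul, s56fc_pow_mulVec hx, smul_smul]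
  by_cases hsc : ∀ σ ∈ I, ∀ v : Fin 2 → k, s56fc_wedge v (B σ *ᵥ v) = 0
  · exfalso
    obtain ⟨α, u, hu, hαu⟩ := heig φ hφ
    exact hstable u hu ⟨α, hαu⟩ fun i hi => s56fc_eq_smul_of_wedge hu (hsc i hi u)
  push Not at hsc
  obtain ⟨σ₀, hσ₀, v₀, hv₀⟩ := hsc
  obtain ⟨α, u, hu, hαu⟩ := heig σ₀ (hID hσ₀)
  by_cases hline : ∀ (w : Fin 2 → k) (α' : k), B σ₀ *ᵥ w = α' • w → s56fc_wedge u w = 0
  · exfalso
    apply hirr
    refine ⟨u, hu, fun τ hτ => ?_⟩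
    have hσ' : τ⁻¹ * σ₀ * τ ∈ I := hnorm τ hτ σ₀ hσ₀
    have h1 : B σ₀ *ᵥ (B (τ⁻¹ * σ₀ * τ) *ᵥ u) = α • (B (τ⁻¹ * σ₀ * τ) *ᵥ u) := by
      rw [Matrix.mulVec_mulVec, habel σ₀ hσ₀ _ hσ', ← Matrix.mulVec_mulVec, hαu,
        Matrix.mulVec_smul]
    obtain ⟨x, hx⟩ := s56fc_eq_smul_of_wedge hu (hline _ α h1)
    have h2 : B σ₀ *ᵥ (B τ *ᵥ u) = x • (B τ *ᵥ u) := by
      rw [s56fc_conj_mulVec, hx, Matrix.mulVec_smul]
    exact s56fc_eq_smul_of_wedge hu (hline _ x h2)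
  push Not at hline
  obtain ⟨w, α', hα'w, hW⟩ := hline
  have hαα' : α ≠ α' := by
    intro h
    apply hv₀
    have h1 : B σ₀ *ᵥ v₀ = α • v₀ := by
      have h2 : (α • (1 : Matrix (Fin 2) (Fin 2) k)) *ᵥ v₀ = α • v₀ := by
        rw [Matrix.smul_mulVec, Matrix.one_mulVec]
      rw [← h2]
      refine s56fc_mulVec_eq_of_basis hW ?_ ?_ v₀
      · rw [hαu, Matrix.smul_mulVec, Matrix.one_mulVec]
      · rw [hα'w, Matrix.smul_mulVec, Matrix.one_mulVec, h]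
    rw [h1, s56fc_wedge_smul_right, s56fc_wedge_self, mul_zero]
  -- the eigenvectors of `B σ₀`
  have hE : ∀ (x : Fin 2 → k) (l : k), B σ₀ *ᵥ x = l • x →
      (l = α ∧ ∃ t : k, x = t • u) ∨ (l = α' ∧ ∃ t : k, x = t • w) ∨ x = 0 := by
    intro x l hx
    set a := s56fc_wedge x w / s56fc_wedge u w with ha
    set b := s56fc_wedge u x / s56fc_wedge u w with hb
    have hdec : x = a • u + b • w := s56fc_decomp hW x
    have h1 : B σ₀ *ᵥ x = (a * α) • u + (b * α') • w := by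
      conv_lhs => rw [hdec]
      rw [Matrix.mulVec_add, Matrix.mulVec_smul, Matrix.mulVec_smul, hαu, hα'w, smul_smul,
        smul_smul]
    have h2 : l • x = (a * l) • u + (b * l) • w := by
      conv_lhs => rw [hdec]
      rw [smul_add, smul_smul, smul_smul, mul_comm l a, mul_comm l b]
    rw [h1, h2] at hx
    have h3 := congrArg (fun y => s56fc_wedge y w) hx
    have h4 := congrArg (fun y => s56fc_wedge u y) hx
    simp only [s56fc_wedge_add_left, s56fc_wedge_smul_left, s56fc_wedge_self, mul_zero,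
      add_zero] at h3
    simp only [s56fc_wedge_add_right, s56fc_wedge_smul_right, s56fc_wedge_self, mul_zero,
      zero_add] at h4
    have h5 : a * (α - l) = 0 := by
      have := mul_right_cancel₀ hW h3
      linear_combination this
    have h6 : b * (α' - l) = 0 := by
      have := mul_right_cancel₀ hW h4
      linear_combination this
    rcases mul_eq_zero.mp h5 with ha0 | hl
    · rcases mul_eq_zero.mp h6 with hb0 | hl'
      · right; right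
        rw [hdec, ha0, hb0, zero_smul, zero_smul, add_zero]
      · right; left
        refine ⟨(sub_eq_zero.mp hl').symm, b, ?_⟩
        rw [hdec, ha0, zero_smul, zero_add]
    · rcases mul_eq_zero.mp h6 with hb0 | hl'
      · left
        refine ⟨(sub_eq_zero.mp hl).symm, a, ?_⟩
        rw [hdec, hb0, zero_smul, add_zero]
      · exfalso
        exact hαα' ((sub_eq_zero.mp hl).trans (sub_eq_zero.mp hl').symm)
  have hw0 : w ≠ 0 := s56fc_wedge_ne_right hW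
  have hE1 : ∀ x : Fin 2 → k, B σ₀ *ᵥ x = α • x → ∃ t : k, x = t • u := by
    intro x hx
    rcases hE x α hx with ⟨-, h⟩ | ⟨h, -⟩ | h
    · exact h
    · exact absurd h hαα'
    · exact ⟨0, by rw [h, zero_smul]⟩
  have hE2 : ∀ x : Fin 2 → k, B σ₀ *ᵥ x = α' • x → ∃ t : k, x = t • w := by
    intro x hx
    rcases hE x α' hx with ⟨h, -⟩ | ⟨-, h⟩ | h
    · exact absurd h.symm hαα'
    · exact h
    · exact ⟨0, by rw [h, zero_smul]⟩
  have hI : ∀ σ ∈ I, (∃ x : k, B σ *ᵥ u = x • u) ∧ ∃ y : k, B σ *ᵥ w = y • w := by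
    intro σ hσ
    constructor
    · apply hE1
      rw [Matrix.mulVec_mulVec, habel σ₀ hσ₀ σ hσ, ← Matrix.mulVec_mulVec, hαu,
        Matrix.mulVec_smul]
    · apply hE2
      rw [Matrix.mulVec_mulVec, habel σ₀ hσ₀ σ hσ, ← Matrix.mulVec_mulVec, hα'w,
        Matrix.mulVec_smul]
  have hD : ∀ τ ∈ D, ((∃ x : k, B τ *ᵥ u = x • u) ∧ ∃ y : k, B τ *ᵥ w = y • w) ∨
      ((∃ x : k, B τ *ᵥ u = x • w) ∧ ∃ y : k, B τ *ᵥ w = y • u) := by
    intro τ hτ
    have hσ' : τ⁻¹ * σ₀ * τ ∈ I := hnorm τ hτ σ₀ hσ₀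
    obtain ⟨⟨t₁, ht₁⟩, ⟨t₂, ht₂⟩⟩ := hI _ hσ'
    have h1 : B σ₀ *ᵥ (B τ *ᵥ u) = t₁ • (B τ *ᵥ u) := by
      rw [s56fc_conj_mulVec, ht₁, Matrix.mulVec_smul]
    have h2 : B σ₀ *ᵥ (B τ *ᵥ w) = t₂ • (B τ *ᵥ w) := by
      rw [s56fc_conj_mulVec, ht₂, Matrix.mulVec_smul]
    have hWτ : s56fc_wedge (B τ *ᵥ u) (B τ *ᵥ w) ≠ 0 := by
      rw [s56fc_wedge_mulVec]
      exact mul_ne_zero (s56fc_det_ne_zero B τ) hW
    have hu' := s56fc_mulVec_ne_zero B τ hu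
    have hw' := s56fc_mulVec_ne_zero B τ hw0
    rcases hE _ _ h1 with ⟨-, x, hx⟩ | ⟨-, x, hx⟩ | h
    · rcases hE _ _ h2 with ⟨-, y, hy⟩ | ⟨-, y, hy⟩ | h
      · exfalso
        apply hWτ
        rw [hx, hy, s56fc_wedge_smul_left, s56fc_wedge_smul_right, s56fc_wedge_self, mul_zero,
          mul_zero]
      · exact Or.inl ⟨⟨x, hx⟩, ⟨y, hy⟩⟩
      · exact absurd h hw'
    · rcases hE _ _ h2 with ⟨-, y, hy⟩ | ⟨-, y, hy⟩ | h
      · exact Or.inr ⟨⟨x, hx⟩, ⟨y, hy⟩⟩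
      · exfalso
        apply hWτ
        rw [hx, hy, s56fc_wedge_smul_left, s56fc_wedge_smul_right, s56fc_wedge_self, mul_zero,
          mul_zero]
      · exact absurd h hw'
    · exact absurd h hu'
  refine ⟨u, w, hW, hI, ⟨σ₀, hσ₀, α, α', hαα', hαu, hα'w⟩, hD, ?_⟩
  rcases hD φ hφ with ⟨hx, -⟩ | h
  · exfalso
    exact hstable u hu hx fun i hi => (hI i hi).1
  · exact h

end cliff

end Fermat.Agent.S56
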