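/-
Project S56 (Taylor–Wiles primes), node [LOC-p-FLAT], cell [F-CLASS] part 6 (helper13).
Prefix `s56fc_`.  Namespace `Fermat.Agent.S56`.
LINES IN `k²` WITH THEIR ORDERS (concrete: `L = Q̄`, `A = P`, `Γ = I_P`).

* `s56fc_In P`              : the inertia group `I_P` as a type;
* `s56fc_incl`, `s56fc_sub_order`  : an `I_P`-stable line `k u` with character `χ` gets an order;
* `s56fc_proj`, `s56fc_quot_order` : the quotient `k² / k u` with character `χ'` gets an order;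
* `s56fc_detChar`           : `det ∘ B` as a character of a subgroup;
* `s56fc_card_range_dvd`    : `χ ^ m = 1`  ⟹  `#χ(Γ) ∣ m`;
* `s56fc_exists_moves_zeta` : `I_P` acts non-trivially on `μ_p` (`p ≠ 2`);
* `s56fc_line_cyc`          : a character of `D_P` whose line has an order is, on `I_P`, trivial or
                              equal to `det ∘ B` (when `det ∘ B` is the cyclotomic character).
-/
import Mathlib
import Fermat.Agent.S56.Flat.ChLine
import Fermat.Agent.S56.Flat.Kum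
import Fermat.Agent.S56.Flat.Cliff
import Fermat.Agent.S56.Flat.ClassG

set_option autoImplicit false
set_option linter.unusedSectionVars false

noncomputable section

namespace Fermat.Agent.S56

open Fermat.Agent.MZ Fermat.Agent.FF Fermat.Agent.S53 Fermat.Agent.S55 Matrix
open scoped Pointwise

local notation "Qb" => AlgebraicClosure ℚ

/-- the inertia group of `P`, as a type. -/
abbrev s56fc_In (P : ValuationSubring Qb) : Type := ↥(P.inertiaSubgroupIn ℚ)

section lines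

variable {k : Type} [Field k] (B : GQ →* Matrix (Fin 2) (Fin 2) k) (P : ValuationSubring Qb)

theorem s56fc_in_smul (σ : s56fc_In P) (v : s56fi_Mod B) :
    σ • v = s56fi_of B (B (σ : GQ) *ᵥ s56fi_vec B v) := rfl

/-- the inclusion of the line `k u`. -/
def s56fc_incl (χ : s56fc_In P →* kˣ) (u : Fin 2 → k) : s56fc_Ch χ →+ s56fi_Mod B where
  toFun a := s56fi_of B (s56fc_val χ a • u)
  map_zero' := by
    show s56fi_of B ((0 : k) • u) = 0
    rw [zero_smul]
    rfl
  map_add' a b := by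
    show s56fi_of B ((s56fc_val χ a + s56fc_val χ b) • u) = _
    rw [add_smul]
    rfl

theorem s56fc_incl_injective (χ : s56fc_In P →* kˣ) {u : Fin 2 → k} (hu : u ≠ 0) :
    Function.Injective (s56fc_incl B P χ u) := by
  intro a b h
  have h1 : s56fc_val χ a • u = s56fc_val χ b • u := h
  exact s56fc_smul_eq_smul hu h1

theorem s56fc_incl_smul (χ : s56fc_In P →* kˣ) {u : Fin 2 → k}
    (hχ : ∀ σ : s56fc_In P, B (σ : GQ) *ᵥ u = ((χ σ : kˣ) : k) • u) (σ : s56fc_In P)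
    (a : s56fc_Ch χ) : s56fc_incl B P χ u (σ • a) = σ • s56fc_incl B P χ u a := by
  show s56fi_of B ((((χ σ : kˣ) : k) * s56fc_val χ a) • u)
    = s56fi_of B (B (σ : GQ) *ᵥ (s56fc_val χ a • u))
  rw [Matrix.mulVec_smul, hχ, smul_smul, mul_comm]

/-- the order of a stable line. -/
theorem s56fc_sub_order {H : Subalgebra ↥(ffi_O P ↥(ffi_L P)) (s56fi_Mod B → Qb)}
    (hH : mzo_IsOrder P (s56fc_In P) (s56fi_Mod B) H) (χ : s56fc_In P →* kˣ) {u : Fin 2 → k}
    (hu : u ≠ 0) (hχ : ∀ σ : s56fc_In P, B (σ : GQ) *ᵥ u = ((χ σ : kˣ) : k) • u) :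
    mzo_IsOrder P (s56fc_In P) (s56fc_Ch χ) (mzo_restr (⇑(s56fc_incl B P χ u)) H) :=
  mzo_restr_isOrder (s56fc_incl B P χ u) (s56fc_incl_injective B P χ hu)
    (s56fc_incl_smul B P χ hχ) hH

/-- the projection onto `k² / k u`. -/
def s56fc_proj (χ : s56fc_In P →* kˣ) (u : Fin 2 → k) : s56fi_Mod B →+ s56fc_Ch χ where
  toFun v := s56fc_mk χ (s56fc_wedge u (s56fi_vec B v))
  map_zero' := by
    show s56fc_wedge u 0 = 0
    unfold s56fc_wedge
    simp
  map_add' a b := s56fc_wedge_add_right u _ _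

theorem s56fc_proj_surjective (χ : s56fc_In P →* kˣ) {u : Fin 2 → k} (hu : u ≠ 0) :
    Function.Surjective (s56fc_proj B P χ u) := by
  intro a
  by_cases h0 : u 0 = 0
  · have h1 : u 1 ≠ 0 := by
      intro h1
      apply hu
      funext i
      fin_cases i
      · exact h0
      · exact h1
    refine ⟨s56fi_of B ![-(s56fc_val χ a / u 1), 0], ?_⟩
    show s56fc_wedge u ![-(s56fc_val χ a / u 1), 0] = s56fc_val χ a
    unfold s56fc_wedge
    simp only [Matrix.cons_val_zero, Matrix.cons_val_one]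
    field_simp
    ring
  · refine ⟨s56fi_of B ![0, s56fc_val χ a / u 0], ?_⟩
    show s56fc_wedge u ![0, s56fc_val χ a / u 0] = s56fc_val χ a
    unfold s56fc_wedge
    simp only [Matrix.cons_val_zero, Matrix.cons_val_one]
    field_simp
    ring

theorem s56fc_proj_smul (χ : s56fc_In P →* kˣ) {u : Fin 2 → k}
    (hχ : ∀ (σ : s56fc_In P) (v : Fin 2 → k),
      s56fc_wedge u (B (σ : GQ) *ᵥ v) = ((χ σ : kˣ) : k) * s56fc_wedge u v)
    (σ : s56fc_In P) (v : s56fi_Mod B) :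
    s56fc_proj B P χ u (σ • v) = σ • s56fc_proj B P χ u v :=
  hχ σ (s56fi_vec B v)

/-- `wedge u (M v) = (det M / x) * wedge u v` if `M u = x u`, `x ≠ 0`. -/
theorem s56fc_wedge_of_eigen {M : Matrix (Fin 2) (Fin 2) k} {u : Fin 2 → k} {x : k}
    (hx : x ≠ 0) (h : M *ᵥ u = x • u) (v : Fin 2 → k) :
    s56fc_wedge u (M *ᵥ v) = M.det / x * s56fc_wedge u v := by
  have h1 := s56fc_wedge_mulVec M u v
  rw [h, s56fc_wedge_smul_left] at h1
  field_simp
  linear_combination h1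

end lines

section order

variable {p : ℕ} [hp : Fact p.Prime] {k : Type} [Field k] [Finite k]
  (B : GQ →* Matrix (Fin 2) (Fin 2) k) (P : ValuationSubring Qb)

/-- the order of the quotient by a stable line. -/
theorem s56fc_quot_order (hP : P.LiesOverPrime p)
    {H : Subalgebra ↥(ffi_O P ↥(ffi_L P)) (s56fi_Mod B → Qb)}
    (hH : mzo_IsOrder P (s56fc_In P) (s56fi_Mod B) H) (χ : s56fc_In P →* kˣ) {u : Fin 2 → k}
    (hu : u ≠ 0) (hχ : ∀ (σ : s56fc_In P) (v : Fin 2 → k),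
      s56fc_wedge u (B (σ : GQ) *ᵥ v) = ((χ σ : kˣ) : k) * s56fc_wedge u v) :
    mzo_IsOrder P (s56fc_In P) (s56fc_Ch χ) (mzo_pull (⇑(s56fc_proj B P χ u)) H) := by
  have hctx := mzg_ctx p P hP
  have : IsDiscreteValuationRing ↥(ffi_O P ↥(ffi_L P)) := mzg_ctx_dvr p P hP
  exact (mzhp_seamQuot p _ _ P _ hctx _ _ (s56fc_proj B P χ u) (s56fc_proj_surjective B P χ hu)
    (s56fc_proj_smul B P χ hχ) H hH).1

end order

section chars

variable {k : Type} [Field k] {G : Type} [Group G]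

/-- `det ∘ B` as a character of a subgroup. -/
def s56fc_detChar (B : G →* Matrix (Fin 2) (Fin 2) k) (S : Subgroup G) : ↥S →* kˣ :=
  ((Matrix.detMonoidHom.comp B).comp S.subtype).toHomUnits

theorem s56fc_detChar_apply (B : G →* Matrix (Fin 2) (Fin 2) k) (S : Subgroup G) (σ : ↥S) :
    ((s56fc_detChar B S σ : kˣ) : k) = (B (σ : G)).det := rfl

/-- `χ ^ m = 1`  ⟹  `#χ(Γ) ∣ m`. -/
theorem s56fc_card_range_dvd [Finite k] (χ : G →* kˣ) (m : ℕ) (h : ∀ σ : G, χ σ ^ m = 1) :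
    Nat.card ↥χ.range ∣ m := by
  have hcyc : IsCyclic ↥χ.range := inferInstance
  rw [← IsCyclic.exponent_eq_card]
  apply Monoid.exponent_dvd_of_forall_pow_eq_one
  rintro ⟨_, σ, rfl⟩
  apply Subtype.ext
  exact h σ

end chars

section cyc

variable {p : ℕ} [hp : Fact p.Prime] (P : ValuationSubring Qb)

/-- **`I_P` acts non-trivially on `μ_p`** (`p ≠ 2`). -/
theorem s56fc_exists_moves_zeta (hp2 : p ≠ 2) (hP : P.LiesOverPrime p) {ζ : Qb}
    (hζ : IsPrimitiveRoot ζ p) : ∃ σ : s56fc_In P, σ • ζ ≠ ζ := by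
  by_contra hall
  push Not at hall
  have hctx := mzg_ctx p P hP
  have : IsDiscreteValuationRing ↥(ffi_O P ↥(ffi_L P)) := mzg_ctx_dvr p P hP
  have hlt := s56fc_val_zeta_lt hctx hζ
  have hne := s56fc_zeta_sub_one_ne (L := Qb) hp.out hζ
  have hfix : ∀ σ : s56fc_In P, σ • (ζ - 1) = ζ - 1 := fun σ => by
    rw [smul_sub, smul_one, hall]
  have hnu : ζ - 1 ∈ P.nonunits := (ValuationSubring.mem_nonunits_iff P).mpr hlt
  have h1 := hctx.unif (ζ - 1) hnu hfix
  have h2 : P.valuation (ζ - 1) ≤ P.valuation ((p : ℕ) : Qb) := by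
    rw [← P.valuation_le_one_iff, map_div₀] at h1
    exact (div_le_one₀ (zero_lt_iff.mpr ((map_ne_zero _).mpr hctx.r_ne))).mp h1
  rw [← s56fc_val_zeta (A := P) hp.out hζ] at h2
  have hc0 : P.valuation (ζ - 1) ≠ 0 := (map_ne_zero _).mpr hne
  have h2p : 2 ≤ p - 1 := by
    have := hp.out.two_le
    omega
  have h3 : P.valuation (ζ - 1) ^ (p - 1) ≤ P.valuation (ζ - 1) ^ 2 :=
    pow_le_pow_right_of_le_one' hlt.le h2p
  have h4 : P.valuation (ζ - 1) ^ 2 < P.valuation (ζ - 1) := by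
    rw [pow_two]
    exact mul_lt_of_lt_one_right (zero_lt_iff.mpr hc0) hlt
  exact lt_irrefl _ (lt_of_le_of_lt h2 (h3.trans_lt h4))

/-- the inclusion `I_P → D_P`. -/
def s56fc_inDec : s56fc_In P →* ↥(P.decompositionSubgroup ℚ) :=
  Subgroup.inclusion fun _ hσ => s56fc_in_le_dec P hσ

theorem s56fc_inDec_coe (σ : s56fc_In P) : ((s56fc_inDec P σ : ↥(P.decompositionSubgroup ℚ)) : GQ)
    = (σ : GQ) := rfl

variable {k : Type} [Field k] [Finite k] [CharP k p] (B : GQ →* Matrix (Fin 2) (Fin 2) k)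

/-- **a character of `D_P` whose line has an order is, on `I_P`, trivial or `det ∘ B`**
(`det ∘ B` the cyclotomic character). -/
theorem s56fc_line_cyc (hP : P.LiesOverPrime p)
    (hdet : ∀ (σ : GQ) (a : ℕ), (∀ μ : Qb, μ ^ p = 1 → σ μ = μ ^ a) → (B σ).det = (a : k))
    (χD : ↥(P.decompositionSubgroup ℚ) →* kˣ)
    {H' : Subalgebra ↥(ffi_O P ↥(ffi_L P)) (s56fc_Ch (χD.comp (s56fc_inDec P)) → Qb)}
    (hH' : mzo_IsOrder P (s56fc_In P) (s56fc_Ch (χD.comp (s56fc_inDec P))) H') :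
    (∀ σ : s56fc_In P, χD (s56fc_inDec P σ) = 1) ∨
      ∀ σ : s56fc_In P, ((χD (s56fc_inDec P σ) : kˣ) : k) = (B (σ : GQ)).det := by
  have hctx := mzg_ctx p P hP
  have : IsDiscreteValuationRing ↥(ffi_O P ↥(ffi_L P)) := mzg_ctx_dvr p P hP
  have hv := s56fc_in_val P
  have hpk : ((p : ℕ) : k) = 0 := CharP.cast_eq_zero k p
  have : NeZero p := ⟨hp.out.ne_zero⟩
  set χ := χD.comp (s56fc_inDec P) with hχ
  rcases s56fc_line hctx hpk χ hH' with h | ⟨z, hz, hz1, -, ⟨ι, hι⟩, j, hj1, hj, hjb⟩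
  · left
    exact h
  right
  obtain ⟨φ, hφF, hφP, hφI, -⟩ := mzf3_tfa_exists P hp.out hP
  have hφD : φ ∈ P.decompositionSubgroup ℚ := (s56fc_mem_dec_iff P φ).mpr hφP
  -- `χ σ ^ p = χ σ`
  have hpow : ∀ σ : s56fc_In P, χ σ ^ p = χ σ := by
    intro σ
    have hconj := s56fc_line_conj hctx hv χ hz ι hι (φ : Qb ≃ₐ[ℚ] Qb).toRingEquiv
      (fun z => s56fc_dec_val P hφD z) (fun a ha => (mzf3_tfa_unfold P hφF).2 a ha) σ
      ⟨φ * σ * φ⁻¹, hφI σ σ.2⟩ (fun a => rfl)
    rw [← hconj]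
    show χD (s56fc_inDec P ⟨φ * σ * φ⁻¹, _⟩) = χD (s56fc_inDec P σ)
    have e : s56fc_inDec P ⟨φ * σ * φ⁻¹, hφI σ σ.2⟩
        = ⟨φ, hφD⟩ * s56fc_inDec P σ * ⟨φ, hφD⟩⁻¹ := Subtype.ext rfl
    rw [e, map_mul, map_mul, map_inv, mul_comm, inv_mul_cancel_left]
  have hpow1 : ∀ σ : s56fc_In P, χ σ ^ (p - 1) = 1 := by
    intro σ
    have h1 := hpow σ
    have e : p = (p - 1) + 1 := by
      have := hp.out.one_lt
      omega
    rw [e, pow_succ] at h1
    exact mul_eq_right.mp h1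
  have hdvd := s56fc_card_range_dvd χ (p - 1) hpow1
  have hp1 : 0 < p - 1 := by
    have := hp.out.one_lt
    omega
  have hle := Nat.le_of_dvd hp1 hdvd
  have hj1' : j = 1 := by
    have h1 : j * (p - 1) ≤ 1 * (p - 1) := by rw [one_mul]; exact hjb.trans hle
    have := Nat.le_of_mul_le_mul_right h1 hp1
    omega
  have hcard : Nat.card ↥χ.range = p - 1 := by
    rw [hj1', one_mul] at hjb
    exact le_antisymm hle hjb
  rw [hj1', pow_one, hcard] at hj
  obtain ⟨ζ, hζ⟩ := HasEnoughRootsOfUnity.exists_primitiveRoot Qb p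
  have hvz : P.valuation z = P.valuation (ζ - 1) := by
    have h1 := s56fc_val_zeta (A := P) hp.out hζ
    rw [← hj] at h1
    exact ((pow_left_inj₀ zero_le zero_le hp1.ne').mp h1).symm
  intro σ
  obtain ⟨a, haζ, ha⟩ := s56fc_zeta_pow hp.out.pos hζ (σ : GQ)
  rw [hdet (σ : GQ) a ha]
  have h1 : s56fc_theta P σ z = ((a : ℕ) : IsLocalRing.ResidueField ↥P) := by
    rw [s56fc_theta_congr hctx hv σ hz hvz]
    exact s56fc_theta_zeta hctx hζ σ a haζ
  rw [← hι σ, ← map_natCast ι a] at h1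
  have h2 := s56fc_iota_injective _ ι h1
  have h3 := congrArg Subtype.val h2
  have h4 : ((χ σ : kˣ) : k) = ((a : ℕ) : k) := by simpa using h3
  exact h4

end cyc

end Fermat.Agent.S56
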