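/-
Project S56 (Taylor–Wiles primes), node [LOC-p-FLAT], cell [F-CLASS] part 8 (helper13).
Prefix `s56fc_`.  Namespace `Fermat.Agent.S56`.
THE IRREDUCIBLE CASE: no `D_P`-stable line  ⟹  the SUPERSINGULAR shape (fundamental characters of
level 2).

* `s56fc_gen_of_frob` : at finite level `D_P` is generated by `I_P` and a Frobenius;
* `s56fc_abel`        : no `D_P`-stable line  ⟹  wild inertia acts trivially, `B(I_P)` is abelian;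
* `s56fc_ss_level`    : the level computation: `ι ∘ χ = ψ` or `ψ ^ p`, `ψ = θ_ϖ`, `ϖ ^ (p² - 1) = -p`;
* `s56fc_SS p B P`    : the supersingular shape;
* `s56fc_classI`      : the classification in the irreducible case.
-/
import Mathlib
import Fermat.Agent.S56.Flat.ClassL

set_option autoImplicit false
set_option linter.unusedSectionVars false

noncomputable section

namespace Fermat.Agent.S56

open Fermat.Agent.MZ Fermat.Agent.FF Fermat.Agent.S53 Fermat.Agent.S55 Matrix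
open scoped Pointwise

local notation "Qb" => AlgebraicClosure ℚ

section level

variable {p : ℕ} [hp : Fact p.Prime] {k : Type} [Field k] [Finite k] (P : ValuationSubring Qb)

theorem s56fc_sq_sub_one (p : ℕ) (hp : 1 ≤ p) : p ^ 2 - 1 = (p - 1) * (p + 1) := by
  obtain ⟨q, rfl⟩ : ∃ q, p = q + 1 := ⟨p - 1, by omega⟩
  rw [Nat.add_sub_cancel]
  apply Nat.sub_eq_of_eq_add
  ring

/-- **the level computation.** -/
theorem s56fc_ss_level (hp2 : p ≠ 2) (hP : P.LiesOverPrime p) (χ : s56fc_In P →* kˣ)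
    (hpow : ∀ σ : s56fc_In P, χ σ ^ (p ^ 2 - 1) = 1)
    (hdetχ : ∀ (σ : s56fc_In P) (a : ℕ), (∀ μ : Qb, μ ^ p = 1 → (σ : GQ) μ = μ ^ a) →
      ((χ σ : kˣ) : k) ^ (p + 1) = (a : k))
    {z : Qb} (hz : z ≠ 0)
    (ι : ↥(Subring.closure (Set.range fun σ : s56fc_In P => ((χ σ : kˣ) : k))) →+*
      IsLocalRing.ResidueField ↥P)
    (hι : ∀ σ : s56fc_In P,
      ι ⟨((χ σ : kˣ) : k), Subring.subset_closure ⟨σ, rfl⟩⟩ = s56fc_theta P σ z)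
    {j : ℕ} (hj1 : 1 ≤ j)
    (hj : P.valuation z ^ Nat.card ↥χ.range = P.valuation ((p : ℕ) : Qb) ^ j)
    (hjb : j * (p - 1) ≤ Nat.card ↥χ.range)
    {ϖ : Qb} (hϖ : ϖ ^ (p ^ 2 - 1) = -((p : ℕ) : Qb)) :
    (∀ σ : s56fc_In P,
      ι ⟨((χ σ : kˣ) : k), Subring.subset_closure ⟨σ, rfl⟩⟩ = s56fc_theta P σ ϖ) ∨
    (∀ σ : s56fc_In P,
      ι ⟨((χ σ : kˣ) : k), Subring.subset_closure ⟨σ, rfl⟩⟩ = s56fc_theta P σ ϖ ^ p) := by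
  have hctx := mzg_ctx p P hP
  have : IsDiscreteValuationRing ↥(ffi_O P ↥(ffi_L P)) := mzg_ctx_dvr p P hP
  have hv := s56fc_in_val P
  have hp1 : 1 < p := hp.out.one_lt
  have hp3 : 3 ≤ p := by
    have := hp.out.two_le
    omega
  have hsq := s56fc_sq_sub_one p hp1.le
  have hm : 0 < p ^ 2 - 1 := by
    rw [hsq]
    exact Nat.mul_pos (by omega) (by omega)
  have hr0 : P.valuation ((p : ℕ) : Qb) ≠ 0 := (map_ne_zero _).mpr hctx.r_ne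
  -- `e ∣ p² - 1`
  obtain ⟨f, hf⟩ := s56fc_card_range_dvd χ (p ^ 2 - 1) hpow
  set e := Nat.card ↥χ.range with he
  have hf0 : 0 < f := by
    rcases Nat.eq_zero_or_pos f with h | h
    · rw [h, mul_zero] at hf
      omega
    · exact h
  set n := j * f with hn
  have hn1 : 1 ≤ n := Nat.mul_pos hj1 hf0
  have hnle : n ≤ p + 1 := by
    have h1 : n * (p - 1) ≤ (p + 1) * (p - 1) := by
      calc n * (p - 1) = (j * (p - 1)) * f := by rw [hn]; ring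
        _ ≤ e * f := Nat.mul_le_mul_right f hjb
        _ = (p + 1) * (p - 1) := by rw [← hf, hsq]; ring
    exact Nat.le_of_mul_le_mul_right h1 (by omega)
  -- `v z = v (ϖ ^ n)`
  have hvϖ : P.valuation ϖ ^ (p ^ 2 - 1) = P.valuation ((p : ℕ) : Qb) := by
    rw [← map_pow, hϖ, Valuation.map_neg]
  have hϖ0 : ϖ ≠ 0 := by
    intro h
    rw [h, map_zero, zero_pow hm.ne'] at hvϖ
    exact hr0 hvϖ.symm
  have hvz : P.valuation z = P.valuation (ϖ ^ n) := by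
    have h1 : P.valuation z ^ (p ^ 2 - 1) = P.valuation (ϖ ^ n) ^ (p ^ 2 - 1) := by
      calc P.valuation z ^ (p ^ 2 - 1) = (P.valuation z ^ e) ^ f := by rw [hf, pow_mul]
        _ = (P.valuation ϖ ^ (p ^ 2 - 1)) ^ (j * f) := by rw [hj, hvϖ, pow_mul]
        _ = P.valuation (ϖ ^ n) ^ (p ^ 2 - 1) := by
          rw [map_pow, ← pow_mul, ← pow_mul, mul_comm]
    exact (pow_left_inj₀ zero_le zero_le hm.ne').mp h1
  have hιψ : ∀ σ : s56fc_In P,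
      ι ⟨((χ σ : kˣ) : k), Subring.subset_closure ⟨σ, rfl⟩⟩ = s56fc_theta P σ ϖ ^ n := by
    intro σ
    rw [hι σ, s56fc_theta_congr hctx hv σ hz hvz, s56fc_theta_pow hv σ hϖ0]
  -- the determinant
  have : NeZero p := ⟨hp.out.ne_zero⟩
  obtain ⟨ζ, hζ⟩ := HasEnoughRootsOfUnity.exists_primitiveRoot Qb p
  have hvζ : P.valuation (ζ - 1) = P.valuation (ϖ ^ (p + 1)) := by
    have h1 : P.valuation (ζ - 1) ^ (p - 1) = P.valuation (ϖ ^ (p + 1)) ^ (p - 1) := by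
      rw [s56fc_val_zeta (A := P) hp.out hζ, map_pow, ← pow_mul, ← hvϖ, hsq]
      congr 1
      ring
    exact (pow_left_inj₀ zero_le zero_le (by omega)).mp h1
  have hζ1 : ζ - 1 ≠ 0 := s56fc_zeta_sub_one_ne (L := Qb) hp.out hζ
  have hrel : ∀ σ : s56fc_In P,
      s56fc_theta P σ ϖ ^ (n * (p + 1)) = s56fc_theta P σ ϖ ^ (p + 1) := by
    intro σ
    obtain ⟨a, haζ, ha⟩ := s56fc_zeta_pow hp.out.pos hζ (σ : GQ)
    have h1 : s56fc_theta P σ (ζ - 1) = ((a : ℕ) : IsLocalRing.ResidueField ↥P) :=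
      s56fc_theta_zeta hctx hζ σ a haζ
    rw [s56fc_theta_congr hctx hv σ hζ1 hvζ, s56fc_theta_pow hv σ hϖ0] at h1
    rw [h1, pow_mul, ← hιψ σ, ← map_pow, ← map_natCast ι a]
    congr 1
    apply Subtype.ext
    show ((χ σ : kˣ) : k) ^ (p + 1) = ((a : ℕ) : k)
    exact hdetχ σ a ha
  -- a generator of the tame quotient
  have : NeZero (p ^ 2 - 1) := ⟨hm.ne'⟩
  obtain ⟨ζ₀, hζ₀⟩ := HasEnoughRootsOfUnity.exists_primitiveRoot Qb (p ^ 2 - 1)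
  have hfix : ∀ σ : s56fc_In P, σ • ϖ ^ (p ^ 2 - 1) = ϖ ^ (p ^ 2 - 1) := by
    intro σ
    rw [hϖ]
    show (σ : GQ) (-((p : ℕ) : Qb)) = _
    rw [map_neg, map_natCast]
  obtain ⟨σ₁, hσ₁⟩ := s56fc_orbit_full hctx hm hfix hvϖ hζ₀.pow_eq_one
  have hvζ₀ : P.valuation ζ₀ = 1 := s56fc_val_root hm hζ₀.pow_eq_one
  have hζ₀A : ζ₀ ∈ P := (P.valuation_le_one_iff _).mp hvζ₀.le
  have hψ₁ : s56fc_theta P σ₁ ϖ = IsLocalRing.residue ↥P ⟨ζ₀, hζ₀A⟩ := by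
    have h1 : σ₁ • ϖ / ϖ = ζ₀ := by rw [hσ₁, mul_div_cancel_right₀ _ hϖ0]
    have h2 : σ₁ • ϖ / ϖ ∈ P := by rw [h1]; exact hζ₀A
    rw [s56fc_theta_eq h2]
    congr 1
    exact Subtype.ext h1
  have hdvd : (p - 1) ∣ (n - 1) := by
    have h1 := hrel σ₁
    rw [hψ₁, ← map_pow, ← map_pow] at h1
    have h2 : (⟨ζ₀, hζ₀A⟩ : ↥P) ^ (n * (p + 1)) = ⟨ζ₀ ^ (n * (p + 1)), pow_mem hζ₀A _⟩ :=
      Subtype.ext rfl
    have h3 : (⟨ζ₀, hζ₀A⟩ : ↥P) ^ (p + 1) = ⟨ζ₀ ^ (p + 1), pow_mem hζ₀A _⟩ := Subtype.ext rfl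
    rw [h2, h3, s56fc_residue_eq_iff] at h1
    have e1 : ζ₀ ^ (n * (p + 1)) - ζ₀ ^ (p + 1)
        = ζ₀ ^ (p + 1) * (ζ₀ ^ ((n - 1) * (p + 1)) - 1) := by
      rw [mul_sub, mul_one, ← pow_add]
      congr 2
      have e3 : n = (n - 1) + 1 := by omega
      conv_lhs => rw [e3]
      ring
    rw [e1, map_mul, map_pow, hvζ₀, one_pow, one_mul] at h1
    have hvm : P.valuation (((p ^ 2 - 1 : ℕ) : ℕ) : Qb) = 1 := by
      have e2 : (((p ^ 2 - 1 : ℕ) : ℕ) : Qb) = ((p : ℕ) : Qb) ^ 2 - 1 := by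
        rw [Nat.cast_sub (Nat.one_le_pow _ _ hp.out.pos)]
        push_cast
        ring
      rw [e2]
      have hplt : P.valuation (((p : ℕ) : Qb) ^ 2) < 1 := by
        rw [map_pow]
        have h5 : P.valuation ((p : ℕ) : Qb) < 1 := by
          have := hctx.r_mem
          rwa [ValuationSubring.mem_nonunits_iff] at this
        exact pow_lt_one' h5 (by norm_num)
      have h6 := Valuation.map_sub_eq_of_lt_right P.valuation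
        (x := ((p : ℕ) : Qb) ^ 2) (y := 1) (by rw [map_one]; exact hplt)
      rw [h6, map_one]
    have h4 := s56fc_root_eq_one (A := P) (ξ := ζ₀ ^ ((n - 1) * (p + 1))) (m := p ^ 2 - 1)
      (by rw [← pow_mul, mul_comm, pow_mul, hζ₀.pow_eq_one, one_pow]) hvm h1
    have h5 := hζ₀.dvd_of_pow_eq_one _ h4
    rw [hsq] at h5
    exact Nat.dvd_of_mul_dvd_mul_right (by omega) h5
  obtain ⟨t, ht⟩ := hdvd
  have ht1 : t ≤ 1 := by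
    by_contra hgt
    have h2 : 2 ≤ t := by omega
    have h3 : 2 * (p - 1) ≤ (p - 1) * t := by
      rw [mul_comm]
      exact Nat.mul_le_mul_left _ h2
    omega
  rcases Nat.le_one_iff_eq_zero_or_eq_one.mp ht1 with h0 | h1
  · left
    have hn' : n = 1 := by
      rw [h0, mul_zero] at ht
      omega
    intro σ
    rw [hιψ σ, hn', pow_one]
  · right
    have hn' : n = p := by
      rw [h1, mul_one] at ht
      omega
    intro σ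
    rw [hιψ σ, hn']

end level

section group

variable {p : ℕ} [hp : Fact p.Prime] {k : Type} [Field k] [Finite k]
  (B : GQ →* Matrix (Fin 2) (Fin 2) k) (P : ValuationSubring Qb)

/-- at finite level the decomposition group is generated by inertia and a Frobenius. -/
theorem s56fc_gen_of_frob (hP : P.LiesOverPrime p)
    (hlev : ∃ L : IntermediateField ℚ Qb, FiniteDimensional ℚ L ∧
      ∀ σ : GQ, (∀ x ∈ L, σ x = x) → B σ = 1)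
    {φ : GQ} (hφ : P.IsFrobeniusAt φ p) :
    ∀ τ ∈ P.decompositionSubgroup ℚ, ∃ n : ℕ, ∃ i ∈ P.inertiaSubgroupIn ℚ,
      B τ = B φ ^ n * B i := by
  obtain ⟨L, hL, hBL⟩ := hlev
  intro τ hτ
  obtain ⟨n, i, hi, s, hs, rfl⟩ := s56ld_frob_gen' P L hφ hp.out hP hτ
  refine ⟨n, i, hi, ?_⟩
  have hs1 : B s = 1 := hBL s fun x hx => by
    have := (IntermediateField.mem_fixingSubgroup_iff L s).mp hs x hx
    exact this
  rw [map_mul, map_mul, map_pow, hs1, mul_one]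

/-- **no stable line  ⟹  wild inertia acts trivially and `B(I_P)` is abelian.** -/
theorem s56fc_abel (hP : P.LiesOverPrime p)
    {H : Subalgebra ↥(ffi_O P ↥(ffi_L P)) (s56fi_Mod B → Qb)}
    (hH : mzo_IsOrder P (s56fc_In P) (s56fi_Mod B) H)
    (hirr : ¬ ∃ u : Fin 2 → k, u ≠ 0 ∧
      ∀ τ ∈ P.decompositionSubgroup ℚ, ∃ x : k, B τ *ᵥ u = x • u) :
    ∀ σ ∈ P.inertiaSubgroupIn ℚ, ∀ τ ∈ P.inertiaSubgroupIn ℚ, B σ * B τ = B τ * B σ := by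
  have hctx := mzg_ctx p P hP
  have : IsDiscreteValuationRing ↥(ffi_O P ↥(ffi_L P)) := mzg_ctx_dvr p P hP
  have hv := s56fc_in_val P
  set N : Set GQ := {σ | ∃ h : σ ∈ P.inertiaSubgroupIn ℚ, s56fc_Wild P (⟨σ, h⟩ : s56fc_In P)}
    with hN
  have hnt : ∃ x : s56fi_Mod B, x ≠ 0 := by
    refine ⟨s56fi_of B (Pi.single 0 1), fun h => ?_⟩
    have h0 : (Pi.single (0 : Fin 2) (1 : k) : Fin 2 → k) 0 = (0 : Fin 2 → k) 0 := congrFun h 0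
    rw [Pi.single_eq_same, Pi.zero_apply] at h0
    exact one_ne_zero h0
  obtain ⟨x, hx, hxfix⟩ := s56fc_wild_fixed hctx hH hnt
  have htriv : ∀ σ ∈ N, B σ = 1 := by
    refine s56fc_triv_of_fixed B (P.decompositionSubgroup ℚ) N ?_ hirr ?_
    · rintro τ hτ σ ⟨hσ, hw⟩
      refine ⟨s56fc_conj_mem_in' P hτ hσ, ?_⟩
      exact s56fc_wild_conj P hτ ⟨σ, hσ⟩ ⟨τ⁻¹ * σ * τ, s56fc_conj_mem_in' P hτ hσ⟩ rfl hw
    · refine ⟨s56fi_vec B x, hx, ?_⟩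
      rintro σ ⟨hσ, hw⟩
      exact hxfix ⟨σ, hσ⟩ hw
  intro σ hσ τ hτ
  have hc : σ * τ * σ⁻¹ * τ⁻¹ ∈ N := by
    have hmem : σ * τ * σ⁻¹ * τ⁻¹ ∈ P.inertiaSubgroupIn ℚ :=
      mul_mem (mul_mem (mul_mem hσ hτ) (inv_mem hσ)) (inv_mem hτ)
    refine ⟨hmem, ?_⟩
    exact s56fc_wild_comm hctx hv (⟨σ, hσ⟩ : s56fc_In P) ⟨τ, hτ⟩
  have h1 := htriv _ hc
  calc B σ * B τ = B (σ * τ) := (map_mul B σ τ).symm
    _ = B ((σ * τ * σ⁻¹ * τ⁻¹) * (τ * σ)) := by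
      congr 1
      group
    _ = B (σ * τ * σ⁻¹ * τ⁻¹) * B (τ * σ) := map_mul B _ _
    _ = B τ * B σ := by rw [h1, one_mul, map_mul]

end group

section ss

variable {p : ℕ} [hp : Fact p.Prime] {k : Type} [Field k] [Finite k]
  (B : GQ →* Matrix (Fin 2) (Fin 2) k) (P : ValuationSubring Qb)

/-- **the supersingular shape**: in a basis `e₁, e₂` the inertia group acts through
`χ ⊕ χ ^ p`, `χ` a fundamental character of level `2` (`ι ∘ χ = θ_ϖ`, `ϖ ^ (p² - 1) = -p`), the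
decomposition group preserves or swaps the two lines, every Frobenius swaps them, and there is no
stable line. -/
def s56fc_SS (p : ℕ) (B : GQ →* Matrix (Fin 2) (Fin 2) k) (P : ValuationSubring Qb) : Prop :=
  ∃ (e₁ e₂ : Fin 2 → k) (χ : s56fc_In P →* kˣ) (ϖ : Qb),
    s56fc_wedge e₁ e₂ ≠ 0 ∧ ϖ ^ (p ^ 2 - 1) = -((p : ℕ) : Qb) ∧
    (∀ σ : s56fc_In P, B (σ : GQ) *ᵥ e₁ = ((χ σ : kˣ) : k) • e₁ ∧
      B (σ : GQ) *ᵥ e₂ = ((χ σ : kˣ) : k) ^ p • e₂) ∧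
    (∃ σ₀ : s56fc_In P, ((χ σ₀ : kˣ) : k) ^ p ≠ ((χ σ₀ : kˣ) : k)) ∧
    (∀ σ : s56fc_In P, χ σ ^ (p ^ 2 - 1) = 1) ∧
    (∃ (F : Subring k) (hF : ∀ σ : s56fc_In P, ((χ σ : kˣ) : k) ∈ F)
       (ι : ↥F →+* IsLocalRing.ResidueField ↥P),
       ∀ σ : s56fc_In P, ι ⟨((χ σ : kˣ) : k), hF σ⟩ = s56fc_theta P σ ϖ) ∧
    (∀ σ : s56fc_In P, σ • ϖ = ϖ → B (σ : GQ) = 1) ∧
    (∀ τ ∈ P.decompositionSubgroup ℚ,
      ((∃ x : k, B τ *ᵥ e₁ = x • e₁) ∧ ∃ y : k, B τ *ᵥ e₂ = y • e₂) ∨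
      ((∃ x : k, B τ *ᵥ e₁ = x • e₂) ∧ ∃ y : k, B τ *ᵥ e₂ = y • e₁)) ∧
    (∀ φ : GQ, P.IsFrobeniusAt φ p →
      (∃ x : k, B φ *ᵥ e₁ = x • e₂) ∧ ∃ y : k, B φ *ᵥ e₂ = y • e₁) ∧
    ¬ ∃ u : Fin 2 → k, u ≠ 0 ∧ ∀ τ ∈ P.decompositionSubgroup ℚ, ∃ x : k, B τ *ᵥ u = x • u

/-- packaging. -/
theorem s56fc_ss_mk (e₁ e₂ : Fin 2 → k) (χ : s56fc_In P →* kˣ)
    (ϖ : Qb) (hW : s56fc_wedge e₁ e₂ ≠ 0) (hϖ : ϖ ^ (p ^ 2 - 1) = -((p : ℕ) : Qb))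
    (hI : ∀ σ : s56fc_In P, B (σ : GQ) *ᵥ e₁ = ((χ σ : kˣ) : k) • e₁ ∧
      B (σ : GQ) *ᵥ e₂ = ((χ σ : kˣ) : k) ^ p • e₂)
    (hσ₀ : ∃ σ₀ : s56fc_In P, ((χ σ₀ : kˣ) : k) ^ p ≠ ((χ σ₀ : kˣ) : k))
    (hpow : ∀ σ : s56fc_In P, χ σ ^ (p ^ 2 - 1) = 1)
    (F : Subring k) (hF : ∀ σ : s56fc_In P, ((χ σ : kˣ) : k) ∈ F)
    (ι : ↥F →+* IsLocalRing.ResidueField ↥P)
    (hι : ∀ σ : s56fc_In P, ι ⟨((χ σ : kˣ) : k), hF σ⟩ = s56fc_theta P σ ϖ)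
    (hD : ∀ τ ∈ P.decompositionSubgroup ℚ,
      ((∃ x : k, B τ *ᵥ e₁ = x • e₁) ∧ ∃ y : k, B τ *ᵥ e₂ = y • e₂) ∨
      ((∃ x : k, B τ *ᵥ e₁ = x • e₂) ∧ ∃ y : k, B τ *ᵥ e₂ = y • e₁))
    (hgen : ∀ φ : GQ, P.IsFrobeniusAt φ p → ∀ τ ∈ P.decompositionSubgroup ℚ,
      ∃ n : ℕ, ∃ i ∈ P.inertiaSubgroupIn ℚ, B τ = B φ ^ n * B i)
    (hirr : ¬ ∃ u : Fin 2 → k, u ≠ 0 ∧
      ∀ τ ∈ P.decompositionSubgroup ℚ, ∃ x : k, B τ *ᵥ u = x • u) :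
    s56fc_SS p B P := by
  have hv := s56fc_in_val P
  have hp1 : 1 < p := hp.out.one_lt
  have hm : 0 < p ^ 2 - 1 := by
    rw [s56fc_sq_sub_one p hp1.le]
    exact Nat.mul_pos (by omega) (by omega)
  have hϖ0 : ϖ ≠ 0 := by
    intro h
    rw [h, zero_pow hm.ne'] at hϖ
    have h1 : ((p : ℕ) : Qb) = 0 := by
      rw [← neg_eq_zero]
      exact hϖ.symm
    exact hp.out.ne_zero (Nat.cast_eq_zero.mp h1)
  have he₁ : e₁ ≠ 0 := s56fc_wedge_ne_left hW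
  refine ⟨e₁, e₂, χ, ϖ, hW, hϖ, hI, hσ₀, hpow, ⟨F, hF, ι, hι⟩, ?_, hD, ?_, hirr⟩
  · intro σ hσ
    have h1 : s56fc_theta P σ ϖ = 1 := by
      rw [s56fc_theta_eq_one_iff hv σ hϖ0, hσ, sub_self, map_zero]
      exact zero_lt_iff.mpr ((map_ne_zero _).mpr hϖ0)
    rw [← hι σ, ← map_one ι] at h1
    have h2 := s56fc_iota_injective F ι h1
    have h3 : ((χ σ : kˣ) : k) = 1 := congrArg Subtype.val h2
    apply s56fc_eq_of_mulVec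
    intro v
    refine s56fc_mulVec_eq_of_basis hW ?_ ?_ v
    · rw [(hI σ).1, h3, one_smul, Matrix.one_mulVec]
    · rw [(hI σ).2, h3, one_pow, one_smul, Matrix.one_mulVec]
  · intro φ hφ
    have hφD : φ ∈ P.decompositionSubgroup ℚ := hφ.mem_decompositionSubgroup
    rcases hD φ hφD with ⟨⟨x, hx⟩, -⟩ | h
    · exfalso
      apply hirr
      refine ⟨e₁, he₁, fun τ hτ => ?_⟩
      obtain ⟨n, i, hi, hτi⟩ := hgen φ hφ τ hτ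
      refine ⟨((χ ⟨i, hi⟩ : kˣ) : k) * x ^ n, ?_⟩
      rw [hτi, ← Matrix.mulVec_mulVec, (hI ⟨i, hi⟩).1, Matrix.mulVec_smul,
        s56fc_pow_mulVec hx, smul_smul]
    · exact h

end ss

section main

variable {p : ℕ} [hp : Fact p.Prime] {k : Type} [Field k] [Finite k] [CharP k p]
  (B : GQ →* Matrix (Fin 2) (Fin 2) k) (P : ValuationSubring Qb)

/-- **the irreducible case**: no `D_P`-stable line gives the supersingular shape. -/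
theorem s56fc_classI (hp2 : p ≠ 2) (hP : P.LiesOverPrime p)
    (hdet : ∀ (σ : GQ) (a : ℕ), (∀ μ : Qb, μ ^ p = 1 → σ μ = μ ^ a) → (B σ).det = (a : k))
    (hlev : ∃ L : IntermediateField ℚ Qb, FiniteDimensional ℚ L ∧
      ∀ σ : GQ, (∀ x ∈ L, σ x = x) → B σ = 1)
    (heig : ∀ σ : GQ, ∃ (α : k) (u : Fin 2 → k), u ≠ 0 ∧ B σ *ᵥ u = α • u)
    {H : Subalgebra ↥(ffi_O P ↥(ffi_L P)) (s56fi_Mod B → Qb)}
    (hH : mzo_IsOrder P (s56fc_In P) (s56fi_Mod B) H)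
    (hirr : ¬ ∃ u : Fin 2 → k, u ≠ 0 ∧
      ∀ τ ∈ P.decompositionSubgroup ℚ, ∃ x : k, B τ *ᵥ u = x • u) :
    s56fc_SS p B P := by
  have hctx := mzg_ctx p P hP
  have : IsDiscreteValuationRing ↥(ffi_O P ↥(ffi_L P)) := mzg_ctx_dvr p P hP
  have hv := s56fc_in_val P
  have hpk : ((p : ℕ) : k) = 0 := CharP.cast_eq_zero k p
  have hp1 : 1 < p := hp.out.one_lt
  have hsq := s56fc_sq_sub_one p hp1.le
  have hm : 0 < p ^ 2 - 1 := by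
    rw [hsq]
    exact Nat.mul_pos (by omega) (by omega)
  have habel := s56fc_abel B P hP hH hirr
  obtain ⟨φ, hφF, hφP, hφI, -⟩ := mzf3_tfa_exists P hp.out hP
  have hφD : φ ∈ P.decompositionSubgroup ℚ := (s56fc_mem_dec_iff P φ).mpr hφP
  have hgenF : ∀ φ' : GQ, P.IsFrobeniusAt φ' p → ∀ τ ∈ P.decompositionSubgroup ℚ,
      ∃ n : ℕ, ∃ i ∈ P.inertiaSubgroupIn ℚ, B τ = B φ' ^ n * B i :=
    fun φ' hφ' => s56fc_gen_of_frob B P hP hlev hφ'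
  obtain ⟨e₁, e₂, hW, hI, ⟨σ₀, hσ₀, x₀, y₀, hxy, hx₀, hy₀⟩, hD, ⟨xφ, hxφ⟩, ⟨yφ, hyφ⟩⟩ :=
    s56fc_cliff B (P.inertiaSubgroupIn ℚ) (P.decompositionSubgroup ℚ)
      (fun σ hσ => s56fc_in_le_dec P hσ) (fun τ hτ σ hσ => s56fc_conj_mem_in' P hτ hσ) habel
      (fun σ _ => heig σ) hirr hφD (hgenF φ hφF)
  have he₁ : e₁ ≠ 0 := s56fc_wedge_ne_left hW
  have he₂ : e₂ ≠ 0 := s56fc_wedge_ne_right hW
  obtain ⟨χ₁, hχ₁⟩ := s56fc_char_of_eigen B (P.inertiaSubgroupIn ℚ) he₁ fun σ hσ => (hI σ hσ).1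
  obtain ⟨χ₂, hχ₂⟩ := s56fc_char_of_eigen B (P.inertiaSubgroupIn ℚ) he₂ fun σ hσ => (hI σ hσ).2
  have hxφ0 : xφ ≠ 0 := by
    intro h
    rw [h, zero_smul] at hxφ
    exact s56fc_mulVec_ne_zero B φ he₁ hxφ
  have hyφ0 : yφ ≠ 0 := by
    intro h
    rw [h, zero_smul] at hyφ
    exact s56fc_mulVec_ne_zero B φ he₂ hyφ
  -- conjugation by `φ⁻¹`
  set cj : s56fc_In P → s56fc_In P :=
    fun σ => ⟨φ⁻¹ * (σ : GQ) * φ, s56fc_conj_mem_in' P hφD σ.2⟩ with hcj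
  have hstar : ∀ σ : s56fc_In P, ((χ₂ σ : kˣ) : k) = ((χ₁ (cj σ) : kˣ) : k) := by
    intro σ
    have h1 := s56fc_conj_mulVec B (σ : GQ) φ e₁
    have h2 : B (φ⁻¹ * (σ : GQ) * φ) *ᵥ e₁ = ((χ₁ (cj σ) : kˣ) : k) • e₁ := hχ₁ (cj σ)
    rw [hxφ, Matrix.mulVec_smul, hχ₂ σ, h2, Matrix.mulVec_smul, hxφ, smul_smul, smul_smul] at h1
    have h3 := s56fc_smul_eq_smul he₂ h1
    exact mul_left_cancel₀ hxφ0 (by linear_combination h3)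
  have hstar' : ∀ σ : s56fc_In P, ((χ₁ σ : kˣ) : k) = ((χ₂ (cj σ) : kˣ) : k) := by
    intro σ
    have h1 := s56fc_conj_mulVec B (σ : GQ) φ e₂
    have h2 : B (φ⁻¹ * (σ : GQ) * φ) *ᵥ e₂ = ((χ₂ (cj σ) : kˣ) : k) • e₂ := hχ₂ (cj σ)
    rw [hyφ, Matrix.mulVec_smul, hχ₁ σ, h2, Matrix.mulVec_smul, hyφ, smul_smul, smul_smul] at h1
    have h3 := s56fc_smul_eq_smul he₁ h1
    exact mul_left_cancel₀ hyφ0 (by linear_combination h3)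
  have hx₀' : ((χ₁ ⟨σ₀, hσ₀⟩ : kˣ) : k) = x₀ :=
    s56fc_smul_eq_smul he₁ ((hχ₁ ⟨σ₀, hσ₀⟩).symm.trans hx₀)
  have hy₀' : ((χ₂ ⟨σ₀, hσ₀⟩ : kˣ) : k) = y₀ :=
    s56fc_smul_eq_smul he₂ ((hχ₂ ⟨σ₀, hσ₀⟩).symm.trans hy₀)
  have hH₁ := s56fc_sub_order B P hH χ₁ he₁ hχ₁
  rcases s56fc_line hctx hpk χ₁ hH₁ with htriv | ⟨z, hz, hz1, -, ⟨ι, hι⟩, j, hj1, hj, hjb⟩
  · exfalso
    apply hxy
    rw [← hx₀', ← hy₀', hstar, htriv, htriv]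
  -- FROBENIUS
  have hdia : ∀ σ : s56fc_In P, χ₁ σ = χ₁ (cj σ) ^ p := by
    intro σ
    refine s56fc_line_conj hctx hv χ₁ hz ι hι (φ : Qb ≃ₐ[ℚ] Qb).toRingEquiv
      (fun z => s56fc_dec_val P hφD z) (fun a ha => (mzf3_tfa_unfold P hφF).2 a ha) (cj σ) σ
      (fun a => ?_)
    show (σ : GQ) a = φ ((φ⁻¹ * (σ : GQ) * φ) (φ.symm a))
    rw [AlgEquiv.mul_apply, AlgEquiv.mul_apply, AlgEquiv.apply_symm_apply]
    exact (φ.apply_symm_apply _).symm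
  have hA : ∀ σ : s56fc_In P, ((χ₁ σ : kˣ) : k) = ((χ₂ σ : kˣ) : k) ^ p := by
    intro σ
    rw [hstar σ, hdia σ, Units.val_pow_eq_pow_val]
  have hB : ∀ σ : s56fc_In P, ((χ₂ σ : kˣ) : k) = ((χ₁ σ : kˣ) : k) ^ p := by
    intro σ
    rw [hstar σ, hA (cj σ), ← hstar' σ]
  have hpow : ∀ σ : s56fc_In P, χ₁ σ ^ (p ^ 2 - 1) = 1 := by
    intro σ
    have h1 : ((χ₁ σ : kˣ) : k) ^ (p ^ 2) = ((χ₁ σ : kˣ) : k) := by
      rw [pow_two, pow_mul, ← hB σ, ← hA σ]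
    apply Units.ext
    rw [Units.val_pow_eq_pow_val, Units.val_one]
    have e : p ^ 2 = (p ^ 2 - 1) + 1 := by omega
    rw [e, pow_succ] at h1
    exact mul_right_cancel₀ (Units.ne_zero (χ₁ σ)) (by rw [h1, one_mul])
  have hpow₂ : ∀ σ : s56fc_In P, χ₂ σ ^ (p ^ 2 - 1) = 1 := by
    intro σ
    have h1 : ((χ₂ σ : kˣ) : k) ^ (p ^ 2) = ((χ₂ σ : kˣ) : k) := by
      rw [pow_two, pow_mul, ← hA σ, ← hB σ]
    apply Units.ext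
    rw [Units.val_pow_eq_pow_val, Units.val_one]
    have e : p ^ 2 = (p ^ 2 - 1) + 1 := by omega
    rw [e, pow_succ] at h1
    exact mul_right_cancel₀ (Units.ne_zero (χ₂ σ)) (by rw [h1, one_mul])
  -- the determinant
  have hdetχ : ∀ (σ : s56fc_In P) (a : ℕ), (∀ μ : Qb, μ ^ p = 1 → (σ : GQ) μ = μ ^ a) →
      ((χ₁ σ : kˣ) : k) ^ (p + 1) = (a : k) := by
    intro σ a ha
    rw [← hdet (σ : GQ) a ha]
    have h1 := s56fc_wedge_mulVec (B (σ : GQ)) e₁ e₂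
    rw [hχ₁ σ, hχ₂ σ, s56fc_wedge_smul_left, s56fc_wedge_smul_right, hB σ] at h1
    have h2 : ((χ₁ σ : kˣ) : k) * ((χ₁ σ : kˣ) : k) ^ p = (B (σ : GQ)).det :=
      mul_right_cancel₀ hW (by linear_combination h1)
    rw [pow_succ, mul_comm]
    exact h2
  obtain ⟨ϖ, hϖ⟩ := IsAlgClosed.exists_pow_nat_eq (-((p : ℕ) : Qb)) hm
  have hϖ0 : ϖ ≠ 0 := by
    intro h
    rw [h, zero_pow hm.ne'] at hϖ
    have h1 : ((p : ℕ) : Qb) = 0 := by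
      rw [← neg_eq_zero]
      exact hϖ.symm
    exact hp.out.ne_zero (Nat.cast_eq_zero.mp h1)
  -- `ψ ^ (p²) = ψ`
  have hψ : ∀ σ : s56fc_In P, s56fc_theta P σ ϖ ^ (p ^ 2) = s56fc_theta P σ ϖ := by
    intro σ
    have h1 : s56fc_theta P σ ϖ ^ (p ^ 2 - 1) = 1 := by
      rw [← s56fc_theta_pow hv σ hϖ0, hϖ]
      have hne : -((p : ℕ) : Qb) ≠ 0 := by
        rw [← hϖ]
        exact pow_ne_zero _ hϖ0
      rw [s56fc_theta_eq_one_iff hv σ hne]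
      have e : σ • (-((p : ℕ) : Qb)) = -((p : ℕ) : Qb) := by
        show (σ : GQ) (-((p : ℕ) : Qb)) = _
        rw [map_neg, map_natCast]
      rw [e, sub_self, map_zero]
      exact zero_lt_iff.mpr ((map_ne_zero _).mpr hne)
    have e : p ^ 2 = (p ^ 2 - 1) + 1 := by omega
    rw [e, pow_succ, h1, one_mul]
  have hσ₀₁ : ((χ₁ ⟨σ₀, hσ₀⟩ : kˣ) : k) ^ p ≠ ((χ₁ ⟨σ₀, hσ₀⟩ : kˣ) : k) := by
    rw [← hB, hx₀', hy₀']
    exact fun h => hxy h.symm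
  have hσ₀₂ : ((χ₂ ⟨σ₀, hσ₀⟩ : kˣ) : k) ^ p ≠ ((χ₂ ⟨σ₀, hσ₀⟩ : kˣ) : k) := by
    rw [← hA, hx₀', hy₀']
    exact hxy
  rcases s56fc_ss_level P hp2 hP χ₁ hpow hdetχ hz ι hι hj1 hj hjb hϖ with h | h
  · refine s56fc_ss_mk B P e₁ e₂ χ₁ ϖ hW hϖ (fun σ => ⟨hχ₁ σ, ?_⟩) ⟨⟨σ₀, hσ₀⟩, hσ₀₁⟩ hpow
      (Subring.closure (Set.range fun σ : s56fc_In P => ((χ₁ σ : kˣ) : k)))
      (fun σ => Subring.subset_closure ⟨σ, rfl⟩) ι h hD hgenF hirr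
    rw [hχ₂ σ, hB σ]
  · have hW' : s56fc_wedge e₂ e₁ ≠ 0 := by
      rw [s56fc_wedge_swap]
      exact neg_ne_zero.mpr hW
    have hF : ∀ σ : s56fc_In P, ((χ₂ σ : kˣ) : k)
        ∈ Subring.closure (Set.range fun σ : s56fc_In P => ((χ₁ σ : kˣ) : k)) := by
      intro σ
      rw [hB σ]
      have h0 : ((χ₁ σ : kˣ) : k)
          ∈ Subring.closure (Set.range fun σ : s56fc_In P => ((χ₁ σ : kˣ) : k)) :=
        Subring.subset_closure ⟨σ, rfl⟩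
      exact pow_mem h0 p
    refine s56fc_ss_mk B P e₂ e₁ χ₂ ϖ hW' hϖ (fun σ => ⟨hχ₂ σ, ?_⟩) ⟨⟨σ₀, hσ₀⟩, hσ₀₂⟩ hpow₂
      _ hF ι (fun σ => ?_) (fun τ hτ => ?_) hgenF hirr
    · rw [hχ₁ σ, hA σ]
    · have e : (⟨((χ₂ σ : kˣ) : k), hF σ⟩ : ↥(Subring.closure
          (Set.range fun σ : s56fc_In P => ((χ₁ σ : kˣ) : k))))
          = ⟨((χ₁ σ : kˣ) : k), Subring.subset_closure ⟨σ, rfl⟩⟩ ^ p :=
        Subtype.ext (hB σ)
      rw [e, map_pow, h σ, ← pow_mul, ← pow_two, hψ σ]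
    · rcases hD τ hτ with ⟨h1, h2⟩ | ⟨h1, h2⟩
      · exact Or.inl ⟨h2, h1⟩
      · exact Or.inr ⟨h2, h1⟩

end main

end Fermat.Agent.S56
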