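/-
Project S56 (Taylor–Wiles primes), node [LOC-p-FLAT], cell [F-CLASS] part 7 (helper13).
Prefix `s56fc_`.  Namespace `Fermat.Agent.S56`.
THE REDUCIBLE CASE: a `D_P`-stable line  ⟹  the ORDINARY shape.

* `s56fc_Ord B P`     : there is a `D_P`-stable line `k u₀` on which `I_P` acts through `det ∘ B`
                        and `I_P` acts trivially on `k² / k u₀`
                        (`∀ σ ∈ D_P ∃ x z, B σ u₀ = x u₀ ∧ (∀ v ∃ t, B σ v - z v = t u₀) ∧ (σ ∈ I_P → z = 1 ∧ x = det (B σ))`);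
* `s56fc_ord_of_line` : a `D_P`-stable line on which `I_P` acts through `det ∘ B` gives `s56fc_Ord`;
* `s56fc_exists_det_ne_one` : `det ∘ B` (cyclotomic) is non-trivial on `I_P`;
* `s56fc_classR`      : `B` with an order on `s56fi_Mod B`, `det ∘ B` cyclotomic and a `D_P`-stable
                        line  ⟹  `s56fc_Ord B P` (after swapping the two lines in the split case).
-/
import Mathlib
import Fermat.Agent.S56.Flat.ClassL

set_option autoImplicit false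
set_option linter.unusedSectionVars false

noncomputable section

namespace Fermat.Agent.S56

open Fermat.Agent.MZ Fermat.Agent.FF Fermat.Agent.S53 Fermat.Agent.S55 Matrix
open scoped Pointwise

local notation "Qb" => AlgebraicClosure ℚ

section

variable {k : Type} [Field k] (B : GQ →* Matrix (Fin 2) (Fin 2) k) (P : ValuationSubring Qb)

/-- **the ordinary shape.** -/
def s56fc_Ord : Prop :=
  ∃ u₀ : Fin 2 → k, u₀ ≠ 0 ∧ ∀ σ ∈ P.decompositionSubgroup ℚ, ∃ x z : k,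
    B σ *ᵥ u₀ = x • u₀ ∧ (∀ v : Fin 2 → k, ∃ t : k, B σ *ᵥ v - z • v = t • u₀) ∧
    (σ ∈ P.inertiaSubgroupIn ℚ → z = 1 ∧ x = (B σ).det)

/-- a `D_P`-stable line on which `I_P` acts through the determinant gives the ordinary shape. -/
theorem s56fc_ord_of_line {u : Fin 2 → k} (hu : u ≠ 0)
    (hD : ∀ τ ∈ P.decompositionSubgroup ℚ, ∃ x : k, B τ *ᵥ u = x • u)
    (hI : ∀ σ ∈ P.inertiaSubgroupIn ℚ, B σ *ᵥ u = (B σ).det • u) : s56fc_Ord B P := by
  refine ⟨u, hu, fun σ hσ => ?_⟩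
  obtain ⟨x, hx⟩ := hD σ hσ
  have hx0 : x ≠ 0 := by
    intro h
    rw [h, zero_smul] at hx
    exact s56fc_mulVec_ne_zero B σ hu hx
  refine ⟨x, (B σ).det / x, hx, fun v => ?_, fun hσI => ?_⟩
  · apply s56fc_eq_smul_of_wedge hu
    rw [s56fc_wedge_sub_right, s56fc_wedge_smul_right, s56fc_wedge_of_eigen hx0 hx, sub_self]
  · have h1 : x = (B σ).det := s56fc_smul_eq_smul hu (hx.symm.trans (hI σ hσI))
    refine ⟨?_, h1⟩
    rw [← h1, div_self hx0]

end

section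

variable {p : ℕ} [hp : Fact p.Prime] {k : Type} [Field k] [Finite k] [CharP k p]
  (B : GQ →* Matrix (Fin 2) (Fin 2) k) (P : ValuationSubring Qb)

/-- the cyclotomic determinant is non-trivial on inertia. -/
theorem s56fc_exists_det_ne_one (hp2 : p ≠ 2) (hP : P.LiesOverPrime p)
    (hdet : ∀ (σ : GQ) (a : ℕ), (∀ μ : Qb, μ ^ p = 1 → σ μ = μ ^ a) → (B σ).det = (a : k)) :
    ∃ σ : s56fc_In P, (B (σ : GQ)).det ≠ 1 := by
  have : NeZero p := ⟨hp.out.ne_zero⟩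
  obtain ⟨ζ, hζ⟩ := HasEnoughRootsOfUnity.exists_primitiveRoot Qb p
  obtain ⟨σ, hσ⟩ := s56fc_exists_moves_zeta P hp2 hP hζ
  refine ⟨σ, ?_⟩
  obtain ⟨a, haζ, ha⟩ := s56fc_zeta_pow hp.out.pos hζ (σ : GQ)
  rw [hdet (σ : GQ) a ha]
  intro h1
  apply hσ
  have h2 : ((a : ℕ) : k) = ((1 : ℕ) : k) := by rw [h1, Nat.cast_one]
  rw [CharP.natCast_eq_natCast k p] at h2
  show (σ : GQ) ζ = ζ
  rw [haζ]
  have h3 : a % p = 1 := by
    have h4 : a % p = 1 % p := h2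
    rwa [Nat.mod_eq_of_lt hp.out.one_lt] at h4
  rw [← pow_mod_orderOf, ← hζ.eq_orderOf, h3, pow_one]

end

section

variable {p : ℕ} [hp : Fact p.Prime] {k : Type} [Field k] [Finite k] [CharP k p]
  (B : GQ →* Matrix (Fin 2) (Fin 2) k) (P : ValuationSubring Qb)

/-- **the reducible case**: a `D_P`-stable line gives the ordinary shape. -/
theorem s56fc_classR (hp2 : p ≠ 2) (hP : P.LiesOverPrime p)
    (hdet : ∀ (σ : GQ) (a : ℕ), (∀ μ : Qb, μ ^ p = 1 → σ μ = μ ^ a) → (B σ).det = (a : k))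
    {H : Subalgebra ↥(ffi_O P ↥(ffi_L P)) (s56fi_Mod B → Qb)}
    (hH : mzo_IsOrder P (s56fc_In P) (s56fi_Mod B) H)
    (hred : ∃ u : Fin 2 → k, u ≠ 0 ∧
      ∀ τ ∈ P.decompositionSubgroup ℚ, ∃ x : k, B τ *ᵥ u = x • u) :
    s56fc_Ord B P := by
  have hctx := mzg_ctx p P hP
  have : IsDiscreteValuationRing ↥(ffi_O P ↥(ffi_L P)) := mzg_ctx_dvr p P hP
  have : NeZero p := ⟨hp.out.ne_zero⟩
  obtain ⟨u, hu, hux⟩ := hred
  obtain ⟨χ₁D, hχ₁D⟩ := s56fc_char_of_eigen B (P.decompositionSubgroup ℚ) hu hux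
  set χ₂D : ↥(P.decompositionSubgroup ℚ) →* kˣ :=
    s56fc_detChar B (P.decompositionSubgroup ℚ) / χ₁D with hχ₂D
  have hχ₁ : ∀ σ : s56fc_In P,
      B (σ : GQ) *ᵥ u = (((χ₁D.comp (s56fc_inDec P)) σ : kˣ) : k) • u :=
    fun σ => hχ₁D (s56fc_inDec P σ)
  have hχ₂val : ∀ σ : s56fc_In P, (((χ₂D.comp (s56fc_inDec P)) σ : kˣ) : k)
      = (B (σ : GQ)).det / ((χ₁D (s56fc_inDec P σ) : kˣ) : k) := by
    intro σ
    show ((s56fc_detChar B (P.decompositionSubgroup ℚ) (s56fc_inDec P σ)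
      / χ₁D (s56fc_inDec P σ) : kˣ) : k) = _
    rw [Units.val_div_eq_div_val]
    rfl
  have hχ₂ : ∀ (σ : s56fc_In P) (v : Fin 2 → k), s56fc_wedge u (B (σ : GQ) *ᵥ v)
      = (((χ₂D.comp (s56fc_inDec P)) σ : kˣ) : k) * s56fc_wedge u v := by
    intro σ v
    rw [s56fc_wedge_of_eigen (Units.ne_zero _) (hχ₁ σ), hχ₂val]
    rfl
  have hH₁ := s56fc_sub_order B P hH _ hu hχ₁
  have hH₂ := s56fc_quot_order B P hP hH _ hu hχ₂
  have hc₁ := s56fc_line_cyc P B hP hdet χ₁D hH₁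
  have hc₂ := s56fc_line_cyc P B hP hdet χ₂D hH₂
  by_cases h1 : ∀ σ : s56fc_In P, χ₁D (s56fc_inDec P σ) = 1
  · -- `I_P` fixes `u`
    have hufix : ∀ σ : s56fc_In P, B (σ : GQ) *ᵥ u = u := by
      intro σ
      rw [hχ₁ σ]
      show ((χ₁D (s56fc_inDec P σ) : kˣ) : k) • u = u
      rw [h1 σ, Units.val_one, one_smul]
    have hχ₂det : ∀ σ : s56fc_In P,
        (((χ₂D.comp (s56fc_inDec P)) σ : kˣ) : k) = (B (σ : GQ)).det := by
      intro σ
      rw [hχ₂val, h1 σ, Units.val_one, div_one]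
    by_cases h2 : ∀ σ : s56fc_In P, χ₂D (s56fc_inDec P σ) = 1
    · exfalso
      obtain ⟨σ, hσ⟩ := s56fc_exists_det_ne_one B P hp2 hP hdet
      apply hσ
      rw [← hχ₂det σ]
      show ((χ₂D (s56fc_inDec P σ) : kˣ) : k) = 1
      rw [h2 σ, Units.val_one]
    · push Not at h2
      obtain ⟨σ₁, hσ₁⟩ := h2
      have hσ₁' : (B (σ₁ : GQ)).det ≠ 1 := by
        intro h
        apply hσ₁
        apply Units.ext
        rw [Units.val_one, ← h, ← hχ₂det σ₁]
        rfl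
      obtain ⟨v₁, hv₁⟩ : ∃ v₁ : Fin 2 → k, s56fc_wedge u v₁ ≠ 0 := by
        obtain ⟨v, hv⟩ := s56fc_proj_surjective B P (χ₂D.comp (s56fc_inDec P)) hu (s56fc_mk _ 1)
        refine ⟨s56fi_vec B v, ?_⟩
        rw [show s56fc_wedge u (s56fi_vec B v) = 1 from hv]
        exact one_ne_zero
      set x₀ : Fin 2 → k := B (σ₁ : GQ) *ᵥ v₁ - v₁ with hx₀
      have hx₀X : s56fi_of B x₀ ∈ s56fl_X0 hH :=
        s56fl_smul_sub_mem_X0 hctx hH σ₁ (s56fi_of B v₁)
      have hwx₀ : s56fc_wedge u x₀ ≠ 0 := by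
        rw [hx₀, s56fc_wedge_sub_right, hχ₂ σ₁ v₁, hχ₂det σ₁]
        have e : (B (σ₁ : GQ)).det * s56fc_wedge u v₁ - s56fc_wedge u v₁
            = ((B (σ₁ : GQ)).det - 1) * s56fc_wedge u v₁ := by ring
        rw [e]
        exact mul_ne_zero (sub_ne_zero.mpr hσ₁') hv₁
      have hx₀0 : x₀ ≠ 0 := s56fc_wedge_ne_right hwx₀
      obtain ⟨ζ, hζ⟩ := HasEnoughRootsOfUnity.exists_primitiveRoot Qb p
      -- inertia acts on `x₀` through the determinant
      have hIx₀ : ∀ σ : s56fc_In P, B (σ : GQ) *ᵥ x₀ = (B (σ : GQ)).det • x₀ := by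
        intro σ
        set y : Fin 2 → k := B (σ : GQ) *ᵥ x₀ - (B (σ : GQ)).det • x₀ with hy
        have hwy : s56fc_wedge u y = 0 := by
          rw [hy, s56fc_wedge_sub_right, s56fc_wedge_smul_right, hχ₂ σ x₀, hχ₂det σ, sub_self]
        obtain ⟨t, ht⟩ := s56fc_eq_smul_of_wedge hu hwy
        obtain ⟨a, -, ha⟩ := s56fc_zeta_pow hp.out.pos hζ (σ : GQ)
        have hyX : s56fi_of B y ∈ s56fl_X0 hH := by
          have h1' : σ • s56fi_of B x₀ ∈ s56fl_X0 hH := s56fl_X0_smul_mem hctx hH σ hx₀X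
          have h2' : a • s56fi_of B x₀ ∈ s56fl_X0 hH := (s56fl_X0 hH).nsmul_mem hx₀X a
          have e : s56fi_of B y = σ • s56fi_of B x₀ - a • s56fi_of B x₀ := by
            show y = B (σ : GQ) *ᵥ x₀ - a • x₀
            rw [hy, hdet (σ : GQ) a ha, Nat.cast_smul_eq_nsmul]
          rw [e]
          exact (s56fl_X0 hH).sub_mem h1' h2'
        have hyfix : ∀ τ : s56fc_In P, τ • s56fi_of B y = s56fi_of B y := by
          intro τ
          show B (τ : GQ) *ᵥ y = y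
          rw [ht, Matrix.mulVec_smul, hufix τ]
        have hpy : p • s56fi_of B y = 0 := by
          show (p : ℕ) • y = 0
          rw [← Nat.cast_smul_eq_nsmul k, CharP.cast_eq_zero, zero_smul]
        have h0 := s56fl_rel hctx hp2 hH (AddMonoidHom.id _) Function.surjective_id
          (fun _ _ => rfl) hyX hyfix hpy
        have hy0 : y = 0 := h0
        rw [hy, sub_eq_zero] at hy0
        exact hy0
      refine s56fc_ord_of_line B P hx₀0 (fun τ hτ => ?_) (fun σ hσ => hIx₀ ⟨σ, hσ⟩)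
      apply s56fc_eq_smul_of_wedge hx₀0
      by_contra hne
      have hw : B (σ₁ : GQ) *ᵥ (B τ *ᵥ x₀) = (B (σ₁ : GQ)).det • (B τ *ᵥ x₀) := by
        rw [s56fc_conj_mulVec, hIx₀ ⟨τ⁻¹ * σ₁ * τ, s56fc_conj_mem_in' P hτ σ₁.2⟩,
          Matrix.mulVec_smul]
        congr 1
        show (B (τ⁻¹ * (σ₁ : GQ) * τ)).det = _
        rw [map_mul, map_mul, Matrix.det_mul, Matrix.det_mul, mul_comm, ← mul_assoc,
          ← Matrix.det_mul, s56fc_mul_inv_eq_one, Matrix.det_one, one_mul]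
      have hall := s56fc_mulVec_eq_of_basis hne (M := B (σ₁ : GQ))
        (M' := (B (σ₁ : GQ)).det • (1 : Matrix (Fin 2) (Fin 2) k))
        (by rw [hIx₀ σ₁, Matrix.smul_mulVec, Matrix.one_mulVec])
        (by rw [hw, Matrix.smul_mulVec, Matrix.one_mulVec]) u
      rw [hufix σ₁, Matrix.smul_mulVec, Matrix.one_mulVec] at hall
      have h3 : (1 : k) = (B (σ₁ : GQ)).det :=
        s56fc_smul_eq_smul hu (by rw [one_smul]; exact hall)
      exact hσ₁' h3.symm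
  · have hc1 := hc₁.resolve_left h1
    refine s56fc_ord_of_line B P hu hux (fun σ hσ => ?_)
    rw [hχ₁D ⟨σ, s56fc_in_le_dec P hσ⟩]
    congr 1
    exact hc1 ⟨σ, hσ⟩

end

end Fermat.Agent.S56
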