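/-
Project S56 (Taylor–Wiles primes), node [LOC-p-FLAT], cell [F-CLASS] = [F-CASES] + [F-SSCLASS]
(helper13).  Prefix `s56fc_`.  Namespace `Fermat.Agent.S56`.
THE CLASSIFICATION OF THE RESTRICTION TO `D_P` OF A RESIDUAL REPRESENTATION WITH A FLAT LIFT
(Raynaud's shape theorem for `e = 1`, `2`-dimensional, cyclotomic determinant).

* `s56fc_class` : `B : G_ℚ →* M₂(k)` of finite level, `det ∘ B` cyclotomic, eigenvalues in `k`, with
                  an order on `s56fi_Mod B` for `I_P`  ⟹  `s56fc_Ord B P ∨ s56fc_SS p B P`;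
* `s56fc_main`  : the same for `rb : FramedResidual k` with a flat lift `r` to `k[ε]` with cyclotomic
                  determinant and the frozen `hsplit`.

`s56fc_Ord B P` (`Flat/ClassR.lean`): a `D_P`-stable line `k u₀`, `I_P` acts on it through
`det ∘ B` and trivially on the quotient.
`s56fc_SS p B P` (`Flat/ClassI.lean`): no stable line; a basis `e₁, e₂`, `χ : I_P →* kˣ` with
`B σ = diag (χ σ, χ σ ^ p)` on `I_P`, `χ ^ (p² - 1) = 1`, `χ ^ p ≠ χ`, `ϖ ^ (p² - 1) = -p`, a ring
homomorphism `ι` from a subring of `k` containing the values of `χ` to the residue field of `P`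
with `ι (χ σ) = σ ϖ / ϖ mod 𝔪_P`, `{σ ∈ I_P | σ ϖ = ϖ} ⊆ ker B`, every `τ ∈ D_P` preserves or swaps
the two lines, every Frobenius swaps them.
-/
import Mathlib
import Fermat.Agent.S56.Flat.ClassR
import Fermat.Agent.S56.Flat.ClassI
import Fermat.Agent.S56.Tan.Spec

set_option autoImplicit false
set_option linter.unusedSectionVars false

noncomputable section

namespace Fermat.Agent.S56

open Fermat.Agent.MZ Fermat.Agent.FF Fermat.Agent.S53 Fermat.Agent.S55 Matrix Polynomial
open scoped Pointwise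

local notation "Qb" => AlgebraicClosure ℚ

section

variable {p : ℕ} [hp : Fact p.Prime] {k : Type} [Field k] [Finite k] [CharP k p]

/-- **[F-CLASS]** the classification, matrix level. -/
theorem s56fc_class (hp2 : p ≠ 2) (B : GQ →* Matrix (Fin 2) (Fin 2) k)
    (P : ValuationSubring Qb) (hP : P.LiesOverPrime p)
    (hdet : ∀ (σ : GQ) (a : ℕ), (∀ μ : Qb, μ ^ p = 1 → σ μ = μ ^ a) → (B σ).det = (a : k))
    (hlev : ∃ L : IntermediateField ℚ Qb, FiniteDimensional ℚ L ∧
      ∀ σ : GQ, (∀ x ∈ L, σ x = x) → B σ = 1)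
    (heig : ∀ σ : GQ, ∃ (α : k) (u : Fin 2 → k), u ≠ 0 ∧ B σ *ᵥ u = α • u)
    {H : Subalgebra ↥(ffi_O P ↥(ffi_L P)) (s56fi_Mod B → Qb)}
    (hH : mzo_IsOrder P (s56fc_In P) (s56fi_Mod B) H) :
    s56fc_Ord B P ∨ s56fc_SS p B P := by
  by_cases hred : ∃ u : Fin 2 → k, u ≠ 0 ∧
      ∀ τ ∈ P.decompositionSubgroup ℚ, ∃ x : k, B τ *ᵥ u = x • u
  · exact Or.inl (s56fc_classR B P hp2 hP hdet hH hred)
  · exact Or.inr (s56fc_classI B P hp2 hP hdet hlev heig hH hred)

/-- the determinant of the reduction of a lift with cyclotomic determinant. -/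
theorem s56fc_det_of_cyc (r : FramedRep (DualNumber k))
    (h : r.toGaloisRepAdic.DetIsCyclotomic p) (σ : GQ) (a : ℕ)
    (ha : ∀ μ : Qb, μ ^ p = 1 → σ μ = μ ^ a) : (s56t_bar r σ).det = (a : k) := by
  have h1 := h.2 1 σ a (by simpa using ha)
  rw [pow_one, s56t_natCast_dual p h.1, Ideal.span_singleton_eq_bot.mpr rfl, Ideal.mem_bot,
    sub_eq_zero, s56t_framed_det] at h1
  rw [s56t_bar_apply, ← s56t_fst_det, h1]
  simp

/-- **[F-CLASS]** a residual representation with a flat lift (cyclotomic determinant) whose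
eigenvalues lie in `k` is, at every place `P` over `p`, ordinary or supersingular. -/
theorem s56fc_main (hp2 : p ≠ 2) (rb : FramedResidual k)
    (hsplit : ∀ σ : GQ, ∃ α β : k,
      LinearMap.charpoly (rb.toResidualGaloisRep.ρ σ) = (X - C α) * (X - C β))
    (r : FramedRep (DualNumber k)) (hr : ∀ σ, s56t_bar r σ = rb σ)
    (hdet : r.toGaloisRepAdic.DetIsCyclotomic p) (hflat : r.toGaloisRepAdic.IsFlatAt p)
    (P : ValuationSubring Qb) (hP : P.LiesOverPrime p) :
    s56fc_Ord rb.toMonoidHom P ∨ s56fc_SS p rb.toMonoidHom P := by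
  have e : s56t_bar r = rb.toMonoidHom := MonoidHom.ext hr
  have hord := s56fi_orderBar r p hflat P hP
  rw [e] at hord
  obtain ⟨H, hH⟩ := hord
  refine s56fc_class hp2 rb.toMonoidHom P hP (fun σ a ha => ?_) rb.finiteLevel (fun σ => ?_) hH
  · have := s56fc_det_of_cyc r hdet σ a ha
    rwa [hr σ] at this
  · obtain ⟨α, β, h⟩ := hsplit σ
    have h1 : (rb σ).charpoly = (X - C α) * (X - C β) :=
      (Matrix.charpoly_toLin' (rb σ)).symm.trans h
    obtain ⟨u, hu, hαu⟩ := s56fc_exists_eigen (rb σ) α (by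
      rw [h1, Polynomial.IsRoot.def, Polynomial.eval_mul, Polynomial.eval_sub, Polynomial.eval_X,
        Polynomial.eval_C, sub_self, zero_mul])
    exact ⟨α, u, hu, hαu⟩

end

end Fermat.Agent.S56
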