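/-
Project S56, node [LOC-p-FLAT] (owner helper27).  Prefix `s56f_`.
**THE SEAM `s56a_LocPFlat_stmt`** from the three remaining cells:

  `s56f_main : s56fr_Inst_stmt → s56fr_Excl_stmt → s56f_Ord_stmt → s56a_LocPFlat_stmt`.

* no flat lift with cyclotomic determinant: `C = ⊥`;
* a flat lift exists: helper13's classification `s56fc_main` (`Flat/Class.lean`):
  ordinary ⟹ helper1's F-ORD (`s56f_Ord_stmt`), supersingular ⟹ `s56fr_ss` (`Flat/SSFinal.lean`).
-/
import Mathlib
import Fermat.Agent.S56.Flat.SSFinal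
import Fermat.Agent.S56.Flat.Class
import Fermat.Agent.S55.Places.Local

set_option autoImplicit false
set_option linter.unusedSectionVars false
set_option linter.style.haveILetI false

noncomputable section

namespace Fermat.Agent.S56

open Fermat.Agent.MZ Fermat.Agent.FF Fermat.Agent.S53 Matrix Polynomial

local notation "GQ" => (AlgebraicClosure ℚ ≃ₐ[ℚ] AlgebraicClosure ℚ)
local notation "Qb" => AlgebraicClosure ℚ

/-- **F-ORD** (helper1): the ordinary case. -/
def s56f_Ord_stmt : Prop :=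
  ∀ (p : ℕ) [Fact p.Prime], p ≠ 2 → ∀ (k : Type) [Field k] [Finite k] [Algebra (ZMod p) k]
    (rb : FramedResidual k),
    (∃ u₀ : Fin 2 → k, u₀ ≠ 0 ∧ ∀ s ∈ (padicPlace p).inertiaSubgroupIn ℚ,
      ∀ v : Fin 2 → k, ∃ t : k, rb s *ᵥ v - v = t • u₀) →
    s56a_LocShape rb ((padicPlace p).decompositionSubgroup ℚ)
      (fun r => r.toGaloisRepAdic.DetIsCyclotomic p ∧ r.toGaloisRepAdic.IsFlatAt p) 1

theorem s56f_inertia_le (P : ValuationSubring Qb) {s : GQ} (hs : s ∈ P.inertiaSubgroupIn ℚ) :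
    s ∈ P.decompositionSubgroup ℚ := by
  obtain ⟨x, -, rfl⟩ := hs
  exact x.2

/-- **[LOC-p-FLAT]** from its three remaining cells. -/
theorem s56f_main (hInst : s56fr_Inst_stmt) (hExcl : s56fr_Excl_stmt) (hOrd : s56f_Ord_stmt) :
    s56a_LocPFlat_stmt := by
  intro p _ hp2 k _ _ _ rb hsplit
  classical
  haveI : Fintype k := Fintype.ofFinite k
  haveI : CharP k p := charP_of_injective_algebraMap (algebraMap (ZMod p) k).injective p
  have hP : (padicPlace p).LiesOverPrime p := Fermat.Agent.S55.pl_padicPlace_liesOver p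
  by_cases hex : ∃ r : FramedRep (DualNumber k), (∀ σ, s56t_bar r σ = rb σ) ∧
      r.toGaloisRepAdic.DetIsCyclotomic p ∧ r.toGaloisRepAdic.IsFlatAt p
  · obtain ⟨r, hb, hdet, hflat⟩ := hex
    rcases s56fc_main hp2 rb hsplit r hb hdet hflat (padicPlace p) hP with hO | hS
    · apply hOrd p hp2 k rb
      obtain ⟨u₀, hu₀, h⟩ := hO
      refine ⟨u₀, hu₀, fun s hs v => ?_⟩
      obtain ⟨x, z, -, h2, h3⟩ := h s (s56f_inertia_le _ hs)
      obtain ⟨hz, -⟩ := h3 hs
      obtain ⟨t, ht⟩ := h2 v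
      rw [hz, one_smul] at ht
      exact ⟨t, ht⟩
    · exact s56fr_ss hInst hExcl hp2 rb (padicPlace p) hP hS
  · refine ⟨⊥, fun r hb hPr => absurd ⟨r, hb, hPr.1, hPr.2⟩ hex, ?_, ?_⟩
    · infer_instance
    · have h0 : Module.finrank k (↥(⊥ : Submodule k (GQ → Matrix (Fin 2) (Fin 2) k)) ⧸
          (s56a_cobOn rb ((padicPlace p).decompositionSubgroup ℚ)).comap
            (⊥ : Submodule k (GQ → Matrix (Fin 2) (Fin 2) k)).subtype) = 0 := by
        apply Module.finrank_zero_of_subsingleton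
      rw [h0]
      exact Nat.zero_le _

end Fermat.Agent.S56
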