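import Mathlib

/-!
# S56 / [LOC-p-FLAT] F-LANG: the abstract Frobenius-semilinear count (prefix `s56fc_`)

`s56fc_lang`: let `k` be a finite field of characteristic `p`, `𝕜` a field of characteristic `p`,
`ι₀ : k →+* 𝕜`, `𝔅` a `k`-vector space and `Λ : 𝔅 → Hom_{𝔽_p}(k, 𝔽_p) → 𝕜` a biadditive map,
semilinear (`Λ (κ B) ℓ = Λ B (ℓ ∘ κ)`), injective in `B`, with a Frobenius relation
`Λ (c₀ B) ℓ = η (Λ B ℓ)^{p^m}` (`m ∣ [k : 𝔽_p]`) and an eigen-relation `Λ (g B) ℓ = ξ Λ B ℓ` which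
selects one class of embeddings mod `m`.  Then `dim_k 𝔅 ≤ 1`.

Proof: the components `U_i(B) = Σ_j ι₀(b_j)^{p^i} Λ(B, ℓ_j)` of `Λ(B, ·) ∈ k ⊗ 𝕜 = ∏_i 𝕜`.
-/

set_option autoImplicit false

open Polynomial

namespace Fermat.Agent.S56

/-! ### Counting roots of `X^{p^e} - X` -/

theorem s56fc_card_le {F : Type*} [Field F] {p e : ℕ} (hp : 1 < p) (he : e ≠ 0) (S : Finset F)
    (hS : ∀ x ∈ S, x ^ p ^ e = x) : S.card ≤ p ^ e := by
  classical
  have hP : (X ^ p ^ e - X : F[X]) ≠ 0 := FiniteField.X_pow_card_pow_sub_X_ne_zero F he hp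
  have hsub : S ⊆ (X ^ p ^ e - X : F[X]).roots.toFinset := by
    intro x hx
    rw [Multiset.mem_toFinset, mem_roots hP, IsRoot.def, eval_sub, eval_pow, eval_X, hS x hx,
      sub_self]
  calc S.card ≤ (X ^ p ^ e - X : F[X]).roots.toFinset.card := Finset.card_le_card hsub
    _ ≤ Multiset.card (X ^ p ^ e - X : F[X]).roots := Multiset.toFinset_card_le _
    _ ≤ (X ^ p ^ e - X : F[X]).natDegree := card_roots' _
    _ = p ^ e := FiniteField.X_pow_card_pow_sub_X_natDegree_eq F he hp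

/-- The roots of `X^{p^e} - X` in `F` are the image of a field with `p^e` elements. -/
theorem s56fc_mem_range {k F : Type*} [Field k] [Fintype k] [Field F] {p e : ℕ} (hp : 1 < p)
    (he : e ≠ 0) (hcard : Fintype.card k = p ^ e) (σ : k →+* F) (t : F) (ht : t ^ p ^ e = t) :
    ∃ κ, σ κ = t := by
  classical
  by_contra hne
  push Not at hne
  have hσ : ∀ x, σ x ^ p ^ e = σ x := by
    intro x
    rw [← map_pow, ← hcard, FiniteField.pow_card]
  have h1 : (insert t (Finset.univ.image σ)).card = p ^ e + 1 := by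
    rw [Finset.card_insert_of_notMem, Finset.card_image_of_injective _ σ.injective,
      Finset.card_univ, hcard]
    intro h
    obtain ⟨x, -, hx⟩ := Finset.mem_image.1 h
    exact hne x hx
  have h2 := s56fc_card_le hp he (insert t (Finset.univ.image σ)) (by
    intro x hx
    rw [Finset.mem_insert, Finset.mem_image] at hx
    rcases hx with rfl | ⟨y, -, rfl⟩
    · exact ht
    · exact hσ y)
  omega

section Lang

variable (p : ℕ) [Fact p.Prime] {k : Type} [Field k] [Fintype k]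
  [Algebra (ZMod p) k] {𝕜 : Type} [Field 𝕜] [CharP 𝕜 p] (ι₀ : k →+* 𝕜)

/-- The embeddings `σ_i = Frob^i ∘ ι₀ : k → 𝕜`. -/
noncomputable def s56fc_sig (i : ℕ) : k →+* 𝕜 := (iterateFrobenius 𝕜 p i).comp ι₀

omit [Fintype k] [Algebra (ZMod p) k] in
theorem s56fc_sig_apply (i : ℕ) (x : k) : s56fc_sig p ι₀ i x = ι₀ x ^ p ^ i := by
  rw [s56fc_sig, RingHom.comp_apply, iterateFrobenius_def]

omit [Fintype k] [Algebra (ZMod p) k] in
theorem s56fc_sig_add (i m : ℕ) (x : k) :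
    s56fc_sig p ι₀ (i + m) x = s56fc_sig p ι₀ i x ^ p ^ m := by
  rw [s56fc_sig_apply, s56fc_sig_apply, ← pow_mul, ← pow_add]

theorem s56fc_card : Fintype.card k = p ^ Module.finrank (ZMod p) k := by
  rw [Module.card_eq_pow_finrank (K := ZMod p) (V := k), ZMod.card]

theorem s56fc_finrank_ne_zero : Module.finrank (ZMod p) k ≠ 0 :=
  (Module.finrank_pos (R := ZMod p) (M := k)).ne'

theorem s56fc_sig_period (i : ℕ) (x : k) :
    s56fc_sig p ι₀ (i + Module.finrank (ZMod p) k) x = s56fc_sig p ι₀ i x := by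
  rw [s56fc_sig_apply, s56fc_sig_apply, add_comm, pow_add, pow_mul, ← map_pow, ← s56fc_card,
    FiniteField.pow_card]

/-- The embeddings `σ_i`, `i < [k : 𝔽_p]`, are pairwise distinct. -/
theorem s56fc_sig_ne {i i' : ℕ} (hlt : i < i') (hd : i' < Module.finrank (ZMod p) k) :
    ¬ ∀ x : k, s56fc_sig p ι₀ i x = s56fc_sig p ι₀ i' x := by
  intro h
  have hp1 : 1 < p := (Fact.out : p.Prime).one_lt
  obtain ⟨e, rfl⟩ := Nat.exists_eq_add_of_lt hlt
  have he : i + e + 1 = i + (e + 1) := by ring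
  have hx : ∀ x : k, x ^ p ^ (e + 1) = x := by
    intro x
    have h0 := h x
    rw [s56fc_sig_apply, s56fc_sig_apply] at h0
    have h1 : iterateFrobenius 𝕜 p i (ι₀ x) = iterateFrobenius 𝕜 p i (ι₀ (x ^ p ^ (e + 1))) := by
      rw [iterateFrobenius_def, iterateFrobenius_def, map_pow, ← pow_mul, ← pow_add,
        add_comm (e + 1) i, ← he]
      exact h0
    exact (ι₀.injective (iterateFrobenius_inj 𝕜 p i h1)).symm
  have h2 := s56fc_card_le hp1 (by omega : e + 1 ≠ 0) (Finset.univ : Finset k) (fun x _ => hx x)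
  rw [Finset.card_univ, s56fc_card p] at h2
  have h3 : p ^ (e + 1) < p ^ Module.finrank (ZMod p) k := Nat.pow_lt_pow_right hp1 (by omega)
  omega

/-- `σ_i` is `𝔽_p`-linear (for the canonical `𝔽_p`-structure of `𝕜`). -/
theorem s56fc_sig_expand (i : ℕ) (x : k) :
    letI : Algebra (ZMod p) 𝕜 := ZMod.algebra 𝕜 p
    ∑ j, (Module.finBasis (ZMod p) k).coord j x • s56fc_sig p ι₀ i (Module.finBasis (ZMod p) k j) =
      s56fc_sig p ι₀ i x := by
  let _ : Algebra (ZMod p) 𝕜 := ZMod.algebra 𝕜 p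
  conv_rhs => rw [← (Module.finBasis (ZMod p) k).sum_repr x]
  rw [map_sum]
  refine Finset.sum_congr rfl fun j _ => ?_
  rw [ZMod.map_smul]
  rfl

/-! ### The components `U_i` -/

variable {𝔅 : Type} [AddCommGroup 𝔅] [Module k 𝔅]
  (Λ : 𝔅 → (k →ₗ[ZMod p] ZMod p) → 𝕜)

/-- The `i`-th component of `Λ(B, ·)`. -/
noncomputable def s56fc_U (i : ℕ) (B : 𝔅) : 𝕜 :=
  ∑ j, s56fc_sig p ι₀ i (Module.finBasis (ZMod p) k j) *
    Λ B ((Module.finBasis (ZMod p) k).coord j)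

variable (hadd₁ : ∀ B B' ℓ, Λ (B + B') ℓ = Λ B ℓ + Λ B' ℓ)
  (hadd₂ : ∀ B ℓ ℓ', Λ B (ℓ + ℓ') = Λ B ℓ + Λ B ℓ')
  (hsemi : ∀ (κ : k) B ℓ, Λ (κ • B) ℓ = Λ B (ℓ ∘ₗ LinearMap.mulLeft (ZMod p) κ))
  (hinj : ∀ B, (∀ ℓ, Λ B ℓ = 0) → B = 0)

omit [AddCommGroup 𝔅] [Module k 𝔅] in
include hadd₂ in
/-- Expansion of `Λ(B, ·)` in the dual basis. -/
theorem s56fc_expand (B : 𝔅) (f : k →ₗ[ZMod p] ZMod p) :
    letI : Algebra (ZMod p) 𝕜 := ZMod.algebra 𝕜 p
    Λ B f = ∑ j, f (Module.finBasis (ZMod p) k j) •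
      Λ B ((Module.finBasis (ZMod p) k).coord j) := by
  let _ : Algebra (ZMod p) 𝕜 := ZMod.algebra 𝕜 p
  let L : (k →ₗ[ZMod p] ZMod p) →ₗ[ZMod p] 𝕜 :=
    (AddMonoidHom.mk' (Λ B) (hadd₂ B)).toZModLinearMap p
  have hL : ∀ ℓ, L ℓ = Λ B ℓ := fun _ => rfl
  conv_lhs => rw [← (Module.finBasis (ZMod p) k).sum_dual_apply_smul_coord f]
  rw [← hL, map_sum]
  refine Finset.sum_congr rfl fun j _ => ?_
  rw [map_smul, hL]

include hadd₂ hsemi in
/-- (a) `U_i` is `σ_i`-semilinear. -/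
theorem s56fc_U_smul (i : ℕ) (κ : k) (B : 𝔅) :
    s56fc_U p ι₀ Λ i (κ • B) = s56fc_sig p ι₀ i κ * s56fc_U p ι₀ Λ i B := by
  let _ : Algebra (ZMod p) 𝕜 := ZMod.algebra 𝕜 p
  unfold s56fc_U
  have h1 : ∀ j, Λ (κ • B) ((Module.finBasis (ZMod p) k).coord j) =
      ∑ m, (Module.finBasis (ZMod p) k).coord j (κ * Module.finBasis (ZMod p) k m) •
        Λ B ((Module.finBasis (ZMod p) k).coord m) := by
    intro j
    rw [hsemi, s56fc_expand p Λ hadd₂ B]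
    rfl
  simp_rw [h1, Finset.mul_sum, mul_smul_comm, ← smul_mul_assoc]
  rw [Finset.sum_comm]
  refine Finset.sum_congr rfl fun m _ => ?_
  rw [← Finset.sum_mul, s56fc_sig_expand p ι₀ i, map_mul, mul_assoc]

omit [Module k 𝔅] in
include hadd₁ in
theorem s56fc_U_add (i : ℕ) (B B' : 𝔅) :
    s56fc_U p ι₀ Λ i (B + B') = s56fc_U p ι₀ Λ i B + s56fc_U p ι₀ Λ i B' := by
  unfold s56fc_U
  simp_rw [hadd₁, mul_add, Finset.sum_add_distrib]

omit [AddCommGroup 𝔅] [Module k 𝔅] in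
theorem s56fc_U_period (i : ℕ) (B : 𝔅) :
    s56fc_U p ι₀ Λ (i + Module.finrank (ZMod p) k) B = s56fc_U p ι₀ Λ i B := by
  unfold s56fc_U
  simp_rw [s56fc_sig_period]

omit [AddCommGroup 𝔅] [Module k 𝔅] in
theorem s56fc_U_period_mul (i s : ℕ) (B : 𝔅) :
    s56fc_U p ι₀ Λ (i + s * Module.finrank (ZMod p) k) B = s56fc_U p ι₀ Λ i B := by
  induction s with
  | zero => rw [Nat.zero_mul, add_zero]
  | succ s ih => rw [Nat.succ_mul, ← add_assoc, s56fc_U_period, ih]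

omit [Module k 𝔅] in
include hadd₂ hinj in
/-- (b) The components `U_i`, `i < [k : 𝔽_p]`, determine `B`. -/
theorem s56fc_eq_zero_of_U (B : 𝔅)
    (h : ∀ i < Module.finrank (ZMod p) k, s56fc_U p ι₀ Λ i B = 0) : B = 0 := by
  classical
  let _ : Algebra (ZMod p) 𝕜 := ZMod.algebra 𝕜 p
  -- the matrix of the embeddings
  let V : Matrix (Fin (Module.finrank (ZMod p) k)) (Fin (Module.finrank (ZMod p) k)) 𝕜 :=
    Matrix.of fun i j => s56fc_sig p ι₀ (i : ℕ) (Module.finBasis (ZMod p) k j)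
  -- linear independence of the embeddings
  have hinjσ : Function.Injective
      (fun i : Fin (Module.finrank (ZMod p) k) =>
        ((s56fc_sig p ι₀ (i : ℕ) : k →+* 𝕜) : k →* 𝕜)) := by
    intro i i' hii
    have hii' : ∀ x : k, s56fc_sig p ι₀ (i : ℕ) x = s56fc_sig p ι₀ (i' : ℕ) x :=
      fun x => DFunLike.congr_fun hii x
    by_contra hne
    rcases lt_or_gt_of_ne (fun h => hne (Fin.ext h) : (i : ℕ) ≠ (i' : ℕ)) with hlt | hlt
    · exact s56fc_sig_ne p ι₀ hlt i'.2 hii'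
    · exact s56fc_sig_ne p ι₀ hlt i.2 (fun x => (hii' x).symm)
  have hli := (linearIndependent_monoidHom k 𝕜).comp _ hinjσ
  have hVinj : Function.Injective
      (fun c : Fin (Module.finrank (ZMod p) k) → 𝕜 => Matrix.vecMul c V) := by
    have h0 : ∀ c : Fin (Module.finrank (ZMod p) k) → 𝕜, Matrix.vecMul c V = 0 → c = 0 := by
      intro c hc
      have hc' : ∀ j, ∑ i : Fin (Module.finrank (ZMod p) k),
          c i * s56fc_sig p ι₀ (i : ℕ) (Module.finBasis (ZMod p) k j) = 0 := by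
        intro j
        have := congrFun hc j
        simpa [Matrix.vecMul, dotProduct, V] using this
      funext i
      refine Fintype.linearIndependent_iff.1 hli c (funext fun x => ?_) i
      simp only [Function.comp_apply, Finset.sum_apply, Pi.smul_apply, MonoidHom.coe_coe,
        smul_eq_mul, Pi.zero_apply]
      calc ∑ i : Fin (Module.finrank (ZMod p) k), c i * s56fc_sig p ι₀ (i : ℕ) x
          = ∑ i : Fin (Module.finrank (ZMod p) k), c i *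
              ∑ j, (Module.finBasis (ZMod p) k).coord j x •
                s56fc_sig p ι₀ (i : ℕ) (Module.finBasis (ZMod p) k j) :=
            Finset.sum_congr rfl fun i _ => by rw [s56fc_sig_expand p ι₀ (i : ℕ) x]
        _ = ∑ j, (Module.finBasis (ZMod p) k).coord j x •
              ∑ i : Fin (Module.finrank (ZMod p) k),
                c i * s56fc_sig p ι₀ (i : ℕ) (Module.finBasis (ZMod p) k j) := by
            simp_rw [Finset.mul_sum, Finset.smul_sum, mul_smul_comm]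
            rw [Finset.sum_comm]
        _ = 0 := by simp_rw [hc', smul_zero, Finset.sum_const_zero]
    intro c c' hcc
    have := h0 (c - c') (by rw [Matrix.sub_vecMul]; exact sub_eq_zero.2 hcc)
    exact sub_eq_zero.1 this
  have hVunit : IsUnit V := Matrix.vecMul_injective_iff_isUnit.1 hVinj
  have hx : (fun j : Fin (Module.finrank (ZMod p) k) =>
      Λ B ((Module.finBasis (ZMod p) k).coord j)) = 0 := by
    apply Matrix.mulVec_injective_iff_isUnit.2 hVunit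
    rw [Matrix.mulVec_zero]
    funext i
    exact h i i.2
  apply hinj
  intro ℓ
  rw [s56fc_expand p Λ hadd₂ B ℓ]
  refine Finset.sum_eq_zero fun j _ => ?_
  rw [show Λ B ((Module.finBasis (ZMod p) k).coord j) = 0 from congrFun hx j, smul_zero]

/-! ### The Frobenius relation and the eigen-relation -/

variable (m : ℕ) (c₀ : k) (η : 𝕜) (hfrob : ∀ B ℓ, Λ (c₀ • B) ℓ = η * Λ B ℓ ^ p ^ m)
  (g : k) (ξ : 𝕜) (hΓ : ∀ B ℓ, Λ (g • B) ℓ = ξ * Λ B ℓ)

include hadd₂ hsemi hfrob in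
/-- (c) The Frobenius relation on the components. -/
theorem s56fc_U_frob (i : ℕ) (B : 𝔅) :
    s56fc_sig p ι₀ (i + m) c₀ * s56fc_U p ι₀ Λ (i + m) B =
      η * s56fc_U p ι₀ Λ i B ^ p ^ m := by
  rw [← s56fc_U_smul p ι₀ Λ hadd₂ hsemi]
  unfold s56fc_U
  rw [sum_pow_char_pow, Finset.mul_sum]
  refine Finset.sum_congr rfl fun j _ => ?_
  rw [hfrob, s56fc_sig_add, mul_pow]
  ring

include hadd₂ hsemi hΓ in
/-- (d) The eigen-relation on the components. -/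
theorem s56fc_U_eigen (i : ℕ) (B : 𝔅) (hU : s56fc_U p ι₀ Λ i B ≠ 0) : ι₀ g ^ p ^ i = ξ := by
  have h1 := s56fc_U_smul p ι₀ Λ hadd₂ hsemi i g B
  have h2 : s56fc_U p ι₀ Λ i (g • B) = ξ * s56fc_U p ι₀ Λ i B := by
    unfold s56fc_U
    rw [Finset.mul_sum]
    refine Finset.sum_congr rfl fun j _ => ?_
    rw [hΓ]
    ring
  rw [h2, s56fc_sig_apply] at h1
  exact (mul_right_cancel₀ hU h1).symm

variable (hc₀ : c₀ ≠ 0)

include hadd₂ hsemi hfrob hc₀ in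
theorem s56fc_U_step_zero (i : ℕ) (B : 𝔅) (h : s56fc_U p ι₀ Λ i B = 0) (t : ℕ) :
    s56fc_U p ι₀ Λ (i + t * m) B = 0 := by
  induction t with
  | zero => rw [Nat.zero_mul, add_zero]; exact h
  | succ t ih =>
    have h1 := s56fc_U_frob p ι₀ Λ hadd₂ hsemi m c₀ η hfrob (i + t * m) B
    rw [ih, zero_pow (pow_ne_zero m (Fact.out : p.Prime).ne_zero), mul_zero] at h1
    rw [Nat.succ_mul, ← add_assoc]
    exact (mul_eq_zero.1 h1).resolve_left ((_root_.map_ne_zero _).2 hc₀)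

variable (hmd : m ∣ Module.finrank (ZMod p) k) (i₀ : ℕ)
  (hsel : ∀ i : ℕ, ι₀ g ^ p ^ i = ξ → i % m = i₀ % m)

include hadd₂ hsemi hinj hfrob hΓ hc₀ hmd hsel in
/-- (e) The single component `U_{i₀}` determines `B`. -/
theorem s56fc_eq_zero_of_U0 (B : 𝔅) (h : s56fc_U p ι₀ Λ i₀ B = 0) : B = 0 := by
  apply s56fc_eq_zero_of_U p ι₀ Λ hadd₂ hinj B
  intro i _
  by_contra hU
  have hi : i % m = i₀ % m := hsel i (s56fc_U_eigen p ι₀ Λ hadd₂ hsemi g ξ hΓ i B hU)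
  apply hU
  have hd1 : 1 ≤ Module.finrank (ZMod p) k := Nat.one_le_iff_ne_zero.2 (s56fc_finrank_ne_zero p)
  have hle : i₀ ≤ i + i₀ * Module.finrank (ZMod p) k := by nlinarith
  have hmod : i₀ ≡ i + i₀ * Module.finrank (ZMod p) k [MOD m] := by
    obtain ⟨e, he⟩ := hmd
    show i₀ % m = (i + i₀ * Module.finrank (ZMod p) k) % m
    rw [he, show i₀ * (m * e) = m * (i₀ * e) by ring, Nat.add_mul_mod_self_left, hi]
  obtain ⟨t, ht⟩ := (Nat.modEq_iff_dvd' hle).1 hmod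
  have h1 := s56fc_U_step_zero p ι₀ Λ hadd₂ hsemi m c₀ η hfrob hc₀ i₀ B h t
  rw [← s56fc_U_period_mul p ι₀ Λ i i₀ B]
  rw [show i + i₀ * Module.finrank (ZMod p) k = i₀ + t * m by rw [mul_comm t m, ← ht]; omega]
  exact h1

variable (hη : η ≠ 0)

include hadd₂ hsemi hfrob hc₀ hη in
/-- Iterating the Frobenius relation. -/
theorem s56fc_exists_C (t : ℕ) :
    ∃ C : 𝕜, C ≠ 0 ∧ ∀ B : 𝔅,
      s56fc_U p ι₀ Λ (i₀ + t * m) B = C * s56fc_U p ι₀ Λ i₀ B ^ p ^ (t * m) := by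
  induction t with
  | zero =>
    exact ⟨1, one_ne_zero, fun B => by rw [Nat.zero_mul, add_zero, pow_zero, pow_one, one_mul]⟩
  | succ t ih =>
    obtain ⟨C, hC, hCB⟩ := ih
    have hσ : s56fc_sig p ι₀ (i₀ + t * m + m) c₀ ≠ 0 := (_root_.map_ne_zero _).2 hc₀
    refine ⟨(s56fc_sig p ι₀ (i₀ + t * m + m) c₀)⁻¹ * η * C ^ p ^ m,
      mul_ne_zero (mul_ne_zero (inv_ne_zero hσ) hη) (pow_ne_zero _ hC), fun B => ?_⟩
    have h1 := s56fc_U_frob p ι₀ Λ hadd₂ hsemi m c₀ η hfrob (i₀ + t * m) B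
    rw [hCB B, mul_pow, ← pow_mul, ← pow_add] at h1
    rw [Nat.succ_mul, ← add_assoc, mul_assoc, mul_assoc, ← h1, ← mul_assoc, inv_mul_cancel₀ hσ,
      one_mul]

include hadd₁ hadd₂ hsemi hinj hfrob hΓ hc₀ hmd hsel hη in
/-- **The count**: any two elements of `𝔅` are `k`-linearly dependent. -/
theorem s56fc_dep (B B' : 𝔅) : ∃ κ κ' : k, (κ ≠ 0 ∨ κ' ≠ 0) ∧ κ • B + κ' • B' = 0 := by
  have hp1 : 1 < p := (Fact.out : p.Prime).one_lt
  by_cases hB : s56fc_U p ι₀ Λ i₀ B = 0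
  · have hB0 := s56fc_eq_zero_of_U0 p ι₀ Λ hadd₂ hsemi hinj m c₀ η hfrob g ξ hΓ hc₀ hmd i₀ hsel B hB
    exact ⟨1, 0, Or.inl one_ne_zero, by rw [hB0, smul_zero, zero_smul, add_zero]⟩
  · obtain ⟨t₀, ht₀⟩ := hmd
    obtain ⟨C, hC, hCB⟩ := s56fc_exists_C p ι₀ Λ hadd₂ hsemi m c₀ η hfrob hc₀ i₀ hη t₀
    have hper : ∀ B'' : 𝔅, s56fc_U p ι₀ Λ i₀ B'' =
        C * s56fc_U p ι₀ Λ i₀ B'' ^ p ^ Module.finrank (ZMod p) k := by
      intro B''
      have h1 := hCB B''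
      rw [mul_comm t₀ m, ← ht₀, s56fc_U_period] at h1
      exact h1
    set u := s56fc_U p ι₀ Λ i₀ B with hu
    set u' := s56fc_U p ι₀ Λ i₀ B' with hu'
    have ht : (u' / u) ^ p ^ Module.finrank (ZMod p) k = u' / u := by
      have h1 := hper B
      have h2 := hper B'
      rw [← hu] at h1
      rw [← hu'] at h2
      have h3 : u ^ p ^ Module.finrank (ZMod p) k = u / C := by
        rw [eq_div_iff hC, mul_comm]; exact h1.symm
      have h4 : u' ^ p ^ Module.finrank (ZMod p) k = u' / C := by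
        rw [eq_div_iff hC, mul_comm]; exact h2.symm
      rw [div_pow, h3, h4]
      field_simp
    obtain ⟨κ, hκ⟩ := s56fc_mem_range hp1 (s56fc_finrank_ne_zero p) (s56fc_card p)
      (s56fc_sig p ι₀ i₀) (u' / u) ht
    have hzero : s56fc_U p ι₀ Λ i₀ ((-κ) • B + B') = 0 := by
      rw [s56fc_U_add p ι₀ Λ hadd₁, s56fc_U_smul p ι₀ Λ hadd₂ hsemi, map_neg, hκ, ← hu, ← hu']
      field_simp
      ring
    have := s56fc_eq_zero_of_U0 p ι₀ Λ hadd₂ hsemi hinj m c₀ η hfrob g ξ hΓ hc₀ ⟨t₀, ht₀⟩ i₀ hsel _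
      hzero
    exact ⟨-κ, 1, Or.inr one_ne_zero, by rw [one_smul]; exact this⟩

end Lang

/-- **F-LANG: the abstract Frobenius-semilinear count.** -/
theorem s56fc_lang {p : ℕ} [Fact p.Prime] {k : Type} [Field k] [Fintype k] [CharP k p]
    [Algebra (ZMod p) k] {𝕜 : Type} [Field 𝕜] [CharP 𝕜 p] (ι₀ : k →+* 𝕜)
    {𝔅 : Type} [AddCommGroup 𝔅] [Module k 𝔅]
    (Λ : 𝔅 → (k →ₗ[ZMod p] ZMod p) → 𝕜)
    (hadd₁ : ∀ B B' ℓ, Λ (B + B') ℓ = Λ B ℓ + Λ B' ℓ)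
    (hadd₂ : ∀ B ℓ ℓ', Λ B (ℓ + ℓ') = Λ B ℓ + Λ B ℓ')
    (hsemi : ∀ (κ : k) B ℓ, Λ (κ • B) ℓ = Λ B (ℓ ∘ₗ LinearMap.mulLeft (ZMod p) κ))
    (hinj : ∀ B, (∀ ℓ, Λ B ℓ = 0) → B = 0)
    (m : ℕ) (hm : 0 < m) (hmd : m ∣ Module.finrank (ZMod p) k) (c₀ : k) (hc₀ : c₀ ≠ 0) (η : 𝕜)
    (hη : η ≠ 0)
    (hfrob : ∀ B ℓ, Λ (c₀ • B) ℓ = η * Λ B ℓ ^ p ^ m)
    (g : k) (ξ : 𝕜) (hΓ : ∀ B ℓ, Λ (g • B) ℓ = ξ * Λ B ℓ)
    (i₀ : ℕ) (hsel : ∀ i : ℕ, ι₀ g ^ p ^ i = ξ → i % m = i₀ % m) :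
    ∀ B B' : 𝔅, ∃ κ κ' : k, (κ ≠ 0 ∨ κ' ≠ 0) ∧ κ • B + κ' • B' = 0 :=
  have _ := hm
  s56fc_dep p ι₀ Λ hadd₁ hadd₂ hsemi hinj m c₀ η hfrob g ξ hΓ hc₀ hmd i₀ hsel hη

end Fermat.Agent.S56
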