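/-
Project S56 (Taylor–Wiles primes), node [S56-FLAT], cell [S56-FLAT-L] (helper13).  Prefix `s56fl_`.
CONGRUENCES OF POINTS OF AN ORDER.  Mathlib + the MAZUR Hopf toolkit (`MZ/Hopf`), imported only.

Setting: `mzo_Ctx r O L A Γ` (the local setting at `r`, `e = 1`), `H` an order (`mzo_IsOrder`) for the
finite `Γ`-module `G`.  For an additive subgroup `𝔞 ⊆ L` stable under multiplication by `A`
(`s56fl_IsIdeal`): `x ≡ y mod 𝔞` (`s56fl_Near 𝔞 H x y`) iff `φ x - φ y ∈ 𝔞` for all `φ ∈ H`.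

* `s56fl_near_add`  (A1): the congruence is translation invariant (comultiplication), hence a
                     congruence for `+`; `s56fl_ball` : the subgroup `{x ≡ 0}`;
* `s56fl_key`       (A2) = (KEY): `σ z - z ∈ 𝔞` for all values `z = φ x`, `φ ∈ H`  ⟺  `σ x - x ≡ 0`;
* `s56fl_X0`, `s56fl_X0_smul_mem` (L1): the connected part `X⁰ = {x ≡ 0 mod 𝔪_A}` is a `Γ`-stable
                     subgroup;
* `s56fl_smul_sub_mem_X0` (L2): `σ x - x ∈ X⁰` for every `σ ∈ Γ` (inertia) and every `x`;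
* `s56fl_rel`       (REL) = (L3) in a quotient: `π : G → E` onto and equivariant, `x ∈ X⁰`,
                     `r • π x = 0`, `π x` fixed by `Γ`, `r` odd  ⟹  `π x = 0`;
* `s56fl_val_smul_eq` : `Γ` preserves the valuation of the values `φ x - φ y`.
-/
import Mathlib
import Fermat.Agent.MZ.Hopf.Norm

set_option autoImplicit false
set_option linter.unusedSectionVars false

noncomputable section

namespace Fermat.Agent.S56

open Fermat.Agent.MZ Finset

section

variable {r : ℕ} {O : Type} [CommRing O] [IsDomain O] [IsDiscreteValuationRing O]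
  {L : Type} [Field L] [Algebra O L] {A : ValuationSubring L}
  {Γ : Type} [Group Γ] [MulSemiringAction Γ L]

/-! ### the action of `Γ` and the valuation -/

/-- `Γ` preserves `A`. -/
theorem s56fl_smul_mem (hctx : mzo_Ctx r O L A Γ) (σ : Γ) {a : L} (ha : a ∈ A) : σ • a ∈ A := by
  have h := A.nonunits_subset (hctx.inert σ a ha)
  have e : σ • a = (σ • a - a) + a := by ring
  rw [e]
  exact add_mem h ha

/-- `Γ` preserves `𝔪_A`. -/
theorem s56fl_smul_nonunits (hctx : mzo_Ctx r O L A Γ) (σ : Γ) {a : L} (ha : a ∈ A.nonunits) :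
    σ • a ∈ A.nonunits := by
  have h := hctx.inert σ a (A.nonunits_subset ha)
  have e : σ • a = (σ • a - a) + a := by ring
  rw [e]
  exact mzo_nonunits_add h ha

/-- `Γ` preserves the order of the valuation. -/
theorem s56fl_val_le_smul (hctx : mzo_Ctx r O L A Γ) (σ : Γ) {a b : L}
    (h : A.valuation a ≤ A.valuation b) : A.valuation (σ • a) ≤ A.valuation (σ • b) := by
  by_cases hb : b = 0
  · rw [hb, map_zero, le_zero_iff, map_eq_zero] at h
    rw [h, hb]
  · have hvb : A.valuation b ≠ 0 := (map_ne_zero _).mpr hb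
    have hq : a / b ∈ A := by
      rw [← A.valuation_le_one_iff, map_div₀]
      exact (div_le_one₀ (zero_lt_iff.mpr hvb)).mpr h
    have h1 := s56fl_smul_mem hctx σ hq
    have e : σ • a = σ • (a / b) * σ • b := by
      rw [← smul_mul', div_mul_cancel₀ a hb]
    rw [e, map_mul]
    calc A.valuation (σ • (a / b)) * A.valuation (σ • b)
        ≤ 1 * A.valuation (σ • b) := mul_le_mul_left ((A.valuation_le_one_iff _).mpr h1) _
      _ = A.valuation (σ • b) := one_mul _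

/-- `Γ` preserves the strict order of the valuation. -/
theorem s56fl_val_lt_smul (hctx : mzo_Ctx r O L A Γ) (σ : Γ) {a b : L}
    (h : A.valuation a < A.valuation b) : A.valuation (σ • a) < A.valuation (σ • b) := by
  by_contra hn
  rw [not_lt] at hn
  have h1 := s56fl_val_le_smul hctx σ⁻¹ hn
  rw [inv_smul_smul, inv_smul_smul] at h1
  exact absurd h (not_lt.mpr h1)

/-- `v (σ z) ≤ v z` if some positive power of `σ` fixes `z`. -/
theorem s56fl_val_smul_le (hctx : mzo_Ctx r O L A Γ) (σ : Γ) {z : L} {m : ℕ} (hm : 0 < m)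
    (hz : σ ^ m • z = z) : A.valuation (σ • z) ≤ A.valuation z := by
  by_contra hlt
  rw [not_le] at hlt
  have key : ∀ k : ℕ, A.valuation z < A.valuation (σ ^ (k + 1) • z) := by
    intro k
    induction k with
    | zero => simpa using hlt
    | succ k ih =>
      have h1 := s56fl_val_lt_smul hctx (σ ^ (k + 1)) hlt
      rw [← mul_smul, ← pow_succ] at h1
      exact ih.trans h1
  obtain ⟨k, rfl⟩ : ∃ k, m = k + 1 := ⟨m - 1, by omega⟩
  have h2 := key k
  rw [hz] at h2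
  exact lt_irrefl _ h2

/-- `v (σ z) = v z` if some positive power of `σ` fixes `z`. -/
theorem s56fl_val_smul_eq_of_pow (hctx : mzo_Ctx r O L A Γ) (σ : Γ) {z : L} {m : ℕ} (hm : 0 < m)
    (hz : σ ^ m • z = z) : A.valuation (σ • z) = A.valuation z := by
  refine le_antisymm (s56fl_val_smul_le hctx σ hm hz) ?_
  have hz' : σ⁻¹ ^ m • (σ • z) = σ • z := by
    have h1 : σ⁻¹ ^ m • z = z := by
      rw [inv_pow, inv_smul_eq_iff, hz]
    have hc : σ⁻¹ ^ m * σ = σ * σ⁻¹ ^ m := ((Commute.refl σ).inv_left.pow_left m).eq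
    rw [← mul_smul, hc, mul_smul, h1]
  have h2 := s56fl_val_smul_le hctx σ⁻¹ hm hz'
  rwa [inv_smul_smul] at h2

end

/-! ### finite orbits -/

section orbits

variable {Γ : Type} [Group Γ] {G : Type} [Finite G] [MulAction Γ G]

/-- on a finite `Γ`-set some positive power of `σ` acts trivially. -/
theorem s56fl_exists_pow_smul_eq (σ : Γ) : ∃ m : ℕ, 0 < m ∧ ∀ x : G, σ ^ m • x = x := by
  have hfin : IsOfFinOrder (MulAction.toPermHom Γ G σ) := isOfFinOrder_of_finite _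
  refine ⟨orderOf (MulAction.toPermHom Γ G σ), hfin.orderOf_pos, fun x => ?_⟩
  have h1 := pow_orderOf_eq_one (MulAction.toPermHom Γ G σ)
  rw [← map_pow] at h1
  have h2 := congrArg (fun e : Equiv.Perm G => e x) h1
  simpa using h2

end orbits

section

variable {r : ℕ} {O : Type} [CommRing O] [IsDomain O] [IsDiscreteValuationRing O]
  {L : Type} [Field L] [Algebra O L] {A : ValuationSubring L}
  {Γ : Type} [Group Γ] [MulSemiringAction Γ L]
  {G : Type} [AddCommGroup G] [DistribMulAction Γ G] {H : Subalgebra O (G → L)}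

/-- `Γ` preserves the valuation of the differences of values of the functions of an order. -/
theorem s56fl_val_smul_eq [Finite G] (hctx : mzo_Ctx r O L A Γ) (hH : mzo_IsOrder A Γ G H)
    {φ : G → L} (hφ : φ ∈ H) (σ : Γ) (x y : G) :
    A.valuation (σ • (φ x - φ y)) = A.valuation (φ x - φ y) := by
  obtain ⟨m, hm, hmx⟩ := s56fl_exists_pow_smul_eq (G := G) σ
  refine s56fl_val_smul_eq_of_pow hctx σ hm ?_
  rw [smul_sub, ← hH.equiv φ hφ, ← hH.equiv φ hφ, hmx, hmx]

/-! ### congruences modulo an `A`-submodule `𝔞` of `L` -/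

/-- `𝔞` is stable under multiplication by `A`. -/
def s56fl_IsIdeal (A : ValuationSubring L) (𝔞 : AddSubgroup L) : Prop :=
  ∀ z ∈ 𝔞, ∀ a ∈ A, z * a ∈ 𝔞

/-- `x ≡ y mod 𝔞` for the order `H`: `φ x - φ y ∈ 𝔞` for all `φ ∈ H`. -/
def s56fl_Near (𝔞 : AddSubgroup L) (H : Subalgebra O (G → L)) (x y : G) : Prop :=
  ∀ φ ∈ H, φ x - φ y ∈ 𝔞

theorem s56fl_near_refl (𝔞 : AddSubgroup L) (x : G) : s56fl_Near 𝔞 H x x := fun φ _ => by
  rw [sub_self]; exact 𝔞.zero_mem

theorem s56fl_near_symm {𝔞 : AddSubgroup L} {x y : G} (h : s56fl_Near 𝔞 H x y) :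
    s56fl_Near 𝔞 H y x := fun φ hφ => by
  have := 𝔞.neg_mem (h φ hφ)
  rwa [neg_sub] at this

theorem s56fl_near_trans {𝔞 : AddSubgroup L} {x y z : G} (h : s56fl_Near 𝔞 H x y)
    (h' : s56fl_Near 𝔞 H y z) : s56fl_Near 𝔞 H x z := fun φ hφ => by
  have := 𝔞.add_mem (h φ hφ) (h' φ hφ)
  rwa [sub_add_sub_cancel] at this

/-- **(A1)** translation invariance of the congruence. -/
theorem s56fl_near_add (hH : mzo_IsOrder A Γ G H) {𝔞 : AddSubgroup L} (h𝔞 : s56fl_IsIdeal A 𝔞)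
    {x y : G} (h : s56fl_Near 𝔞 H x y) (g : G) : s56fl_Near 𝔞 H (x + g) (y + g) := by
  intro φ hφ
  obtain ⟨n, a, b, ha, hb, hab⟩ := hH.comul φ hφ
  rw [hab, hab, ← Finset.sum_sub_distrib]
  refine 𝔞.sum_mem fun i _ => ?_
  rw [← sub_mul]
  exact h𝔞 _ (h (a i) (ha i)) _ (hH.int _ (hb i) g)

theorem s56fl_near_add_add (hH : mzo_IsOrder A Γ G H) {𝔞 : AddSubgroup L}
    (h𝔞 : s56fl_IsIdeal A 𝔞) {x y x' y' : G} (h : s56fl_Near 𝔞 H x y)
    (h' : s56fl_Near 𝔞 H x' y') : s56fl_Near 𝔞 H (x + x') (y + y') := by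
  have h1 := s56fl_near_add hH h𝔞 h x'
  have h2 := s56fl_near_add hH h𝔞 h' y
  rw [add_comm x' y, add_comm y' y] at h2
  exact s56fl_near_trans h1 h2

theorem s56fl_near_neg (hH : mzo_IsOrder A Γ G H) {𝔞 : AddSubgroup L}
    (h𝔞 : s56fl_IsIdeal A 𝔞) {x y : G} (h : s56fl_Near 𝔞 H x y) :
    s56fl_Near 𝔞 H (-x) (-y) := by
  have h1 := s56fl_near_add hH h𝔞 h (-x - y)
  have e1 : x + (-x - y) = -y := by abel
  have e2 : y + (-x - y) = -x := by abel
  rw [e1, e2] at h1
  exact s56fl_near_symm h1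

theorem s56fl_near_sub_iff (hH : mzo_IsOrder A Γ G H) {𝔞 : AddSubgroup L}
    (h𝔞 : s56fl_IsIdeal A 𝔞) (x y : G) :
    s56fl_Near 𝔞 H (x - y) 0 ↔ s56fl_Near 𝔞 H x y := by
  constructor
  · intro h
    have h1 := s56fl_near_add hH h𝔞 h y
    rwa [sub_add_cancel, zero_add] at h1
  · intro h
    have h1 := s56fl_near_add hH h𝔞 h (-y)
    rwa [← sub_eq_add_neg, add_neg_cancel] at h1

/-- the subgroup of the points congruent to `0` modulo `𝔞`. -/
def s56fl_ball (hH : mzo_IsOrder A Γ G H) (𝔞 : AddSubgroup L) (h𝔞 : s56fl_IsIdeal A 𝔞) :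
    AddSubgroup G where
  carrier := {x | s56fl_Near 𝔞 H x 0}
  zero_mem' := s56fl_near_refl 𝔞 0
  add_mem' := by
    intro x y hx hy
    have := s56fl_near_add_add hH h𝔞 hx hy
    rwa [add_zero] at this
  neg_mem' := by
    intro x hx
    have := s56fl_near_neg hH h𝔞 hx
    rwa [neg_zero] at this

theorem s56fl_mem_ball (hH : mzo_IsOrder A Γ G H) (𝔞 : AddSubgroup L) (h𝔞 : s56fl_IsIdeal A 𝔞)
    (x : G) : x ∈ s56fl_ball hH 𝔞 h𝔞 ↔ ∀ φ ∈ H, φ x - φ 0 ∈ 𝔞 := Iff.rfl

/-- the congruence is `Γ`-stable if `𝔞` is. -/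
theorem s56fl_near_smul (hH : mzo_IsOrder A Γ G H) {𝔞 : AddSubgroup L} (σ : Γ)
    (hσ : ∀ z ∈ 𝔞, σ • z ∈ 𝔞) {x y : G} (h : s56fl_Near 𝔞 H x y) :
    s56fl_Near 𝔞 H (σ • x) (σ • y) := by
  intro φ hφ
  rw [hH.equiv φ hφ, hH.equiv φ hφ, ← smul_sub]
  exact hσ _ (h φ hφ)

/-- **(A2) = (KEY)**: `σ` moves all the values `φ x` (`φ ∈ H`) by elements of `𝔞` iff the point
`σ x - x` is congruent to `0` modulo `𝔞`. -/
theorem s56fl_key (hH : mzo_IsOrder A Γ G H) {𝔞 : AddSubgroup L} (h𝔞 : s56fl_IsIdeal A 𝔞)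
    (σ : Γ) (x : G) :
    (∀ φ ∈ H, σ • φ x - φ x ∈ 𝔞) ↔ s56fl_Near 𝔞 H (σ • x - x) 0 := by
  rw [s56fl_near_sub_iff hH h𝔞]
  constructor
  · intro h φ hφ
    rw [hH.equiv φ hφ]
    exact h φ hφ
  · intro h φ hφ
    rw [← hH.equiv φ hφ]
    exact h φ hφ

/-! ### the ideals `{v ≤ γ}`, `{v < γ}`, `𝔪_A` -/

/-- the `A`-submodule `{z | v z ≤ γ}` of `L`. -/
def s56fl_le (A : ValuationSubring L) (γ : A.ValueGroup) : AddSubgroup L where
  carrier := {z | A.valuation z ≤ γ}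
  zero_mem' := by
    show A.valuation 0 ≤ γ
    rw [map_zero]
    exact zero_le
  add_mem' := by
    intro a b ha hb
    exact (A.valuation.map_add_le ha hb)
  neg_mem' := by
    intro a ha
    show A.valuation (-a) ≤ γ
    rwa [Valuation.map_neg]

theorem s56fl_mem_le {γ : A.ValueGroup} {z : L} : z ∈ s56fl_le A γ ↔ A.valuation z ≤ γ := Iff.rfl

theorem s56fl_le_isIdeal (γ : A.ValueGroup) : s56fl_IsIdeal A (s56fl_le A γ) := by
  intro z hz a ha
  rw [s56fl_mem_le] at hz ⊢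
  rw [map_mul]
  calc A.valuation z * A.valuation a ≤ γ * 1 :=
        mul_le_mul' hz ((A.valuation_le_one_iff a).mpr ha)
    _ = γ := mul_one γ

/-- the `A`-submodule `{z | v z < γ}` of `L` (`γ ≠ 0`). -/
def s56fl_lt (A : ValuationSubring L) (γ : A.ValueGroup) (hγ : γ ≠ 0) : AddSubgroup L where
  carrier := {z | A.valuation z < γ}
  zero_mem' := by
    show A.valuation 0 < γ
    rw [map_zero]
    exact zero_lt_iff.mpr hγ
  add_mem' := by
    intro a b ha hb
    exact (A.valuation.map_add_lt ha hb)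
  neg_mem' := by
    intro a ha
    show A.valuation (-a) < γ
    rwa [Valuation.map_neg]

theorem s56fl_mem_lt {γ : A.ValueGroup} {hγ : γ ≠ 0} {z : L} :
    z ∈ s56fl_lt A γ hγ ↔ A.valuation z < γ := Iff.rfl

theorem s56fl_lt_isIdeal (γ : A.ValueGroup) (hγ : γ ≠ 0) :
    s56fl_IsIdeal A (s56fl_lt A γ hγ) := by
  intro z hz a ha
  rw [s56fl_mem_lt] at hz ⊢
  rw [map_mul]
  calc A.valuation z * A.valuation a ≤ A.valuation z * 1 :=
        mul_le_mul_right ((A.valuation_le_one_iff a).mpr ha) _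
    _ = A.valuation z := mul_one _
    _ < γ := hz

/-- `𝔪_A` as an additive subgroup of `L`. -/
def s56fl_max (A : ValuationSubring L) : AddSubgroup L := s56fl_lt A 1 one_ne_zero

theorem s56fl_mem_max {z : L} : z ∈ s56fl_max A ↔ z ∈ A.nonunits := by
  rw [ValuationSubring.mem_nonunits_iff]
  exact Iff.rfl

theorem s56fl_max_isIdeal : s56fl_IsIdeal A (s56fl_max A) := s56fl_lt_isIdeal 1 one_ne_zero

/-! ### (L1), (L2): the connected part -/

/-- **(L1)** the connected part `X⁰` of an order: the points congruent to `0` modulo `𝔪_A`. -/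
def s56fl_X0 (hH : mzo_IsOrder A Γ G H) : AddSubgroup G := s56fl_ball hH (s56fl_max A) s56fl_max_isIdeal

theorem s56fl_mem_X0 (hH : mzo_IsOrder A Γ G H) (x : G) :
    x ∈ s56fl_X0 hH ↔ mzo_Cong A H x 0 := by
  unfold s56fl_X0
  rw [s56fl_mem_ball]
  exact forall₂_congr fun φ _ => s56fl_mem_max

/-- **(L1)** `X⁰` is `Γ`-stable. -/
theorem s56fl_X0_smul_mem (hctx : mzo_Ctx r O L A Γ) (hH : mzo_IsOrder A Γ G H) (σ : Γ) {x : G}
    (hx : x ∈ s56fl_X0 hH) : σ • x ∈ s56fl_X0 hH := by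
  have h := s56fl_near_smul hH σ
    (fun z hz => s56fl_mem_max.mpr (s56fl_smul_nonunits hctx σ (s56fl_mem_max.mp hz))) hx
  rwa [smul_zero] at h

/-- **(L2)** `σ x - x ∈ X⁰` for every `σ ∈ Γ`: inertia acts trivially on `G / X⁰`. -/
theorem s56fl_smul_sub_mem_X0 (hctx : mzo_Ctx r O L A Γ) (hH : mzo_IsOrder A Γ G H) (σ : Γ)
    (x : G) : σ • x - x ∈ s56fl_X0 hH := by
  refine (s56fl_key hH s56fl_max_isIdeal σ x).mp fun φ hφ => ?_
  exact s56fl_mem_max.mpr (hctx.inert σ _ (hH.int φ hφ x))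

/-! ### (REL): the `e = 1` lemma in a quotient -/

/-- **(REL)** `π : G → E` onto and equivariant, `r` odd: a point `x` of the connected part of `G`
whose image `π x` is `Γ`-fixed and killed by `r` lies in `ker π`. -/
theorem s56fl_rel [Finite G] (hctx : mzo_Ctx r O L A Γ) (hr2 : r ≠ 2)
    (hH : mzo_IsOrder A Γ G H) {E : Type} [AddCommGroup E] [DistribMulAction Γ E] (π : G →+ E)
    (hπ : Function.Surjective π) (hπe : ∀ (σ : Γ) (x : G), π (σ • x) = σ • π x) {x : G}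
    (hx : x ∈ s56fl_X0 hH) (hfix : ∀ σ : Γ, σ • π x = π x) (hrx : r • π x = 0) : π x = 0 := by
  have : Finite E := Finite.of_surjective π hπ
  have hE := (mzhp_seamQuot r O L A Γ hctx G E π hπ hπe H hH).1
  refine mzo_conn r O L A Γ hctx hr2 E (mzo_pull π H) hE (π x) hfix hrx fun ψ hψ => ?_
  have h1 := (s56fl_mem_X0 hH x).mp hx (ψ ∘ π) hψ
  simpa only [Function.comp_apply, map_zero] using h1

/-- **(REL')** for `y : G` and `σ ∈ Γ`: if `π (σ y - y)` is `Γ`-fixed and killed by `r`, then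
`π (σ y) = π y`. -/
theorem s56fl_rel_smul [Finite G] (hctx : mzo_Ctx r O L A Γ) (hr2 : r ≠ 2)
    (hH : mzo_IsOrder A Γ G H) {E : Type} [AddCommGroup E] [DistribMulAction Γ E] (π : G →+ E)
    (hπ : Function.Surjective π) (hπe : ∀ (σ : Γ) (x : G), π (σ • x) = σ • π x) (σ : Γ) (y : G)
    (hfix : ∀ τ : Γ, τ • π (σ • y - y) = π (σ • y - y)) (hrx : r • π (σ • y - y) = 0) :
    π (σ • y) = π y := by
  have h := s56fl_rel hctx hr2 hH π hπ hπe (s56fl_smul_sub_mem_X0 hctx hH σ y) hfix hrx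
  rw [map_sub, sub_eq_zero] at h
  exact h

end

end Fermat.Agent.S56
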