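/-
Project S56 (Taylor–Wiles primes), node [S56-FLAT-CORE] (helper27).  Prefix `s56f_la_`.
LARSON'S IDEAL IN THE FUNCTION MODEL.  Mathlib + the MAZUR Hopf toolkit (`MZ/Hopf`), imported only.

Setting: `G` a finite abelian group, `L` a field, `O → L` a ring; a HOPF LATTICE is an
`O`-subalgebra `H ⊆ Map(G, L)` with an `O`-basis that is an `L`-basis of `Map(G, L)`, closed under
the comultiplication `Δ φ (x, y) = φ (x + y)`, with `O`-valued counit `φ ↦ φ 0`.

* `s56f_la_dual H`              : the TRACE DUAL `{ψ | ∑ₓ ψ x φ x ∈ O for all φ ∈ H}`;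
* `s56f_la_nsmul_mem`, `s56f_la_neg_mem` : `[k]^* H ⊆ H`, and the antipode preserves `H`;
* `s56f_la_conv_mem`            : `ψ ∈ H^∨`, `h ∈ H`  ⟹  `x ↦ ∑_w ψ w h (w - x) ∈ H`;
* `s56f_la_lam_smul_dual`       : `λ δ₀ ∈ H`  ⟹  `λ H^∨ ⊆ H`;
* `s56f_la_trace_smul_dual`     : `Tr(h₀) H^∨ ⊆ H` for every `h₀ ∈ H` (`Tr h = ∑ₓ h x`)
                                   (Larson's theorem; Frobenius property of Hopf orders);
* `s56f_la_delta_iff`           : `λ δ₀ ∈ H ↔ λ ∈ Tr(H)`;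
* `s56f_la_of_isOrder`          : an order in the sense of `mzo_IsOrder` is a Hopf lattice.
-/
import Mathlib
import Fermat.Agent.MZ.Hopf.DualOrder

set_option autoImplicit false
set_option linter.unusedSectionVars false

noncomputable section

namespace Fermat.Agent.S56

open Fermat.Agent.MZ

section Abstract

variable {O : Type} [CommRing O] {L : Type} [Field L] [Algebra O L]
  {G : Type} [AddCommGroup G] [Fintype G] [DecidableEq G]

/-- `H ⊆ Map(G, L)` is a **Hopf lattice**. -/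
structure s56f_la_IsHopfLattice (H : Subalgebra O (G → L)) : Prop where
  comul : ∀ φ ∈ H, ∃ (n : ℕ) (a b : Fin n → G → L), (∀ i, a i ∈ H) ∧ (∀ i, b i ∈ H) ∧
    ∀ x y : G, φ (x + y) = ∑ i, a i x * b i y
  counit : ∀ φ ∈ H, φ 0 ∈ Set.range (algebraMap O L)
  basis : ∃ (m : ℕ) (b : Module.Basis (Fin m) L (G → L)), (∀ γ, (b γ : G → L) ∈ H) ∧
    ∀ φ ∈ H, ∃ c : Fin m → O, φ = ∑ γ, c γ • (b γ : G → L)

/-- the **trace dual** of `H` for the pairing `⟨ψ, φ⟩ = ∑ₓ ψ x φ x`. -/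
def s56f_la_dual (H : Subalgebra O (G → L)) : Submodule O (G → L) where
  carrier := {ψ | ∀ φ ∈ H, ∑ x, ψ x * φ x ∈ Set.range (algebraMap O L)}
  add_mem' := by
    intro ψ ψ' h h' φ hφ
    have : ∑ x, (ψ + ψ') x * φ x = ∑ x, ψ x * φ x + ∑ x, ψ' x * φ x := by
      rw [← Finset.sum_add_distrib]
      exact Finset.sum_congr rfl fun x _ => by rw [Pi.add_apply, add_mul]
    rw [this]
    exact mzo_range_add (h φ hφ) (h' φ hφ)
  zero_mem' := by
    intro φ _
    exact ⟨0, by simp⟩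
  smul_mem' := by
    intro c ψ h φ hφ
    have : ∑ x, (c • ψ) x * φ x = algebraMap O L c * ∑ x, ψ x * φ x := by
      rw [Finset.mul_sum]
      exact Finset.sum_congr rfl fun x _ => by rw [Pi.smul_apply, Algebra.smul_def, mul_assoc]
    rw [this]
    exact mzo_range_mul ⟨c, rfl⟩ (h φ hφ)

theorem s56f_la_mem_dual {H : Subalgebra O (G → L)} {ψ : G → L} :
    ψ ∈ s56f_la_dual H ↔ ∀ φ ∈ H, ∑ x, ψ x * φ x ∈ Set.range (algebraMap O L) := Iff.rfl

/-- `O`-scalars act on functions through `L`. -/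
theorem s56f_la_smul_eq (c : O) (φ : G → L) : c • φ = algebraMap O L c • φ := by
  funext x
  rw [Pi.smul_apply, Pi.smul_apply, Algebra.smul_def, smul_eq_mul]

/-- elements of `O` times elements of `H` are in `H`, written with `L`-scalars. -/
theorem s56f_la_range_smul_mem {H : Subalgebra O (G → L)} {a : L}
    (ha : a ∈ Set.range (algebraMap O L)) {φ : G → L} (hφ : φ ∈ H) : a • φ ∈ H := by
  obtain ⟨c, rfl⟩ := ha
  rw [← s56f_la_smul_eq]
  exact H.smul_mem hφ c

/-- a finite sum of products `aᵢ(x₀) • bᵢ`-type elements. -/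
theorem s56f_la_sum_mem {H : Subalgebra O (G → L)} {ι : Type} (s : Finset ι) (f : ι → G → L)
    (h : ∀ i ∈ s, f i ∈ H) : ∑ i ∈ s, f i ∈ H := H.sum_mem h

/-! ### multiplication by `k` and the antipode -/

theorem s56f_la_nsmul_mem {H : Subalgebra O (G → L)} (hH : s56f_la_IsHopfLattice H) (k : ℕ) :
    ∀ φ ∈ H, (fun x => φ (k • x)) ∈ H := by
  induction k with
  | zero =>
    intro φ hφ
    obtain ⟨c, hc⟩ := hH.counit φ hφ
    have : (fun x : G => φ (0 • x)) = algebraMap O (G → L) c := by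
      funext x
      rw [zero_nsmul, ← hc]
      rfl
    rw [this]
    exact H.algebraMap_mem c
  | succ k ih =>
    intro φ hφ
    obtain ⟨n, a, b, ha, hb, hab⟩ := hH.comul φ hφ
    have : (fun x : G => φ ((k + 1) • x)) = ∑ i, (fun x => a i (k • x)) * b i := by
      funext x
      rw [succ_nsmul, hab, Finset.sum_apply]
      rfl
    rw [this]
    exact H.sum_mem fun i _ => H.mul_mem (ih (a i) (ha i)) (hb i)

theorem s56f_la_neg_mem {H : Subalgebra O (G → L)} (hH : s56f_la_IsHopfLattice H)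
    {φ : G → L} (hφ : φ ∈ H) : (fun x => φ (-x)) ∈ H := by
  have h1 := s56f_la_nsmul_mem hH (Fintype.card G - 1) φ hφ
  have h2 : (fun x : G => φ ((Fintype.card G - 1) • x)) = fun x => φ (-x) := by
    funext x
    congr 1
    have h3 : (Fintype.card G - 1) • x + x = 0 := by
      rw [← succ_nsmul, Nat.sub_add_cancel Fintype.card_pos, card_nsmul_eq_zero]
    exact eq_neg_of_add_eq_zero_left h3
  rwa [h2] at h1

/-! ### convolution with the dual -/

/-- **the convolution lemma**: for `ψ ∈ H^∨` and `h ∈ H` the function `x ↦ ∑_w ψ w · h (w - x)`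
lies in `H`. -/
theorem s56f_la_conv_mem {H : Subalgebra O (G → L)} (hH : s56f_la_IsHopfLattice H)
    {ψ : G → L} (hψ : ψ ∈ s56f_la_dual H) {h : G → L} (hh : h ∈ H) :
    (fun x => ∑ w, ψ w * h (w - x)) ∈ H := by
  obtain ⟨n, a, b, ha, hb, hab⟩ := hH.comul h hh
  have h1 : (fun x => ∑ w, ψ w * h (w - x)) =
      ∑ i, (∑ w, ψ w * a i w) • (fun x => b i (-x)) := by
    funext x
    rw [Finset.sum_apply]
    simp only [Pi.smul_apply, smul_eq_mul]
    have h2 : ∀ w, ψ w * h (w - x) = ∑ i, ψ w * a i w * b i (-x) := by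
      intro w
      rw [sub_eq_add_neg, hab, Finset.mul_sum]
      exact Finset.sum_congr rfl fun i _ => by ring
    simp only [h2]
    rw [Finset.sum_comm]
    exact Finset.sum_congr rfl fun i _ => by rw [Finset.sum_mul]
  rw [h1]
  exact H.sum_mem fun i _ => s56f_la_range_smul_mem (hψ (a i) (ha i)) (s56f_la_neg_mem hH (hb i))

/-- the same, in the form `x ↦ ∑_y ψ (x + y) · h y`. -/
theorem s56f_la_conv_mem' {H : Subalgebra O (G → L)} (hH : s56f_la_IsHopfLattice H)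
    {ψ : G → L} (hψ : ψ ∈ s56f_la_dual H) {h : G → L} (hh : h ∈ H) :
    (fun x => ∑ y, ψ (x + y) * h y) ∈ H := by
  have h1 := s56f_la_conv_mem hH hψ hh
  have h2 : (fun x => ∑ w, ψ w * h (w - x)) = fun x => ∑ y, ψ (x + y) * h y := by
    funext x
    refine Fintype.sum_equiv (Equiv.subRight x) _ _ fun w => ?_
    simp only [Equiv.subRight_apply]
    rw [add_sub_cancel]
  rwa [h2] at h1

/-- **`λ δ₀ ∈ H ⟹ λ H^∨ ⊆ H`**. -/
theorem s56f_la_lam_smul_dual {H : Subalgebra O (G → L)} (hH : s56f_la_IsHopfLattice H)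
    {lam : L} (hlam : lam • (Pi.single 0 1 : G → L) ∈ H)
    {ψ : G → L} (hψ : ψ ∈ s56f_la_dual H) : lam • ψ ∈ H := by
  have h1 := s56f_la_conv_mem hH hψ hlam
  have h2 : (fun x => ∑ w, ψ w * (lam • (Pi.single 0 1 : G → L)) (w - x)) = lam • ψ := by
    funext x
    rw [Finset.sum_eq_single x]
    · rw [sub_self, Pi.smul_apply, Pi.single_eq_same, Pi.smul_apply, smul_eq_mul, smul_eq_mul]
      ring
    · intro w _ hw
      have : w - x ≠ 0 := sub_ne_zero.mpr hw
      rw [Pi.smul_apply, Pi.single_eq_of_ne this, smul_zero, mul_zero]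
    · intro hx
      exact absurd (Finset.mem_univ x) hx
  rwa [h2] at h1

/-- the dual is an `H`-module. -/
theorem s56f_la_mul_mem_dual {H : Subalgebra O (G → L)}
    {ψ : G → L} (hψ : ψ ∈ s56f_la_dual H) {h : G → L} (hh : h ∈ H) :
    h * ψ ∈ s56f_la_dual H := by
  intro φ hφ
  have : ∑ x, (h * ψ) x * φ x = ∑ x, ψ x * (h * φ) x :=
    Finset.sum_congr rfl fun x _ => by rw [Pi.mul_apply, Pi.mul_apply]; ring
  rw [this]
  exact hψ _ (H.mul_mem hh hφ)

/-- `δ₀ ∈ H^∨`. -/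
theorem s56f_la_delta_mem_dual {H : Subalgebra O (G → L)} (hH : s56f_la_IsHopfLattice H) :
    (Pi.single 0 1 : G → L) ∈ s56f_la_dual H := by
  intro φ hφ
  have : ∑ x, (Pi.single 0 1 : G → L) x * φ x = φ 0 := by
    rw [Finset.sum_eq_single 0]
    · rw [Pi.single_eq_same, one_mul]
    · intro w _ hw
      rw [Pi.single_eq_of_ne hw, zero_mul]
    · intro hx
      exact absurd (Finset.mem_univ _) hx
  rw [this]
  exact hH.counit φ hφ

/-! ### coordinates in a basis of `H` -/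

/-- the coordinates of an element of `H` in an `O`-basis of `H` are in `O`. -/
theorem s56f_la_repr_mem {H : Subalgebra O (G → L)} {m : ℕ}
    (b : Module.Basis (Fin m) L (G → L))
    (hb : ∀ φ ∈ H, ∃ c : Fin m → O, φ = ∑ γ, c γ • (b γ : G → L))
    {φ : G → L} (hφ : φ ∈ H) (γ : Fin m) : b.repr φ γ ∈ Set.range (algebraMap O L) := by
  obtain ⟨c, hc⟩ := hb φ hφ
  refine ⟨c γ, ?_⟩
  have h1 : φ = ∑ γ', algebraMap O L (c γ') • (b γ' : G → L) := by
    rw [hc]
    exact Finset.sum_congr rfl fun γ' _ => s56f_la_smul_eq _ _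
  rw [h1, b.repr_sum_self]

/-- an element with coordinates in `O` lies in `H`. -/
theorem s56f_la_mem_of_repr {H : Subalgebra O (G → L)} {m : ℕ}
    (b : Module.Basis (Fin m) L (G → L)) (hbH : ∀ γ, (b γ : G → L) ∈ H)
    {φ : G → L} (hφ : ∀ γ, b.repr φ γ ∈ Set.range (algebraMap O L)) : φ ∈ H := by
  rw [← b.sum_repr φ]
  exact H.sum_mem fun γ _ => s56f_la_range_smul_mem (hφ γ) (hbH γ)

/-- **the comodule coefficients of `ψ ∈ H^∨` lie in `H^∨`**: if
`ψ (x + y) = ∑_γ c_γ(y) e_γ(x)` then `c_γ ∈ H^∨`. -/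
theorem s56f_la_coef_mem_dual {H : Subalgebra O (G → L)} (hH : s56f_la_IsHopfLattice H) {m : ℕ}
    (b : Module.Basis (Fin m) L (G → L))
    (hb : ∀ φ ∈ H, ∃ c : Fin m → O, φ = ∑ γ, c γ • (b γ : G → L))
    {ψ : G → L} (hψ : ψ ∈ s56f_la_dual H) (γ : Fin m) :
    (fun y => b.repr (fun x => ψ (x + y)) γ) ∈ s56f_la_dual H := by
  intro h hh
  have h1 := s56f_la_repr_mem b hb (s56f_la_conv_mem' hH hψ hh) γ
  have h2 : (fun x => ∑ y, ψ (x + y) * h y) = ∑ y, h y • (fun x => ψ (x + y)) := by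
    funext x
    rw [Finset.sum_apply]
    exact Finset.sum_congr rfl fun y _ => by rw [Pi.smul_apply, smul_eq_mul, mul_comm]
  rw [h2, map_sum, Finsupp.coe_finsetSum, Finset.sum_apply] at h1
  have h3 : ∑ y, (b.repr (h y • fun x => ψ (x + y))) γ =
      ∑ y, (fun y => b.repr (fun x => ψ (x + y)) γ) y * h y :=
    Finset.sum_congr rfl fun y _ => by
      rw [map_smul, Finsupp.smul_apply, smul_eq_mul, mul_comm]
  rwa [h3] at h1

/-- **the constant `ψ 0` lies in `H^∨`** for `ψ ∈ H^∨`. -/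
theorem s56f_la_const_mem_dual {H : Subalgebra O (G → L)} (hH : s56f_la_IsHopfLattice H)
    {ψ : G → L} (hψ : ψ ∈ s56f_la_dual H) : (fun _ => ψ 0) ∈ s56f_la_dual H := by
  obtain ⟨m, b, hbH, hb⟩ := hH.basis
  have h1 : (fun _ : G => ψ 0) =
      ∑ γ, (fun y => (b γ : G → L) (-y)) * (fun y => b.repr (fun x => ψ (x + y)) γ) := by
    funext y
    rw [Finset.sum_apply]
    have h2 := congrFun (b.sum_repr (fun x => ψ (x + y))) (-y)
    rw [Finset.sum_apply] at h2
    simp only [neg_add_cancel] at h2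
    rw [← h2]
    exact Finset.sum_congr rfl fun γ _ => by
      rw [Pi.smul_apply, smul_eq_mul, Pi.mul_apply, mul_comm]
  rw [h1]
  exact Submodule.sum_mem _ fun γ _ =>
    s56f_la_mul_mem_dual (s56f_la_coef_mem_dual hH b hb hψ γ) (s56f_la_neg_mem hH (hbH γ))

/-- `ψ 0 · Tr(h₀) ∈ O` for `ψ ∈ H^∨`, `h₀ ∈ H`. -/
theorem s56f_la_zero_mul_trace {H : Subalgebra O (G → L)} (hH : s56f_la_IsHopfLattice H)
    {ψ : G → L} (hψ : ψ ∈ s56f_la_dual H) {h₀ : G → L} (hh₀ : h₀ ∈ H) :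
    ψ 0 * ∑ x, h₀ x ∈ Set.range (algebraMap O L) := by
  have := s56f_la_const_mem_dual hH hψ h₀ hh₀
  rwa [← Finset.mul_sum] at this

/-- **Larson's theorem (Frobenius property)**: `Tr(h₀) · H^∨ ⊆ H` for every `h₀ ∈ H`. -/
theorem s56f_la_trace_smul_dual {H : Subalgebra O (G → L)} (hH : s56f_la_IsHopfLattice H)
    {ψ : G → L} (hψ : ψ ∈ s56f_la_dual H) {h₀ : G → L} (hh₀ : h₀ ∈ H) :
    (∑ x, h₀ x) • ψ ∈ H := by
  obtain ⟨m, b, hbH, hb⟩ := hH.basis
  refine s56f_la_mem_of_repr b hbH fun γ => ?_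
  rw [map_smul, Finsupp.smul_apply, smul_eq_mul, mul_comm]
  have h1 := s56f_la_zero_mul_trace hH (s56f_la_coef_mem_dual hH b hb hψ γ) hh₀
  simp only [add_zero] at h1
  exact h1

/-- `Tr(h₀) · δ₀ ∈ H` for every `h₀ ∈ H`. -/
theorem s56f_la_trace_smul_delta {H : Subalgebra O (G → L)} (hH : s56f_la_IsHopfLattice H)
    {h₀ : G → L} (hh₀ : h₀ ∈ H) : (∑ x, h₀ x) • (Pi.single 0 1 : G → L) ∈ H :=
  s56f_la_trace_smul_dual hH (s56f_la_delta_mem_dual hH) hh₀

/-- **Larson's ideal is the trace ideal**: `λ δ₀ ∈ H ↔ λ ∈ Tr(H)`. -/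
theorem s56f_la_delta_iff {H : Subalgebra O (G → L)} (hH : s56f_la_IsHopfLattice H) (lam : L) :
    lam • (Pi.single 0 1 : G → L) ∈ H ↔ ∃ h ∈ H, ∑ x, h x = lam := by
  constructor
  · intro h
    refine ⟨_, h, ?_⟩
    rw [Finset.sum_eq_single 0]
    · rw [Pi.smul_apply, Pi.single_eq_same, smul_eq_mul, mul_one]
    · intro w _ hw
      rw [Pi.smul_apply, Pi.single_eq_of_ne hw, smul_zero]
    · intro hx
      exact absurd (Finset.mem_univ _) hx
  · rintro ⟨h, hh, rfl⟩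
    exact s56f_la_trace_smul_delta hH hh

end Abstract

/-! ### orders are Hopf lattices -/

section Order

variable {r : ℕ} {O : Type} [CommRing O] [IsDomain O] [IsDiscreteValuationRing O]
  {L : Type} [Field L] [Algebra O L] {A : ValuationSubring L}
  {Γ : Type} [Group Γ] [MulSemiringAction Γ L]
  {G : Type} [AddCommGroup G] [DistribMulAction Γ G] [Fintype G] [DecidableEq G]

/-- an order (in the sense of the MAZUR Hopf toolkit) is a Hopf lattice. -/
theorem s56f_la_of_isOrder (hctx : mzo_Ctx r O L A Γ) {H : Subalgebra O (G → L)}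
    (hH : mzo_IsOrder A Γ G H) : s56f_la_IsHopfLattice H where
  comul := hH.comul
  counit := fun φ hφ => by
    obtain ⟨o, ho⟩ := hctx.exists_of_fixed (hH.int φ hφ 0)
      (fun σ => by rw [← hH.equiv φ hφ σ 0, smul_zero])
    exact ⟨o, ho⟩
  basis := mzo_order_basis hctx hH

/-- **Larson for orders**: `λ δ₀ ∈ H ↔ λ ∈ Tr(H)`. -/
theorem s56f_la_order_delta_iff (hctx : mzo_Ctx r O L A Γ) {H : Subalgebra O (G → L)}
    (hH : mzo_IsOrder A Γ G H) (lam : L) :
    lam • (Pi.single 0 1 : G → L) ∈ H ↔ ∃ h ∈ H, ∑ x, h x = lam :=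
  s56f_la_delta_iff (s56f_la_of_isOrder hctx hH) lam

end Order

end Fermat.Agent.S56
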