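/-
Project S56, node [S56-FLAT-CORE], cell F-DIFF, part 1 (helper27).  Prefix `s56f_dc_`.
"ORBIT FUNCTIONS WITH VALUES IN THE INVERSE DIFFERENT LIE IN THE DUAL LATTICE."

Setting (`MZ/Hopf`): `hctx : mzo_Ctx r O L A Γ`, `H` an order for the finite `Γ`-module `G`,
`Q ∈ G` a point, `S = Stab_Γ(Q)`, `R ⊆ Γ` a finite left transversal of `S`.  For `w ∈ L^S` put
`tr_R w := ∑_{r ∈ R} r • w` (the trace of `L^S` over `L^Γ`).  For `y ∈ L^S` in the TRACE DUAL of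
`A ∩ L^S` (`tr_R (y z) ∈ A` for all `z ∈ A ∩ L^S`) the orbit function

  `φ_y (r • Q) := r • y`  (`r ∈ R`),  `φ_y := 0` off the orbit of `Q`

lies in the trace dual `s56f_la_dual H` (`s56f_dc_phi_mem_dual`); so if `lam • δ₀ ∈ H` then
`lam • φ_y ∈ H` (`s56f_dc_smul_phi_mem`, Larson), a function of `H` with the value `lam * y` at `Q`
(`s56f_dc_main`).
-/
import Mathlib
import Fermat.Agent.S56.Flat.Larson

set_option autoImplicit false
set_option linter.unusedSectionVars false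

noncomputable section

namespace Fermat.Agent.S56

open Fermat.Agent.MZ

/-- `R` is a finite LEFT TRANSVERSAL of the subgroup `S` of `Γ`: every `σ` lies in exactly one
coset `r S`, `r ∈ R`. -/
def s56f_dc_IsTransversal {Γ : Type} [Group Γ] (S : Subgroup Γ) (R : Finset Γ) : Prop :=
  ∀ σ : Γ, ∃! r, r ∈ R ∧ r⁻¹ * σ ∈ S

section Trace

variable {Γ : Type} [Group Γ] {L : Type} [Field L] [MulSemiringAction Γ L]
  {S : Subgroup Γ} {R : Finset Γ}

/-- the representative of the coset of `σ`. -/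
theorem s56f_dc_rep_unique (hR : s56f_dc_IsTransversal S R) {r r' : Γ} (hr : r ∈ R) (hr' : r' ∈ R)
    (h : r⁻¹ * r' ∈ S) : r = r' := by
  obtain ⟨r₀, _, h0⟩ := hR r'
  have h1 : r = r₀ := h0 r ⟨hr, h⟩
  have h2 : r' = r₀ := h0 r' ⟨hr', by rw [inv_mul_cancel]; exact S.one_mem⟩
  rw [h1, h2]

/-- **the trace of an `S`-fixed element is `Γ`-fixed.** -/
theorem s56f_dc_tr_fixed (hR : s56f_dc_IsTransversal S R) {w : L} (hw : ∀ s ∈ S, s • w = w)
    (σ : Γ) : σ • ∑ r ∈ R, r • w = ∑ r ∈ R, r • w := by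
  classical
  rw [Finset.smul_sum]
  choose g hg _ using fun τ : Γ => hR τ
  have key : ∀ r ∈ R, σ • r • w = g (σ * r) • w := by
    intro r _
    have h1 := hw _ (hg (σ * r)).2
    rw [← mul_smul]
    conv_lhs => rw [show σ * r = g (σ * r) * ((g (σ * r))⁻¹ * (σ * r)) by group, mul_smul, h1]
  rw [Finset.sum_congr rfl key]
  have hmaps : ∀ r ∈ R, g (σ * r) ∈ R := fun r _ => (hg (σ * r)).1
  have hinj : Set.InjOn (fun r => g (σ * r)) (R : Set Γ) := by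
    intro r₁ h1 r₂ h2 h12
    have h12' : g (σ * r₁) = g (σ * r₂) := h12
    have e1 := (hg (σ * r₁)).2
    have e2 := (hg (σ * r₂)).2
    rw [h12'] at e1
    have : r₁⁻¹ * r₂ ∈ S := by
      have := S.mul_mem (S.inv_mem e1) e2
      have h3 : ((g (σ * r₂))⁻¹ * (σ * r₁))⁻¹ * ((g (σ * r₂))⁻¹ * (σ * r₂)) = r₁⁻¹ * r₂ := by
        group
      rwa [h3] at this
    exact s56f_dc_rep_unique hR h1 h2 this
  refine Finset.sum_nbij (fun r => g (σ * r)) hmaps hinj ?_ (fun _ _ => rfl)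
  exact Finset.surjOn_of_injOn_of_card_le _ (fun r hr => hmaps r hr) hinj le_rfl

end Trace

section Phi

variable {Γ : Type} [Group Γ] {L : Type} [Field L] [MulSemiringAction Γ L]
  {G : Type} [AddCommGroup G] [DistribMulAction Γ G] [Fintype G] [DecidableEq G]

/-- the **orbit function** `φ_y`: `r • Q ↦ r • y` (`r ∈ R`), `0` off the orbit of `Q`. -/
def s56f_dc_phi (R : Finset Γ) (Q : G) (y : L) : G → L :=
  fun x => ∑ r ∈ R, if r • Q = x then r • y else 0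

/-- the pairing of `φ_y` with an equivariant function is a trace. -/
theorem s56f_dc_phi_pair (R : Finset Γ) (Q : G) (y : L) (φ : G → L)
    (hφ : ∀ (σ : Γ) (x : G), φ (σ • x) = σ • φ x) :
    ∑ x, s56f_dc_phi R Q y x * φ x = ∑ r ∈ R, r • (y * φ Q) := by
  unfold s56f_dc_phi
  simp_rw [Finset.sum_mul]
  rw [Finset.sum_comm]
  refine Finset.sum_congr rfl fun r _ => ?_
  rw [Finset.sum_eq_single (r • Q)]
  · rw [if_pos rfl, hφ, smul_mul']
  · intro x _ hx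
    rw [if_neg (Ne.symm hx), zero_mul]
  · intro h
    exact absurd (Finset.mem_univ _) h

/-- the value of `φ_y` at `Q`. -/
theorem s56f_dc_phi_Q {S : Subgroup Γ} {R : Finset Γ} (hR : s56f_dc_IsTransversal S R) {Q : G}
    (hS : ∀ σ : Γ, σ ∈ S ↔ σ • Q = Q) {y : L} (hy : ∀ s ∈ S, s • y = y) :
    s56f_dc_phi R Q y Q = y := by
  unfold s56f_dc_phi
  obtain ⟨r₀, ⟨hr₀, hr₀S⟩, _⟩ := hR 1
  have hr₀S' : r₀ ∈ S := by
    have := S.inv_mem hr₀S
    rwa [mul_one, inv_inv] at this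
  rw [Finset.sum_eq_single r₀]
  · rw [if_pos ((hS r₀).mp hr₀S'), hy r₀ hr₀S']
  · intro r hr hne
    rw [if_neg]
    intro hrQ
    have hrS : r ∈ S := (hS r).mpr hrQ
    apply hne
    refine s56f_dc_rep_unique hR hr hr₀ ?_
    exact S.mul_mem (S.inv_mem hrS) hr₀S'
  · intro h
    exact absurd hr₀ h

end Phi

section Main

variable {r : ℕ} {O : Type} [CommRing O] [IsDomain O] [IsDiscreteValuationRing O]
  {L : Type} [Field L] [Algebra O L] {A : ValuationSubring L}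
  {Γ : Type} [Group Γ] [MulSemiringAction Γ L]
  {G : Type} [AddCommGroup G] [DistribMulAction Γ G] [Fintype G] [DecidableEq G]

/-- **`φ_y` lies in the dual lattice** when `y` lies in the trace dual of `A ∩ L^S`. -/
theorem s56f_dc_phi_mem_dual (hctx : mzo_Ctx r O L A Γ) {H : Subalgebra O (G → L)}
    (hH : mzo_IsOrder A Γ G H) {S : Subgroup Γ} {R : Finset Γ}
    (hR : s56f_dc_IsTransversal S R) {Q : G} (hS : ∀ σ : Γ, σ ∈ S → σ • Q = Q)
    {y : L} (hy : ∀ s ∈ S, s • y = y)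
    (hdual : ∀ z ∈ A, (∀ s ∈ S, s • z = z) → ∑ r ∈ R, r • (y * z) ∈ A) :
    s56f_dc_phi R Q y ∈ s56f_la_dual H := by
  rw [s56f_la_mem_dual]
  intro φ hφ
  rw [s56f_dc_phi_pair R Q y φ (hH.equiv φ hφ)]
  have hzS : ∀ s ∈ S, s • φ Q = φ Q := fun s hs => by
    rw [← hH.equiv φ hφ s Q, hS s hs]
  have hmem : ∑ r ∈ R, r • (y * φ Q) ∈ A := hdual (φ Q) (hH.int φ hφ Q) hzS
  have hfix : ∀ σ : Γ, σ • ∑ r ∈ R, r • (y * φ Q) = ∑ r ∈ R, r • (y * φ Q) :=
    s56f_dc_tr_fixed hR (fun s hs => by rw [smul_mul', hy s hs, hzS s hs])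
  obtain ⟨o, ho⟩ := hctx.exists_of_fixed hmem hfix
  exact ⟨o, ho⟩

/-- **Larson**: `lam • φ_y ∈ H` when `lam • δ₀ ∈ H`. -/
theorem s56f_dc_smul_phi_mem (hctx : mzo_Ctx r O L A Γ) {H : Subalgebra O (G → L)}
    (hH : mzo_IsOrder A Γ G H) {lam : L} (hlam : lam • (Pi.single 0 1 : G → L) ∈ H)
    {S : Subgroup Γ} {R : Finset Γ}
    (hR : s56f_dc_IsTransversal S R) {Q : G} (hS : ∀ σ : Γ, σ ∈ S → σ • Q = Q)
    {y : L} (hy : ∀ s ∈ S, s • y = y)
    (hdual : ∀ z ∈ A, (∀ s ∈ S, s • z = z) → ∑ r ∈ R, r • (y * z) ∈ A) :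
    lam • s56f_dc_phi R Q y ∈ H :=
  s56f_la_lam_smul_dual (s56f_la_of_isOrder hctx hH) hlam
    (s56f_dc_phi_mem_dual hctx hH hR hS hy hdual)

/-- **(DIFF-core)**: if `lam • δ₀ ∈ H` and `y ∈ L^S` lies in the trace dual of `A ∩ L^S`
(`S = Stab Q`), then `lam * y` is the value at `Q` of a function of `H`. -/
theorem s56f_dc_main (hctx : mzo_Ctx r O L A Γ) {H : Subalgebra O (G → L)}
    (hH : mzo_IsOrder A Γ G H) {lam : L} (hlam : lam • (Pi.single 0 1 : G → L) ∈ H)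
    {S : Subgroup Γ} {R : Finset Γ}
    (hR : s56f_dc_IsTransversal S R) {Q : G} (hS : ∀ σ : Γ, σ ∈ S ↔ σ • Q = Q)
    {y : L} (hy : ∀ s ∈ S, s • y = y)
    (hdual : ∀ z ∈ A, (∀ s ∈ S, s • z = z) → ∑ r ∈ R, r • (y * z) ∈ A) :
    ∃ h ∈ H, h Q = lam * y := by
  refine ⟨lam • s56f_dc_phi R Q y,
    s56f_dc_smul_phi_mem hctx hH hlam hR (fun σ hσ => (hS σ).mp hσ) hy hdual, ?_⟩
  rw [Pi.smul_apply, s56f_dc_phi_Q hR hS hy, smul_eq_mul]

end Main

end Fermat.Agent.S56
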