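/-
Project S56, node [LOC-p-FLAT], supersingular case (helper27).  Prefix `s56fs_`.
THE VOCABULARY AND THE SEAMS OF THE KUMMER SIDE ([S56-KUMT], helper3) as consumed by the
supersingular count.

Setting (`MZ/Hopf`): `hctx : mzo_Ctx p O L A Γ` (`Γ` = inertia, `O = A ∩ L^Γ`, `K = Frac O`),
`ϖt ∈ L` with `ϖt ^ e = -p` (`e = p² - 1` supersingular, `e = p - 1` ordinary), `T ≤ Γ` the
stabiliser of `ϖt` (`K_t = L^T = K(ϖt)`), `ζ ∈ L^T` a primitive `p`-th root of unity.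

* `s56fs_IsRad T ζ w a` : `w ≠ 0` is a KUMMER RADICAL over `K_t` with character `a : Γ → ZMod p`
  (`s • w = ζ ^ (a s) * w` for `s ∈ T`; only the values of `a` on `T` matter);
* `s56fs_NF A p T ϖt w j x` : `w` has a NORMAL FORM AT LEVEL `j` with leading coefficient `x : O`:
  `(w z) ^ p = 1 + x ϖt ^ j + (smaller)` for some `z ∈ K_t^×`;
* `s56fs_NF0 A p T ϖt w` : LEVEL `0`: `v ((w z) ^ p) = v ϖt ^ m` with `p ∤ m`;
* `s56fs_Dual A S R y` : `y ∈ L^S` lies in the trace dual of `A ∩ L^S` (`R` a left transversal);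
* the seams `s56fs_KNF_stmt` (existence), `s56fs_Uniq_stmt` (uniqueness), `s56fs_Add_stmt`
  (additivity), `s56fs_T5_stmt` (the levels `0, 2, p + 1` have a large different).
-/
import Mathlib
import Fermat.Agent.MZ.Hopf.Ctx
import Fermat.Agent.S56.Flat.DiffCore

set_option autoImplicit false

noncomputable section

namespace Fermat.Agent.S56

open Fermat.Agent.MZ

section Vocabulary

variable {O : Type} [CommRing O] {L : Type} [Field L] [Algebra O L] (A : ValuationSubring L)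
  {Γ : Type} [Group Γ] [MulSemiringAction Γ L] (p : ℕ)

/-- `w` is a Kummer radical over `L^T` with character `a` (values of `a` off `T` are junk). -/
def s56fs_IsRad (T : Subgroup Γ) (ζ : L) (w : L) (a : Γ → ZMod p) : Prop :=
  w ≠ 0 ∧ ∀ s ∈ T, s • w = ζ ^ (a s).val * w

/-- normal form at level `j` with leading coefficient `x`. -/
def s56fs_NF (T : Subgroup Γ) (ϖt : L) (w : L) (j : ℕ) (x : O) : Prop :=
  ∃ z : L, z ≠ 0 ∧ (∀ s ∈ T, s • z = z) ∧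
    A.valuation ((w * z) ^ p - 1 - algebraMap O L x * ϖt ^ j) < A.valuation ϖt ^ j

/-- level `0`: valuation prime to `p`. -/
def s56fs_NF0 (T : Subgroup Γ) (ϖt : L) (w : L) : Prop :=
  ∃ z : L, z ≠ 0 ∧ (∀ s ∈ T, s • z = z) ∧
    ∃ m : ℕ, ¬ p ∣ m ∧ A.valuation ((w * z) ^ p) = A.valuation ϖt ^ m

/-- `y ∈ L^S` lies in the trace dual of `A ∩ L^S` (`R` a finite left transversal of `S`). -/
def s56fs_Dual (S : Subgroup Γ) (R : Finset Γ) (y : L) : Prop :=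
  (∀ s ∈ S, s • y = y) ∧ ∀ z ∈ A, (∀ s ∈ S, s • z = z) → ∑ r ∈ R, r • (y * z) ∈ A

end Vocabulary

section Seams

/-- the standing hypotheses of the Kummer side: `e = p² - 1`. -/
structure s56fs_Setting (p : ℕ) (O : Type) [CommRing O] (L : Type) [Field L] [Algebra O L]
    (A : ValuationSubring L) (Γ : Type) [Group Γ] [MulSemiringAction Γ L]
    (T : Subgroup Γ) (ϖt ζ : L) : Prop where
  hctx : mzo_Ctx p O L A Γ
  hp2 : p ≠ 2
  /-- `ϖt ^ (p² - 1) = -p` -/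
  hϖ : ϖt ^ (p ^ 2 - 1) = -(p : L)
  /-- `T = Stab ϖt` -/
  hT : ∀ σ : Γ, σ ∈ T ↔ σ • ϖt = ϖt
  hζ : IsPrimitiveRoot ζ p
  /-- `ζ ∈ L^T` (true: `(ζ - 1) / ϖt ^ (p + 1)` is a unit congruent to a `(p-1)`-st root of `1`) -/
  hζT : ∀ s ∈ T, s • ζ = ζ
  /-- the residue field is perfect -/
  hperf : ∀ x : O, ∃ y : O, algebraMap O L (y ^ p - x) ∈ A.nonunits
  /-- Artin–Schreier equations are solvable in the residue field -/
  hAS : ∀ (c x : O), algebraMap O L c ∉ A.nonunits →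
    ∃ y : O, algebraMap O L (y ^ p - c * y - x) ∈ A.nonunits

variable (p : ℕ) (O : Type) [CommRing O] (L : Type) [Field L] [Algebra O L]
  (A : ValuationSubring L) (Γ : Type) [Group Γ] [MulSemiringAction Γ L]
  (T : Subgroup Γ) (ϖt ζ : L)

/-- **(KNF)** existence of the normal form. -/
def s56fs_KNF_stmt : Prop :=
  ∀ (w : L) (a : Γ → ZMod p), s56fs_IsRad p T ζ w a →
    (∀ s ∈ T, a s = 0) ∨ s56fs_NF0 A p T ϖt w ∨
      ∃ (j : ℕ) (x : O), 1 ≤ j ∧ j < p ^ 2 + p ∧ ¬ p ∣ j ∧ IsUnit x ∧ s56fs_NF A p T ϖt w j x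

/-- **(UNIQ)** uniqueness of level and leading coefficient. -/
def s56fs_Uniq_stmt : Prop :=
  (∀ (w : L) (a : Γ → ZMod p), s56fs_IsRad p T ζ w a → ∀ (j j' : ℕ) (x x' : O),
    s56fs_NF A p T ϖt w j x → s56fs_NF A p T ϖt w j' x' → IsUnit x' →
    1 ≤ j' → j' < p ^ 2 + p → ¬ p ∣ j' → j' ≤ j → j = j' ∧ ¬ IsUnit (x - x')) ∧
  (∀ (w : L) (a : Γ → ZMod p), s56fs_IsRad p T ζ w a → ∀ (j : ℕ) (x : O), 1 ≤ j →
    s56fs_NF A p T ϖt w j x → ¬ s56fs_NF0 A p T ϖt w) ∧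
  (∀ (w : L) (a : Γ → ZMod p), s56fs_IsRad p T ζ w a → (∀ s ∈ T, a s = 0) →
    ¬ s56fs_NF0 A p T ϖt w)

/-- **(ADD)** additivity of the leading coefficient (levels `j ≥ 1`: at `j = 0` the cross term
`x x' ϖt ^ (2 j)` is not small; helper10 #3426). -/
def s56fs_Add_stmt : Prop :=
  (∀ (w w' : L) (j : ℕ) (x x' : O), 1 ≤ j → s56fs_NF A p T ϖt w j x →
    s56fs_NF A p T ϖt w' j x' → s56fs_NF A p T ϖt (w * w') j (x + x')) ∧
  (∀ (w : L) (j : ℕ) (x : O), 1 ≤ j → w ≠ 0 → s56fs_NF A p T ϖt w j x →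
    s56fs_NF A p T ϖt w⁻¹ j (-x))

/-- **(T5)** the Kummer extensions of level `0`, `2`, `p + 1` have a large different: an element
`y` of the trace dual of `A ∩ L^S` with `p³ y² ∉ A`, for EVERY finite-index `S ≤ T` fixing `w`. -/
def s56fs_T5_stmt : Prop :=
  ∀ (w : L) (a : Γ → ZMod p), s56fs_IsRad p T ζ w a →
    (s56fs_NF0 A p T ϖt w ∨ (∃ x : O, IsUnit x ∧ s56fs_NF A p T ϖt w 2 x) ∨
      ∃ x : O, IsUnit x ∧ s56fs_NF A p T ϖt w (p + 1) x) →
    ∀ (S : Subgroup Γ) (R : Finset Γ), s56f_dc_IsTransversal S R → S ≤ T →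
      (∀ s ∈ S, s • w = w) → ∃ y : L, s56fs_Dual A S R y ∧ (p : L) ^ 3 * y ^ 2 ∉ A

end Seams

end Fermat.Agent.S56
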