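/-
Project S56, node [LOC-p-FLAT] (owner helper27), cell F-SETTING (helper17).  Prefix `s56fg_`.
THE INSTANCE OF `s56fs_Setting` (Flat/SSDefs.lean), abstract part: in the local setting
`hctx : mzo_Ctx p O L A Γ` with `L` ALGEBRAICALLY CLOSED,
* `s56fg_perf`   : the residue field is perfect (`hperf`);
* `s56fg_AS`     : Artin–Schreier equations are solvable in the residue field (`hAS`);
* `s56fg_zeta_fixed` : `ϖt ^ (p² - 1) = -p`, `ζ` a primitive `p`-th root of unity, `s • ϖt = ϖt`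
                   ⟹ `s • ζ = ζ`  (`hζT`: `ζ ∈ K(ϖt)`);
* `s56fg_setting` : `s56fs_Setting p O L A Γ (MulAction.stabilizer Γ ϖt) ϖt ζ`;
* `s56fg_exists`  : existence of `ϖt`, `ζ` (`CharZero L`).
Mathlib + `MZ/Hopf/Ctx` + `S56/Flat/SSDefs`.
-/
import Mathlib
import Fermat.Agent.MZ.Hopf.Ctx
import Fermat.Agent.S56.Flat.SSDefs

set_option autoImplicit false
set_option linter.unusedSectionVars false

noncomputable section

namespace Fermat.Agent.S56

open Fermat.Agent.MZ Polynomial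

section Val

variable {L : Type} [Field L] (A : ValuationSubring L)

theorem s56fg_mul_mem_nonunits {a m : L} (ha : a ∈ A) (hm : m ∈ A.nonunits) :
    a * m ∈ A.nonunits := by
  rw [ValuationSubring.mem_nonunits_iff] at hm ⊢
  rw [map_mul]
  have h1 : A.valuation a ≤ 1 := (A.valuation_le_one_iff a).2 ha
  exact lt_of_le_of_lt (mul_le_of_le_one_left' h1) hm

theorem s56fg_nonunits_mem {m : L} (hm : m ∈ A.nonunits) : m ∈ A := by
  rw [ValuationSubring.mem_nonunits_iff] at hm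
  exact (A.valuation_le_one_iff m).1 hm.le

theorem s56fg_pow_sub_pow_mem {a b : L} (ha : a ∈ A) (hb : b ∈ A) (h : a - b ∈ A.nonunits)
    (n : ℕ) : a ^ n - b ^ n ∈ A.nonunits := by
  induction n with
  | zero =>
    rw [pow_zero, pow_zero, sub_self]
    exact A.nonunits.zero_mem
  | succ n ih =>
    have h1 : a ^ (n + 1) - b ^ (n + 1) = a ^ n * (a - b) + b * (a ^ n - b ^ n) := by ring
    rw [h1]
    exact A.nonunits.add_mem (s56fg_mul_mem_nonunits A (pow_mem ha n) h)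
      (s56fg_mul_mem_nonunits A hb ih)

theorem s56fg_one_not_mem_nonunits : (1 : L) ∉ A.nonunits := by
  rw [ValuationSubring.mem_nonunits_iff, map_one]
  exact lt_irrefl _

end Val

section Residue

variable {p : ℕ} {O : Type} [CommRing O] [IsDomain O] [IsDiscreteValuationRing O]
  {L : Type} [Field L] [Algebra O L]
  {A : ValuationSubring L} {Γ : Type} [Group Γ] [MulSemiringAction Γ L]

/-- **(hperf)** the residue field is perfect -/
theorem s56fg_perf (hctx : mzo_Ctx p O L A Γ) [IsAlgClosed L] (x : O) :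
    ∃ y : O, algebraMap O L (y ^ p - x) ∈ A.nonunits := by
  have hp0 : p ≠ 0 := hctx.r_prime.ne_zero
  obtain ⟨y₀, hy₀⟩ := IsAlgClosed.exists_pow_nat_eq (algebraMap O L x) (Nat.pos_of_ne_zero hp0)
  have hy₀A : y₀ ∈ A := by
    rw [← A.valuation_le_one_iff, ← pow_le_one_iff hp0, ← map_pow, hy₀, A.valuation_le_one_iff]
    exact hctx.mem_A x
  obtain ⟨y, hy⟩ := hctx.res_full y₀ hy₀A
  refine ⟨y, ?_⟩
  rw [map_sub, map_pow, ← hy₀]
  have h1 : algebraMap O L y - y₀ ∈ A.nonunits := by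
    have := A.nonunits.neg_mem hy
    rwa [neg_sub] at this
  exact s56fg_pow_sub_pow_mem A (hctx.mem_A y) hy₀A h1 p

/-- **(hAS)** Artin–Schreier equations are solvable in the residue field -/
theorem s56fg_AS (hctx : mzo_Ctx p O L A Γ) [IsAlgClosed L] (c x : O) :
    ∃ y : O, algebraMap O L (y ^ p - c * y - x) ∈ A.nonunits := by
  have hp1 : 1 < p := hctx.r_prime.one_lt
  set cL := algebraMap O L c with hcL
  set xL := algebraMap O L x with hxL
  -- a root of `X ^ p - c X - x`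
  have hdeg : (X ^ p - (C cL * X + C xL) : L[X]).degree = p := by
    rw [degree_sub_eq_left_of_degree_lt, degree_X_pow]
    rw [degree_X_pow]
    refine lt_of_le_of_lt (degree_linear_le) ?_
    exact_mod_cast hp1
  obtain ⟨y₀, hy₀⟩ := IsAlgClosed.exists_root (X ^ p - (C cL * X + C xL) : L[X]) (by
    rw [hdeg]
    exact_mod_cast (by omega : p ≠ 0))
  have hroot : y₀ ^ p = cL * y₀ + xL := by
    have := hy₀
    simp only [IsRoot.def, eval_sub, eval_pow, eval_X, eval_add, eval_mul, eval_C] at this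
    exact sub_eq_zero.1 this
  have hcA : cL ∈ A := hctx.mem_A c
  have hxA : xL ∈ A := hctx.mem_A x
  have hy₀A : y₀ ∈ A := by
    rw [← A.valuation_le_one_iff]
    by_contra hgt
    rw [not_le] at hgt
    have h1 : A.valuation y₀ < A.valuation y₀ ^ p := lt_self_pow₀ hgt hp1
    have h2 : A.valuation (cL * y₀ + xL) ≤ A.valuation y₀ := by
      refine Valuation.map_add_le _ ?_ ?_
      · rw [map_mul]
        exact mul_le_of_le_one_left' ((A.valuation_le_one_iff _).2 hcA)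
      · exact ((A.valuation_le_one_iff _).2 hxA).trans hgt.le
    rw [← hroot, map_pow] at h2
    exact absurd h2 (not_le.2 h1)
  obtain ⟨y, hy⟩ := hctx.res_full y₀ hy₀A
  refine ⟨y, ?_⟩
  have h1 : algebraMap O L y - y₀ ∈ A.nonunits := by
    have := A.nonunits.neg_mem hy
    rwa [neg_sub] at this
  have h2 : algebraMap O L (y ^ p - c * y - x) =
      ((algebraMap O L y) ^ p - y₀ ^ p) - cL * (algebraMap O L y - y₀) := by
    rw [map_sub, map_sub, map_mul, map_pow, hroot]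
    ring
  rw [h2]
  exact A.nonunits.sub_mem (s56fg_pow_sub_pow_mem A (hctx.mem_A y) hy₀A h1 p)
    (s56fg_mul_mem_nonunits A hcA h1)

end Residue

section Zeta

variable {p : ℕ} {O : Type} [CommRing O] [IsDomain O] [IsDiscreteValuationRing O]
  {L : Type} [Field L] [Algebra O L]
  {A : ValuationSubring L} {Γ : Type} [Group Γ] [MulSemiringAction Γ L]

/-- a root of unity has valuation `1` -/
theorem s56fg_val_root {ζ : L} {n : ℕ} (hn : n ≠ 0) (h : ζ ^ n = 1) : A.valuation ζ = 1 := by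
  have : A.valuation ζ ^ n = 1 := by rw [← map_pow, h, map_one]
  exact (pow_eq_one_iff.1 this).resolve_right hn

/-- `v (1 - x ^ i) ≤ v (1 - x)` for `x ∈ A` -/
theorem s56fg_val_one_sub_pow_le {x : L} (hx : x ∈ A) (i : ℕ) :
    A.valuation (1 - x ^ i) ≤ A.valuation (1 - x) := by
  rw [← mul_neg_geom_sum x i, map_mul]
  refine mul_le_of_le_one_right' ?_
  rw [A.valuation_le_one_iff]
  exact sum_mem fun k _ => pow_mem hx k

/-- `v (1 - ζ ^ i) = v (1 - ζ)` for a primitive `p`-th root of unity and `p ∤ i` -/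
theorem s56fg_val_one_sub_zeta_pow (hp : p.Prime) {ζ : L} (hζ : IsPrimitiveRoot ζ p) {i : ℕ}
    (hi : ¬ p ∣ i) : A.valuation (1 - ζ ^ i) = A.valuation (1 - ζ) := by
  have hζA : ζ ∈ A := by
    rw [← A.valuation_le_one_iff, s56fg_val_root hp.ne_zero hζ.pow_eq_one]
  refine le_antisymm (s56fg_val_one_sub_pow_le hζA i) ?_
  have hcop : i.Coprime p := ((Nat.Prime.coprime_iff_not_dvd hp).2 hi).symm
  have : NeZero p := ⟨hp.ne_zero⟩
  obtain ⟨j, _, hj⟩ := (hζ.pow_of_coprime i hcop).eq_pow_of_pow_eq_one hζ.pow_eq_one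
  calc A.valuation (1 - ζ) = A.valuation (1 - (ζ ^ i) ^ j) := by rw [hj]
    _ ≤ A.valuation (1 - ζ ^ i) := s56fg_val_one_sub_pow_le (pow_mem hζA i) j

/-- `v (1 - ζ) ^ (p - 1) = v p` -/
theorem s56fg_val_one_sub_zeta (hp : p.Prime) {ζ : L} (hζ : IsPrimitiveRoot ζ p) :
    A.valuation (1 - ζ) ^ (p - 1) = A.valuation (p : L) := by
  obtain ⟨n, rfl⟩ : ∃ n, p = n + 1 := ⟨p - 1, (Nat.succ_pred_eq_of_pos hp.pos).symm⟩
  have h1 := hζ.prod_one_sub_pow_eq_order
  have h2 : ((n + 1 : ℕ) : L) = (n : L) + 1 := by push_cast; ring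
  rw [h2, ← h1, map_prod, Nat.add_sub_cancel]
  rw [Finset.prod_congr rfl (fun k hk => s56fg_val_one_sub_zeta_pow hp hζ (i := k + 1) ?_),
    Finset.prod_const, Finset.card_range]
  rw [Finset.mem_range] at hk
  intro hdvd
  have := Nat.le_of_dvd (Nat.succ_pos k) hdvd
  omega

/-- a natural number `0 < a < p` with `a ≡ 1` modulo `𝔪_A` is `1` -/
theorem s56fg_eq_one_of_cong (hctx : mzo_Ctx p O L A Γ) {a : ℕ} (ha0 : 0 < a) (hap : a < p)
    (h : (a : L) - 1 ∈ A.nonunits) : a = 1 := by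
  by_contra hne
  have hp := hctx.r_prime
  obtain ⟨n, rfl⟩ : ∃ n, a = n + 1 := ⟨a - 1, (Nat.succ_pred_eq_of_pos ha0).symm⟩
  have hn0 : n ≠ 0 := fun h0 => hne (by rw [h0])
  have hcop : Nat.Coprime n p := by
    refine ((Nat.Prime.coprime_iff_not_dvd hp).2 fun hd => ?_).symm
    have := Nat.le_of_dvd (Nat.pos_of_ne_zero hn0) hd
    omega
  obtain ⟨x, y, hxy⟩ := Nat.isCoprime_iff_coprime.2 hcop
  have h1 : (x : L) * (n : L) + (y : L) * (p : L) = 1 := by
    have := congrArg (Int.cast : ℤ → L) hxy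
    push_cast at this
    exact this
  have h2 : (n : L) ∈ A.nonunits := by
    have : ((n + 1 : ℕ) : L) - 1 = (n : L) := by push_cast; ring
    rwa [this] at h
  have h3 : (1 : L) ∈ A.nonunits := by
    rw [← h1]
    exact A.nonunits.add_mem (s56fg_mul_mem_nonunits A (intCast_mem A x) h2)
      (s56fg_mul_mem_nonunits A (intCast_mem A y) hctx.r_mem)
  exact s56fg_one_not_mem_nonunits A h3

/-- **(hζT)** `ζ_p ∈ K(ϖt)`: an element of `Γ` fixing `ϖt` (`ϖt ^ (p² - 1) = -p`) fixes `ζ` -/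
theorem s56fg_zeta_fixed (hctx : mzo_Ctx p O L A Γ) {ϖt ζ : L}
    (hϖ : ϖt ^ (p ^ 2 - 1) = -(p : L)) (hζ : IsPrimitiveRoot ζ p) (s : Γ) (hs : s • ϖt = ϖt) :
    s • ζ = ζ := by
  have hp := hctx.r_prime
  have : NeZero p := ⟨hp.ne_zero⟩
  have hζA : ζ ∈ A := by
    rw [← A.valuation_le_one_iff, s56fg_val_root hp.ne_zero hζ.pow_eq_one]
  -- `s • ζ = ζ ^ a`
  have hsζ : (s • ζ) ^ p = 1 := by rw [← smul_pow', hζ.pow_eq_one, smul_one]
  obtain ⟨a, hap, ha⟩ := hζ.eq_pow_of_pow_eq_one hsζ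
  have ha0 : 0 < a := by
    rcases Nat.eq_zero_or_pos a with h0 | h0
    · exfalso
      rw [h0, pow_zero] at ha
      have h1 : s • ζ = s • (1 : L) := by rw [smul_one, ← ha]
      have h2 : ζ = 1 := MulAction.injective s h1
      exact hζ.ne_one hp.one_lt h2
    · exact h0
  -- valuations
  set θ : L := 1 - ζ with hθ
  have hθ0 : θ ≠ 0 := by
    rw [hθ, sub_ne_zero]
    exact fun h => hζ.ne_one hp.one_lt h.symm
  have hvθ : A.valuation θ ^ (p - 1) = A.valuation (p : L) := s56fg_val_one_sub_zeta hp hζ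
  have hvp : A.valuation (p : L) < 1 := A.mem_nonunits_iff.1 hctx.r_mem
  have hp1 : p - 1 ≠ 0 := by have := hp.two_le; omega
  have hvθlt : A.valuation θ < 1 := by
    by_contra hge
    rw [not_lt] at hge
    have : 1 ≤ A.valuation θ ^ (p - 1) := one_le_pow₀ hge
    rw [hvθ] at this
    exact absurd hvp (not_lt.2 this)
  set π₁ : L := ϖt ^ (p + 1) with hπ₁
  have hmul : (p + 1) * (p - 1) = p ^ 2 - 1 := by
    obtain ⟨q, rfl⟩ : ∃ q, p = q + 1 := ⟨p - 1, (Nat.succ_pred_eq_of_pos hp.pos).symm⟩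
    rw [Nat.add_sub_cancel]
    exact (Nat.sub_eq_of_eq_add (by ring)).symm
  have hπ₁p : π₁ ^ (p - 1) = -(p : L) := by rw [hπ₁, ← pow_mul, hmul, hϖ]
  have hvπ : A.valuation π₁ = A.valuation θ := by
    have h1 : A.valuation π₁ ^ (p - 1) = A.valuation θ ^ (p - 1) := by
      rw [← map_pow, hπ₁p, Valuation.map_neg, hvθ]
    exact (pow_left_inj₀ zero_le zero_le hp1).1 h1
  have hπ₁0 : π₁ ≠ 0 := by
    intro h0
    rw [h0, map_zero] at hvπ
    exact hθ0 ((map_eq_zero _).1 hvπ.symm)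
  have hsπ : s • π₁ = π₁ := by rw [hπ₁, smul_pow', hs]
  -- the unit `c = θ / π₁`
  have hvc : A.valuation (θ * π₁⁻¹) = 1 := by
    rw [map_mul, map_inv₀, hvπ, mul_inv_cancel₀]
    exact fun h0 => hθ0 ((map_eq_zero _).1 h0)
  have hcA : θ * π₁⁻¹ ∈ A := by rw [← A.valuation_le_one_iff, hvc]
  have hinert := hctx.inert s _ hcA
  have hsc : s • (θ * π₁⁻¹) = (1 - ζ ^ a) * π₁⁻¹ := by
    rw [smul_mul', smul_inv'', hsπ, hθ, smul_sub, smul_one, ← ha]
  rw [hsc] at hinert
  -- multiply by `c⁻¹`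
  have hcinvA : π₁ * θ⁻¹ ∈ A := by
    rw [← A.valuation_le_one_iff, map_mul, map_inv₀, hvπ, mul_inv_cancel₀]
    exact fun h0 => hθ0 ((map_eq_zero _).1 h0)
  have h1 := s56fg_mul_mem_nonunits A hcinvA hinert
  have h2 : π₁ * θ⁻¹ * ((1 - ζ ^ a) * π₁⁻¹ - θ * π₁⁻¹) =
      (∑ k ∈ Finset.range a, ζ ^ k) - 1 := by
    have h3 : 1 - ζ ^ a = θ * ∑ k ∈ Finset.range a, ζ ^ k := (mul_neg_geom_sum ζ a).symm
    rw [h3]
    field_simp
  rw [h2] at h1
  -- `∑ ζ ^ k ≡ a`
  have h4 : (∑ k ∈ Finset.range a, ζ ^ k) - (a : L) ∈ A.nonunits := by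
    have h5 : (∑ k ∈ Finset.range a, ζ ^ k) - (a : L) = ∑ k ∈ Finset.range a, (ζ ^ k - 1) := by
      rw [Finset.sum_sub_distrib, Finset.sum_const, Finset.card_range, nsmul_eq_mul, mul_one]
    rw [h5]
    refine A.nonunits.sum_mem fun k _ => ?_
    rw [A.mem_nonunits_iff, ← neg_sub, Valuation.map_neg]
    exact lt_of_le_of_lt (s56fg_val_one_sub_pow_le hζA k) hvθlt
  have h6 : (a : L) - 1 ∈ A.nonunits := by
    have := A.nonunits.sub_mem h1 h4
    have h7 : (∑ k ∈ Finset.range a, ζ ^ k) - 1 - ((∑ k ∈ Finset.range a, ζ ^ k) - (a : L)) =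
        (a : L) - 1 := by ring
    rwa [h7] at this
  have ha1 := s56fg_eq_one_of_cong hctx ha0 hap h6
  rw [← ha, ha1, pow_one]

end Zeta

section Setting

variable {p : ℕ} {O : Type} [CommRing O] [IsDomain O] [IsDiscreteValuationRing O]
  {L : Type} [Field L] [Algebra O L]
  {A : ValuationSubring L} {Γ : Type} [Group Γ] [MulSemiringAction Γ L]

/-- **F-SETTING** (abstract part): the standing hypotheses of the Kummer side hold for every
`(p² - 1)`-st root `ϖt` of `-p` and every primitive `p`-th root of unity `ζ`, with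
`T := Stab_Γ ϖt`, as soon as `L` is algebraically closed. -/
theorem s56fg_setting (hctx : mzo_Ctx p O L A Γ) [IsAlgClosed L] (hp2 : p ≠ 2) {ϖt ζ : L}
    (hϖ : ϖt ^ (p ^ 2 - 1) = -(p : L)) (hζ : IsPrimitiveRoot ζ p) :
    s56fs_Setting p O L A Γ (MulAction.stabilizer Γ ϖt) ϖt ζ where
  hctx := hctx
  hp2 := hp2
  hϖ := hϖ
  hT := fun _ => MulAction.mem_stabilizer_iff
  hζ := hζ
  hζT := fun s hs => s56fg_zeta_fixed hctx hϖ hζ s (MulAction.mem_stabilizer_iff.1 hs)
  hperf := s56fg_perf hctx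
  hAS := fun c x _ => s56fg_AS hctx c x

/-- existence of `ϖt` and `ζ` -/
theorem s56fg_exists (hctx : mzo_Ctx p O L A Γ) [IsAlgClosed L] [CharZero L] (hp2 : p ≠ 2) :
    ∃ ϖt ζ : L, s56fs_Setting p O L A Γ (MulAction.stabilizer Γ ϖt) ϖt ζ := by
  have hp := hctx.r_prime
  have hpos : 0 < p ^ 2 - 1 := by
    have := hp.two_le
    have : 2 ^ 2 ≤ p ^ 2 := Nat.pow_le_pow_left this 2
    omega
  obtain ⟨ϖt, hϖ⟩ := IsAlgClosed.exists_pow_nat_eq (-(p : L)) hpos
  have : NeZero p := ⟨hp.ne_zero⟩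
  obtain ⟨ζ, hζ⟩ := HasEnoughRootsOfUnity.exists_primitiveRoot L p
  exact ⟨ϖt, ζ, s56fg_setting hctx hp2 hϖ hζ⟩

end Setting

end Fermat.Agent.S56
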