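/-
Project S56, node [S56-FLAT-CORE], cell F-DERIV (helper27).  Prefix `s56f_dv_`.
"THE INVARIANT DIFFERENTIALS OF A GROUP KILLED BY `n` ARE KILLED BY `n`", in the function model.

Setting: `H ⊆ Map(G, L)` a Hopf lattice (`S56/Flat/Larson.lean`), `B ⊆ L` an `O`-subalgebra (the ring
of values), `J ⊆ L` an additive subgroup with `B · J ⊆ J`, and `d : L → L` a map which is an
`O`-derivation of `B` MODULO `J`.  (Application: `B = O[Π]`, `d (g(Π)) = g'(Π)`, `J = f'(Π) · B`.)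
If `Q ∈ G` is a point all of whose multiples have `H`-values in `B` and `n • x = 0` on `G`, then

  `s56f_dv_main : ∀ h ∈ H, n * d (h Q) ∈ J`.

Proof: `E h := ∑_γ c_γ(h)(-Q) · d (e_γ Q)` (where `h (x + y) = ∑_γ c_γ(h)(x) e_γ(y)`, `e_γ` a basis of
`H`) is an `ε`-derivation modulo `J`, `E ([k]^* h) ≡ k E h`, `[n]^* h` is constant, and
`d (h Q) ≡ ∑_γ E (c_γ(h)) · e_γ(Q)`.
-/
import Mathlib
import Fermat.Agent.S56.Flat.Larson

set_option autoImplicit false
set_option linter.unusedSectionVars false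

noncomputable section

namespace Fermat.Agent.S56

variable {O : Type} [CommRing O] {L : Type} [Field L] [Algebra O L]

/-- `d` is an `O`-derivation of `B` modulo the `B`-stable additive subgroup `J`. -/
structure s56f_dv_IsDer (B : Subalgebra O L) (J : AddSubgroup L) (d : L → L) : Prop where
  J_mul : ∀ b ∈ B, ∀ j ∈ J, b * j ∈ J
  add : ∀ a ∈ B, ∀ b ∈ B, d (a + b) - (d a + d b) ∈ J
  mul : ∀ a ∈ B, ∀ b ∈ B, d (a * b) - (a * d b + b * d a) ∈ J
  const : ∀ o : O, d (algebraMap O L o) ∈ J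

/-- congruence modulo `J`. -/
def s56f_dv_Cong (J : AddSubgroup L) (a b : L) : Prop := a - b ∈ J

namespace s56f_dv_Cong

variable {J : AddSubgroup L} {a b c a' b' : L}

theorem refl (a : L) : s56f_dv_Cong J a a := by
  unfold s56f_dv_Cong
  rw [sub_self]
  exact J.zero_mem

theorem of_eq (h : a = b) : s56f_dv_Cong J a b := h ▸ refl a

theorem symm (h : s56f_dv_Cong J a b) : s56f_dv_Cong J b a := by
  unfold s56f_dv_Cong at *
  have := J.neg_mem h
  rwa [neg_sub] at this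

theorem trans (h : s56f_dv_Cong J a b) (h' : s56f_dv_Cong J b c) : s56f_dv_Cong J a c := by
  unfold s56f_dv_Cong at *
  have := J.add_mem h h'
  rwa [sub_add_sub_cancel] at this

theorem add (h : s56f_dv_Cong J a b) (h' : s56f_dv_Cong J a' b') :
    s56f_dv_Cong J (a + a') (b + b') := by
  unfold s56f_dv_Cong at *
  have := J.add_mem h h'
  rwa [add_sub_add_comm]

theorem sum {ι : Type} (s : Finset ι) (f g : ι → L) (h : ∀ i ∈ s, s56f_dv_Cong J (f i) (g i)) :
    s56f_dv_Cong J (∑ i ∈ s, f i) (∑ i ∈ s, g i) := by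
  unfold s56f_dv_Cong at *
  rw [← Finset.sum_sub_distrib]
  exact J.sum_mem h

theorem zero_iff : s56f_dv_Cong J a 0 ↔ a ∈ J := by
  unfold s56f_dv_Cong
  rw [sub_zero]

end s56f_dv_Cong

section Der

variable {B : Subalgebra O L} {J : AddSubgroup L} {d : L → L}

theorem s56f_dv_IsDer.cong_mul (hd : s56f_dv_IsDer B J d) {b : L} (hb : b ∈ B) {x y : L}
    (h : s56f_dv_Cong J x y) : s56f_dv_Cong J (b * x) (b * y) := by
  unfold s56f_dv_Cong at *
  rw [← mul_sub]
  exact hd.J_mul b hb _ h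

theorem s56f_dv_IsDer.cong_mul_right (hd : s56f_dv_IsDer B J d) {b : L} (hb : b ∈ B) {x y : L}
    (h : s56f_dv_Cong J x y) : s56f_dv_Cong J (x * b) (y * b) := by
  rw [mul_comm x, mul_comm y]
  exact hd.cong_mul hb h

theorem s56f_dv_IsDer.add' (hd : s56f_dv_IsDer B J d) {a b : L} (ha : a ∈ B) (hb : b ∈ B) :
    s56f_dv_Cong J (d (a + b)) (d a + d b) := hd.add a ha b hb

theorem s56f_dv_IsDer.mul' (hd : s56f_dv_IsDer B J d) {a b : L} (ha : a ∈ B) (hb : b ∈ B) :
    s56f_dv_Cong J (d (a * b)) (a * d b + b * d a) := hd.mul a ha b hb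

theorem s56f_dv_IsDer.const' (hd : s56f_dv_IsDer B J d) (o : O) :
    s56f_dv_Cong J (d (algebraMap O L o)) 0 := s56f_dv_Cong.zero_iff.mpr (hd.const o)

theorem s56f_dv_IsDer.zero (hd : s56f_dv_IsDer B J d) : s56f_dv_Cong J (d 0) 0 := by
  have := hd.const' 0
  rwa [map_zero] at this

theorem s56f_dv_IsDer.one (hd : s56f_dv_IsDer B J d) : s56f_dv_Cong J (d 1) 0 := by
  have := hd.const' 1
  rwa [map_one] at this

/-- `d (o a) ≡ o d a`. -/
theorem s56f_dv_IsDer.smul (hd : s56f_dv_IsDer B J d) (o : O) {a : L} (ha : a ∈ B) :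
    s56f_dv_Cong J (d (algebraMap O L o * a)) (algebraMap O L o * d a) := by
  have ho : algebraMap O L o ∈ B := B.algebraMap_mem o
  refine (hd.mul' ho ha).trans ?_
  have h1 : s56f_dv_Cong J (a * d (algebraMap O L o)) (a * 0) := hd.cong_mul ha (hd.const' o)
  have h2 := (s56f_dv_Cong.refl (J := J) (algebraMap O L o * d a)).add h1
  rwa [mul_zero, add_zero] at h2

/-- `d (∑ f i) ≡ ∑ d (f i)`. -/
theorem s56f_dv_IsDer.sum (hd : s56f_dv_IsDer B J d) {ι : Type} (s : Finset ι) (f : ι → L)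
    (hf : ∀ i ∈ s, f i ∈ B) : s56f_dv_Cong J (d (∑ i ∈ s, f i)) (∑ i ∈ s, d (f i)) := by
  classical
  induction s using Finset.induction_on with
  | empty =>
    rw [Finset.sum_empty, Finset.sum_empty]
    exact hd.zero
  | insert a s ha ih =>
    rw [Finset.sum_insert ha, Finset.sum_insert ha]
    have h1 : f a ∈ B := hf a (Finset.mem_insert_self a s)
    have h2 : ∑ i ∈ s, f i ∈ B := B.sum_mem fun i hi => hf i (Finset.mem_insert_of_mem hi)
    refine (hd.add' h1 h2).trans ?_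
    exact (s56f_dv_Cong.refl _).add (ih fun i hi => hf i (Finset.mem_insert_of_mem hi))

/-- `d (∑ o_i f_i) ≡ ∑ o_i d (f_i)`. -/
theorem s56f_dv_IsDer.lin (hd : s56f_dv_IsDer B J d) {ι : Type} (s : Finset ι) (c : ι → O)
    (f : ι → L) (hf : ∀ i ∈ s, f i ∈ B) :
    s56f_dv_Cong J (d (∑ i ∈ s, algebraMap O L (c i) * f i))
      (∑ i ∈ s, algebraMap O L (c i) * d (f i)) := by
  refine (hd.sum s _ fun i hi => B.mul_mem (B.algebraMap_mem _) (hf i hi)).trans ?_
  exact s56f_dv_Cong.sum s _ _ fun i hi => hd.smul (c i) (hf i hi)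

end Der

section Main

variable {G : Type} [AddCommGroup G] [Fintype G] [DecidableEq G]
  {H : Subalgebra O (G → L)} {m : ℕ} (b : Module.Basis (Fin m) L (G → L))
  {B : Subalgebra O L} {J : AddSubgroup L} {d : L → L}

/-- the comodule coefficients of `h`: `h (x + y) = ∑_γ c_γ(x) e_γ(y)`. -/
def s56f_dv_coef (h : G → L) (γ : Fin m) : G → L := fun x => b.repr (fun y => h (x + y)) γ

theorem s56f_dv_coef_spec (h : G → L) (x y : G) :
    h (x + y) = ∑ γ, s56f_dv_coef b h γ x * b γ y := by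
  have h1 := congrFun (b.sum_repr (fun y => h (x + y))) y
  rw [Finset.sum_apply] at h1
  rw [← h1]
  exact Finset.sum_congr rfl fun γ _ => by rw [Pi.smul_apply, smul_eq_mul]; rfl

/-- the coordinates of an `L`-linear combination. -/
theorem s56f_dv_repr_sum {ι : Type} (s : Finset ι) (α : ι → L) (β : ι → G → L) (γ : Fin m) :
    b.repr (∑ i ∈ s, α i • β i) γ = ∑ i ∈ s, α i * b.repr (β i) γ := by
  rw [map_sum, Finsupp.coe_finsetSum, Finset.sum_apply]
  exact Finset.sum_congr rfl fun i _ => by rw [map_smul, Finsupp.smul_apply, smul_eq_mul]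

theorem s56f_dv_coef_mem (hH : s56f_la_IsHopfLattice H)
    (hb : ∀ φ ∈ H, ∃ c : Fin m → O, φ = ∑ γ, c γ • (b γ : G → L))
    {h : G → L} (hh : h ∈ H) (γ : Fin m) : s56f_dv_coef b h γ ∈ H := by
  obtain ⟨n, a, β, ha, hβ, hab⟩ := hH.comul h hh
  have h1 : s56f_dv_coef b h γ = ∑ i, b.repr (β i) γ • a i := by
    funext x
    have h2 : (fun y => h (x + y)) = ∑ i, a i x • β i := by
      funext y
      rw [hab, Finset.sum_apply]
      rfl
    unfold s56f_dv_coef
    rw [h2, s56f_dv_repr_sum, Finset.sum_apply]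
    exact Finset.sum_congr rfl fun i _ => by rw [Pi.smul_apply, smul_eq_mul, mul_comm]
  rw [h1]
  exact H.sum_mem fun i _ => s56f_la_range_smul_mem (s56f_la_repr_mem b hb (hβ i) γ) (ha i)

/-- the "derivative" of a function `F` in the span of `H`, at the point `y`. -/
def s56f_dv_D (d : L → L) (F : G → L) (y : G) : L := ∑ γ, b.repr F γ * d (b γ y)

theorem s56f_dv_D_sum (d : L → L) {ι : Type} (s : Finset ι) (α : ι → L) (β : ι → G → L) (y : G) :
    s56f_dv_D b d (∑ i ∈ s, α i • β i) y = ∑ i ∈ s, α i * s56f_dv_D b d (β i) y := by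
  unfold s56f_dv_D
  simp only [s56f_dv_repr_sum, Finset.sum_mul, Finset.mul_sum]
  rw [Finset.sum_comm]
  exact Finset.sum_congr rfl fun i _ => Finset.sum_congr rfl fun γ _ => by ring

/-- **well-definedness**: `d (β y) ≡ D β y` for `β ∈ H`. -/
theorem s56f_dv_D_cong_one (hd : s56f_dv_IsDer B J d)
    (hb : ∀ φ ∈ H, ∃ c : Fin m → O, φ = ∑ γ, c γ • (b γ : G → L))
    {y : G} (hy : ∀ γ, b γ y ∈ B) {β : G → L} (hβ : β ∈ H) :
    s56f_dv_Cong J (d (β y)) (s56f_dv_D b d β y) := by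
  obtain ⟨c, hc⟩ := hb β hβ
  have h1 : β y = ∑ γ, algebraMap O L (c γ) * b γ y := by
    rw [hc, Finset.sum_apply]
    exact Finset.sum_congr rfl fun γ _ => by rw [Pi.smul_apply, Algebra.smul_def]
  have h2 : ∀ γ, b.repr β γ = algebraMap O L (c γ) := by
    intro γ
    have h3 : β = ∑ γ', algebraMap O L (c γ') • (b γ' : G → L) := by
      rw [hc]
      exact Finset.sum_congr rfl fun γ' _ => s56f_la_smul_eq _ _
    rw [h3, b.repr_sum_self]
  rw [h1]
  refine (hd.lin Finset.univ c (fun γ => b γ y) fun γ _ => hy γ).trans (s56f_dv_Cong.of_eq ?_)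
  unfold s56f_dv_D
  exact Finset.sum_congr rfl fun γ _ => by rw [h2]

/-- **well-definedness**, general form: `∑ α_i d (β_i y) ≡ D (∑ α_i β_i) y`. -/
theorem s56f_dv_D_cong (hd : s56f_dv_IsDer B J d)
    (hb : ∀ φ ∈ H, ∃ c : Fin m → O, φ = ∑ γ, c γ • (b γ : G → L))
    {y : G} (hy : ∀ γ, b γ y ∈ B) {ι : Type} (s : Finset ι) (α : ι → L) (β : ι → G → L)
    (hα : ∀ i ∈ s, α i ∈ B) (hβ : ∀ i ∈ s, β i ∈ H) :
    s56f_dv_Cong J (∑ i ∈ s, α i * d (β i y)) (s56f_dv_D b d (∑ i ∈ s, α i • β i) y) := by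
  rw [s56f_dv_D_sum]
  exact s56f_dv_Cong.sum s _ _ fun i hi =>
    hd.cong_mul (hα i hi) (s56f_dv_D_cong_one b hd hb hy (hβ i hi))

/-- the `ε`-derivation at the origin attached to the point `Q`. -/
def s56f_dv_E (d : L → L) (Q : G) (h : G → L) : L := s56f_dv_D b d (fun y => h (-Q + y)) Q

theorem s56f_dv_E_eq (d : L → L) (Q : G) (h : G → L) :
    s56f_dv_E b d Q h = ∑ γ, s56f_dv_coef b h γ (-Q) * d (b γ Q) := rfl

theorem s56f_dv_E_sum (d : L → L) (Q : G) {ι : Type} (s : Finset ι) (α : ι → L)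
    (β : ι → G → L) :
    s56f_dv_E b d Q (∑ i ∈ s, α i • β i) = ∑ i ∈ s, α i * s56f_dv_E b d Q (β i) := by
  unfold s56f_dv_E
  rw [← s56f_dv_D_sum]
  congr 1
  funext y
  simp only [Finset.sum_apply, Pi.smul_apply]

/-! ### the `ε`-derivation `E` -/

section Claims

variable (hH : s56f_la_IsHopfLattice H) (hbH : ∀ γ, (b γ : G → L) ∈ H)
  (hb : ∀ φ ∈ H, ∃ c : Fin m → O, φ = ∑ γ, c γ • (b γ : G → L))
  (hd : s56f_dv_IsDer B J d) (Q : G) (hval : ∀ h ∈ H, ∀ k : ℕ, h (k • Q) ∈ B)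

include hval in
theorem s56f_dv_val_Q {h : G → L} (hh : h ∈ H) : h Q ∈ B := by
  have := hval h hh 1
  rwa [one_nsmul] at this

include hval in
theorem s56f_dv_val_zero {h : G → L} (hh : h ∈ H) : h 0 ∈ B := by
  have := hval h hh 0
  rwa [zero_nsmul] at this

include hval in
theorem s56f_dv_val_neg {h : G → L} (hh : h ∈ H) : h (-Q) ∈ B := by
  have h1 := hval h hh (Fintype.card G - 1)
  have h2 : (Fintype.card G - 1) • Q = -Q := by
    have h3 : (Fintype.card G - 1) • Q + Q = 0 := by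
      rw [← succ_nsmul, Nat.sub_add_cancel Fintype.card_pos, card_nsmul_eq_zero]
    exact eq_neg_of_add_eq_zero_left h3
  rwa [h2] at h1

include hH hbH hb hd hval in
/-- `E` is an `ε`-derivation modulo `J`. -/
theorem s56f_dv_E_mul {h h' : G → L} (hh : h ∈ H) (hh' : h' ∈ H) :
    s56f_dv_Cong J (s56f_dv_E b d Q (h * h'))
      (h 0 * s56f_dv_E b d Q h' + h' 0 * s56f_dv_E b d Q h) := by
  set c : Fin m → L := fun γ => s56f_dv_coef b h γ (-Q) with hc
  set c' : Fin m → L := fun γ => s56f_dv_coef b h' γ (-Q) with hc'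
  have hcB : ∀ γ, c γ ∈ B := fun γ => s56f_dv_val_neg Q hval (s56f_dv_coef_mem b hH hb hh γ)
  have hc'B : ∀ γ, c' γ ∈ B := fun γ => s56f_dv_val_neg Q hval (s56f_dv_coef_mem b hH hb hh' γ)
  have hyB : ∀ γ, b γ Q ∈ B := fun γ => s56f_dv_val_Q Q hval (hbH γ)
  -- the decomposition of `(h h')(-Q + y)`
  have h1 : (fun y => (h * h') (-Q + y)) =
      ∑ q ∈ (Finset.univ : Finset (Fin m × Fin m)), (c q.1 * c' q.2) • ((b q.1 : G → L) * b q.2) := by
    funext y
    rw [Pi.mul_apply, s56f_dv_coef_spec b h, s56f_dv_coef_spec b h', Finset.sum_mul_sum,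
      Finset.sum_apply, ← Finset.univ_product_univ, Finset.sum_product]
    refine Finset.sum_congr rfl fun γ _ => Finset.sum_congr rfl fun γ' _ => ?_
    simp only [Pi.smul_apply, Pi.mul_apply, smul_eq_mul, hc, hc']
    ring
  have h2 := s56f_dv_D_cong b hd hb hyB (Finset.univ : Finset (Fin m × Fin m))
    (fun q => c q.1 * c' q.2) (fun q => (b q.1 : G → L) * b q.2)
    (fun q _ => B.mul_mem (hcB q.1) (hc'B q.2)) (fun q _ => H.mul_mem (hbH q.1) (hbH q.2))
  rw [← h1] at h2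
  refine h2.symm.trans ?_
  have h3 : s56f_dv_Cong J
      (∑ q ∈ (Finset.univ : Finset (Fin m × Fin m)), (c q.1 * c' q.2) * d (((b q.1 : G → L) * b q.2) Q))
      (∑ q ∈ (Finset.univ : Finset (Fin m × Fin m)),
        (c q.1 * c' q.2) * (b q.1 Q * d (b q.2 Q) + b q.2 Q * d (b q.1 Q))) :=
    s56f_dv_Cong.sum _ _ _ fun q _ =>
      hd.cong_mul (B.mul_mem (hcB q.1) (hc'B q.2)) (hd.mul' (hyB q.1) (hyB q.2))
  refine h3.trans (s56f_dv_Cong.of_eq ?_)
  have e1 : h 0 = ∑ γ, c γ * b γ Q := by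
    have := s56f_dv_coef_spec b h (-Q) Q
    rwa [neg_add_cancel] at this
  have e2 : h' 0 = ∑ γ, c' γ * b γ Q := by
    have := s56f_dv_coef_spec b h' (-Q) Q
    rwa [neg_add_cancel] at this
  rw [e1, e2, s56f_dv_E_eq, s56f_dv_E_eq, Finset.sum_mul_sum, Finset.sum_mul_sum,
    ← Finset.univ_product_univ, Finset.sum_product]
  rw [Finset.sum_comm (f := fun i j => c' i * b i Q * (s56f_dv_coef b h j (-Q) * d (b j Q)))]
  rw [← Finset.sum_add_distrib]
  refine Finset.sum_congr rfl fun γ _ => ?_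
  rw [← Finset.sum_add_distrib]
  refine Finset.sum_congr rfl fun γ' _ => ?_
  simp only [hc, hc']
  ring

include hb hd hval hbH in
/-- `E` kills the constants. -/
theorem s56f_dv_E_const (o : O) :
    s56f_dv_Cong J (s56f_dv_E b d Q (algebraMap O (G → L) o)) 0 := by
  have hyB : ∀ γ, b γ Q ∈ B := fun γ => s56f_dv_val_Q Q hval (hbH γ)
  have h1 : (fun y => (algebraMap O (G → L) o) (-Q + y)) = algebraMap O (G → L) o := rfl
  have h2 := s56f_dv_D_cong_one b hd hb hyB (H.algebraMap_mem o)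
  unfold s56f_dv_E
  rw [h1]
  exact h2.symm.trans (hd.const' o)

include hH hbH hb hd hval in
/-- `E ([k+1]^* h) ≡ E ([k]^* h) + E h`. -/
theorem s56f_dv_E_succ {h : G → L} (hh : h ∈ H) (k : ℕ) :
    s56f_dv_Cong J (s56f_dv_E b d Q (fun x => h ((k + 1) • x)))
      (s56f_dv_E b d Q (fun x => h (k • x)) + s56f_dv_E b d Q h) := by
  have hcH : ∀ γ, s56f_dv_coef b h γ ∈ H := fun γ => s56f_dv_coef_mem b hH hb hh γ
  have hckH : ∀ γ, (fun x => s56f_dv_coef b h γ (k • x)) ∈ H := fun γ =>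
    s56f_la_nsmul_mem hH k _ (hcH γ)
  have h1 : (fun x => h ((k + 1) • x)) =
      ∑ γ, (1 : L) • ((fun x => s56f_dv_coef b h γ (k • x)) * (b γ : G → L)) := by
    funext x
    rw [succ_nsmul, s56f_dv_coef_spec b h, Finset.sum_apply]
    exact Finset.sum_congr rfl fun γ _ => by rw [one_smul]; rfl
  rw [h1, s56f_dv_E_sum]
  have h2 : s56f_dv_Cong J
      (∑ γ, (1 : L) * s56f_dv_E b d Q ((fun x => s56f_dv_coef b h γ (k • x)) * (b γ : G → L)))
      (∑ γ, (s56f_dv_coef b h γ 0 * s56f_dv_E b d Q (b γ) +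
        b γ 0 * s56f_dv_E b d Q (fun x => s56f_dv_coef b h γ (k • x)))) :=
    s56f_dv_Cong.sum _ _ _ fun γ _ => by
      rw [one_mul]
      have := s56f_dv_E_mul b hH hbH hb hd Q hval (hckH γ) (hbH γ)
      simp only [smul_zero] at this
      exact this
  refine h2.trans (s56f_dv_Cong.of_eq ?_)
  rw [Finset.sum_add_distrib, add_comm]
  congr 1
  · rw [← s56f_dv_E_sum]
    congr 1
    funext x
    rw [Finset.sum_apply]
    have := s56f_dv_coef_spec b h (k • x) 0
    rw [add_zero] at this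
    rw [this]
    exact Finset.sum_congr rfl fun γ _ => by rw [Pi.smul_apply, smul_eq_mul, mul_comm]
  · rw [← s56f_dv_E_sum]
    congr 1
    funext y
    rw [Finset.sum_apply]
    have := s56f_dv_coef_spec b h 0 y
    rw [zero_add] at this
    rw [this]
    exact Finset.sum_congr rfl fun γ _ => by rw [Pi.smul_apply, smul_eq_mul]

include hH hbH hb hd hval in
/-- `E ([k]^* h) ≡ k E h`. -/
theorem s56f_dv_E_nsmul {h : G → L} (hh : h ∈ H) (k : ℕ) :
    s56f_dv_Cong J (s56f_dv_E b d Q (fun x => h (k • x))) ((k : L) * s56f_dv_E b d Q h) := by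
  induction k with
  | zero =>
    obtain ⟨o, ho⟩ := hH.counit h hh
    have h1 : (fun x : G => h (0 • x)) = algebraMap O (G → L) o := by
      funext x
      rw [zero_nsmul, ← ho]
      rfl
    rw [h1, Nat.cast_zero, zero_mul]
    exact s56f_dv_E_const b hbH hb hd Q hval o
  | succ k ih =>
    refine (s56f_dv_E_succ b hH hbH hb hd Q hval hh k).trans ?_
    have := ih.add (s56f_dv_Cong.refl (J := J) (s56f_dv_E b d Q h))
    refine this.trans (s56f_dv_Cong.of_eq ?_)
    push_cast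
    ring

include hH hbH hb hd hval in
/-- `d (h Q) ≡ ∑_γ E (c_γ(h)) e_γ(Q)`. -/
theorem s56f_dv_d_eq {h : G → L} (hh : h ∈ H) :
    s56f_dv_Cong J (d (h Q)) (∑ γ, s56f_dv_E b d Q (s56f_dv_coef b h γ) * b γ Q) := by
  have hyB : ∀ γ, b γ Q ∈ B := fun γ => s56f_dv_val_Q Q hval (hbH γ)
  refine (s56f_dv_D_cong_one b hd hb hyB hh).trans (s56f_dv_Cong.of_eq ?_)
  have h1 : h = ∑ κ, (∑ γ, s56f_dv_coef b (s56f_dv_coef b h γ) κ (-Q) * b γ Q) • (b κ : G → L) := by
    funext y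
    have e1 : y = (-Q + y) + Q := by abel
    conv_lhs => rw [e1, s56f_dv_coef_spec b h]
    rw [Finset.sum_apply]
    simp only [Pi.smul_apply, smul_eq_mul, Finset.sum_mul]
    rw [Finset.sum_comm]
    refine Finset.sum_congr rfl fun γ _ => ?_
    rw [s56f_dv_coef_spec b (s56f_dv_coef b h γ) (-Q) y, Finset.sum_mul]
    exact Finset.sum_congr rfl fun κ _ => by ring
  have h2 : ∀ κ, b.repr h κ = ∑ γ, s56f_dv_coef b (s56f_dv_coef b h γ) κ (-Q) * b γ Q := by
    intro κ
    conv_lhs => rw [h1]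
    rw [b.repr_sum_self]
  unfold s56f_dv_D
  simp only [h2, s56f_dv_E_eq, Finset.sum_mul]
  rw [Finset.sum_comm]
  exact Finset.sum_congr rfl fun γ _ => Finset.sum_congr rfl fun κ _ => by ring

include hH hbH hb hd hval in
/-- **the invariant differentials of a group killed by `n` are killed by `n`**:
`n · d (h Q) ∈ J` for every `h ∈ H`. -/
theorem s56f_dv_main_basis (n : ℕ) (hn : ∀ x : G, n • x = 0) {h : G → L} (hh : h ∈ H) :
    (n : L) * d (h Q) ∈ J := by
  have hnB : (n : L) ∈ B := by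
    have := B.algebraMap_mem (n : O)
    rwa [map_natCast] at this
  have hyB : ∀ γ, b γ Q ∈ B := fun γ => s56f_dv_val_Q Q hval (hbH γ)
  have h1 := hd.cong_mul hnB (s56f_dv_d_eq b hH hbH hb hd Q hval hh)
  rw [Finset.mul_sum] at h1
  have h2 : s56f_dv_Cong J
      (∑ γ, (n : L) * (s56f_dv_E b d Q (s56f_dv_coef b h γ) * b γ Q)) (∑ _γ : Fin m, (0 : L)) := by
    refine s56f_dv_Cong.sum _ _ _ fun γ _ => ?_
    have hcH := s56f_dv_coef_mem b hH hb hh γ
    have h3 := s56f_dv_E_nsmul b hH hbH hb hd Q hval hcH n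
    obtain ⟨o, ho⟩ := hH.counit _ hcH
    have h4 : (fun x : G => s56f_dv_coef b h γ (n • x)) = algebraMap O (G → L) o := by
      funext x
      rw [hn, ← ho]
      rfl
    rw [h4] at h3
    have h5 : s56f_dv_Cong J ((n : L) * s56f_dv_E b d Q (s56f_dv_coef b h γ)) 0 :=
      h3.symm.trans (s56f_dv_E_const b hbH hb hd Q hval o)
    have h6 := hd.cong_mul_right (hyB γ) h5
    rwa [zero_mul, mul_assoc] at h6
  rw [Finset.sum_const_zero] at h2
  exact s56f_dv_Cong.zero_iff.mp (h1.trans h2)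

end Claims

end Main

section Final

variable {G : Type} [AddCommGroup G] [Fintype G] [DecidableEq G]
  {H : Subalgebra O (G → L)} {B : Subalgebra O L} {J : AddSubgroup L} {d : L → L}

/-- **the invariant differentials of a group killed by `n` are killed by `n`** (function model):
if `d` is an `O`-derivation of the ring of values `B` modulo `J`, then `n · d (h Q) ∈ J`. -/
theorem s56f_dv_main (hH : s56f_la_IsHopfLattice H) (hd : s56f_dv_IsDer B J d) (Q : G)
    (hval : ∀ h ∈ H, ∀ k : ℕ, h (k • Q) ∈ B) (n : ℕ) (hn : ∀ x : G, n • x = 0)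
    {h : G → L} (hh : h ∈ H) : (n : L) * d (h Q) ∈ J := by
  obtain ⟨m, b, hbH, hb⟩ := hH.basis
  exact s56f_dv_main_basis b hH hbH hb hd Q hval n hn hh

end Final

end Fermat.Agent.S56
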