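/-
Project S56, node [S56-FLAT-CORE], cell F-DIFF, part 2 (helper27).  Prefix `s56f_df_`.
"THE DIFFERENT OF THE FIELD OF A POINT OF A FINITE FLAT GROUP SCHEME IS SMALL" (Fontaine's
bound, elementary form; (DIFF) of the S56 plan).

Setting (`MZ/Hopf`): `hctx : mzo_Ctx r O L A Γ`, `H` an order for the finite `Γ`-module `G`
killed by `n`, `lam • δ₀ ∈ H`, `Q ∈ G` a point, `S = Stab_Γ(Q)`, `R ⊆ Γ` a finite left transversal
of `S`, and the ring of integers `A ∩ L^S` of the field of `Q` is MONOGENIC: `= O[ϖ]`.  Then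

  `s56f_df_main : n * lam * y ^ 2 ∈ A`

for every `y ∈ L^S` in the trace dual of `A ∩ L^S` (i.e. `n lam ∈ 𝔇²`, `𝔇` the different of
`L^S / L^Γ`).

Proof.  `f` := the orbit polynomial of `ϖ` (`s56f_df_exists_poly`); `g(ϖ) = 0 ⟹ f ∣ g`
(`s56f_df_ker`); hence `d (g(ϖ)) := g'(ϖ)` is a derivation of `B = O[ϖ]` modulo `J = f'(ϖ) B`
(`s56f_df_isDer`) with `d ϖ ≡ 1`.  `lam y` and `lam ϖ y` are values at `Q` of functions of `H`
(`s56f_dc_main`), so `n d(lam y), n d(ϖ lam y) ∈ J` (`s56f_dv_main`), so `n lam y ∈ J` (Leibniz).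
Euler (`s56f_df_euler`): `f'(ϖ) y ∈ B`.  Multiply.
-/
import Mathlib
import Fermat.Agent.S56.Flat.Deriv
import Fermat.Agent.S56.Flat.DiffCore

set_option autoImplicit false
set_option linter.unusedSectionVars false

noncomputable section

namespace Fermat.Agent.S56

open Fermat.Agent.MZ Polynomial

/-! ### finite `Γ`-stable sets and their polynomials -/

section PartA

variable {Γ : Type} [Group Γ] {L : Type} [Field L] [MulSemiringAction Γ L]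

/-- the monic polynomial with the simple roots `Ω`. -/
def s56f_df_poly (Ω : Finset L) : L[X] := ∏ α ∈ Ω, (X - C α)

theorem s56f_df_poly_monic (Ω : Finset L) : (s56f_df_poly Ω).Monic :=
  monic_prod_X_sub_C _ _

theorem s56f_df_smul_poly [DecidableEq L] (σ : Γ) (Ω : Finset L) :
    σ • s56f_df_poly Ω = s56f_df_poly (Ω.image (σ • ·)) := by
  unfold s56f_df_poly
  rw [Finset.smul_prod', Finset.prod_image (fun a _ b _ h => MulAction.injective σ h)]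
  refine Finset.prod_congr rfl fun α _ => ?_
  rw [smul_sub, smul_X, smul_C]

theorem s56f_df_image_eq [DecidableEq L] {Ω : Finset L} (hΩ : ∀ σ : Γ, ∀ α ∈ Ω, σ • α ∈ Ω)
    (σ : Γ) : Ω.image (σ • ·) = Ω := by
  apply Finset.eq_of_subset_of_card_le
  · intro β hβ
    obtain ⟨α, hα, rfl⟩ := Finset.mem_image.mp hβ
    exact hΩ σ α hα
  · rw [Finset.card_image_of_injective _ (MulAction.injective σ)]

theorem s56f_df_poly_coeff_mem {A : ValuationSubring L} {Ω : Finset L} (hΩA : ∀ α ∈ Ω, α ∈ A)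
    (i : ℕ) : (s56f_df_poly Ω).coeff i ∈ A := by
  have h1 : s56f_df_poly Ω ∈ Polynomial.lifts A.subtype := by
    unfold s56f_df_poly
    refine Subsemiring.prod_mem _ fun α hα => ?_
    rw [Polynomial.mem_lifts]
    exact ⟨X - C ⟨α, hΩA α hα⟩, by simp⟩
  obtain ⟨a, ha⟩ := (lifts_iff_coeff_lifts _).mp h1 i
  rw [← ha]
  exact a.2

theorem s56f_df_eval_poly (Ω : Finset L) (x : L) :
    (s56f_df_poly Ω).eval x = ∏ α ∈ Ω, (x - α) := by
  unfold s56f_df_poly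
  rw [eval_prod]
  exact Finset.prod_congr rfl fun α _ => by rw [eval_sub, eval_X, eval_C]

end PartA

/-! ### the derivation `g(ϖ) ↦ g'(ϖ)` of `O[ϖ]` modulo `f'(ϖ)` -/

section PartB

variable {O : Type} [CommRing O] {L : Type} [Field L] [Algebra O L]

/-- `B = O[ϖ]`. -/
def s56f_df_B (O : Type) [CommRing O] {L : Type} [Field L] [Algebra O L] (ϖ : L) :
    Subalgebra O L := (aeval ϖ : O[X] →ₐ[O] L).range

theorem s56f_df_mem_B {ϖ a : L} : a ∈ s56f_df_B O ϖ ↔ ∃ g : O[X], aeval ϖ g = a :=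
  AlgHom.mem_range _

/-- `J = f'(ϖ) · O[ϖ]`. -/
def s56f_df_J (ϖ : L) (f₀ : O[X]) : AddSubgroup L where
  carrier := {j | ∃ g : O[X], j = aeval ϖ (derivative f₀) * aeval ϖ g}
  zero_mem' := ⟨0, by rw [map_zero, mul_zero]⟩
  add_mem' := by
    rintro _ _ ⟨g, rfl⟩ ⟨g', rfl⟩
    exact ⟨g + g', by rw [map_add, mul_add]⟩
  neg_mem' := by
    rintro _ ⟨g, rfl⟩
    exact ⟨-g, by rw [map_neg, mul_neg]⟩

theorem s56f_df_mem_J {ϖ : L} {f₀ : O[X]} {j : L} :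
    j ∈ s56f_df_J ϖ f₀ ↔ ∃ g : O[X], j = aeval ϖ (derivative f₀) * aeval ϖ g := Iff.rfl

/-- the derivation: `d (g(ϖ)) = g'(ϖ)` for a chosen representative `g`. -/
def s56f_df_d (O : Type) [CommRing O] {L : Type} [Field L] [Algebra O L] (ϖ : L) : L → L := by
  classical
  exact fun a => if h : ∃ g : O[X], aeval ϖ g = a then aeval ϖ (derivative h.choose) else 0

variable {ϖ : L} {f₀ : O[X]}

theorem s56f_df_J_mul {b j : L} (hb : b ∈ s56f_df_B O ϖ) (hj : j ∈ s56f_df_J ϖ f₀) :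
    b * j ∈ s56f_df_J ϖ f₀ := by
  obtain ⟨gb, rfl⟩ := s56f_df_mem_B.mp hb
  obtain ⟨g, rfl⟩ := hj
  exact ⟨gb * g, by rw [map_mul]; ring⟩

/-- the derivative of a polynomial vanishing at `ϖ` lies in `J`. -/
theorem s56f_df_ker_mem (hroot : aeval ϖ f₀ = 0)
    (hker : ∀ g : O[X], aeval ϖ g = 0 → f₀ ∣ g) {g : O[X]} (hg : aeval ϖ g = 0) :
    aeval ϖ (derivative g) ∈ s56f_df_J ϖ f₀ := by
  obtain ⟨q, rfl⟩ := hker g hg
  refine ⟨q, ?_⟩
  rw [derivative_mul, map_add, map_mul, map_mul, hroot, zero_mul, add_zero]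

/-- `d (g(ϖ)) ≡ g'(ϖ)` modulo `J`. -/
theorem s56f_df_d_spec (hroot : aeval ϖ f₀ = 0)
    (hker : ∀ g : O[X], aeval ϖ g = 0 → f₀ ∣ g) (g : O[X]) :
    s56f_df_d O ϖ (aeval ϖ g) - aeval ϖ (derivative g) ∈ s56f_df_J ϖ f₀ := by
  have h : ∃ g' : O[X], aeval ϖ g' = aeval ϖ g := ⟨g, rfl⟩
  have hd : s56f_df_d O ϖ (aeval ϖ g) = aeval ϖ (derivative h.choose) := by
    unfold s56f_df_d
    rw [dif_pos h]
  rw [hd, ← map_sub, ← derivative_sub]
  apply s56f_df_ker_mem hroot hker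
  rw [map_sub, h.choose_spec, sub_self]

/-- **`d` is a derivation of `O[ϖ]` modulo `f'(ϖ) O[ϖ]`.** -/
theorem s56f_df_isDer (hroot : aeval ϖ f₀ = 0)
    (hker : ∀ g : O[X], aeval ϖ g = 0 → f₀ ∣ g) :
    s56f_dv_IsDer (s56f_df_B O ϖ) (s56f_df_J ϖ f₀) (s56f_df_d O ϖ) where
  J_mul := fun b hb j hj => s56f_df_J_mul hb hj
  add := by
    intro a ha b hb
    obtain ⟨ga, rfl⟩ := s56f_df_mem_B.mp ha
    obtain ⟨gb, rfl⟩ := s56f_df_mem_B.mp hb
    have h1 := s56f_df_d_spec hroot hker (ga + gb)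
    have h2 := s56f_df_d_spec hroot hker ga
    have h3 := s56f_df_d_spec hroot hker gb
    have := (s56f_df_J ϖ f₀).sub_mem (( s56f_df_J ϖ f₀).sub_mem h1 h2) h3
    rw [map_add, derivative_add, map_add] at this
    have e : s56f_df_d O ϖ ((aeval ϖ) ga + (aeval ϖ) gb) -
        (s56f_df_d O ϖ ((aeval ϖ) ga) + s56f_df_d O ϖ ((aeval ϖ) gb)) =
        s56f_df_d O ϖ ((aeval ϖ) ga + (aeval ϖ) gb) -
          ((aeval ϖ) (derivative ga) + (aeval ϖ) (derivative gb)) -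
        (s56f_df_d O ϖ ((aeval ϖ) ga) - (aeval ϖ) (derivative ga)) -
        (s56f_df_d O ϖ ((aeval ϖ) gb) - (aeval ϖ) (derivative gb)) := by ring
    rw [e]
    exact this
  mul := by
    intro a ha b hb
    obtain ⟨ga, rfl⟩ := s56f_df_mem_B.mp ha
    obtain ⟨gb, rfl⟩ := s56f_df_mem_B.mp hb
    have h1 := s56f_df_d_spec hroot hker (ga * gb)
    have h2 := s56f_df_J_mul (s56f_df_mem_B.mpr ⟨gb, rfl⟩) (s56f_df_d_spec hroot hker ga)
    have h3 := s56f_df_J_mul (s56f_df_mem_B.mpr ⟨ga, rfl⟩) (s56f_df_d_spec hroot hker gb)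
    have := (s56f_df_J ϖ f₀).sub_mem (( s56f_df_J ϖ f₀).sub_mem h1 h2) h3
    rw [map_mul, derivative_mul, map_add, map_mul, map_mul] at this
    have e : s56f_df_d O ϖ ((aeval ϖ) ga * (aeval ϖ) gb) -
        ((aeval ϖ) ga * s56f_df_d O ϖ ((aeval ϖ) gb) +
          (aeval ϖ) gb * s56f_df_d O ϖ ((aeval ϖ) ga)) =
        s56f_df_d O ϖ ((aeval ϖ) ga * (aeval ϖ) gb) -
          ((aeval ϖ) (derivative ga) * (aeval ϖ) gb + (aeval ϖ) ga * (aeval ϖ) (derivative gb)) -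
        (aeval ϖ) gb * (s56f_df_d O ϖ ((aeval ϖ) ga) - (aeval ϖ) (derivative ga)) -
        (aeval ϖ) ga * (s56f_df_d O ϖ ((aeval ϖ) gb) - (aeval ϖ) (derivative gb)) := by ring
    rw [e]
    exact this
  const := by
    intro o
    have h1 := s56f_df_d_spec hroot hker (C o)
    rwa [derivative_C, map_zero, sub_zero, aeval_C] at h1

/-- `d ϖ ≡ 1` modulo `J`. -/
theorem s56f_df_d_Pi (hroot : aeval ϖ f₀ = 0)
    (hker : ∀ g : O[X], aeval ϖ g = 0 → f₀ ∣ g) :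
    s56f_df_d O ϖ ϖ - 1 ∈ s56f_df_J ϖ f₀ := by
  have h1 := s56f_df_d_spec hroot hker (X : O[X])
  rwa [derivative_X, map_one, aeval_X] at h1

end PartB

/-! ### the orbit polynomial over `O` -/

section PartC

variable {r : ℕ} {O : Type} [CommRing O] [IsDomain O] [IsDiscreteValuationRing O]
  {L : Type} [Field L] [Algebra O L] {A : ValuationSubring L}
  {Γ : Type} [Group Γ] [MulSemiringAction Γ L]

/-- `Γ` preserves `A`. -/
theorem s56f_df_smul_mem (hctx : mzo_Ctx r O L A Γ) (σ : Γ) {a : L} (ha : a ∈ A) : σ • a ∈ A := by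
  have h1 := hctx.inert σ a ha
  have h2 : σ • a - a ∈ A := ValuationSubring.nonunits_subset h1
  have := A.add_mem _ _ h2 ha
  rwa [sub_add_cancel] at this

/-- polynomials with coefficients in `O` are `Γ`-fixed. -/
theorem s56f_df_smul_map (hctx : mzo_Ctx r O L A Γ) (σ : Γ) (g : O[X]) :
    σ • g.map (algebraMap O L) = g.map (algebraMap O L) := by
  ext i
  rw [coeff_smul, coeff_map, hctx.fixed]

/-- conjugates of roots are roots. -/
theorem s56f_df_aeval_smul (hctx : mzo_Ctx r O L A Γ) (σ : Γ) (g : O[X]) (x : L) :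
    aeval (σ • x) g = σ • aeval x g := by
  rw [← eval_map_algebraMap, ← eval_map_algebraMap, ← smul_eval_smul, s56f_df_smul_map hctx]

/-- a `Γ`-stable finite subset of `A` is the set of roots of a monic polynomial over `O`. -/
theorem s56f_df_exists_poly (hctx : mzo_Ctx r O L A Γ) {Ω : Finset L} (hΩA : ∀ α ∈ Ω, α ∈ A)
    (hΩ : ∀ σ : Γ, ∀ α ∈ Ω, σ • α ∈ Ω) :
    ∃ f₀ : O[X], f₀.Monic ∧ f₀.map (algebraMap O L) = s56f_df_poly Ω := by
  classical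
  have hl : s56f_df_poly Ω ∈ lifts (algebraMap O L) := by
    rw [lifts_iff_coeff_lifts]
    intro i
    refine hctx.exists_of_fixed (s56f_df_poly_coeff_mem hΩA i) fun σ => ?_
    rw [← coeff_smul, s56f_df_smul_poly, s56f_df_image_eq hΩ]
  obtain ⟨f₀, h1, _, h2⟩ := lifts_and_natDegree_eq_and_monic hl (s56f_df_poly_monic Ω)
  exact ⟨f₀, h2, h1⟩

/-- **the orbit polynomial generates the kernel of `g ↦ g(ϖ)`**. -/
theorem s56f_df_ker (hctx : mzo_Ctx r O L A Γ) {Ω : Finset L} {ϖ : L}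
    (horb : ∀ α ∈ Ω, ∃ σ : Γ, α = σ • ϖ) {f₀ : O[X]} (hmonic : f₀.Monic)
    (hf₀ : f₀.map (algebraMap O L) = s56f_df_poly Ω) (g : O[X]) (hg : aeval ϖ g = 0) :
    f₀ ∣ g := by
  rw [← modByMonic_eq_zero_iff_dvd hmonic]
  apply Polynomial.map_injective _ hctx.inj
  rw [Polynomial.map_zero, map_modByMonic _ hmonic, hf₀,
    modByMonic_eq_zero_iff_dvd (s56f_df_poly_monic Ω)]
  unfold s56f_df_poly
  refine Finset.prod_dvd_of_coprime ?_ ?_
  · intro a _ b _ hab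
    exact isCoprime_X_sub_C_of_isUnit_sub (sub_ne_zero.mpr hab).isUnit
  · intro α hα
    rw [dvd_iff_isRoot]
    obtain ⟨σ, rfl⟩ := horb α hα
    rw [IsRoot.def, eval_map_algebraMap, s56f_df_aeval_smul hctx, hg, smul_zero]

/-- `O[ϖ] ⊆ A`. -/
theorem s56f_df_aeval_mem (hctx : mzo_Ctx r O L A Γ) {ϖ : L} (hϖ : ϖ ∈ A) (g : O[X]) :
    aeval ϖ g ∈ A := by
  induction g using Polynomial.induction_on' with
  | add p q hp hq =>
    rw [map_add]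
    exact A.add_mem _ _ hp hq
  | monomial n a =>
    rw [aeval_monomial]
    exact A.mul_mem _ _ (hctx.mem_A a) (pow_mem hϖ n)

end PartC

/-! ### Euler: the trace dual of `O[ϖ]` lies in `f'(ϖ)⁻¹ O[ϖ]` -/

section PartD

variable {r : ℕ} {O : Type} [CommRing O] [IsDomain O] [IsDiscreteValuationRing O]
  {L : Type} [Field L] [Algebra O L] {A : ValuationSubring L}
  {Γ : Type} [Group Γ] [MulSemiringAction Γ L]

/-- the orbit of `ϖ`, as the image of a transversal of its stabiliser. -/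
def s56f_df_orbit [DecidableEq L] (R : Finset Γ) (ϖ : L) : Finset L := R.image (fun r => r • ϖ)

theorem s56f_df_mem_orbit [DecidableEq L] {R : Finset Γ} {ϖ α : L} :
    α ∈ s56f_df_orbit R ϖ ↔ ∃ r ∈ R, r • ϖ = α := Finset.mem_image

theorem s56f_df_orbit_stable [DecidableEq L] {S : Subgroup Γ} {R : Finset Γ}
    (hR : s56f_dc_IsTransversal S R) {ϖ : L} (hϖS : ∀ s ∈ S, s • ϖ = ϖ) (σ : Γ) (α : L)
    (hα : α ∈ s56f_df_orbit R ϖ) : σ • α ∈ s56f_df_orbit R ϖ := by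
  obtain ⟨r, _, rfl⟩ := s56f_df_mem_orbit.mp hα
  obtain ⟨r', ⟨hr', hr'S⟩, _⟩ := hR (σ * r)
  refine s56f_df_mem_orbit.mpr ⟨r', hr', ?_⟩
  have h1 := hϖS _ hr'S
  rw [← mul_smul]
  conv_rhs => rw [show σ * r = r' * (r'⁻¹ * (σ * r)) by group, mul_smul, h1]

theorem s56f_df_self_mem_orbit [DecidableEq L] {S : Subgroup Γ} {R : Finset Γ}
    (hR : s56f_dc_IsTransversal S R) {ϖ : L} (hϖS : ∀ s ∈ S, s • ϖ = ϖ) :
    ϖ ∈ s56f_df_orbit R ϖ := by
  obtain ⟨r₀, ⟨hr₀, hr₀S⟩, _⟩ := hR 1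
  have hr₀S' : r₀ ∈ S := by
    have := S.inv_mem hr₀S
    rwa [mul_one, inv_inv] at this
  exact s56f_df_mem_orbit.mpr ⟨r₀, hr₀, hϖS r₀ hr₀S'⟩

/-- **Euler's formula, the hard inclusion**: for `y` in the trace dual of `A ∩ L^S`,
`f'(ϖ) y ∈ O[ϖ]`. -/
theorem s56f_df_euler [DecidableEq L] (hctx : mzo_Ctx r O L A Γ) {S : Subgroup Γ}
    {R : Finset Γ} (hR : s56f_dc_IsTransversal S R) {ϖ : L} (hϖA : ϖ ∈ A)
    (hSϖ : ∀ σ : Γ, σ ∈ S ↔ σ • ϖ = ϖ) {y : L} (hy : ∀ s ∈ S, s • y = y)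
    (hdual : ∀ z ∈ A, (∀ s ∈ S, s • z = z) → ∑ r ∈ R, r • (y * z) ∈ A) :
    ∃ T₀ : O[X], aeval ϖ T₀ = y * ∏ α ∈ (s56f_df_orbit R ϖ).erase ϖ, (ϖ - α) := by
  have hϖS : ∀ s ∈ S, s • ϖ = ϖ := fun s hs => (hSϖ s).mp hs
  have hstab : ∀ σ : Γ, ∀ α ∈ s56f_df_orbit R ϖ, σ • α ∈ s56f_df_orbit R ϖ :=
    s56f_df_orbit_stable hR hϖS
  have hϖΩ : ϖ ∈ s56f_df_orbit R ϖ := s56f_df_self_mem_orbit hR hϖS
  have hΩA : ∀ α ∈ s56f_df_orbit R ϖ, α ∈ A := by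
    intro α hα
    obtain ⟨r, _, rfl⟩ := s56f_df_mem_orbit.mp hα
    exact s56f_df_smul_mem hctx r hϖA
  have hsmulG : ∀ σ : Γ, σ • s56f_df_poly ((s56f_df_orbit R ϖ).erase ϖ) =
      s56f_df_poly ((s56f_df_orbit R ϖ).erase (σ • ϖ)) := by
    intro σ
    rw [s56f_df_smul_poly, Finset.image_erase (MulAction.injective σ), s56f_df_image_eq hstab]
  have hbA : ∀ i, (s56f_df_poly ((s56f_df_orbit R ϖ).erase ϖ)).coeff i ∈ A := fun i =>
    s56f_df_poly_coeff_mem (fun α hα => hΩA α (Finset.mem_of_mem_erase hα)) i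
  have hbS : ∀ i, ∀ s ∈ S, s • (s56f_df_poly ((s56f_df_orbit R ϖ).erase ϖ)).coeff i =
      (s56f_df_poly ((s56f_df_orbit R ϖ).erase ϖ)).coeff i := by
    intro i s hs
    rw [← coeff_smul, hsmulG, hϖS s hs]
  have hcoeff : ∀ i, (∑ r ∈ R, C (r • y) *
      (r • s56f_df_poly ((s56f_df_orbit R ϖ).erase ϖ))).coeff i =
      ∑ r ∈ R, r • (y * (s56f_df_poly ((s56f_df_orbit R ϖ).erase ϖ)).coeff i) := by
    intro i
    rw [finsetSum_coeff]
    refine Finset.sum_congr rfl fun r _ => ?_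
    rw [coeff_C_mul, coeff_smul, smul_mul']
  have hl : (∑ r ∈ R, C (r • y) * (r • s56f_df_poly ((s56f_df_orbit R ϖ).erase ϖ))) ∈
      lifts (algebraMap O L) := by
    rw [lifts_iff_coeff_lifts]
    intro i
    rw [hcoeff]
    refine hctx.exists_of_fixed (hdual _ (hbA i) (hbS i)) ?_
    exact s56f_dc_tr_fixed hR (fun s hs => by rw [smul_mul', hy s hs, hbS i s hs])
  obtain ⟨T₀, hT₀⟩ := (mem_lifts _).mp hl
  refine ⟨T₀, ?_⟩
  rw [← eval_map_algebraMap, hT₀, eval_finsetSum]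
  obtain ⟨r₀, ⟨hr₀, hr₀S⟩, _⟩ := hR 1
  have hr₀S' : r₀ ∈ S := by
    have := S.inv_mem hr₀S
    rwa [mul_one, inv_inv] at this
  rw [Finset.sum_eq_single r₀]
  · rw [eval_mul, eval_C, hy r₀ hr₀S', hsmulG, hϖS r₀ hr₀S', s56f_df_eval_poly]
  · intro r hr hne
    rw [eval_mul, hsmulG, s56f_df_eval_poly]
    have hrϖ : r • ϖ ≠ ϖ := by
      intro h
      apply hne
      exact s56f_dc_rep_unique hR hr hr₀ (S.mul_mem (S.inv_mem ((hSϖ r).mpr h)) hr₀S')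
    rw [Finset.prod_eq_zero (Finset.mem_erase.mpr ⟨Ne.symm hrϖ, hϖΩ⟩) (sub_self ϖ), mul_zero]
  · intro h
    exact absurd hr₀ h

/-- `f'(ϖ) = ∏_{α ≠ ϖ} (ϖ - α)`. -/
theorem s56f_df_deriv_eval [DecidableEq L] {Ω : Finset L} {ϖ : L} (hϖΩ : ϖ ∈ Ω) {f₀ : O[X]}
    (hf₀ : f₀.map (algebraMap O L) = s56f_df_poly Ω) :
    aeval ϖ (derivative f₀) = ∏ α ∈ Ω.erase ϖ, (ϖ - α) := by
  rw [← eval_map_algebraMap, ← derivative_map, hf₀]
  have h1 : s56f_df_poly Ω = (X - C ϖ) * s56f_df_poly (Ω.erase ϖ) := by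
    unfold s56f_df_poly
    rw [Finset.mul_prod_erase Ω (fun α => X - C α) hϖΩ]
  rw [h1, derivative_mul, eval_add, eval_mul, eval_mul, eval_sub, eval_X, eval_C, sub_self,
    zero_mul, add_zero, derivative_sub, derivative_X, derivative_C, sub_zero, eval_one, one_mul,
    s56f_df_eval_poly]

theorem s56f_df_root [DecidableEq L] {Ω : Finset L} {ϖ : L} (hϖΩ : ϖ ∈ Ω) {f₀ : O[X]}
    (hf₀ : f₀.map (algebraMap O L) = s56f_df_poly Ω) : aeval ϖ f₀ = 0 := by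
  rw [← eval_map_algebraMap, hf₀, s56f_df_eval_poly]
  exact Finset.prod_eq_zero hϖΩ (sub_self ϖ)

end PartD

/-! ### the main theorem -/

section PartE

variable {r : ℕ} {O : Type} [CommRing O] [IsDomain O] [IsDiscreteValuationRing O]
  {L : Type} [Field L] [Algebra O L] {A : ValuationSubring L}
  {Γ : Type} [Group Γ] [MulSemiringAction Γ L]
  {G : Type} [AddCommGroup G] [DistribMulAction Γ G] [Fintype G] [DecidableEq G]

/-- **(DIFF)** — "the different of the field of a point is small": `H` an order for `G`, `n G = 0`,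
`lam • δ₀ ∈ H`, `S = Stab Q`, `A ∩ L^S = O[ϖ]`.  Then `n lam y² ∈ A` for every `y ∈ L^S` in the
trace dual of `A ∩ L^S`. -/
theorem s56f_df_main (hctx : mzo_Ctx r O L A Γ) {H : Subalgebra O (G → L)}
    (hH : mzo_IsOrder A Γ G H) {lam : L} (hlam : lam • (Pi.single 0 1 : G → L) ∈ H)
    (n : ℕ) (hn : ∀ x : G, n • x = 0) {S : Subgroup Γ} {R : Finset Γ}
    (hR : s56f_dc_IsTransversal S R) {Q : G} (hSQ : ∀ σ : Γ, σ ∈ S ↔ σ • Q = Q)
    {ϖ : L} (hϖA : ϖ ∈ A) (hϖS : ∀ s ∈ S, s • ϖ = ϖ)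
    (hN : ∀ a ∈ A, (∀ s ∈ S, s • a = a) → ∃ g : O[X], aeval ϖ g = a)
    {y : L} (hy : ∀ s ∈ S, s • y = y)
    (hdual : ∀ z ∈ A, (∀ s ∈ S, s • z = z) → ∑ r ∈ R, r • (y * z) ∈ A) :
    (n : L) * lam * y ^ 2 ∈ A := by
  classical
  -- the values of `H` at the multiples of `Q` lie in `B = O[ϖ]`
  have hvalS : ∀ h ∈ H, ∀ k : ℕ, ∀ s ∈ S, s • h (k • Q) = h (k • Q) := by
    intro h hh k s hs
    rw [← hH.equiv h hh s, smul_comm s k Q, (hSQ s).mp hs]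
  have hval : ∀ h ∈ H, ∀ k : ℕ, h (k • Q) ∈ s56f_df_B O ϖ := fun h hh k =>
    s56f_df_mem_B.mpr (hN _ (hH.int h hh _) (hvalS h hh k))
  have hvalQ : ∀ h ∈ H, h Q ∈ s56f_df_B O ϖ := fun h hh => by
    have := hval h hh 1
    rwa [one_nsmul] at this
  -- `Stab ϖ = S`
  have hSϖ : ∀ σ : Γ, σ ∈ S ↔ σ • ϖ = ϖ := by
    intro σ
    refine ⟨hϖS σ, fun hσ => ?_⟩
    rw [hSQ]
    by_contra hne
    obtain ⟨φ, hφ, hφne⟩ := hH.sep _ _ hne
    apply hφne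
    obtain ⟨g, hg⟩ := s56f_df_mem_B.mp (hvalQ φ hφ)
    rw [hH.equiv φ hφ σ Q, ← hg, ← s56f_df_aeval_smul hctx, hσ]
  -- the orbit polynomial
  have hstab : ∀ σ : Γ, ∀ α ∈ s56f_df_orbit R ϖ, σ • α ∈ s56f_df_orbit R ϖ :=
    s56f_df_orbit_stable hR hϖS
  have hϖΩ : ϖ ∈ s56f_df_orbit R ϖ := s56f_df_self_mem_orbit hR hϖS
  have hΩA : ∀ α ∈ s56f_df_orbit R ϖ, α ∈ A := by
    intro α hα
    obtain ⟨r, _, rfl⟩ := s56f_df_mem_orbit.mp hα
    exact s56f_df_smul_mem hctx r hϖA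
  obtain ⟨f₀, hmonic, hf₀⟩ := s56f_df_exists_poly hctx hΩA hstab
  have hroot : aeval ϖ f₀ = 0 := s56f_df_root hϖΩ hf₀
  have hker : ∀ g : O[X], aeval ϖ g = 0 → f₀ ∣ g := fun g hg =>
    s56f_df_ker hctx (fun α hα => by
      obtain ⟨r, _, rfl⟩ := s56f_df_mem_orbit.mp hα
      exact ⟨r, rfl⟩) hmonic hf₀ g hg
  have hd := s56f_df_isDer hroot hker
  have hdϖ := s56f_df_d_Pi hroot hker
  -- the two functions
  obtain ⟨h₁, hh₁, e₁⟩ := s56f_dc_main hctx hH hlam hR hSQ hy hdual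
  have hy' : ∀ s ∈ S, s • (ϖ * y) = ϖ * y := fun s hs => by
    rw [smul_mul', hϖS s hs, hy s hs]
  have hdual' : ∀ z ∈ A, (∀ s ∈ S, s • z = z) → ∑ r ∈ R, r • (ϖ * y * z) ∈ A := by
    intro z hz hzS
    have := hdual (ϖ * z) (A.mul_mem _ _ hϖA hz) (fun s hs => by
      rw [smul_mul', hϖS s hs, hzS s hs])
    have e : ∑ r ∈ R, r • (ϖ * y * z) = ∑ r ∈ R, r • (y * (ϖ * z)) :=
      Finset.sum_congr rfl fun r _ => by rw [show ϖ * y * z = y * (ϖ * z) by ring]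
    rwa [e]
  obtain ⟨h₂, hh₂, e₂⟩ := s56f_dc_main hctx hH hlam hR hSQ hy' hdual'
  have hHL := s56f_la_of_isOrder hctx hH
  have m1 := s56f_dv_main hHL hd Q hval n hn hh₁
  have m2 := s56f_dv_main hHL hd Q hval n hn hh₂
  -- Leibniz
  have hϖB : ϖ ∈ s56f_df_B O ϖ := s56f_df_mem_B.mpr ⟨X, aeval_X ϖ⟩
  have hnB : (n : L) ∈ s56f_df_B O ϖ := by
    have := (s56f_df_B O ϖ).algebraMap_mem (n : O)
    rwa [map_natCast] at this
  have hxB : h₁ Q ∈ s56f_df_B O ϖ := hvalQ h₁ hh₁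
  have e₂' : h₂ Q = ϖ * h₁ Q := by rw [e₂, e₁]; ring
  rw [e₂'] at m2
  have l1 := hd.mul ϖ hϖB (h₁ Q) hxB
  have hJ : (n : L) * h₁ Q ∈ s56f_df_J ϖ f₀ := by
    have t1 := hd.J_mul _ hnB _ l1
    have t2 := hd.J_mul _ hϖB _ m1
    have t3 := hd.J_mul _ ((s56f_df_B O ϖ).mul_mem hnB hxB) _ hdϖ
    have := (s56f_df_J ϖ f₀).sub_mem ((s56f_df_J ϖ f₀).sub_mem
      ((s56f_df_J ϖ f₀).sub_mem m2 t1) t2) t3
    have e : (n : L) * h₁ Q =
        (n : L) * s56f_df_d O ϖ (ϖ * h₁ Q) -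
          (n : L) * (s56f_df_d O ϖ (ϖ * h₁ Q) -
            (ϖ * s56f_df_d O ϖ (h₁ Q) + h₁ Q * s56f_df_d O ϖ ϖ)) -
          ϖ * ((n : L) * s56f_df_d O ϖ (h₁ Q)) -
          (n : L) * h₁ Q * (s56f_df_d O ϖ ϖ - 1) := by ring
    rw [e]
    exact this
  obtain ⟨g₁, hg₁⟩ := s56f_df_mem_J.mp hJ
  -- Euler
  obtain ⟨T₀, hT₀⟩ := s56f_df_euler hctx hR hϖA hSϖ hy hdual
  have hD := s56f_df_deriv_eval hϖΩ hf₀
  have hDne : (∏ α ∈ (s56f_df_orbit R ϖ).erase ϖ, (ϖ - α)) ≠ 0 := by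
    rw [Finset.prod_ne_zero_iff]
    intro α hα
    exact sub_ne_zero.mpr (Ne.symm (Finset.ne_of_mem_erase hα))
  have hfin : (n : L) * lam * y ^ 2 = aeval ϖ (g₁ * T₀) := by
    apply mul_right_cancel₀ hDne
    rw [map_mul, hT₀]
    rw [e₁, hD] at hg₁
    have e : (n : L) * lam * y ^ 2 * ∏ α ∈ (s56f_df_orbit R ϖ).erase ϖ, (ϖ - α) =
        ((n : L) * (lam * y)) * (y * ∏ α ∈ (s56f_df_orbit R ϖ).erase ϖ, (ϖ - α)) := by ring
    rw [e, hg₁]
    ring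
  rw [hfin]
  exact s56f_df_aeval_mem hctx hϖA _

end PartE

end Fermat.Agent.S56
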