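/-
S56, node [LOC-p-FLAT] (owner helper27), cell F-MONO.  Prefix `s56fm_`.
Mathlib + `MZ/Hopf/{Defs,Ctx}` only.

Abstract setting `mzo_Ctx r O L A Γ` (`O = A ∩ L^Γ` a discrete valuation ring with uniformiser `r`).
If `ϖ ∈ L` has a finite `Γ`-orbit of size `n` and `v(ϖ)^n = v(r)`, then every `a ∈ A` fixed by the
stabiliser of `ϖ` lies in `O[ϖ]`, more precisely `a = ∑_{i<n} o_i ϖ^i` with `o_i ∈ O`.

* `s56fm_coeff_fixed` : Lagrange interpolation over the orbit (no valuation hypothesis):
  `a = g(ϖ)` with `g ∈ L[X]`, `deg g < n`, all coefficients `Γ`-fixed;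
* `s56fm_val_fixed`   : a nonzero `Γ`-fixed element has valuation `v(r)^m`, `m : ℤ`;
* `s56fm_main`        : the statement above;  `s56fm_main_poly` : the polynomial form.
-/
import Mathlib
import Fermat.Agent.MZ.Hopf.Defs
import Fermat.Agent.MZ.Hopf.Ctx

set_option autoImplicit false
set_option linter.unusedSectionVars false

noncomputable section

namespace Fermat.Agent.S56

open Fermat.Agent.MZ Polynomial

section Interp

variable {L : Type} [Field L] {Γ : Type} [Group Γ] [MulSemiringAction Γ L]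

/-- **Lagrange interpolation over the orbit.**  If `a` is fixed by the stabiliser of `ϖ` and the
orbit of `ϖ` is finite of size `n`, then `a = g(ϖ)` for a polynomial `g` of degree `< n` all of
whose coefficients are fixed by `Γ`. -/
theorem s56fm_coeff_fixed (ϖ a : L) (hfin : (MulAction.orbit Γ ϖ).Finite)
    (hfix : ∀ σ : Γ, σ • ϖ = ϖ → σ • a = a) :
    ∃ g : L[X], g.degree < (hfin.toFinset.card : WithBot ℕ) ∧ g.eval ϖ = a ∧
      ∀ (σ : Γ) (i : ℕ), σ • g.coeff i = g.coeff i := by
  classical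
  -- the value function on the orbit
  have hwd : ∀ σ τ : Γ, σ • ϖ = τ • ϖ → σ • a = τ • a := by
    intro σ τ hστ
    have h1 : (τ⁻¹ * σ) • ϖ = ϖ := by
      rw [mul_smul, hστ, inv_smul_smul]
    have h2 := hfix _ h1
    rw [mul_smul] at h2
    calc σ • a = τ • (τ⁻¹ • σ • a) := (smul_inv_smul τ (σ • a)).symm
      _ = τ • a := by rw [h2]
  let val : L → L := fun x =>
    if hx : x ∈ MulAction.orbit Γ ϖ then (Classical.choose hx) • a else 0
  have hval : ∀ σ : Γ, val (σ • ϖ) = σ • a := by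
    intro σ
    have hx : σ • ϖ ∈ MulAction.orbit Γ ϖ := ⟨σ, rfl⟩
    have hc : (Classical.choose hx) • ϖ = σ • ϖ := Classical.choose_spec hx
    show (if hx : σ • ϖ ∈ MulAction.orbit Γ ϖ then (Classical.choose hx) • a else 0) = σ • a
    rw [dif_pos hx]
    exact hwd _ _ hc
  set S : Finset L := hfin.toFinset with hS
  have hmemS : ∀ x : L, x ∈ S ↔ ∃ σ : Γ, σ • ϖ = x := by
    intro x
    rw [hS, Set.Finite.mem_toFinset]
    exact MulAction.mem_orbit_iff
  have hvs : Set.InjOn (id : L → L) S := Function.injective_id.injOn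
  set g : L[X] := Lagrange.interpolate S id val with hg
  have hdeg : g.degree < (S.card : WithBot ℕ) := Lagrange.degree_interpolate_lt val hvs
  have hϖS : ϖ ∈ S := (hmemS ϖ).2 ⟨1, one_smul _ _⟩
  refine ⟨g, hdeg, ?_, ?_⟩
  · have h1 := Lagrange.eval_interpolate_at_node val hvs hϖS
    have h2 : val ϖ = a := by
      have := hval 1
      rwa [one_smul, one_smul] at this
    rw [← h2]
    exact h1
  · intro σ i
    set f : L →+* L := MulSemiringAction.toRingHom Γ L σ with hf
    have hfa : ∀ x : L, f x = σ • x := fun x => rfl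
    have hfinj : Function.Injective f := f.injective
    have hmap : g.map f = g := by
      rw [hg]
      apply Lagrange.eq_interpolate_of_eval_eq val hvs
      · rw [Polynomial.degree_map_eq_of_injective hfinj]
        exact hdeg
      · intro x hx
        obtain ⟨τ, rfl⟩ := (hmemS x).1 hx
        have hy : σ⁻¹ • τ • ϖ ∈ S := (hmemS _).2 ⟨σ⁻¹ * τ, mul_smul _ _ _⟩
        have h1 : f (σ⁻¹ • τ • ϖ) = τ • ϖ := by rw [hfa, smul_inv_smul]
        have h2 : eval (id (τ • ϖ)) ((Lagrange.interpolate S id val).map f)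
            = f (eval (σ⁻¹ • τ • ϖ) (Lagrange.interpolate S id val)) := by
          have h0 : eval (f (σ⁻¹ • τ • ϖ)) ((Lagrange.interpolate S id val).map f)
              = f (eval (σ⁻¹ • τ • ϖ) (Lagrange.interpolate S id val)) := by
            rw [Polynomial.eval_map, Polynomial.eval₂_hom]
          rw [h1] at h0
          exact h0
        rw [h2]
        have h3 := Lagrange.eval_interpolate_at_node val hvs hy
        rw [id] at h3
        rw [h3, ← mul_smul, hval, hfa, ← mul_smul, mul_inv_cancel_left, hval]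
    have := congrArg (fun q : L[X] => q.coeff i) hmap
    simp only [Polynomial.coeff_map] at this
    rw [← hfa]
    exact this

end Interp

variable {r : ℕ} {O : Type} [CommRing O] [IsDomain O] [IsDiscreteValuationRing O]
  {L : Type} [Field L] [Algebra O L] {A : ValuationSubring L}
  {Γ : Type} [Group Γ] [MulSemiringAction Γ L]

/-- The valuation of the image of a unit of `O` is `1`. -/
theorem s56fm_val_unit (h : mzo_Ctx r O L A Γ) (u : Oˣ) :
    A.valuation (algebraMap O L (u : O)) = 1 := by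
  have h1 : A.valuation (algebraMap O L (u : O)) ≤ 1 :=
    (A.valuation_le_one_iff _).mpr (h.mem_A _)
  have h2 : ¬ A.valuation (algebraMap O L (u : O)) < 1 := by
    intro hlt
    have : algebraMap O L (u : O) ∈ A.nonunits := (ValuationSubring.mem_nonunits_iff A).mpr hlt
    exact ((h.nonunit_iff _).1 this) u.isUnit
  exact le_antisymm h1 (not_lt.mp h2)

/-- The valuation of a nonzero element of `O` is a natural power of `v(r)`. -/
theorem s56fm_val_O (h : mzo_Ctx r O L A Γ) {o : O} (ho : o ≠ 0) :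
    ∃ k : ℕ, A.valuation (algebraMap O L o) = A.valuation (r : L) ^ k := by
  obtain ⟨k, u, hu⟩ := IsDiscreteValuationRing.eq_unit_mul_pow_irreducible ho h.irreducible_r
  refine ⟨k, ?_⟩
  rw [hu, map_mul, map_pow, map_natCast, map_mul, map_pow, s56fm_val_unit h u, one_mul]

/-- **A nonzero `Γ`-fixed element has valuation `v(r)^m`, `m : ℤ`.** -/
theorem s56fm_val_fixed (h : mzo_Ctx r O L A Γ) {c : L} (hc : c ≠ 0)
    (hfix : ∀ σ : Γ, σ • c = c) :
    ∃ m : ℤ, A.valuation c = A.valuation (r : L) ^ m := by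
  obtain ⟨o₁, o₂, ho₂, hc'⟩ := h.exists_frac hfix
  have ho₁ : o₁ ≠ 0 := by
    intro h0
    rw [h0, map_zero, zero_div] at hc'
    exact hc hc'
  obtain ⟨k₁, hk₁⟩ := s56fm_val_O h ho₁
  obtain ⟨k₂, hk₂⟩ := s56fm_val_O h ho₂
  have hr0 : A.valuation (r : L) ≠ 0 := (Valuation.ne_zero_iff _).2 h.r_ne
  refine ⟨(k₁ : ℤ) - k₂, ?_⟩
  rw [hc', map_div₀, hk₁, hk₂, zpow_sub₀ hr0, zpow_natCast, zpow_natCast]

/-- **F-MONO.**  `ϖ` with a finite `Γ`-orbit of size `n` and `v(ϖ)^n = v(r)`: every `a ∈ A` fixed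
by the stabiliser of `ϖ` is `∑_{i<n} o_i ϖ^i` with `o_i ∈ O`. -/
theorem s56fm_main (h : mzo_Ctx r O L A Γ) (ϖ : L) (hfin : (MulAction.orbit Γ ϖ).Finite)
    (hval : A.valuation ϖ ^ hfin.toFinset.card = A.valuation (r : L))
    (a : L) (ha : a ∈ A) (hfix : ∀ σ : Γ, σ • ϖ = ϖ → σ • a = a) :
    ∃ o : Fin hfin.toFinset.card → O,
      a = ∑ i : Fin hfin.toFinset.card, algebraMap O L (o i) * ϖ ^ (i : ℕ) := by
  classical
  set n : ℕ := hfin.toFinset.card with hn
  set w := A.valuation ϖ with hw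
  set v := A.valuation with hv
  have hr0 : v (r : L) ≠ 0 := (Valuation.ne_zero_iff _).2 h.r_ne
  have hr1 : v (r : L) < 1 := (ValuationSubring.mem_nonunits_iff A).mp h.r_mem
  -- `n ≥ 1`, `0 < w < 1`
  have hϖmem : ϖ ∈ hfin.toFinset := by
    rw [Set.Finite.mem_toFinset]
    exact MulAction.mem_orbit_self ϖ
  have hnpos : 0 < n := Finset.card_pos.mpr ⟨ϖ, hϖmem⟩
  have hw0 : w ≠ 0 := by
    intro h0
    rw [h0, zero_pow hnpos.ne'] at hval
    exact hr0 hval.symm
  have hwpos : 0 < w := zero_lt_iff.mpr hw0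
  have hw1 : w < 1 := by
    by_contra hge
    push Not at hge
    have : (1 : A.ValueGroup) ≤ w ^ n := one_le_pow₀ hge
    rw [hval] at this
    exact absurd hr1 (not_lt.mpr this)
  -- the interpolating polynomial
  obtain ⟨g, hdeg, hga, hgfix⟩ := s56fm_coeff_fixed (Γ := Γ) ϖ a hfin hfix
  have hnat : g.natDegree < n := by
    by_cases hg0 : g = 0
    · rw [hg0, natDegree_zero]; exact hnpos
    · exact (natDegree_lt_iff_degree_lt hg0).mpr hdeg
  have hsum : a = ∑ i ∈ Finset.range n, g.coeff i * ϖ ^ i := by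
    rw [← hga]
    exact Polynomial.eval_eq_sum_range' hnat ϖ
  -- exponents
  have hm : ∀ i : ℕ, g.coeff i ≠ 0 → ∃ m : ℤ, v (g.coeff i) = v (r : L) ^ m :=
    fun i hi => s56fm_val_fixed h hi (fun σ => hgfix σ i)
  let mfun : ℕ → ℤ := fun i => if hi : g.coeff i ≠ 0 then Classical.choose (hm i hi) else 0
  have hmfun : ∀ i : ℕ, g.coeff i ≠ 0 → v (g.coeff i) = v (r : L) ^ mfun i := by
    intro i hi
    show v (g.coeff i) = v (r : L) ^ (if hi : g.coeff i ≠ 0 then Classical.choose (hm i hi) else 0)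
    rw [dif_pos hi]
    exact Classical.choose_spec (hm i hi)
  let e : ℕ → ℤ := fun i => (i : ℤ) + (n : ℤ) * mfun i
  have hterm : ∀ i : ℕ, g.coeff i ≠ 0 → v (g.coeff i * ϖ ^ i) = w ^ e i := by
    intro i hi
    rw [map_mul, map_pow, hmfun i hi, ← hval]
    show (w ^ n) ^ mfun i * w ^ i = w ^ ((i : ℤ) + (n : ℤ) * mfun i)
    rw [zpow_add₀ hw0, zpow_mul, zpow_natCast, zpow_natCast, mul_comm]
  have hinj : ∀ i j : ℕ, i < n → j < n → e i = e j → i = j := by
    intro i j hi hj hij
    have h1 : e i % (n : ℤ) = (i : ℤ) := by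
      show ((i : ℤ) + (n : ℤ) * mfun i) % (n : ℤ) = (i : ℤ)
      rw [Int.add_mul_emod_self_left]
      exact Int.emod_eq_of_lt (Int.natCast_nonneg i) (by exact_mod_cast hi)
    have h2 : e j % (n : ℤ) = (j : ℤ) := by
      show ((j : ℤ) + (n : ℤ) * mfun j) % (n : ℤ) = (j : ℤ)
      rw [Int.add_mul_emod_self_left]
      exact Int.emod_eq_of_lt (Int.natCast_nonneg j) (by exact_mod_cast hj)
    rw [hij, h2] at h1
    exact_mod_cast h1.symm
  -- all exponents of nonzero terms are `≥ 0`
  set T : Finset ℕ := (Finset.range n).filter (fun i => g.coeff i ≠ 0) with hT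
  have hTmem : ∀ i, i ∈ T ↔ i < n ∧ g.coeff i ≠ 0 := by
    intro i
    rw [hT, Finset.mem_filter, Finset.mem_range]
  have hepos : ∀ i ∈ T, 0 ≤ e i := by
    by_cases hTne : T.Nonempty
    · obtain ⟨i₀, hi₀, hmin⟩ := Finset.exists_min_image T e hTne
      have hi₀' := (hTmem i₀).1 hi₀
      have hdom : ∀ i ∈ Finset.range n \ {i₀},
          v (g.coeff i * ϖ ^ i) < v (g.coeff i₀ * ϖ ^ i₀) := by
        intro i hi
        rw [Finset.mem_sdiff, Finset.mem_range, Finset.mem_singleton] at hi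
        rw [hterm i₀ hi₀'.2]
        by_cases hci : g.coeff i = 0
        · rw [hci, zero_mul, map_zero]
          exact zpow_pos hwpos _
        · rw [hterm i hci]
          have hiT : i ∈ T := (hTmem i).2 ⟨hi.1, hci⟩
          have hle : e i₀ ≤ e i := hmin i hiT
          have hne : e i₀ ≠ e i := fun heq => hi.2 (hinj i₀ i hi₀'.1 hi.1 heq).symm
          exact zpow_lt_zpow_right_of_lt_one₀ hwpos hw1 (lt_of_le_of_ne hle hne)
      have hva : v a = w ^ e i₀ := by
        rw [hsum, ← hterm i₀ hi₀'.2]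
        exact Valuation.map_sum_eq_of_lt v (Finset.mem_range.mpr hi₀'.1) hdom
      have hle1 : w ^ e i₀ ≤ 1 := by
        rw [← hva]
        exact (A.valuation_le_one_iff a).mpr ha
      have he0 : 0 ≤ e i₀ := by
        by_contra hneg
        push Not at hneg
        have := zpow_lt_zpow_right_of_lt_one₀ hwpos hw1 hneg
        rw [zpow_zero] at this
        exact absurd hle1 (not_le.mpr this)
      intro i hi
      exact le_trans he0 (hmin i hi)
    · intro i hi
      exact absurd ⟨i, hi⟩ hTne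
  -- hence all `m_i ≥ 0`, the coefficients are in `A`, hence in `O`
  have hcoeffA : ∀ i : ℕ, i < n → g.coeff i ∈ A := by
    intro i hi
    by_cases hci : g.coeff i = 0
    · rw [hci]; exact A.zero_mem
    · have hei := hepos i ((hTmem i).2 ⟨hi, hci⟩)
      have hmi : 0 ≤ mfun i := by
        by_contra hneg
        push Not at hneg
        have h1 : (n : ℤ) * mfun i ≤ (n : ℤ) * (-1) :=
          mul_le_mul_of_nonneg_left (by omega) (Int.natCast_nonneg n)
        have h2 : (i : ℤ) < n := by exact_mod_cast hi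
        have h3 : e i = (i : ℤ) + (n : ℤ) * mfun i := rfl
        omega
      rw [← A.valuation_le_one_iff, ← hv, hmfun i hci]
      obtain ⟨k, hk⟩ := Int.eq_ofNat_of_zero_le hmi
      rw [hk, zpow_natCast]
      exact pow_le_one₀ zero_le hr1.le
  have hcoeffO : ∀ i : ℕ, i < n → ∃ o : O, algebraMap O L o = g.coeff i := fun i hi =>
    h.exists_of_fixed (hcoeffA i hi) (fun σ => hgfix σ i)
  choose! o ho using hcoeffO
  refine ⟨fun i => o i, ?_⟩
  rw [hsum, Finset.sum_range]
  refine Finset.sum_congr rfl (fun i _ => ?_)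
  rw [ho i i.2]

/-- **F-MONO, polynomial form**: `a ∈ O[ϖ]`, with a representative of degree `< n`. -/
theorem s56fm_main_poly (h : mzo_Ctx r O L A Γ) (ϖ : L) (hfin : (MulAction.orbit Γ ϖ).Finite)
    (hval : A.valuation ϖ ^ hfin.toFinset.card = A.valuation (r : L))
    (a : L) (ha : a ∈ A) (hfix : ∀ σ : Γ, σ • ϖ = ϖ → σ • a = a) :
    ∃ q : O[X], q.degree < (hfin.toFinset.card : WithBot ℕ) ∧ Polynomial.aeval ϖ q = a := by
  classical
  obtain ⟨o, ho⟩ := s56fm_main h ϖ hfin hval a ha hfix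
  refine ⟨∑ i : Fin hfin.toFinset.card, Polynomial.C (o i) * Polynomial.X ^ (i : ℕ), ?_, ?_⟩
  · refine lt_of_le_of_lt (Polynomial.degree_sum_le _ _) ?_
    rw [Finset.sup_lt_iff (WithBot.bot_lt_coe _)]
    intro i _
    refine lt_of_le_of_lt (Polynomial.degree_C_mul_X_pow_le _ _) ?_
    exact_mod_cast i.2
  · rw [map_sum, ho]
    refine Finset.sum_congr rfl (fun i _ => ?_)
    rw [map_mul, map_pow, Polynomial.aeval_C, Polynomial.aeval_X]

end Fermat.Agent.S56
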