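/-
S56, node [LOC-p-FLAT] (owner helper27), cell F-EFN (helper14).  Prefix `s56fe_`.
Mathlib + `MZ/Hopf/{Defs,Ctx}` + `S56/Flat/{Mono,Near}` only.

Abstract setting `mzo_Ctx r O L A Γ` (`O = A ∩ L^Γ` a discrete valuation ring with uniformiser `r`,
`Γ` acting through the inertia group of `A`, residue field of `O` = residue field of `A`).

**F-EFN**: for EVERY `θ ∈ L` with a finite `Γ`-orbit of size `n` there is a uniformiser `ϖ` of the
point field `N = L^{Stab θ}` with `v(ϖ)^n = v(r)`, `Stab ϖ = Stab θ` (so the orbit of `ϖ` has size `n`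
and F-MONO `s56fm_main` applies verbatim to `ϖ`: `A ∩ N = ⊕_{i<n} O ϖ^i`).

* `s56fe_N Γ θ`        : the subfield `L^{Stab θ}` of `L`;
* `s56fe_val_smul`     : `Γ` preserves the valuation of the elements with a finite orbit;
* `s56fe_norm`         : `v(a)^{#orbit a} = v(r)^m`, `m : ℤ` (norm over the orbit);
* `s56fe_unif`         : `v(N^×) = v(ϖ)^ℤ` for some `ϖ ∈ N`, `v(r) = v(ϖ)^e`, `n = e d`;
* `s56fe_approx`       : `A ∩ N = ⊕_{j<e} O ϖ^j + r^M (A ∩ N)` for every `M`;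
* `s56fe_e_ge`         : `n ≤ e` (Vandermonde + Cramer; no trace form, no completeness);
* `s56fe_main`         : the statement above.
-/
import Mathlib
import Fermat.Agent.MZ.Hopf.Defs
import Fermat.Agent.MZ.Hopf.Ctx
import Fermat.Agent.S56.Flat.Mono
import Fermat.Agent.S56.Flat.Near

set_option autoImplicit false
set_option linter.unusedSectionVars false

noncomputable section

namespace Fermat.Agent.S56

open Fermat.Agent.MZ

section Orbits

variable {L : Type} [Field L] {Γ : Type} [Group Γ] [MulSemiringAction Γ L]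

/-- the point field `N = L^{Stab θ}`: the elements of `L` fixed by the stabiliser of `θ`. -/
def s56fe_N (Γ : Type) [Group Γ] [MulSemiringAction Γ L] (θ : L) : Subfield L where
  carrier := {a | ∀ σ : Γ, σ • θ = θ → σ • a = a}
  mul_mem' := fun {a b} ha hb σ hσ => by rw [smul_mul', ha σ hσ, hb σ hσ]
  one_mem' := fun σ _ => smul_one σ
  add_mem' := fun {a b} ha hb σ hσ => by rw [smul_add, ha σ hσ, hb σ hσ]
  zero_mem' := fun σ _ => smul_zero σ
  neg_mem' := fun {a} ha σ hσ => by rw [smul_neg, ha σ hσ]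
  inv_mem' := fun a ha σ hσ => by rw [smul_inv'', ha σ hσ]

theorem s56fe_mem_N {θ a : L} : a ∈ s56fe_N Γ θ ↔ ∀ σ : Γ, σ • θ = θ → σ • a = a := Iff.rfl

theorem s56fe_self_mem_N (θ : L) : θ ∈ s56fe_N Γ θ := fun _ hσ => hσ

theorem s56fe_fixed_mem_N (θ : L) {a : L} (ha : ∀ σ : Γ, σ • a = a) : a ∈ s56fe_N Γ θ :=
  fun σ _ => ha σ

/-- `a ∈ L^{Stab θ}` iff `Stab θ ≤ Stab a`. -/
theorem s56fe_mem_N_iff_le {θ a : L} :
    a ∈ s56fe_N Γ θ ↔ MulAction.stabilizer Γ θ ≤ MulAction.stabilizer Γ a := by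
  constructor
  · intro h σ hσ
    exact MulAction.mem_stabilizer_iff.mpr (h σ (MulAction.mem_stabilizer_iff.mp hσ))
  · intro h σ hσ
    exact MulAction.mem_stabilizer_iff.mp (h (MulAction.mem_stabilizer_iff.mpr hσ))

/-- the size of a finite orbit is the index of the stabiliser. -/
theorem s56fe_index_eq (a : L) (hfin : (MulAction.orbit Γ a).Finite) :
    (MulAction.stabilizer Γ a).index = hfin.toFinset.card := by
  rw [MulAction.index_stabilizer, Set.ncard_eq_toFinset_card _ hfin]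

theorem s56fe_card_pos (a : L) (hfin : (MulAction.orbit Γ a).Finite) :
    0 < hfin.toFinset.card := by
  refine Finset.card_pos.mpr ⟨a, ?_⟩
  rw [Set.Finite.mem_toFinset]
  exact MulAction.mem_orbit_self a

/-- the elements of the point field of `θ` have finite orbits, of size dividing that of `θ`. -/
theorem s56fe_finite_of_mem_N {θ a : L} (hfin : (MulAction.orbit Γ θ).Finite)
    (ha : a ∈ s56fe_N Γ θ) : (MulAction.orbit Γ a).Finite := by
  have hle := s56fe_mem_N_iff_le.mp ha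
  have hidx : (MulAction.stabilizer Γ θ).index ≠ 0 := by
    rw [s56fe_index_eq θ hfin]
    exact (s56fe_card_pos θ hfin).ne'
  have hidx' : (MulAction.stabilizer Γ a).index ≠ 0 := by
    intro h0
    have := Subgroup.index_dvd_of_le hle
    rw [h0, zero_dvd_iff] at this
    exact hidx this
  have : (MulAction.stabilizer Γ a).FiniteIndex := ⟨hidx'⟩
  have : Finite (Γ ⧸ MulAction.stabilizer Γ a) := Subgroup.finite_quotient_of_finiteIndex
  have : Finite ↥(MulAction.orbit Γ a) :=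
    Finite.of_equiv _ (MulAction.orbitEquivQuotientStabilizer Γ a).symm
  exact Set.toFinite _

theorem s56fe_card_dvd {θ a : L} (hfin : (MulAction.orbit Γ θ).Finite)
    (ha : a ∈ s56fe_N Γ θ) (hfina : (MulAction.orbit Γ a).Finite) :
    hfina.toFinset.card ∣ hfin.toFinset.card := by
  rw [← s56fe_index_eq a hfina, ← s56fe_index_eq θ hfin]
  exact Subgroup.index_dvd_of_le (s56fe_mem_N_iff_le.mp ha)

/-- a finite orbit: some positive power of `σ` fixes `a`. -/
theorem s56fe_exists_pow (a : L) (hfin : (MulAction.orbit Γ a).Finite) (σ : Γ) :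
    ∃ m : ℕ, 0 < m ∧ σ ^ m • a = a := by
  obtain ⟨i, j, hij, he⟩ := Set.Finite.exists_lt_map_eq_of_forall_mem
    (t := MulAction.orbit Γ a) (f := fun k : ℕ => σ ^ k • a) (fun k => ⟨σ ^ k, rfl⟩) hfin
  refine ⟨j - i, by omega, ?_⟩
  have h1 : σ ^ j = σ ^ i * σ ^ (j - i) := by rw [← pow_add]; congr 1; omega
  have h2 : σ ^ i • a = σ ^ i • (σ ^ (j - i) • a) := by
    rw [← mul_smul, ← h1]; exact he
  exact (smul_left_cancel _ h2).symm

/-! ### elements with finite orbits form a subring -/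

theorem s56fe_finorb_sub {a b : L} (ha : (MulAction.orbit Γ a).Finite)
    (hb : (MulAction.orbit Γ b).Finite) : (MulAction.orbit Γ (a - b)).Finite := by
  refine (Set.Finite.image2 (fun x y => x - y) ha hb).subset ?_
  rintro _ ⟨σ, rfl⟩
  exact ⟨σ • a, ⟨σ, rfl⟩, σ • b, ⟨σ, rfl⟩, (smul_sub σ a b).symm⟩

theorem s56fe_finorb_mul {a b : L} (ha : (MulAction.orbit Γ a).Finite)
    (hb : (MulAction.orbit Γ b).Finite) : (MulAction.orbit Γ (a * b)).Finite := by
  refine (Set.Finite.image2 (fun x y => x * y) ha hb).subset ?_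
  rintro _ ⟨σ, rfl⟩
  exact ⟨σ • a, ⟨σ, rfl⟩, σ • b, ⟨σ, rfl⟩, (smul_mul' σ a b).symm⟩

theorem s56fe_finorb_one : (MulAction.orbit Γ (1 : L)).Finite := by
  refine (Set.finite_singleton (1 : L)).subset ?_
  rintro _ ⟨σ, rfl⟩
  exact smul_one σ

theorem s56fe_finorb_prod {ι : Type} (s : Finset ι) (f : ι → L)
    (hf : ∀ i ∈ s, (MulAction.orbit Γ (f i)).Finite) :
    (MulAction.orbit Γ (∏ i ∈ s, f i)).Finite :=
  Finset.prod_induction f (fun a => (MulAction.orbit Γ a).Finite)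
    (fun _ _ => s56fe_finorb_mul) s56fe_finorb_one hf

end Orbits

section Val

variable {r : ℕ} {O : Type} [CommRing O] [IsDomain O] [IsDiscreteValuationRing O]
  {L : Type} [Field L] [Algebra O L] {A : ValuationSubring L}
  {Γ : Type} [Group Γ] [MulSemiringAction Γ L]

/-- `Γ` preserves the valuation of the elements with a finite orbit. -/
theorem s56fe_val_smul (h : mzo_Ctx r O L A Γ) {a : L} (hfin : (MulAction.orbit Γ a).Finite)
    (σ : Γ) : A.valuation (σ • a) = A.valuation a := by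
  obtain ⟨m, hm, hma⟩ := s56fe_exists_pow a hfin σ
  exact s56fl_val_smul_eq_of_pow h σ hm hma

theorem s56fe_vr_pos (h : mzo_Ctx r O L A Γ) : 0 < A.valuation (r : L) :=
  zero_lt_iff.mpr ((Valuation.ne_zero_iff _).2 h.r_ne)

theorem s56fe_vr_lt_one (h : mzo_Ctx r O L A Γ) : A.valuation (r : L) < 1 :=
  (ValuationSubring.mem_nonunits_iff A).mp h.r_mem

/-- **norm over the orbit**: `v(a)^{#orbit} = v(r)^m` for a nonzero `a` with a finite orbit. -/
theorem s56fe_norm (h : mzo_Ctx r O L A Γ) {a : L} (ha : a ≠ 0)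
    (hfin : (MulAction.orbit Γ a).Finite) :
    ∃ m : ℤ, A.valuation a ^ hfin.toFinset.card = A.valuation (r : L) ^ m := by
  classical
  set S : Finset L := hfin.toFinset with hS
  have hmemS : ∀ x : L, x ∈ S ↔ ∃ σ : Γ, σ • a = x := by
    intro x
    rw [hS, Set.Finite.mem_toFinset]
    exact MulAction.mem_orbit_iff
  set P : L := ∏ x ∈ S, x with hP
  have hPfix : ∀ σ : Γ, σ • P = P := by
    intro σ
    have h1 : σ • P = ∏ x ∈ S, σ • x := map_prod (MulSemiringAction.toRingHom Γ L σ) _ _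
    rw [h1, hP]
    refine Finset.prod_bij (fun x _ => σ • x) ?_ ?_ ?_ ?_
    · intro x hx
      obtain ⟨τ, rfl⟩ := (hmemS x).1 hx
      exact (hmemS _).2 ⟨σ * τ, mul_smul _ _ _⟩
    · intro x _ y _ hxy
      exact smul_left_cancel σ hxy
    · intro y hy
      obtain ⟨τ, rfl⟩ := (hmemS y).1 hy
      exact ⟨σ⁻¹ • τ • a, (hmemS _).2 ⟨σ⁻¹ * τ, mul_smul _ _ _⟩, smul_inv_smul σ _⟩
    · intro x _
      rfl
  have hP0 : P ≠ 0 := by
    rw [hP, Finset.prod_ne_zero_iff]
    intro x hx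
    obtain ⟨τ, rfl⟩ := (hmemS x).1 hx
    exact (smul_ne_zero_iff_ne τ).mpr ha
  have hvP : A.valuation P = A.valuation a ^ S.card := by
    rw [hP, map_prod]
    rw [Finset.prod_congr rfl (g := fun _ => A.valuation a)]
    · rw [Finset.prod_const]
    · intro x hx
      obtain ⟨τ, rfl⟩ := (hmemS x).1 hx
      exact s56fe_val_smul h hfin τ
  obtain ⟨m, hm⟩ := s56fm_val_fixed h hP0 hPfix
  exact ⟨m, by rw [← hvP, hm]⟩

/-- a nonzero element with a finite orbit is not divisible by all the powers of `r`. -/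
theorem s56fe_not_forall_le (h : mzo_Ctx r O L A Γ) {a : L} (ha : a ≠ 0)
    (hfin : (MulAction.orbit Γ a).Finite) :
    ∃ M : ℕ, ¬ A.valuation a ≤ A.valuation (r : L) ^ M := by
  obtain ⟨m, hm⟩ := s56fe_norm h ha hfin
  have hs := s56fe_card_pos a hfin
  set s := hfin.toFinset.card with hsdef
  have hr0 := s56fe_vr_pos h
  have hr1 := s56fe_vr_lt_one h
  refine ⟨m.toNat + 1, fun hle => ?_⟩
  have h1 : A.valuation a ^ s ≤ (A.valuation (r : L) ^ (m.toNat + 1)) ^ s :=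
    pow_le_pow_left₀ zero_le hle s
  rw [hm, ← pow_mul, ← zpow_natCast, zpow_le_zpow_iff_right_of_lt_one₀ hr0 hr1] at h1
  have h2 : (m.toNat : ℤ) + 1 ≤ ((m.toNat + 1) * s : ℕ) := by
    have : m.toNat + 1 ≤ (m.toNat + 1) * s := Nat.le_mul_of_pos_right _ hs
    exact_mod_cast this
  have h3 : m ≤ m.toNat := Int.self_le_toNat m
  omega

end Val

section Unif

variable {r : ℕ} {O : Type} [CommRing O] [IsDomain O] [IsDiscreteValuationRing O]
  {L : Type} [Field L] [Algebra O L] {A : ValuationSubring L}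
  {Γ : Type} [Group Γ] [MulSemiringAction Γ L]

theorem s56fe_r_mem_N (θ : L) : ((r : ℕ) : L) ∈ s56fe_N Γ θ :=
  s56fe_fixed_mem_N θ (fun σ => mzo_smul_natCast σ r)

theorem s56fe_alg_mem_N (h : mzo_Ctx r O L A Γ) (θ : L) (o : O) :
    algebraMap O L o ∈ s56fe_N Γ θ :=
  s56fe_fixed_mem_N θ (fun σ => h.fixed o σ)

/-- the `n`-th power of the valuation of an element of the point field is a power of `v(r)`. -/
theorem s56fe_val_pow_N (h : mzo_Ctx r O L A Γ) {θ : L} (hfin : (MulAction.orbit Γ θ).Finite)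
    {a : L} (ha : a ∈ s56fe_N Γ θ) (ha0 : a ≠ 0) :
    ∃ m : ℤ, A.valuation a ^ hfin.toFinset.card = A.valuation (r : L) ^ m := by
  have hfina := s56fe_finite_of_mem_N hfin ha
  obtain ⟨m, hm⟩ := s56fe_norm h ha0 hfina
  obtain ⟨t, ht⟩ := s56fe_card_dvd hfin ha hfina
  refine ⟨m * t, ?_⟩
  rw [ht, pow_mul, hm, zpow_mul, zpow_natCast]

/-- **the value group of the point field `N` is generated by `v(ϖ)`** for some `ϖ ∈ N ∩ 𝔪_A`;
`v(r) = v(ϖ)^e` and `n = e d`. -/
theorem s56fe_unif (h : mzo_Ctx r O L A Γ) (θ : L) (hfin : (MulAction.orbit Γ θ).Finite) :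
    ∃ (ϖ : L) (e d : ℕ), ϖ ∈ s56fe_N Γ θ ∧ ϖ ≠ 0 ∧ A.valuation ϖ < 1 ∧
      (∀ a ∈ s56fe_N Γ θ, a ≠ 0 → ∃ q : ℤ, A.valuation a = A.valuation ϖ ^ q) ∧
      A.valuation (r : L) = A.valuation ϖ ^ e ∧ 0 < e ∧ hfin.toFinset.card = e * d := by
  classical
  set n : ℕ := hfin.toFinset.card with hn
  have hnpos : 0 < n := s56fe_card_pos θ hfin
  set vr := A.valuation (r : L) with hvr
  have hr0 : 0 < vr := s56fe_vr_pos h
  have hr1 : vr < 1 := s56fe_vr_lt_one h
  have hmn : ∀ a ∈ s56fe_N Γ θ, a ≠ 0 → ∃ m : ℤ, A.valuation a ^ n = vr ^ m :=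
    fun a ha ha0 => s56fe_val_pow_N h hfin ha ha0
  -- the least positive exponent
  let P : ℕ → Prop := fun d => 0 < d ∧ ∃ a ∈ s56fe_N Γ θ, a ≠ 0 ∧ A.valuation a ^ n = vr ^ (d : ℤ)
  have hPn : ∃ d, P d := ⟨n, hnpos, (r : L), s56fe_r_mem_N θ, h.r_ne, (zpow_natCast _ _).symm⟩
  obtain ⟨hd0, ϖ, hϖN, hϖ0, hϖv⟩ := Nat.find_spec hPn
  have hmin : ∀ k : ℕ, k < Nat.find hPn → ¬ P k := fun k hk => Nat.find_min hPn hk
  set d : ℕ := Nat.find hPn with hd
  set vϖ := A.valuation ϖ with hvϖ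
  have hvϖ0 : vϖ ≠ 0 := (Valuation.ne_zero_iff _).2 hϖ0
  have hvϖpos : 0 < vϖ := zero_lt_iff.mpr hvϖ0
  have hvϖ1 : vϖ < 1 := by
    by_contra hge
    push Not at hge
    have h1 : (1 : A.ValueGroup) ≤ vϖ ^ n := one_le_pow₀ hge
    rw [hϖv, zpow_natCast] at h1
    exact absurd (pow_lt_one₀ zero_le hr1 hd0.ne') (not_lt.mpr h1)
  have hq : ∀ a ∈ s56fe_N Γ θ, a ≠ 0 → ∃ q : ℤ, A.valuation a = vϖ ^ q := by
    intro a ha ha0
    obtain ⟨m, hm⟩ := hmn a ha ha0
    have hdz : (0 : ℤ) < d := by exact_mod_cast hd0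
    set q : ℤ := m / d with hqdef
    set ρ : ℤ := m % d with hρdef
    have hρ0 : 0 ≤ ρ := Int.emod_nonneg _ hdz.ne'
    have hρd : ρ < d := Int.emod_lt_of_pos _ hdz
    have hmq : (d : ℤ) * q + ρ = m := Int.mul_ediv_add_emod m d
    set b : L := a * (ϖ ^ q)⁻¹ with hb
    have hbN : b ∈ s56fe_N Γ θ := mul_mem ha (inv_mem (zpow_mem hϖN q))
    have hb0 : b ≠ 0 := mul_ne_zero ha0 (inv_ne_zero (zpow_ne_zero q hϖ0))
    have hvb : A.valuation b = A.valuation a * (vϖ ^ q)⁻¹ := by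
      rw [hb, map_mul, map_inv₀, map_zpow₀]
    have hvbn : A.valuation b ^ n = vr ^ ρ := by
      have h1 : (vϖ ^ q) ^ n = vr ^ ((d : ℤ) * q) := by
        rw [← zpow_natCast, ← zpow_mul, mul_comm, zpow_mul, zpow_natCast, hϖv, ← zpow_mul]
      rw [hvb, mul_pow, inv_pow, h1, hm, ← div_eq_mul_inv, ← zpow_sub₀ hr0.ne']
      congr 1
      omega
    by_cases hρ : ρ = 0
    · refine ⟨q, ?_⟩
      rw [hρ, zpow_zero, pow_eq_one_iff_of_nonneg zero_le hnpos.ne', hvb,
        mul_inv_eq_one₀ (zpow_ne_zero q hvϖ0)] at hvbn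
      exact hvbn
    · exfalso
      have hρpos : 0 < ρ := lt_of_le_of_ne hρ0 (Ne.symm hρ)
      refine hmin ρ.toNat ((Int.toNat_lt hρ0).mpr hρd) ⟨?_, b, hbN, hb0, ?_⟩
      · exact (Int.pos_iff_toNat_pos).mp hρpos
      · rw [Int.toNat_of_nonneg hρ0]
        exact hvbn
  obtain ⟨e', he'⟩ := hq (r : L) (s56fe_r_mem_N θ) h.r_ne
  have he'pos : 0 < e' := by
    by_contra hle
    push Not at hle
    have h1 : vϖ ^ (0 : ℤ) ≤ vϖ ^ e' :=
      (zpow_le_zpow_iff_right_of_lt_one₀ hvϖpos hvϖ1).mpr hle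
    rw [zpow_zero, ← he'] at h1
    exact absurd hr1 (not_lt.mpr h1)
  obtain ⟨e, rfl⟩ := Int.eq_ofNat_of_zero_le he'pos.le
  rw [zpow_natCast] at he'
  have hepos : 0 < e := by exact_mod_cast he'pos
  refine ⟨ϖ, e, d, hϖN, hϖ0, hvϖ1, hq, he', hepos, ?_⟩
  have h1 : vϖ ^ ((n : ℕ) : ℤ) = vϖ ^ (((e * d : ℕ)) : ℤ) := by
    rw [zpow_natCast, zpow_natCast, hϖv, zpow_natCast, hvr, he', pow_mul]
  have h2 := zpow_right_injective₀ hvϖpos hvϖ1.ne h1
  exact_mod_cast h2

end Unif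

section Approx

variable {r : ℕ} {O : Type} [CommRing O] [IsDomain O] [IsDiscreteValuationRing O]
  {L : Type} [Field L] [Algebra O L] {A : ValuationSubring L}
  {Γ : Type} [Group Γ] [MulSemiringAction Γ L]

/-- `ϖ` generates the value group of the point field `N = L^{Stab θ}`, and `v(r) = v(ϖ)^e`. -/
structure s56fe_IsUnif (A : ValuationSubring L) (Γ : Type) [Group Γ] [MulSemiringAction Γ L]
    (r : ℕ) (θ ϖ : L) (e : ℕ) : Prop where
  mem : ϖ ∈ s56fe_N Γ θ
  ne : ϖ ≠ 0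
  lt : A.valuation ϖ < 1
  gen : ∀ a ∈ s56fe_N Γ θ, a ≠ 0 → ∃ q : ℤ, A.valuation a = A.valuation ϖ ^ q
  val_r : A.valuation (r : L) = A.valuation ϖ ^ e

variable {θ ϖ : L} {e : ℕ}

theorem s56fe_IsUnif.pos (hu : s56fe_IsUnif A Γ r θ ϖ e) : 0 < A.valuation ϖ :=
  zero_lt_iff.mpr ((Valuation.ne_zero_iff _).2 hu.ne)

/-- an element of `N ∩ 𝔪_A` is divisible by `ϖ`. -/
theorem s56fe_IsUnif.le_of_lt_one (hu : s56fe_IsUnif A Γ r θ ϖ e) {t : L}
    (ht : t ∈ s56fe_N Γ θ) (hlt : A.valuation t < 1) : A.valuation t ≤ A.valuation ϖ := by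
  by_cases ht0 : t = 0
  · rw [ht0, map_zero]
    exact zero_le
  obtain ⟨q, hq⟩ := hu.gen t ht ht0
  have hq1 : 1 ≤ q := by
    by_contra hlt'
    push Not at hlt'
    have h1 : A.valuation ϖ ^ (0 : ℤ) ≤ A.valuation ϖ ^ q :=
      (zpow_le_zpow_iff_right_of_lt_one₀ hu.pos hu.lt).mpr (by omega)
    rw [zpow_zero, ← hq] at h1
    exact absurd hlt (not_lt.mpr h1)
  rw [hq]
  calc A.valuation ϖ ^ q ≤ A.valuation ϖ ^ (1 : ℤ) :=
        (zpow_le_zpow_iff_right_of_lt_one₀ hu.pos hu.lt).mpr hq1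
    _ = A.valuation ϖ := zpow_one _

/-- one step of the `ϖ`-adic expansion with coefficients in `O` (`res_full`). -/
theorem s56fe_step (h : mzo_Ctx r O L A Γ) (hu : s56fe_IsUnif A Γ r θ ϖ e) (j : ℕ) {a : L}
    (haA : a ∈ A) (haN : a ∈ s56fe_N Γ θ) :
    ∃ (c : ℕ → O) (a' : L), a' ∈ s56fe_N Γ θ ∧ A.valuation a' ≤ A.valuation ϖ ^ j ∧
      a = ∑ i ∈ Finset.range j, algebraMap O L (c i) * ϖ ^ i + a' := by
  induction j with
  | zero =>
    refine ⟨fun _ => 0, a, haN, ?_, ?_⟩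
    · rw [pow_zero]
      exact (A.valuation_le_one_iff a).mpr haA
    · rw [Finset.range_zero, Finset.sum_empty, zero_add]
  | succ j ih =>
    obtain ⟨c, a', ha'N, hva', hsum⟩ := ih
    have hϖj : ϖ ^ j ≠ 0 := pow_ne_zero j hu.ne
    have huA : a' / ϖ ^ j ∈ A := by
      rw [← A.valuation_le_one_iff, map_div₀, map_pow]
      exact (div_le_one₀ (pow_pos hu.pos j)).mpr hva'
    have huN : a' / ϖ ^ j ∈ s56fe_N Γ θ := div_mem ha'N (pow_mem hu.mem j)
    obtain ⟨o, ho⟩ := h.res_full _ huA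
    have htN : a' / ϖ ^ j - algebraMap O L o ∈ s56fe_N Γ θ :=
      sub_mem huN (s56fe_alg_mem_N h θ o)
    have htlt : A.valuation (a' / ϖ ^ j - algebraMap O L o) < 1 :=
      (ValuationSubring.mem_nonunits_iff A).mp ho
    have htle := hu.le_of_lt_one htN htlt
    refine ⟨Function.update c j o, (a' / ϖ ^ j - algebraMap O L o) * ϖ ^ j,
      mul_mem htN (pow_mem hu.mem j), ?_, ?_⟩
    · rw [map_mul, map_pow, pow_succ']
      exact mul_le_mul_left htle _
    · rw [Finset.sum_range_succ, Function.update_self]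
      have hc : ∑ i ∈ Finset.range j, algebraMap O L (Function.update c j o i) * ϖ ^ i
          = ∑ i ∈ Finset.range j, algebraMap O L (c i) * ϖ ^ i := by
        refine Finset.sum_congr rfl (fun i hi => ?_)
        rw [Function.update_of_ne (Finset.mem_range.mp hi).ne]
      rw [hc, sub_mul, div_mul_cancel₀ _ hϖj]
      rw [hsum]
      ring

/-- `A ∩ N = ⊕_{j<e} O ϖ^j + r (A ∩ N)`. -/
theorem s56fe_approx_one (h : mzo_Ctx r O L A Γ) (hu : s56fe_IsUnif A Γ r θ ϖ e) {a : L}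
    (haA : a ∈ A) (haN : a ∈ s56fe_N Γ θ) :
    ∃ (c : ℕ → O) (y : L), y ∈ A ∧ y ∈ s56fe_N Γ θ ∧
      a = ∑ i ∈ Finset.range e, algebraMap O L (c i) * ϖ ^ i + (r : L) * y := by
  obtain ⟨c, a', ha'N, hva', hsum⟩ := s56fe_step h hu e haA haN
  refine ⟨c, a' / (r : L), ?_, div_mem ha'N (s56fe_r_mem_N θ), ?_⟩
  · rw [← A.valuation_le_one_iff, map_div₀, hu.val_r]
    exact (div_le_one₀ (pow_pos hu.pos e)).mpr hva'
  · rw [mul_div_cancel₀ _ h.r_ne]
    exact hsum

/-- `A ∩ N = ⊕_{j<e} O ϖ^j + r^M (A ∩ N)` for every `M`. -/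
theorem s56fe_approx (h : mzo_Ctx r O L A Γ) (hu : s56fe_IsUnif A Γ r θ ϖ e) (M : ℕ) {a : L}
    (haA : a ∈ A) (haN : a ∈ s56fe_N Γ θ) :
    ∃ (c : ℕ → O) (y : L), y ∈ A ∧ y ∈ s56fe_N Γ θ ∧
      a = ∑ i ∈ Finset.range e, algebraMap O L (c i) * ϖ ^ i + (r : L) ^ M * y := by
  induction M with
  | zero =>
    refine ⟨fun _ => 0, a, haA, haN, ?_⟩
    simp
  | succ M ih =>
    obtain ⟨c, y, hyA, hyN, hsum⟩ := ih
    obtain ⟨c', y', hy'A, hy'N, hsum'⟩ := s56fe_approx_one h hu hyA hyN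
    refine ⟨fun i => c i + ((r : ℕ) : O) ^ M * c' i, y', hy'A, hy'N, ?_⟩
    have e1 : ∑ i ∈ Finset.range e, algebraMap O L (c i + ((r : ℕ) : O) ^ M * c' i) * ϖ ^ i
        = ∑ i ∈ Finset.range e, algebraMap O L (c i) * ϖ ^ i
          + (r : L) ^ M * ∑ i ∈ Finset.range e, algebraMap O L (c' i) * ϖ ^ i := by
      rw [Finset.mul_sum, ← Finset.sum_add_distrib]
      refine Finset.sum_congr rfl (fun i _ => ?_)
      rw [map_add, map_mul, map_pow, map_natCast]
      ring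
    rw [e1, pow_succ]
    conv_lhs => rw [hsum, hsum']
    ring

end Approx

section Vandermonde

variable {r : ℕ} {O : Type} [CommRing O] [IsDomain O] [IsDiscreteValuationRing O]
  {L : Type} [Field L] [Algebra O L] {A : ValuationSubring L}
  {Γ : Type} [Group Γ] [MulSemiringAction Γ L]

/-- the determinant of a matrix with entries in `A` lies in `A`. -/
theorem s56fe_det_mem (A : ValuationSubring L) {m : ℕ} (M : Matrix (Fin m) (Fin m) L)
    (hM : ∀ i j, M i j ∈ A) : M.det ∈ A := by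
  rw [Matrix.det_apply]
  refine sum_mem (fun τ _ => ?_)
  rw [Units.smul_def]
  exact zsmul_mem (prod_mem (fun i _ => hM _ _)) _

/-- **`n ≤ e`**: if `v(N^×) = v(ϖ)^ℤ` and `v(r) = v(ϖ)^e` then the orbit of `θ` has at most `e`
elements.  (Otherwise `1, θ, …, θ^e` are `O`-dependent modulo every power of `r`, and Cramer's rule
for `e + 1` distinct conjugates makes the Vandermonde determinant divisible by all the powers
of `r`.) -/
theorem s56fe_e_ge (h : mzo_Ctx r O L A Γ) {θ ϖ : L} {e : ℕ} (hu : s56fe_IsUnif A Γ r θ ϖ e)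
    (hθA : θ ∈ A) (hfin : (MulAction.orbit Γ θ).Finite) : hfin.toFinset.card ≤ e := by
  classical
  by_contra hlt
  push Not at hlt
  set S : Finset L := hfin.toFinset with hS
  have hmemS : ∀ x : L, x ∈ S ↔ ∃ τ : Γ, τ • θ = x := by
    intro x
    rw [hS, Set.Finite.mem_toFinset]
    exact MulAction.mem_orbit_iff
  -- `e + 1` distinct conjugates
  have hle : e + 1 ≤ S.card := hlt
  let x : Fin (e + 1) → L := fun k => ((S.equivFin.symm (Fin.castLE hle k) : ↥S) : L)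
  have hxinj : Function.Injective x := by
    intro k l hkl
    have h1 : S.equivFin.symm (Fin.castLE hle k) = S.equivFin.symm (Fin.castLE hle l) :=
      Subtype.ext hkl
    exact Fin.castLE_injective hle (S.equivFin.symm.injective h1)
  have hxS : ∀ k, x k ∈ S := fun k => (S.equivFin.symm (Fin.castLE hle k)).2
  choose σ hσ using fun k => (hmemS (x k)).1 (hxS k)
  have hxA : ∀ k, x k ∈ A := fun k => by
    rw [← hσ k]
    exact s56fl_smul_mem h (σ k) hθA
  have hxfin : ∀ k, (MulAction.orbit Γ (x k)).Finite := fun k => by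
    have h1 : MulAction.orbit Γ (x k) = MulAction.orbit Γ θ :=
      MulAction.orbit_eq_iff.mpr ⟨σ k, hσ k⟩
    rw [h1]
    exact hfin
  -- the Vandermonde determinant
  set V : Matrix (Fin (e + 1)) (Fin (e + 1)) L := Matrix.vandermonde x with hV
  have hD0 : V.det ≠ 0 := Matrix.det_vandermonde_ne_zero_iff.mpr hxinj
  have hDfin : (MulAction.orbit Γ V.det).Finite := by
    rw [hV, Matrix.det_vandermonde]
    exact s56fe_finorb_prod _ _ (fun i _ => s56fe_finorb_prod _ _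
      (fun j _ => s56fe_finorb_sub (hxfin j) (hxfin i)))
  obtain ⟨M, hM⟩ := s56fe_not_forall_le h hD0 hDfin
  apply hM
  -- expansions of `θ^i`, `i ≤ e`
  have hpowA : ∀ i : ℕ, θ ^ i ∈ A := fun i => pow_mem hθA i
  have hpowN : ∀ i : ℕ, θ ^ i ∈ s56fe_N Γ θ := fun i => pow_mem (s56fe_self_mem_N θ) i
  choose c y hyA hyN hexp using
    fun i : Fin (e + 1) => s56fe_approx h hu M (hpowA i) (hpowN i)
  -- linear dependence of `e + 1` vectors of `O^e`
  have hdep : ¬ LinearIndependent O (fun i : Fin (e + 1) => (fun j : Fin e => c i j)) := by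
    intro hli
    have h1 := hli.fintype_card_le_finrank
    rw [Fintype.card_fin, Module.finrank_fin_fun] at h1
    omega
  obtain ⟨g, hg, i₁, hi₁⟩ := Fintype.not_linearIndependent_iff.mp hdep
  have hgj : ∀ j : ℕ, j < e → ∑ i, g i * c i j = 0 := by
    intro j hj
    have h1 := congrFun hg ⟨j, hj⟩
    simpa [Finset.sum_apply] using h1
  -- the relation in `L`
  have hrel : ∑ i, algebraMap O L (g i) * θ ^ (i : ℕ)
      = (r : L) ^ M * ∑ i, algebraMap O L (g i) * y i := by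
    have h1 : ∑ i, algebraMap O L (g i) * θ ^ (i : ℕ)
        = ∑ i, (∑ j ∈ Finset.range e, algebraMap O L (g i * c i j) * ϖ ^ j
            + (r : L) ^ M * (algebraMap O L (g i) * y i)) := by
      refine Finset.sum_congr rfl (fun i _ => ?_)
      rw [hexp i, mul_add, Finset.mul_sum]
      congr 1
      · refine Finset.sum_congr rfl (fun j _ => ?_)
        rw [map_mul]
        ring
      · ring
    rw [h1, Finset.sum_add_distrib, Finset.sum_comm, ← Finset.mul_sum]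
    have h2 : ∑ j ∈ Finset.range e, ∑ i, algebraMap O L (g i * c i j) * ϖ ^ j = 0 := by
      refine Finset.sum_eq_zero (fun j hj => ?_)
      rw [← Finset.sum_mul, ← map_sum, hgj j (Finset.mem_range.mp hj), map_zero, zero_mul]
    rw [h2, zero_add]
  -- normalisation: divide by the coefficient of maximal valuation
  obtain ⟨i₀, -, hmax⟩ := Finset.exists_max_image Finset.univ
    (fun i => A.valuation (algebraMap O L (g i))) ⟨i₁, Finset.mem_univ _⟩
  have hg0 : algebraMap O L (g i₀) ≠ 0 := by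
    intro h0
    have h1 := hmax i₁ (Finset.mem_univ _)
    simp only [h0, map_zero, le_zero_iff, map_eq_zero] at h1
    exact hi₁ (h.inj (by rw [h1, map_zero]))
  have hvg0 : 0 < A.valuation (algebraMap O L (g i₀)) :=
    zero_lt_iff.mpr ((Valuation.ne_zero_iff _).2 hg0)
  let μ : Fin (e + 1) → L := fun i => algebraMap O L (g i) / algebraMap O L (g i₀)
  have hμA : ∀ i, μ i ∈ A := by
    intro i
    rw [← A.valuation_le_one_iff, map_div₀]
    exact (div_le_one₀ hvg0).mpr (hmax i (Finset.mem_univ _))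
  have hμfix : ∀ (τ : Γ) (i : Fin (e + 1)), τ • μ i = μ i := by
    intro τ i
    show τ • (algebraMap O L (g i) / algebraMap O L (g i₀)) = _
    rw [div_eq_mul_inv, smul_mul', smul_inv'', h.fixed, h.fixed]
    exact (div_eq_mul_inv _ _).symm
  have hμ0 : μ i₀ = 1 := div_self hg0
  set z : L := ∑ i, μ i * y i with hz
  have hzA : z ∈ A := sum_mem (fun i _ => mul_mem (hμA i) (hyA i))
  have hrel' : ∑ i, μ i * θ ^ (i : ℕ) = (r : L) ^ M * z := by
    have h1 : ∑ i, μ i * θ ^ (i : ℕ)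
        = (∑ i, algebraMap O L (g i) * θ ^ (i : ℕ)) / algebraMap O L (g i₀) := by
      rw [Finset.sum_div]
      refine Finset.sum_congr rfl (fun i _ => ?_)
      show algebraMap O L (g i) / algebraMap O L (g i₀) * _ = _
      ring
    rw [h1, hrel, hz, Finset.mul_sum, Finset.mul_sum, Finset.sum_div]
    refine Finset.sum_congr rfl (fun i _ => ?_)
    show _ = (r : L) ^ M * (algebraMap O L (g i) / algebraMap O L (g i₀) * y i)
    ring
  -- apply the `e + 1` conjugations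
  have hconj : ∀ k, ∑ i : Fin (e + 1), x k ^ (i : ℕ) * μ i = (r : L) ^ M * (σ k • z) := by
    intro k
    have h1 := congrArg (fun t => σ k • t) hrel'
    simp only [Finset.smul_sum, smul_mul', smul_pow', hμfix, hσ, mzo_smul_natCast] at h1
    rw [← h1]
    exact Finset.sum_congr rfl (fun i _ => mul_comm _ _)
  -- Cramer's rule
  set w : Fin (e + 1) → L := fun k => σ k • z with hw
  have hwA : ∀ k, w k ∈ A := fun k => s56fl_smul_mem h (σ k) hzA
  have hVμ : V.mulVec μ = (r : L) ^ M • w := by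
    funext k
    rw [Matrix.mulVec, dotProduct]
    simp only [hV, Matrix.vandermonde_apply, Pi.smul_apply, smul_eq_mul]
    exact hconj k
  have hcr : V.cramer (V.mulVec μ) = V.det • μ := by
    rw [Matrix.cramer_eq_adjugate_mulVec, Matrix.mulVec_mulVec, Matrix.adjugate_mul,
      Matrix.smul_mulVec, Matrix.one_mulVec]
  have hD_eq : V.det = (r : L) ^ M * (V.updateCol i₀ w).det := by
    have h1 := congrFun hcr i₀
    rw [Matrix.cramer_apply, hVμ, Matrix.det_updateCol_smul, Pi.smul_apply, smul_eq_mul, hμ0,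
      mul_one] at h1
    exact h1.symm
  have hdetA : (V.updateCol i₀ w).det ∈ A := by
    refine s56fe_det_mem A _ (fun i j => ?_)
    rw [Matrix.updateCol_apply]
    split_ifs
    · exact hwA i
    · rw [hV, Matrix.vandermonde_apply]
      exact pow_mem (hxA i) _
  rw [hD_eq, map_mul, map_pow]
  calc A.valuation (r : L) ^ M * A.valuation (V.updateCol i₀ w).det
      ≤ A.valuation (r : L) ^ M * 1 :=
        mul_le_mul_right ((A.valuation_le_one_iff _).mpr hdetA) _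
    _ = A.valuation (r : L) ^ M := mul_one _

end Vandermonde

section Main

variable {r : ℕ} {O : Type} [CommRing O] [IsDomain O] [IsDiscreteValuationRing O]
  {L : Type} [Field L] [Algebra O L] {A : ValuationSubring L}
  {Γ : Type} [Group Γ] [MulSemiringAction Γ L]

/-- existence of `ϖ ∈ N ∩ 𝔪_A` with `v(ϖ)^n = v(r)` (for `θ ∈ A`). -/
theorem s56fe_exists_unif (h : mzo_Ctx r O L A Γ) (θ : L) (hθA : θ ∈ A)
    (hfin : (MulAction.orbit Γ θ).Finite) :
    ∃ ϖ : L, ϖ ∈ s56fe_N Γ θ ∧ ϖ ≠ 0 ∧ A.valuation ϖ < 1 ∧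
      A.valuation ϖ ^ hfin.toFinset.card = A.valuation (r : L) := by
  obtain ⟨ϖ, e, d, hϖN, hϖ0, hϖ1, hq, he, hepos, hned⟩ := s56fe_unif h θ hfin
  have hu : s56fe_IsUnif A Γ r θ ϖ e := ⟨hϖN, hϖ0, hϖ1, hq, he⟩
  have hge := s56fe_e_ge h hu hθA hfin
  have hnpos := s56fe_card_pos θ hfin
  have hd : d = 1 := by
    rw [hned] at hge hnpos
    have hdpos : 0 < d := Nat.pos_of_ne_zero (fun h0 => by rw [h0, mul_zero] at hnpos; exact lt_irrefl _ hnpos)
    nlinarith
  refine ⟨ϖ, hϖN, hϖ0, hϖ1, ?_⟩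
  rw [hned, hd, mul_one, he]

/-- an element `ϖ` of the point field of `θ` with `v(ϖ)^n = v(r)` has the same stabiliser as `θ`
(its orbit has at least `n` elements because `1, ϖ, …, ϖ^{n-1}` have distinct valuations modulo
`v(r)^ℤ`; here: the norm over the orbit of `ϖ`). -/
theorem s56fe_stab_eq (h : mzo_Ctx r O L A Γ) {θ ϖ : L} (hfin : (MulAction.orbit Γ θ).Finite)
    (hϖN : ϖ ∈ s56fe_N Γ θ) (hϖ0 : ϖ ≠ 0) (hϖ1 : A.valuation ϖ < 1)
    (hv : A.valuation ϖ ^ hfin.toFinset.card = A.valuation (r : L)) :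
    ∃ hfin' : (MulAction.orbit Γ ϖ).Finite, hfin'.toFinset.card = hfin.toFinset.card ∧
      ∀ σ : Γ, σ • ϖ = ϖ ↔ σ • θ = θ := by
  have hfin' := s56fe_finite_of_mem_N hfin hϖN
  refine ⟨hfin', ?_⟩
  have hsn : hfin'.toFinset.card ∣ hfin.toFinset.card := s56fe_card_dvd hfin hϖN hfin'
  obtain ⟨m, hm⟩ := s56fe_norm h hϖ0 hfin'
  have hvpos : 0 < A.valuation ϖ := zero_lt_iff.mpr ((Valuation.ne_zero_iff _).2 hϖ0)
  have h1 : A.valuation ϖ ^ ((hfin'.toFinset.card : ℕ) : ℤ)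
      = A.valuation ϖ ^ (((hfin.toFinset.card : ℕ) : ℤ) * m) := by
    rw [zpow_natCast, hm, ← hv, ← zpow_natCast, ← zpow_mul]
  have h2 : ((hfin'.toFinset.card : ℕ) : ℤ) = ((hfin.toFinset.card : ℕ) : ℤ) * m :=
    zpow_right_injective₀ hvpos hϖ1.ne h1
  have hns : hfin.toFinset.card ∣ hfin'.toFinset.card :=
    Int.natCast_dvd_natCast.mp ⟨m, h2⟩
  have hcard : hfin'.toFinset.card = hfin.toFinset.card := Nat.dvd_antisymm hsn hns
  refine ⟨hcard, ?_⟩
  have hle := s56fe_mem_N_iff_le.mp hϖN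
  have hidx : (MulAction.stabilizer Γ ϖ).index = (MulAction.stabilizer Γ θ).index := by
    rw [s56fe_index_eq ϖ hfin', s56fe_index_eq θ hfin]
    exact hcard
  have hrel := Subgroup.relIndex_mul_index hle
  have hidx0 : 0 < (MulAction.stabilizer Γ θ).index := by
    rw [s56fe_index_eq θ hfin]
    exact s56fe_card_pos θ hfin
  have hone : (MulAction.stabilizer Γ θ).relIndex (MulAction.stabilizer Γ ϖ) = 1 := by
    rw [hidx] at hrel
    exact Nat.eq_of_mul_eq_mul_right hidx0 (by rw [hrel, one_mul])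
  have hge : MulAction.stabilizer Γ ϖ ≤ MulAction.stabilizer Γ θ :=
    Subgroup.relIndex_eq_one.mp hone
  intro σ
  constructor
  · intro hσ
    exact MulAction.mem_stabilizer_iff.mp (hge (MulAction.mem_stabilizer_iff.mpr hσ))
  · intro hσ
    exact hϖN σ hσ

theorem s56fe_main_aux (h : mzo_Ctx r O L A Γ) (θ : L) (hθA : θ ∈ A)
    (hfin : (MulAction.orbit Γ θ).Finite) :
    ∃ ϖ : L, ϖ ∈ A.nonunits ∧ (∀ σ : Γ, σ • ϖ = ϖ ↔ σ • θ = θ) ∧
      ∃ hfin' : (MulAction.orbit Γ ϖ).Finite, hfin'.toFinset.card = hfin.toFinset.card ∧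
        A.valuation ϖ ^ hfin'.toFinset.card = A.valuation (r : L) := by
  obtain ⟨ϖ, hϖN, hϖ0, hϖ1, hv⟩ := s56fe_exists_unif h θ hθA hfin
  obtain ⟨hfin', hcard, hiff⟩ := s56fe_stab_eq h hfin hϖN hϖ0 hϖ1 hv
  refine ⟨ϖ, (ValuationSubring.mem_nonunits_iff A).mpr hϖ1, hiff, hfin', hcard, ?_⟩
  rw [hcard]
  exact hv

/-- **F-EFN.**  Every `θ ∈ L` with a finite `Γ`-orbit of size `n` has the same stabiliser as some
`ϖ ∈ 𝔪_A` with `v(ϖ)^n = v(r)`: the point field `L^{Stab θ}` is totally ramified of degree `n` over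
`Frac O`, with uniformiser `ϖ` (so `s56fm_main` applies to `ϖ`). -/
theorem s56fe_main (h : mzo_Ctx r O L A Γ) (θ : L) (hfin : (MulAction.orbit Γ θ).Finite) :
    ∃ ϖ : L, ϖ ∈ A.nonunits ∧ (∀ σ : Γ, σ • ϖ = ϖ ↔ σ • θ = θ) ∧
      ∃ hfin' : (MulAction.orbit Γ ϖ).Finite, hfin'.toFinset.card = hfin.toFinset.card ∧
        A.valuation ϖ ^ hfin'.toFinset.card = A.valuation (r : L) := by
  rcases A.mem_or_inv_mem θ with hθ | hθ
  · exact s56fe_main_aux h θ hθ hfin
  · have hstab : ∀ σ : Γ, σ • θ⁻¹ = θ⁻¹ ↔ σ • θ = θ := fun σ => by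
      rw [smul_inv'', inv_inj]
    have hfin_inv : (MulAction.orbit Γ θ⁻¹).Finite :=
      s56fe_finite_of_mem_N hfin (inv_mem (s56fe_self_mem_N θ))
    have hcard : hfin_inv.toFinset.card = hfin.toFinset.card := by
      rw [← s56fe_index_eq, ← s56fe_index_eq]
      congr 1
      ext σ
      rw [MulAction.mem_stabilizer_iff, MulAction.mem_stabilizer_iff]
      exact hstab σ
    obtain ⟨ϖ, hϖ, hiff, hfin', hc, hv⟩ := s56fe_main_aux h θ⁻¹ hθ hfin_inv
    exact ⟨ϖ, hϖ, fun σ => (hiff σ).trans (hstab σ), hfin', hc.trans hcard, hv⟩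

/-- **F-EFN + F-MONO**: every `a ∈ A` fixed by the stabiliser of `θ` is `∑_{i<n} o_i ϖ^i`, `o_i ∈ O`,
for the uniformiser `ϖ` of `s56fe_main`. -/
theorem s56fe_main_mono (h : mzo_Ctx r O L A Γ) (θ : L) (hfin : (MulAction.orbit Γ θ).Finite) :
    ∃ ϖ : L, ϖ ∈ A.nonunits ∧ (∀ σ : Γ, σ • ϖ = ϖ ↔ σ • θ = θ) ∧
      A.valuation ϖ ^ hfin.toFinset.card = A.valuation (r : L) ∧
      ∀ a : L, a ∈ A → (∀ σ : Γ, σ • θ = θ → σ • a = a) →
        ∃ o : Fin hfin.toFinset.card → O,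
          a = ∑ i : Fin hfin.toFinset.card, algebraMap O L (o i) * ϖ ^ (i : ℕ) := by
  obtain ⟨ϖ, hϖ, hiff, hfin', hc, hv⟩ := s56fe_main h θ hfin
  refine ⟨ϖ, hϖ, hiff, by rw [← hc]; exact hv, fun a ha hfix => ?_⟩
  have h1 := s56fm_main h ϖ hfin' hv a ha (fun σ hσ => hfix σ ((hiff σ).mp hσ))
  rw [hc] at h1
  exact h1

end Main

end Fermat.Agent.S56
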