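/-
Project S56 (Taylor–Wiles primes), node [LOC-p-FLAT] (owner helper27), cell F-LD (helper29).
Prefix `s56fd_`.  LARSON DUALITY IN THE FUNCTION MODEL.  Mathlib + `MZ/Hopf` + `S56/Flat/{Larson,Near}`,
imported only.

Setting: `hctx : mzo_Ctx r O L A Γ`, `hH : mzo_IsOrder A Γ G H`, `G` finite, `δ₀ = Pi.single 0 1`,
`δ̂₀` the same on `Ĝ = mzo_Dual G L`, `H^D = mzo_dualOrder H`.  Larson's ideal
`I(H) = {λ | λ δ₀ ∈ H}`.

* `s56fd_sum_char`, `s56fd_sum_dual` : orthogonality of characters (both kinds);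
* `s56fd_ideal H`, `s56fd_exists_of_delta`, `s56fd_card_mem` : `I(H)` is an ideal of `O`, `|G| ∈ I(H)`;
* `s56fd_exists_gen`   (GEN) : `I(H) = r^j O`;
* `s56fd_dual_mul`     (LD)  : `λ δ₀ ∈ H`, `μ δ̂₀ ∈ H^D` ⟹ `λ μ ∈ |G| O`;
* `s56fd_dual_mem`     (LD)  : `I(H) ⊆ r^j O` ⟹ `(|G| / r^j) δ̂₀ ∈ H^D`   [`I(H^D) = |G| I(H)⁻¹`];
* `s56fd_etale_of_delta`, `s56fd_trivial_of_etale` (ET) : `δ₀ ∈ H` ⟹ étale ⟹ `Γ` trivial on `G`;
* `s56fd_sq`           (SQ)  : `|G| = r²`, `Γ` non-trivial on `G` and on `Ĝ` ⟹ `I(H) = r O`;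
* `s56fd_rank_one`     (RK1) : `|G| = r` ⟹ `Γ` trivial on `G` or on `Ĝ`;
* `s56fd_max`, `s56fd_max'` (MAX) : `λ δ₀ ∈ H` ⟹ `H` contains every equivariant
                                `f : G → (λ / r) 𝔪_A`.
-/
import Mathlib
import Fermat.Agent.S56.Flat.Larson
import Fermat.Agent.S56.Flat.Near
import Fermat.Agent.MZ.Hopf.Char

set_option autoImplicit false
set_option linter.unusedSectionVars false

noncomputable section

namespace Fermat.Agent.S56

open Fermat.Agent.MZ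

section Orth

variable {L : Type} [Field L] {G : Type} [AddCommGroup G] [Fintype G]

/-- orthogonality, first kind: `∑_g χ g = 0` for a nontrivial character `χ`. -/
theorem s56fd_sum_char {χ : mzo_Dual G L} (hχ : χ ≠ 0) : ∑ g, χ g = 0 := by
  obtain ⟨g0, hg0⟩ : ∃ g0, χ g0 ≠ 1 := by
    by_contra h
    push Not at h
    exact hχ (mzo_Dual.ext fun x => by rw [h x]; rfl)
  have h1 : ∑ g, χ g = χ g0 * ∑ g, χ g := by
    rw [Finset.mul_sum]
    refine (Fintype.sum_equiv (Equiv.addLeft g0) _ _ fun g => ?_).symm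
    rw [Equiv.coe_addLeft, χ.map_add]
  have h2 : (χ g0 - 1) * ∑ g, χ g = 0 := by
    rw [sub_mul, one_mul, ← h1, sub_self]
  rcases mul_eq_zero.mp h2 with h3 | h3
  · exact absurd (sub_eq_zero.mp h3) hg0
  · exact h3

/-- `∑_g 0 g = |G|`. -/
theorem s56fd_sum_char_zero : ∑ g, (0 : mzo_Dual G L) g = (Fintype.card G : L) := by
  simp only [mzo_Dual.zero_apply, Finset.sum_const, Finset.card_univ, nsmul_eq_mul, mul_one]

/-- orthogonality, second kind: `∑_χ χ g = 0` for `g ≠ 0`, if the characters separate `g`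
from `0`. -/
theorem s56fd_sum_dual [Fintype (mzo_Dual G L)] {g : G} (hg : ∃ χ : mzo_Dual G L, χ g ≠ 1) :
    ∑ χ : mzo_Dual G L, χ g = 0 := by
  obtain ⟨χ0, hχ0⟩ := hg
  have h1 : ∑ χ : mzo_Dual G L, χ g = χ0 g * ∑ χ : mzo_Dual G L, χ g := by
    rw [Finset.mul_sum]
    refine (Fintype.sum_equiv (Equiv.addLeft χ0) _ _ fun χ => ?_).symm
    rw [Equiv.coe_addLeft, mzo_Dual.add_apply]
  have h2 : (χ0 g - 1) * ∑ χ : mzo_Dual G L, χ g = 0 := by
    rw [sub_mul, one_mul, ← h1, sub_self]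
  rcases mul_eq_zero.mp h2 with h3 | h3
  · exact absurd (sub_eq_zero.mp h3) hχ0
  · exact h3

end Orth


section Ideal

variable {r : ℕ} {O : Type} [CommRing O] [IsDomain O] [IsDiscreteValuationRing O]
  {L : Type} [Field L] [Algebra O L] {A : ValuationSubring L}
  {Γ : Type} [Group Γ] [MulSemiringAction Γ L]
  {G : Type} [AddCommGroup G] [DistribMulAction Γ G] [Fintype G] [DecidableEq G]

/-- **Larson's ideal** `I(H) = {o ∈ O | o δ₀ ∈ H}`. -/
def s56fd_ideal (H : Subalgebra O (G → L)) : Ideal O where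
  carrier := {o | algebraMap O L o • (Pi.single 0 1 : G → L) ∈ H}
  add_mem' := by
    intro a b ha hb
    simp only [Set.mem_ofPred_eq] at ha hb ⊢
    rw [map_add, add_smul]
    exact H.add_mem ha hb
  zero_mem' := by
    simp only [Set.mem_ofPred_eq]
    rw [map_zero, zero_smul]
    exact H.zero_mem
  smul_mem' := by
    intro c a ha
    simp only [Set.mem_ofPred_eq] at ha ⊢
    rw [smul_eq_mul, map_mul, mul_smul, ← s56f_la_smul_eq]
    exact H.smul_mem ha c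

theorem s56fd_mem_ideal {H : Subalgebra O (G → L)} {o : O} :
    o ∈ s56fd_ideal H ↔ algebraMap O L o • (Pi.single 0 1 : G → L) ∈ H := Iff.rfl

/-- every `λ` with `λ δ₀ ∈ H` comes from `O` (counit). -/
theorem s56fd_exists_of_delta (hctx : mzo_Ctx r O L A Γ) {H : Subalgebra O (G → L)}
    (hH : mzo_IsOrder A Γ G H) {lam : L} (hlam : lam • (Pi.single 0 1 : G → L) ∈ H) :
    ∃ o : O, algebraMap O L o = lam ∧ o ∈ s56fd_ideal H := by
  obtain ⟨o, ho⟩ := (s56f_la_of_isOrder hctx hH).counit _ hlam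
  rw [Pi.smul_apply, Pi.single_eq_same, smul_eq_mul, mul_one] at ho
  refine ⟨o, ho, ?_⟩
  rw [s56fd_mem_ideal, ho]
  exact hlam

/-- `|G| ∈ I(H)`. -/
theorem s56fd_card_mem (hctx : mzo_Ctx r O L A Γ) {H : Subalgebra O (G → L)}
    (hH : mzo_IsOrder A Γ G H) : (Fintype.card G : L) • (Pi.single 0 1 : G → L) ∈ H := by
  have h1 := s56f_la_trace_smul_delta (s56f_la_of_isOrder hctx hH) H.one_mem
  have h2 : ∑ x : G, (1 : G → L) x = (Fintype.card G : L) := by
    simp only [Pi.one_apply, Finset.sum_const, Finset.card_univ, nsmul_eq_mul, mul_one]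
  rwa [h2] at h1

/-- **(GEN)** `I(H) = r^j O`. -/
theorem s56fd_exists_gen (hctx : mzo_Ctx r O L A Γ) {H : Subalgebra O (G → L)}
    (hH : mzo_IsOrder A Γ G H) (hG : (Fintype.card G : L) ≠ 0) :
    ∃ j : ℕ, ((r : L) ^ j) • (Pi.single 0 1 : G → L) ∈ H ∧
      ∀ lam : L, lam • (Pi.single 0 1 : G → L) ∈ H →
        ∃ o : O, lam = algebraMap O L o * (r : L) ^ j := by
  have hne : s56fd_ideal H ≠ ⊥ := by
    obtain ⟨o, ho, hoI⟩ := s56fd_exists_of_delta hctx hH (s56fd_card_mem hctx hH)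
    intro hbot
    rw [hbot, Ideal.mem_bot] at hoI
    rw [hoI, map_zero] at ho
    exact hG ho.symm
  obtain ⟨j, hj⟩ := IsDiscreteValuationRing.ideal_eq_span_pow_irreducible hne hctx.irreducible_r
  refine ⟨j, ?_, fun lam hlam => ?_⟩
  · have h1 : ((r : ℕ) : O) ^ j ∈ s56fd_ideal H := by
      rw [hj]
      exact Ideal.mem_span_singleton_self _
    rw [s56fd_mem_ideal, map_pow, map_natCast] at h1
    exact h1
  · obtain ⟨o, ho, hoI⟩ := s56fd_exists_of_delta hctx hH hlam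
    rw [hj, Ideal.mem_span_singleton] at hoI
    obtain ⟨c, hc⟩ := hoI
    refine ⟨c, ?_⟩
    rw [← ho, hc, map_mul, map_pow, map_natCast, mul_comm]

end Ideal


section Duality

variable {r : ℕ} {O : Type} [CommRing O] [IsDomain O] [IsDiscreteValuationRing O]
  {L : Type} [Field L] [Algebra O L] {A : ValuationSubring L}
  {Γ : Type} [Group Γ] [MulSemiringAction Γ L]
  {G : Type} [AddCommGroup G] [DistribMulAction Γ G] [Fintype G] [DecidableEq G]

/-- **(LD), first half**: `λ δ₀ ∈ H` and `μ δ̂₀ ∈ H^D`  ⟹  `λ μ ∈ |G| O`. -/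
theorem s56fd_dual_mul (hctx : mzo_Ctx r O L A Γ)
    (hL : ∀ n : ℕ, n ≠ 0 → ∃ ζ : L, IsPrimitiveRoot ζ n)
    {H : Subalgebra O (G → L)} (hH : mzo_IsOrder A Γ G H)
    [Fintype (mzo_Dual G L)] [DecidableEq (mzo_Dual G L)] {lam mu : L}
    (hlam : lam • (Pi.single 0 1 : G → L) ∈ H)
    (hmu : mu • (Pi.single 0 1 : mzo_Dual G L → L) ∈ mzo_dualOrder H) :
    ∃ o : O, lam * mu = algebraMap O L o * (Fintype.card G : L) := by
  obtain ⟨μ, hμ, hμχ⟩ := (mzo_mem_dualOrder_iff hctx hH).mp hmu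
  have hψ : mzo_coef μ ∈ s56f_la_dual H := by
    intro φ hφ
    rw [← mzo_functional_eq_sum μ φ]
    exact hμ φ hφ
  -- the trace of `μ δ̂₀` in two ways
  have h1 : ∑ χ : mzo_Dual G L, (mu • (Pi.single 0 1 : mzo_Dual G L → L)) χ = mu := by
    rw [Finset.sum_eq_single 0]
    · rw [Pi.smul_apply, Pi.single_eq_same, smul_eq_mul, mul_one]
    · intro χ _ hχ
      rw [Pi.smul_apply, Pi.single_eq_of_ne hχ, smul_zero]
    · intro h0
      exact absurd (Finset.mem_univ _) h0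
  have hcard : (Fintype.card (mzo_Dual G L) : L) = (Fintype.card G : L) := by
    have := (mzo_ch_card L hL G).2
    rw [Nat.card_eq_fintype_card, Nat.card_eq_fintype_card] at this
    rw [this]
  have h2 : ∑ χ : mzo_Dual G L, μ ⇑χ = mzo_coef μ 0 * (Fintype.card G : L) := by
    have h3 : ∀ χ : mzo_Dual G L, μ ⇑χ = ∑ g, mzo_coef μ g * χ g :=
      fun χ => mzo_functional_eq_sum μ ⇑χ
    simp only [h3]
    rw [Finset.sum_comm]
    simp only [← Finset.mul_sum]
    rw [Finset.sum_eq_single 0]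
    · congr 1
      simp only [mzo_Dual.map_zero, Finset.sum_const, Finset.card_univ, nsmul_eq_mul, mul_one]
      exact hcard
    · intro g _ hg
      rw [s56fd_sum_dual (mzo_ch_sep L hL G g hg), mul_zero]
    · intro h0
      exact absurd (Finset.mem_univ _) h0
  have h4 : mu = mzo_coef μ 0 * (Fintype.card G : L) := by
    rw [← h1, ← h2]
    exact Finset.sum_congr rfl fun χ _ => hμχ χ
  have h5 := s56f_la_lam_smul_dual (s56f_la_of_isOrder hctx hH) hlam hψ
  obtain ⟨o, ho⟩ := (s56f_la_of_isOrder hctx hH).counit _ h5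
  rw [Pi.smul_apply, smul_eq_mul] at ho
  refine ⟨o, ?_⟩
  rw [ho, h4, mul_assoc]

/-- **(LD), second half**: if `I(H) ⊆ r^j O` then `(|G| / r^j) δ̂₀ ∈ H^D`. -/
theorem s56fd_dual_mem (hctx : mzo_Ctx r O L A Γ)
    {H : Subalgebra O (G → L)} (hH : mzo_IsOrder A Γ G H)
    [Fintype (mzo_Dual G L)] [DecidableEq (mzo_Dual G L)] {j : ℕ}
    (hj : ∀ lam : L, lam • (Pi.single 0 1 : G → L) ∈ H →
      ∃ o : O, lam = algebraMap O L o * (r : L) ^ j) :
    ((Fintype.card G : L) / (r : L) ^ j) • (Pi.single 0 1 : mzo_Dual G L → L) ∈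
      mzo_dualOrder H := by
  have hr : (r : L) ^ j ≠ 0 := pow_ne_zero _ hctx.r_ne
  rw [mzo_mem_dualOrder_iff hctx hH]
  refine ⟨mzo_ofCoef (fun _ => ((r : L) ^ j)⁻¹), fun φ hφ => ?_, fun χ => ?_⟩
  · obtain ⟨o, ho⟩ := hj _ (s56f_la_trace_smul_delta (s56f_la_of_isOrder hctx hH) hφ)
    refine ⟨o, ?_⟩
    rw [mzo_ofCoef_apply, ← Finset.mul_sum, ho, mul_comm, mul_assoc, mul_inv_cancel₀ hr, mul_one]
  · rw [mzo_ofCoef_apply, ← Finset.mul_sum, Pi.smul_apply, smul_eq_mul]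
    by_cases hχ : χ = 0
    · rw [hχ, Pi.single_eq_same, mul_one, s56fd_sum_char_zero, div_eq_mul_inv, mul_comm]
    · rw [Pi.single_eq_of_ne hχ, mul_zero, s56fd_sum_char hχ, mul_zero]

end Duality


section Etale

variable {r : ℕ} {O : Type} [CommRing O] [IsDomain O] [IsDiscreteValuationRing O]
  {L : Type} [Field L] [Algebra O L] {A : ValuationSubring L}
  {Γ : Type} [Group Γ] [MulSemiringAction Γ L]
  {G : Type} [AddCommGroup G] [DistribMulAction Γ G]

/-- **(ET)** `δ₀ ∈ H` ⟹ `H` is étale. -/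
theorem s56fd_etale_of_delta [DecidableEq G] {H : Subalgebra O (G → L)}
    (hd : (Pi.single 0 1 : G → L) ∈ H) : mzo_IsEtale A H := by
  intro x hx
  refine ⟨_, hd, ?_⟩
  rw [Pi.single_eq_of_ne hx, Pi.single_eq_same, zero_sub, ValuationSubring.mem_nonunits_iff,
    Valuation.map_neg, map_one]
  exact lt_irrefl _

/-- **(ET)** an étale order has trivial `Γ`-action (`Γ` acts through inertia). -/
theorem s56fd_trivial_of_etale [Finite G] (hctx : mzo_Ctx r O L A Γ) {H : Subalgebra O (G → L)}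
    (hH : mzo_IsOrder A Γ G H) (het : mzo_IsEtale A H) (σ : Γ) (x : G) : σ • x = x := by
  by_contra hne
  have hd : σ • x - x ≠ 0 := sub_ne_zero.mpr hne
  obtain ⟨φ, hφ, hφ'⟩ := het _ hd
  exact hφ' ((s56fl_mem_X0 hH _).mp (s56fl_smul_sub_mem_X0 hctx hH σ x) φ hφ)

end Etale


section Cases

variable {r : ℕ} {O : Type} [CommRing O] [IsDomain O] [IsDiscreteValuationRing O]
  {L : Type} [Field L] [Algebra O L] {A : ValuationSubring L}
  {Γ : Type} [Group Γ] [MulSemiringAction Γ L]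
  {G : Type} [AddCommGroup G] [DistribMulAction Γ G] [Fintype G] [DecidableEq G]

/-- `r^m ∈ r^j O` ⟹ `j ≤ m`. -/
theorem s56fd_le_of_pow (hctx : mzo_Ctx r O L A Γ) {j m : ℕ} {o : O}
    (h : (r : L) ^ m = algebraMap O L o * (r : L) ^ j) : j ≤ m := by
  by_contra hlt
  push Not at hlt
  have h1 : ((r : ℕ) : O) ^ m = o * ((r : ℕ) : O) ^ j := by
    apply hctx.inj
    rw [map_mul, map_pow, map_pow, map_natCast]
    exact h
  obtain ⟨d, rfl⟩ := Nat.exists_eq_add_of_lt hlt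
  have h2 : ((r : ℕ) : O) ^ m * 1 = ((r : ℕ) : O) ^ m * (o * ((r : ℕ) : O) ^ (d + 1)) := by
    rw [mul_one]
    nth_rewrite 1 [h1]
    ring
  have h3 := mul_left_cancel₀ (pow_ne_zero m hctx.r_ne_zero) h2
  have h4 : IsUnit (((r : ℕ) : O) ^ (d + 1)) := IsUnit.of_mul_eq_one o (by rw [mul_comm]; exact h3.symm)
  exact hctx.r_not_unit ((isUnit_pow_iff (Nat.succ_ne_zero d)).mp h4)

/-- **(SQ)** `|G| = r²`, `Γ` acts non-trivially on `G` and on `Ĝ`  ⟹  `r δ₀ ∈ H`
(Larson's ideal of `H` is exactly `r O`). -/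
theorem s56fd_sq (hctx : mzo_Ctx r O L A Γ)
    (hL : ∀ n : ℕ, n ≠ 0 → ∃ ζ : L, IsPrimitiveRoot ζ n)
    {H : Subalgebra O (G → L)} (hH : mzo_IsOrder A Γ G H)
    (hcard : Fintype.card G = r ^ 2)
    (hG : ∃ (σ : Γ) (x : G), σ • x ≠ x)
    (hGd : ∃ (σ : Γ) (χ : mzo_Dual G L), σ • χ ≠ χ) :
    (r : L) • (Pi.single 0 1 : G → L) ∈ H ∧
      ∀ lam : L, lam • (Pi.single 0 1 : G → L) ∈ H → ∃ o : O, lam = algebraMap O L o * (r : L) := by
  classical
  have : Finite (mzo_Dual G L) := (mzo_ch_card L hL G).1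
  have : Fintype (mzo_Dual G L) := Fintype.ofFinite _
  have hcL : (Fintype.card G : L) = (r : L) ^ 2 := by rw [hcard, Nat.cast_pow]
  have hG0 : (Fintype.card G : L) ≠ 0 := by
    rw [hcL]
    exact pow_ne_zero _ hctx.r_ne
  obtain ⟨j, hj1, hj2⟩ := s56fd_exists_gen hctx hH hG0
  have hj0 : j ≠ 0 := by
    rintro rfl
    rw [pow_zero, one_smul] at hj1
    obtain ⟨σ, x, hx⟩ := hG
    exact hx (s56fd_trivial_of_etale hctx hH (s56fd_etale_of_delta hj1) σ x)
  have hjle : j ≤ 2 := by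
    obtain ⟨o, ho⟩ := hj2 _ (s56fd_card_mem hctx hH)
    rw [hcL] at ho
    exact s56fd_le_of_pow hctx ho
  have hj2' : j ≠ 2 := by
    rintro rfl
    have h1 := s56fd_dual_mem hctx hH hj2
    rw [hcL, div_self (pow_ne_zero _ hctx.r_ne), one_smul] at h1
    obtain ⟨-, hD⟩ := mzo_dualOrder_main r O L A Γ hctx hL G H hH
    obtain ⟨σ, χ, hχ⟩ := hGd
    exact hχ (s56fd_trivial_of_etale hctx hD (s56fd_etale_of_delta h1) σ χ)
  have hj : j = 1 := by omega
  subst hj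
  rw [pow_one] at hj1 hj2
  exact ⟨hj1, hj2⟩

/-- **(RK1)** `|G| = r`  ⟹  `Γ` acts trivially on `G` or trivially on `Ĝ` (i.e. on `G` through the
cyclotomic character). -/
theorem s56fd_rank_one (hctx : mzo_Ctx r O L A Γ)
    (hL : ∀ n : ℕ, n ≠ 0 → ∃ ζ : L, IsPrimitiveRoot ζ n)
    {H : Subalgebra O (G → L)} (hH : mzo_IsOrder A Γ G H)
    (hcard : Fintype.card G = r) :
    (∀ (σ : Γ) (x : G), σ • x = x) ∨ (∀ (σ : Γ) (χ : mzo_Dual G L), σ • χ = χ) := by
  classical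
  have : Finite (mzo_Dual G L) := (mzo_ch_card L hL G).1
  have : Fintype (mzo_Dual G L) := Fintype.ofFinite _
  have hcL : (Fintype.card G : L) = (r : L) ^ 1 := by rw [hcard, pow_one]
  have hG0 : (Fintype.card G : L) ≠ 0 := by
    rw [hcL]
    exact pow_ne_zero _ hctx.r_ne
  obtain ⟨j, hj1, hj2⟩ := s56fd_exists_gen hctx hH hG0
  have hjle : j ≤ 1 := by
    obtain ⟨o, ho⟩ := hj2 _ (s56fd_card_mem hctx hH)
    rw [hcL] at ho
    exact s56fd_le_of_pow hctx ho
  rcases Nat.le_one_iff_eq_zero_or_eq_one.mp hjle with rfl | rfl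
  · left
    rw [pow_zero, one_smul] at hj1
    exact s56fd_trivial_of_etale hctx hH (s56fd_etale_of_delta hj1)
  · right
    have h1 := s56fd_dual_mem hctx hH hj2
    rw [hcL, div_self (pow_ne_zero _ hctx.r_ne), one_smul] at h1
    obtain ⟨-, hD⟩ := mzo_dualOrder_main r O L A Γ hctx hL G H hH
    exact s56fd_trivial_of_etale hctx hD (s56fd_etale_of_delta h1)

end Cases


section Max

variable {r : ℕ} {O : Type} [CommRing O] [IsDomain O] [IsDiscreteValuationRing O]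
  {L : Type} [Field L] [Algebra O L] {A : ValuationSubring L}
  {Γ : Type} [Group Γ] [MulSemiringAction Γ L]
  {G : Type} [AddCommGroup G] [DistribMulAction Γ G] [Fintype G] [DecidableEq G]

/-- **(MAX)** `λ δ₀ ∈ H` ⟹ `H` contains EVERY `Γ`-equivariant `f : G → (λ / r) 𝔪_A`. -/
theorem s56fd_max (hctx : mzo_Ctx r O L A Γ)
    {H : Subalgebra O (G → L)} (hH : mzo_IsOrder A Γ G H) {lam : L} (hlam0 : lam ≠ 0)
    (hlam : lam • (Pi.single 0 1 : G → L) ∈ H) {f : G → L}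
    (hf : ∀ (σ : Γ) (x : G), f (σ • x) = σ • f x)
    (hfv : ∀ x : G, f x * (r : L) / lam ∈ A.nonunits) : f ∈ H := by
  obtain ⟨o, ho, -⟩ := s56fd_exists_of_delta hctx hH hlam
  have hlamfix : ∀ σ : Γ, σ • lam = lam := fun σ => by rw [← ho, hctx.fixed]
  have hψ : lam⁻¹ • f ∈ s56f_la_dual H := by
    intro φ hφ
    set s : L := ∑ x, (lam⁻¹ • f) x * φ x with hs
    -- `s` is fixed by `Γ`
    have hfix : ∀ σ : Γ, σ • s = s := by
      intro σ
      rw [hs, Finset.smul_sum]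
      have h1 : ∀ x : G, σ • ((lam⁻¹ • f) x * φ x) = (lam⁻¹ • f) (σ • x) * φ (σ • x) := by
        intro x
        rw [smul_mul', Pi.smul_apply, Pi.smul_apply, smul_eq_mul, smul_eq_mul, smul_mul',
          smul_inv'', hlamfix, hf, hH.equiv φ hφ]
      simp only [h1]
      exact Fintype.sum_equiv (MulAction.toPerm σ) _ _ fun x => rfl
    -- `s r ∈ 𝔪_A`
    have hsr : s * (r : L) ∈ A.nonunits := by
      rw [hs, Finset.sum_mul]
      refine mzo_nonunits_sum _ _ fun x _ => ?_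
      have h2 : (lam⁻¹ • f) x * φ x * (r : L) = (f x * (r : L) / lam) * φ x := by
        rw [Pi.smul_apply, smul_eq_mul]
        field_simp
      rw [h2]
      exact mzo_nonunits_mul_mem (hfv x) (hH.int φ hφ x)
    have hsfix : ∀ σ : Γ, σ • (s * (r : L)) = s * (r : L) := fun σ => by
      rw [smul_mul', hfix, mzo_smul_natCast]
    have h3 := hctx.unif _ hsr hsfix
    rw [mul_div_assoc, div_self hctx.r_ne, mul_one] at h3
    obtain ⟨o', ho'⟩ := hctx.exists_of_fixed h3 hfix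
    exact ⟨o', ho'⟩
  have h4 := s56f_la_lam_smul_dual (s56f_la_of_isOrder hctx hH) hlam hψ
  rwa [smul_smul, mul_inv_cancel₀ hlam0, one_smul] at h4

/-- **(MAX)**, valuation form: `v (f x) · v r < v λ` for all `x`. -/
theorem s56fd_max' (hctx : mzo_Ctx r O L A Γ)
    {H : Subalgebra O (G → L)} (hH : mzo_IsOrder A Γ G H) {lam : L} (hlam0 : lam ≠ 0)
    (hlam : lam • (Pi.single 0 1 : G → L) ∈ H) {f : G → L}
    (hf : ∀ (σ : Γ) (x : G), f (σ • x) = σ • f x)
    (hfv : ∀ x : G, A.valuation (f x) * A.valuation (r : L) < A.valuation lam) : f ∈ H := by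
  refine s56fd_max hctx hH hlam0 hlam hf fun x => ?_
  rw [ValuationSubring.mem_nonunits_iff, map_div₀, map_mul]
  exact (div_lt_one₀ (zero_lt_iff.mpr ((map_ne_zero _).mpr hlam0))).mpr (hfv x)

end Max

end Fermat.Agent.S56
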