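/-
Project S56 (Taylor–Wiles primes), node [LOC-p-FLAT] (owner helper27), cell F-SSAUX (helper29).
Prefix `s56fa_`.  Three small lemmas consumed by the supersingular level analysis.

* `s56fa_T5`                  (i)   : the seam `s56fs_T5_stmt` of `Flat/SSDefs.lean` from
                                      `s56fs_Setting`, via helper3's `s56kt_T5_ss` / `s56kt_T5_zero`
                                      (`KumT/Ctx.lean`), with `u := (w z) ^ p` and `w z` for `w`;
* `s56fa_exists_injective`    (ii)  : F-PRIM: an order of a finite `G` over a field of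
                                      characteristic `0` contains an INJECTIVE function
                                      (`s56fa_sep_finset`, `s56fa_exists_injective'`: any separating
                                      subalgebra);
* `s56fa_exists_transversal`  (iii) : the stabiliser of a point with finite orbit has a finite left
                                      transversal (`s56f_dc_IsTransversal`).
-/
import Mathlib
import Fermat.Agent.S56.Flat.SSDefs
import Fermat.Agent.S56.KumT.Ctx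

set_option autoImplicit false
set_option linter.unusedSectionVars false

noncomputable section

namespace Fermat.Agent.S56

open Fermat.Agent.MZ

/-! ### (iii) transversals of stabilisers of points with finite orbit -/

section Transversal

variable {Γ : Type} [Group Γ] {X : Type} [MulAction Γ X]

/-- **(iii)** the stabiliser of a point with finite orbit has a finite left transversal. -/
theorem s56fa_exists_transversal (Q : X) (hfin : (MulAction.orbit Γ Q).Finite) :
    ∃ R : Finset Γ, s56f_dc_IsTransversal (MulAction.stabilizer Γ Q) R := by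
  classical
  have : Fintype ↥(MulAction.orbit Γ Q) := hfin.fintype
  have hex : ∀ x : ↥(MulAction.orbit Γ Q), ∃ g : Γ, g • Q = (x : X) := fun x =>
    MulAction.mem_orbit_iff.mp x.2
  choose g hg using hex
  refine ⟨Finset.univ.image g, fun σ => ?_⟩
  have hσ : σ • Q ∈ MulAction.orbit Γ Q := MulAction.mem_orbit Q σ
  refine ⟨g ⟨σ • Q, hσ⟩, ⟨Finset.mem_image_of_mem g (Finset.mem_univ _), ?_⟩, ?_⟩
  · rw [MulAction.mem_stabilizer_iff, mul_smul, inv_smul_eq_iff]
    exact (hg ⟨σ • Q, hσ⟩).symm
  · rintro r' ⟨hr', hr'S⟩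
    obtain ⟨x, -, rfl⟩ := Finset.mem_image.mp hr'
    rw [MulAction.mem_stabilizer_iff, mul_smul, inv_smul_eq_iff] at hr'S
    have h1 : x = ⟨σ • Q, hσ⟩ := by
      apply Subtype.ext
      rw [← hg x]
      exact hr'S.symm
    rw [h1]

end Transversal


/-! ### (ii) F-PRIM: an order contains an injective function -/

section Prim

variable {O : Type} [CommRing O] {L : Type} [Field L] [Algebra O L] [CharZero L]
  {G : Type}

/-- a subalgebra of functions separating every pair of a finite set of pairs contains ONE function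
separating all of them. -/
theorem s56fa_sep_finset (H : Subalgebra O (G → L))
    (hsep : ∀ x y : G, x ≠ y → ∃ φ ∈ H, φ x ≠ φ y) (P : Finset (G × G))
    (hP : ∀ q ∈ P, q.1 ≠ q.2) : ∃ φ ∈ H, ∀ q ∈ P, φ q.1 ≠ φ q.2 := by
  classical
  induction P using Finset.induction_on with
  | empty => exact ⟨0, H.zero_mem, fun q hq => absurd hq (Finset.notMem_empty q)⟩
  | insert q P' hq ih =>
    obtain ⟨φ, hφ, hφP⟩ := ih fun q' hq' => hP q' (Finset.mem_insert_of_mem hq')
    obtain ⟨ψ, hψ, hψq⟩ := hsep q.1 q.2 (hP q (Finset.mem_insert_self q P'))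
    -- the bad parameters
    let bad : G × G → ℕ := fun q' =>
      if h : ∃ t : ℕ, φ q'.1 + (t : L) * ψ q'.1 = φ q'.2 + (t : L) * ψ q'.2 then h.choose else 0
    obtain ⟨t, ht⟩ := Infinite.exists_notMem_finset ((insert q P').image bad)
    refine ⟨φ + t • ψ, H.add_mem hφ (H.nsmul_mem hψ t), fun q' hq' heq => ?_⟩
    have hval : ∀ z : G, (φ + t • ψ) z = φ z + (t : L) * ψ z := fun z => by
      rw [Pi.add_apply, Pi.smul_apply, nsmul_eq_mul]
    have heq' : φ q'.1 + (t : L) * ψ q'.1 = φ q'.2 + (t : L) * ψ q'.2 := by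
      rw [← hval, ← hval]
      exact heq
    have hex : ∃ t : ℕ, φ q'.1 + (t : L) * ψ q'.1 = φ q'.2 + (t : L) * ψ q'.2 := ⟨t, heq'⟩
    have hbad : bad q' = hex.choose := dif_pos hex
    have h0 := hex.choose_spec
    have hne : t ≠ hex.choose := by
      intro h
      apply ht
      rw [h, ← hbad]
      exact Finset.mem_image_of_mem bad hq'
    have hneL : ((t : L) - (hex.choose : L)) ≠ 0 :=
      sub_ne_zero.mpr (fun h => hne (Nat.cast_injective h))
    have h1 : ((t : L) - (hex.choose : L)) * (ψ q'.1 - ψ q'.2) = 0 := by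
      linear_combination heq' - h0
    have h2 : ψ q'.1 = ψ q'.2 := by
      rcases mul_eq_zero.mp h1 with h | h
      · exact absurd h hneL
      · exact sub_eq_zero.mp h
    have h3 : φ q'.1 = φ q'.2 := by
      rw [h2] at heq'
      exact add_right_cancel heq'
    rcases Finset.mem_insert.mp hq' with rfl | hq''
    · exact hψq h2
    · exact hφP q' hq'' h3

/-- **(ii) F-PRIM**: a separating subalgebra of functions on a finite set contains an injective
function (`L` of characteristic `0`). -/
theorem s56fa_exists_injective' [Finite G] (H : Subalgebra O (G → L))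
    (hsep : ∀ x y : G, x ≠ y → ∃ φ ∈ H, φ x ≠ φ y) : ∃ φ ∈ H, Function.Injective φ := by
  classical
  have : Fintype G := Fintype.ofFinite G
  obtain ⟨φ, hφ, h⟩ := s56fa_sep_finset H hsep
    (Finset.univ.filter fun q : G × G => q.1 ≠ q.2) (fun q hq => (Finset.mem_filter.mp hq).2)
  refine ⟨φ, hφ, fun x y hxy => ?_⟩
  by_contra hne
  exact h (x, y) (Finset.mem_filter.mpr ⟨Finset.mem_univ _, hne⟩) hxy

/-- **(ii) F-PRIM** for orders. -/
theorem s56fa_exists_injective {A : ValuationSubring L} {Γ : Type} [Group Γ]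
    [MulSemiringAction Γ L] [AddCommGroup G] [DistribMulAction Γ G] [Finite G]
    {H : Subalgebra O (G → L)} (hH : mzo_IsOrder A Γ G H) : ∃ φ ∈ H, Function.Injective φ :=
  s56fa_exists_injective' H hH.sep

end Prim


/-! ### (i) the seam (T5) -/

section T5

variable {p : ℕ} {O : Type} [CommRing O] [IsDomain O] [IsDiscreteValuationRing O]
  {L : Type} [Field L] [Algebra O L] {A : ValuationSubring L}
  {Γ : Type} [Group Γ] [MulSemiringAction Γ L] {T : Subgroup Γ} {ϖt ζ : L}

/-- the `p`-th power of a Kummer radical (times a `T`-fixed element) is fixed by `Stab ϖt = T`. -/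
theorem s56fa_pow_fixed (h : s56fs_Setting p O L A Γ T ϖt ζ) {w z : L} {a : Γ → ZMod p}
    (hw : s56fs_IsRad p T ζ w a) (hz : ∀ s ∈ T, s • z = z) (σ : Γ) (hσ : σ • ϖt = ϖt) :
    σ • (w * z) ^ p = (w * z) ^ p := by
  have hσT : σ ∈ T := (h.hT σ).mpr hσ
  rw [smul_pow', smul_mul', hw.2 σ hσT, hz σ hσT, mul_assoc, mul_pow, ← pow_mul, mul_comm _ p,
    pow_mul, h.hζ.pow_eq_one, one_pow, one_mul]

/-- `0 < p² - 1` and `2 ≤ p² - 1`. -/
theorem s56fa_two_le (hp : p.Prime) : 2 ≤ p ^ 2 - 1 := by
  have h1 := hp.two_le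
  have h2 : 2 ^ 2 ≤ p ^ 2 := Nat.pow_le_pow_left h1 2
  omega

/-- a unit of `O` has valuation `1`. -/
theorem s56fa_val_unit (hctx : mzo_Ctx p O L A Γ) {x : O} (hx : IsUnit x) :
    A.valuation (algebraMap O L x) = 1 := by
  have h1 : A.valuation (algebraMap O L x) ≤ 1 := (A.valuation_le_one_iff _).mpr (hctx.mem_A x)
  refine le_antisymm h1 (not_lt.mp fun hlt => ?_)
  exact ((hctx.nonunit_iff x).mp ((ValuationSubring.mem_nonunits_iff A).mpr hlt)) hx

/-- **(i)** the seam (T5) of `Flat/SSDefs.lean` from the Kummer side `KumT/Ctx.lean`. -/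
theorem s56fa_T5 (h : s56fs_Setting p O L A Γ T ϖt ζ) : s56fs_T5_stmt p O L A Γ T ϖt ζ := by
  have hctx := h.hctx
  have hpp := hctx.r_prime
  intro w a hw hcase S R hR hST hSw
  have hSϖ : ∀ s ∈ S, s • ϖt = ϖt := fun s hs => (h.hT s).mp (hST hs)
  rcases hcase with ⟨z, hz0, hzT, m, hm, hval⟩ | ⟨x, hx, z, hz0, hzT, hval⟩ | ⟨x, hx, z, hz0, hzT, hval⟩
  · -- level `0`
    have hSwz : ∀ s ∈ S, s • (w * z) = w * z := fun s hs => by
      rw [smul_mul', hSw s hs, hzT s (hST hs)]
    obtain ⟨y, hy1, hy2, -, hy3⟩ := s56kt_T5_zero hctx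
      (lt_of_lt_of_le two_pos (s56fa_two_le hpp)) (s56kt_val_e hctx) h.hϖ
      (s56fa_pow_fixed h hw hzT) hval hm rfl hR hSϖ hSwz
    exact ⟨y, ⟨hy1, hy2⟩, hy3 (s56fa_two_le hpp)⟩
  · -- level `2`
    have hSwz : ∀ s ∈ S, s • (w * z) = w * z := fun s hs => by
      rw [smul_mul', hSw s hs, hzT s (hST hs)]
    have hv : A.valuation ((w * z) ^ p - 1) = A.valuation ϖt ^ 2 := by
      have h1 : (w * z) ^ p - 1 = ((w * z) ^ p - 1 - algebraMap O L x * ϖt ^ 2) +
          algebraMap O L x * ϖt ^ 2 := by ring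
      have h2 : A.valuation (algebraMap O L x * ϖt ^ 2) = A.valuation ϖt ^ 2 := by
        rw [map_mul, s56fa_val_unit hctx hx, one_mul, map_pow]
      rw [h1, Valuation.map_add_eq_of_lt_right _ (by rw [h2]; exact hval), h2]
    obtain ⟨y, hy1, hy2, hy3⟩ := s56kt_T5_ss hctx h.hp2 h.hϖ (s56fa_pow_fixed h hw hzT) hv
      (Or.inl rfl) rfl hR hSϖ hSwz
    exact ⟨y, ⟨hy1, hy2⟩, hy3⟩
  · -- level `p + 1`
    have hSwz : ∀ s ∈ S, s • (w * z) = w * z := fun s hs => by
      rw [smul_mul', hSw s hs, hzT s (hST hs)]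
    have hv : A.valuation ((w * z) ^ p - 1) = A.valuation ϖt ^ (p + 1) := by
      have h1 : (w * z) ^ p - 1 = ((w * z) ^ p - 1 - algebraMap O L x * ϖt ^ (p + 1)) +
          algebraMap O L x * ϖt ^ (p + 1) := by ring
      have h2 : A.valuation (algebraMap O L x * ϖt ^ (p + 1)) = A.valuation ϖt ^ (p + 1) := by
        rw [map_mul, s56fa_val_unit hctx hx, one_mul, map_pow]
      rw [h1, Valuation.map_add_eq_of_lt_right _ (by rw [h2]; exact hval), h2]
    obtain ⟨y, hy1, hy2, hy3⟩ := s56kt_T5_ss hctx h.hp2 h.hϖ (s56fa_pow_fixed h hw hzT) hv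
      (Or.inr rfl) rfl hR hSϖ hSwz
    exact ⟨y, ⟨hy1, hy2⟩, hy3⟩

end T5

end Fermat.Agent.S56
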