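/-
S56 / [LOC-p-FLAT], cell F-KDICT (helper24, prefix `s56fk_`).  Mathlib only.

**Hilbert 90 at finite level for an arbitrary subgroup `T ≤ G_ℚ`**: a function `a : G_ℚ → ZMod p`,
additive on `T` and of finite level, and a `p`-th root of unity `ζ` fixed by `T`: there is
`w ≠ 0` in `ℚ̄` with `s w = ζ ^ (a s).val * w` for all `s ∈ T`.

Proof: `N` := the normal closure of the level field, `T̄` := the image of `T` in `Gal(N/ℚ)`, lifts
`s_τ ∈ T`; `w := Σ_{τ ∈ T̄} ζ^(-a s_τ) · s_τ x` for a suitable `x ∈ N` (Dedekind independence of the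
distinct embeddings `τ : N → ℚ̄`).
-/
import Mathlib

set_option autoImplicit false

namespace Fermat.Agent.S56

local notation "Qb" => AlgebraicClosure ℚ
local notation "GQ" => (AlgebraicClosure ℚ ≃ₐ[ℚ] AlgebraicClosure ℚ)

section expo

variable {L : Type*} [Field L] (p : ℕ) [hp : Fact p.Prime] (ζ : L)

/-- `c ↦ ζ ^ c.val` on `ZMod p`. -/
def s56fk_e (c : ZMod p) : L := ζ ^ c.val

variable {p ζ}

lemma s56fk_e_add (hζ : ζ ^ p = 1) (c d : ZMod p) :
    s56fk_e p ζ (c + d) = s56fk_e p ζ c * s56fk_e p ζ d := by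
  unfold s56fk_e
  rw [ZMod.val_add, ← pow_add, pow_eq_pow_mod (c.val + d.val) hζ]

lemma s56fk_e_zero : s56fk_e p ζ (0 : ZMod p) = 1 := by
  unfold s56fk_e
  rw [ZMod.val_zero, pow_zero]

lemma s56fk_e_ne_zero (hζ : ζ ^ p = 1) (c : ZMod p) : s56fk_e p ζ c ≠ 0 := by
  have h0 : ζ ≠ 0 := by
    rintro rfl
    rw [zero_pow hp.out.ne_zero] at hζ
    exact zero_ne_one hζ
  exact pow_ne_zero _ h0

end expo

/-- **F-KDICT**: Hilbert 90 at finite level for an arbitrary subgroup of `G_ℚ`. -/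
theorem s56fk_main (p : ℕ) [hp : Fact p.Prime] (T : Subgroup GQ) (a : GQ → ZMod p)
    (hadd : ∀ s ∈ T, ∀ t ∈ T, a (s * t) = a s + a t)
    (hlev : ∃ F : IntermediateField ℚ Qb, FiniteDimensional ℚ F ∧
      ∀ σ s : GQ, (∀ x ∈ F, s x = x) → a (σ * s) = a σ)
    (ζ : Qb) (hζ : ζ ^ p = 1) (hζT : ∀ s ∈ T, s ζ = ζ) :
    ∃ w : Qb, w ≠ 0 ∧ ∀ s ∈ T, s w = ζ ^ (a s).val * w := by
  classical
  obtain ⟨F, hF, hlevF⟩ := hlev
  have : Algebra.IsAlgebraic ℚ Qb := AlgebraicClosure.isAlgebraic ℚ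
  have : IsAlgClosure ℚ Qb := ⟨inferInstance, inferInstance⟩
  have : Normal ℚ Qb := inferInstance
  -- the normal closure of the level field
  set N : IntermediateField ℚ Qb := IntermediateField.normalClosure ℚ F Qb with hN
  have hNn : Normal ℚ N := normalClosure.normal ℚ F Qb
  have hNf : FiniteDimensional ℚ N := normalClosure.is_finiteDimensional ℚ F Qb
  have hFN : F ≤ N := IntermediateField.le_normalClosure F
  set ρ : GQ →* (N ≃ₐ[ℚ] N) := AlgEquiv.restrictNormalHom N with hρ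
  have hρx : ∀ (s : GQ) (x : N), ((ρ s x : N) : Qb) = s (x : Qb) := fun s x =>
    AlgEquiv.restrictNormal_commutes s N x
  -- elements with the same restriction to `N` agree on `N` and have the same `a`
  have hsameN : ∀ s s' : GQ, ρ s = ρ s' → ∀ x : N, s (x : Qb) = s' (x : Qb) := by
    intro s s' h x
    rw [← hρx, ← hρx, h]
  have hsame : ∀ s s' : GQ, ρ s = ρ s' → a s = a s' := by
    intro s s' h
    have h1 : s' = s * (s⁻¹ * s') := by group
    rw [h1]
    refine (hlevF s (s⁻¹ * s') fun x hx => ?_).symm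
    have h2 := hsameN s s' h ⟨x, hFN hx⟩
    show s⁻¹ (s' x) = x
    rw [← h2]
    exact s.symm_apply_apply x
  have ha1 : a 1 = 0 := by
    have := hadd 1 T.one_mem 1 T.one_mem
    rw [mul_one] at this
    exact left_eq_add.mp this
  -- the image of `T` and the lifts
  set Tb : Subgroup (N ≃ₐ[ℚ] N) := T.map ρ with hTb
  have hlift : ∀ τ : Tb, ∃ s ∈ T, ρ s = τ := fun τ => Subgroup.mem_map.1 τ.2
  choose lift hliftT hliftρ using hlift
  set e : ZMod p → Qb := s56fk_e p ζ with he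
  -- the candidate
  set W : N → Qb := fun x => ∑ τ : Tb, e (-a (lift τ)) * lift τ (x : Qb) with hW
  -- the transformation rule
  have hrule : ∀ s ∈ T, ∀ x : N, s (W x) = e (a s) * W x := by
    intro s hs x
    have hsζ : ∀ c : ZMod p, s (e c) = e c := fun c => by
      show s (ζ ^ c.val) = ζ ^ c.val
      rw [map_pow, hζT s hs]
    set τs : Tb := ⟨ρ s, Subgroup.mem_map.2 ⟨s, hs, rfl⟩⟩ with hτs
    show s (∑ τ : Tb, e (-a (lift τ)) * lift τ (x : Qb)) =
      e (a s) * ∑ τ : Tb, e (-a (lift τ)) * lift τ (x : Qb)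
    rw [map_sum, Finset.mul_sum]
    refine Fintype.sum_equiv (Equiv.mulLeft τs) _ _ fun τ => ?_
    have hρ1 : ρ (s * lift τ) = ρ (lift (τs * τ)) := by
      rw [map_mul, hliftρ, hliftρ]
      rfl
    have h1 : lift (τs * τ) (x : Qb) = s (lift τ (x : Qb)) := (hsameN _ _ hρ1 x).symm
    have h2 : a (lift (τs * τ)) = a s + a (lift τ) := by
      rw [← hsame _ _ hρ1, hadd s hs _ (hliftT τ)]
    rw [Equiv.coe_mulLeft, map_mul, hsζ, h1, h2, ← mul_assoc, ← s56fk_e_add hζ]
    congr 2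
    ring
  -- non-vanishing
  obtain ⟨x, hx⟩ : ∃ x : N, W x ≠ 0 := by
    by_contra hcon
    push Not at hcon
    let χ : Tb → (N →ₐ[ℚ] Qb) := fun τ => N.val.comp (τ : N ≃ₐ[ℚ] N).toAlgHom
    have hχ : ∀ (τ : Tb) (x : N), χ τ x = lift τ (x : Qb) := by
      intro τ x
      show (((τ : N ≃ₐ[ℚ] N) x : N) : Qb) = lift τ (x : Qb)
      rw [← hliftρ τ, hρx]
    have hχinj : Function.Injective χ := by
      intro τ τ' h
      apply Subtype.ext
      apply AlgEquiv.ext
      intro x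
      have := congrArg (fun f : N →ₐ[ℚ] Qb => f x) h
      exact Subtype.ext this
    have hli : LinearIndependent Qb (fun τ : Tb => (χ τ).toLinearMap) :=
      (linearIndependent_algHom_toLinearMap ℚ N Qb).comp χ hχinj
    have hsum : ∑ τ : Tb, e (-a (lift τ)) • (χ τ).toLinearMap = 0 := by
      apply LinearMap.ext
      intro x
      rw [LinearMap.sum_apply, LinearMap.zero_apply, ← hcon x]
      refine Finset.sum_congr rfl fun τ _ => ?_
      rw [LinearMap.smul_apply, AlgHom.toLinearMap_apply, hχ, smul_eq_mul]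
    have := Fintype.linearIndependent_iff.1 hli (fun τ => e (-a (lift τ))) hsum 1
    exact s56fk_e_ne_zero hζ _ this
  exact ⟨W x, hx, fun s hs => hrule s hs x⟩

end Fermat.Agent.S56
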