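/-
Project S56 (Taylor–Wiles primes), node [LOC-p-FLAT] (owner helper27), cell F-LD (helper29).
Prefix `s56fd_`.  THE `F`-LINE FORM OF (SQ) (`S56/Flat/LD.lean`), as asked by the node owner:
`F` a field with `r²` elements, `G` an `F`-module with `r²` elements on which `Γ` acts through a
character `χ : Γ → Fˣ` not taking all its values in the prime field  ⟹  `r δ₀ ∈ H` for every
order `H` of `G` (`s56fd_line`).
-/
import Mathlib
import Fermat.Agent.S56.Flat.LD

set_option autoImplicit false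
set_option linter.unusedSectionVars false

noncomputable section

namespace Fermat.Agent.S56

open Fermat.Agent.MZ

section Line

variable {r : ℕ} {O : Type} [CommRing O] [IsDomain O] [IsDiscreteValuationRing O]
  {L : Type} [Field L] [Algebra O L] {A : ValuationSubring L}
  {Γ : Type} [Group Γ] [MulSemiringAction Γ L]

/-- a finite field with `r²` elements (`r` prime) has characteristic `r`. -/
theorem s56fd_charP {F : Type} [Field F] [Fintype F] (hr : r.Prime) (hF : Fintype.card F = r ^ 2) :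
    CharP F r := by
  obtain ⟨p, hp⟩ := CharP.exists F
  have hpp : Fact p.Prime := ⟨CharP.char_is_prime F p⟩
  obtain ⟨n, hn⟩ := FiniteField.card F p
  have h1 : (p : ℕ) ∣ r ^ 2 := by
    rw [← hF, hn.2]
    exact dvd_pow_self _ (PNat.ne_zero n)
  have h2 : p ∣ r := hpp.out.dvd_of_dvd_pow h1
  have h3 : p = r := (Nat.prime_dvd_prime_iff_eq hpp.out hr).mp h2
  rw [← h3]
  exact hp

/-- `Γ` acts on the `r`-th roots of unity by a power. -/
theorem s56fd_smul_root {ζ : L} (hζ : IsPrimitiveRoot ζ r) (hr : 0 < r) (σ : Γ) :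
    ∃ m : ℕ, ∀ z : L, z ^ r = 1 → σ • z = z ^ m := by
  have : NeZero r := ⟨hr.ne'⟩
  have h1 : (σ • ζ) ^ r = 1 := by
    rw [← smul_pow', hζ.pow_eq_one, smul_one]
  obtain ⟨m, -, hm⟩ := hζ.eq_pow_of_pow_eq_one h1
  refine ⟨m, fun z hz => ?_⟩
  obtain ⟨i, -, hi⟩ := hζ.eq_pow_of_pow_eq_one hz
  rw [← hi, smul_pow', ← hm, ← pow_mul, ← pow_mul, mul_comm]


/-- **(SQ), `F`-line form**: `F` a field with `r²` elements, `Γ` acting on the `F`-line `G` through a
character `χ : Γ → Fˣ` which does not take values in the prime field  ⟹  `r δ₀ ∈ H`. -/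
theorem s56fd_line (hctx : mzo_Ctx r O L A Γ) {F : Type} [Field F] [Fintype F]
    (hF : Fintype.card F = r ^ 2) (χ : Γ →* Fˣ) (hχ : ∃ σ : Γ, ((χ σ : Fˣ) : F) ^ r ≠ (χ σ : Fˣ))
    {G : Type} [AddCommGroup G] [Fintype G] [DecidableEq G] [Module F G] [DistribMulAction Γ G]
    (hG : ∀ (σ : Γ) (x : G), σ • x = ((χ σ : Fˣ) : F) • x) (hcard : Nat.card G = r ^ 2)
    (hroots : ∀ n : ℕ, n ≠ 0 → ∃ ζ : L, IsPrimitiveRoot ζ n)
    {H : Subalgebra O (G → L)} (hH : mzo_IsOrder A Γ G H) :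
    (r : L) • (Pi.single 0 1 : G → L) ∈ H := by
  have hr := hctx.r_prime
  have hchar : CharP F r := s56fd_charP hr hF
  have hcard' : Fintype.card G = r ^ 2 := by rw [← Nat.card_eq_fintype_card, hcard]
  -- a nonzero point
  obtain ⟨x0, hx0⟩ : ∃ x0 : G, x0 ≠ 0 := by
    have h1 : 1 < Fintype.card G := by
      rw [hcard']
      exact Nat.one_lt_pow (by norm_num) hr.one_lt
    obtain ⟨x0, hx0⟩ := Fintype.exists_ne_of_one_lt_card h1 (0 : G)
    exact ⟨x0, hx0⟩
  obtain ⟨σ, hσ⟩ := hχ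
  have hr0 : ∀ x : G, r • x = 0 := by
    intro x
    have h1 : (r : F) • x = 0 := by rw [CharP.cast_eq_zero F r, zero_smul]
    rwa [Nat.cast_smul_eq_nsmul] at h1
  refine (s56fd_sq hctx hroots hH hcard' ⟨σ, x0, fun h => ?_⟩ ⟨σ, ?_⟩).1
  · -- `χ σ = 1` is impossible
    rw [hG] at h
    have h1 : (((χ σ : Fˣ) : F) - 1) • x0 = 0 := by rw [sub_smul, one_smul, h, sub_self]
    rcases smul_eq_zero.mp h1 with h2 | h2
    · apply hσ
      rw [sub_eq_zero.mp h2, one_pow]
    · exact hx0 h2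
  · -- `σ` acts non-trivially on the dual
    by_contra hall
    push Not at hall
    obtain ⟨ζ, hζ⟩ := hroots r hr.ne_zero
    obtain ⟨m, hm⟩ := s56fd_smul_root hζ hr.pos σ
    have h1 : ∀ x : G, σ • x = m • x := by
      intro x
      by_contra hne
      have hd : σ • x - m • x ≠ 0 := sub_ne_zero.mpr hne
      obtain ⟨ψ, hψ⟩ := mzo_ch_sep L hroots G _ hd
      apply hψ
      have h2 := (mzo_Dual.smul_eq_self_iff σ ψ).mp (hall ψ) x
      have h3 : ψ x ^ r = 1 := by rw [← ψ.map_nsmul, hr0, ψ.map_zero]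
      rw [hm _ h3, ← ψ.map_nsmul] at h2
      rw [ψ.map_sub, h2, div_self (ψ.ne_zero _)]
    have h4 : (((χ σ : Fˣ) : F) - (m : F)) • x0 = 0 := by
      rw [sub_smul, ← hG, h1, Nat.cast_smul_eq_nsmul, sub_self]
    rcases smul_eq_zero.mp h4 with h5 | h5
    · apply hσ
      have : Fact r.Prime := ⟨hr⟩
      rw [sub_eq_zero.mp h5, ← frobenius_def, map_natCast]
    · exact hx0 h5

end Line

end Fermat.Agent.S56
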