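/-
Project S56, node [LOC-p-FLAT] (owner helper27), cell F-LAMEXT (helper17).  Prefix `s56fx_`.
LARSON'S IDEAL `I(H) = {λ | λ δ₀ ∈ H}` UNDER SUBS, QUOTIENTS AND EXTENSIONS (#3294 (1)(d)).

`H` a subalgebra of `Map(G, L)` (an order for `G`), `ι : F → G` injective, `π : G → E`:
* `s56fx_sub`   : `λ δ₀ ∈ H  ⟹  λ δ₀ ∈ H|_F = mzo_restr ι H`;
* `s56fx_quot`  : `λ δ₀ ∈ H  ⟹  λ δ₀ ∈ H ∩ Map(E, L) = mzo_pull π H` (`H` an order, `π` equivariant;
                  the trace over `ker π`);
* `s56fx_ext`   : `F → G → E` exact, `λ₁ δ₀ ∈ H|_F`, `λ₂ δ₀ ∈ H ∩ Map(E, L)  ⟹  λ₁ λ₂ δ₀ ∈ H`;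
* `s56fx_ind`   : `λ δ₀^E ∈ mzo_pull π H ↔ λ 1_{ker π} ∈ H`.
Mathlib + `MZ/Hopf/{Defs,Ctx,Quot}`.
-/
import Mathlib
import Fermat.Agent.MZ.Hopf.Defs
import Fermat.Agent.MZ.Hopf.Ctx
import Fermat.Agent.MZ.Hopf.Quot

set_option autoImplicit false
set_option linter.unusedSectionVars false

noncomputable section

namespace Fermat.Agent.S56

open Fermat.Agent.MZ

section

variable {O : Type} [CommRing O] {L : Type} [Field L] [Algebra O L]

/-- `δ₀ ∘ ι = δ₀` for an injective homomorphism -/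
theorem s56fx_single_comp {F G : Type} [AddCommGroup F] [AddCommGroup G] [DecidableEq F]
    [DecidableEq G] (ι : F →+ G) (hι : Function.Injective ι) (lam : L) :
    (lam • (Pi.single 0 1 : G → L)) ∘ ι = lam • (Pi.single 0 1 : F → L) := by
  funext x
  simp only [Function.comp_apply, Pi.smul_apply, Pi.single_apply]
  by_cases hx : x = 0
  · subst hx
    rw [map_zero, if_pos rfl, if_pos rfl]
  · rw [if_neg hx, if_neg]
    intro h
    exact hx (hι (by rw [h, map_zero]))

/-- **sub**: `I(H) ⊆ I(H|_F)` -/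
theorem s56fx_sub {F G : Type} [AddCommGroup F] [AddCommGroup G] [DecidableEq F]
    [DecidableEq G] (ι : F →+ G) (hι : Function.Injective ι) {H : Subalgebra O (G → L)}
    {lam : L} (h : lam • (Pi.single 0 1 : G → L) ∈ H) :
    lam • (Pi.single 0 1 : F → L) ∈ mzo_restr (⇑ι) H :=
  ⟨_, h, (s56fx_single_comp ι hι lam).symm⟩

/-- `δ₀^E ∘ π` is the indicator function of `ker π` -/
theorem s56fx_single_comp_pi {G E : Type} [AddCommGroup G] [AddCommGroup E] [DecidableEq E]
    (π : G →+ E) (lam : L) (x : G) :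
    ((lam • (Pi.single 0 1 : E → L)) ∘ π) x = if π x = 0 then lam else 0 := by
  simp only [Function.comp_apply, Pi.smul_apply, Pi.single_apply, smul_eq_mul]
  by_cases hx : π x = 0
  · rw [if_pos hx, if_pos hx, mul_one]
  · rw [if_neg hx, if_neg hx, mul_zero]

/-- membership of `λ δ₀` in the quotient order, spelled on `G` -/
theorem s56fx_ind {G E : Type} [AddCommGroup G] [AddCommGroup E] [DecidableEq E]
    (π : G →+ E) {H : Subalgebra O (G → L)} (lam : L) :
    lam • (Pi.single 0 1 : E → L) ∈ mzo_pull (⇑π) H ↔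
      (fun x : G => if π x = 0 then lam else 0) ∈ H := by
  rw [mzo_mem_pull]
  have : (lam • (Pi.single 0 1 : E → L)) ∘ π = fun x : G => if π x = 0 then lam else 0 :=
    funext fun x => s56fx_single_comp_pi π lam x
  rw [this]

/-- **extension**: `I(H|_F) · I(H ∩ Map(E)) ⊆ I(H)` for `F → G → E` exact at `G` -/
theorem s56fx_ext {F G E : Type} [AddCommGroup F] [AddCommGroup G] [AddCommGroup E]
    [DecidableEq F] [DecidableEq G] [DecidableEq E] (ι : F →+ G) (π : G →+ E)
    (hι : Function.Injective ι) (hex : ∀ x : G, π x = 0 → ∃ y : F, ι y = x)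
    {H : Subalgebra O (G → L)} {l1 l2 : L}
    (h1 : l1 • (Pi.single 0 1 : F → L) ∈ mzo_restr (⇑ι) H)
    (h2 : l2 • (Pi.single 0 1 : E → L) ∈ mzo_pull (⇑π) H) :
    (l1 * l2) • (Pi.single 0 1 : G → L) ∈ H := by
  obtain ⟨φ, hφ, hφF⟩ := h1
  rw [mzo_mem_pull] at h2
  have h3 := H.mul_mem hφ h2
  have h4 : φ * ((l2 • (Pi.single 0 1 : E → L)) ∘ π) = (l1 * l2) • (Pi.single 0 1 : G → L) := by
    funext x
    rw [Pi.mul_apply, s56fx_single_comp_pi]
    simp only [Pi.smul_apply, Pi.single_apply, smul_eq_mul]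
    by_cases hx : π x = 0
    · rw [if_pos hx]
      obtain ⟨y, rfl⟩ := hex x hx
      have h5 := congrFun hφF y
      simp only [Function.comp_apply, Pi.smul_apply, Pi.single_apply, smul_eq_mul] at h5
      rw [← h5]
      by_cases hy : y = 0
      · subst hy
        rw [map_zero, if_pos rfl, if_pos rfl]
        ring
      · rw [if_neg hy, if_neg]
        · ring
        · intro h
          exact hy (hι (by rw [h, map_zero]))
    · rw [if_neg hx, mul_zero, if_neg, mul_zero]
      intro h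
      exact hx (by rw [h, map_zero])
  rwa [h4] at h3

end

section Quot

variable {r : ℕ} {O : Type} [CommRing O] [IsDomain O] [IsDiscreteValuationRing O]
  {L : Type} [Field L] [Algebra O L] {A : ValuationSubring L}
  {Γ : Type} [Group Γ] [MulSemiringAction Γ L]

/-- **quotient**: `I(H) ⊆ I(H ∩ Map(E, L))` (trace over `ker π`) -/
theorem s56fx_quot (hctx : mzo_Ctx r O L A Γ) {G E : Type} [AddCommGroup G] [Fintype G]
    [DecidableEq G] [DistribMulAction Γ G] [AddCommGroup E] [DecidableEq E]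
    [DistribMulAction Γ E] (π : G →+ E) (hπe : ∀ (σ : Γ) (x : G), π (σ • x) = σ • π x)
    {H : Subalgebra O (G → L)} (hH : mzo_IsOrder A Γ G H) {lam : L}
    (h : lam • (Pi.single 0 1 : G → L) ∈ H) :
    lam • (Pi.single 0 1 : E → L) ∈ mzo_pull (⇑π) H := by
  rw [s56fx_ind]
  have h1 := mzhp_trace_mem hctx H H hH.int hH.equiv hH.comul
    (Finset.univ.filter fun f : G => π f = 0)
    (fun σ f hf => by
      rw [Finset.mem_filter] at hf ⊢
      exact ⟨Finset.mem_univ _, by rw [hπe, hf.2, smul_zero]⟩)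
    _ h
  have h2 : (fun x => ∑ f ∈ Finset.univ.filter (fun f : G => π f = 0),
      (lam • (Pi.single 0 1 : G → L)) (x + f)) = fun x : G => if π x = 0 then lam else 0 := by
    funext x
    simp only [Pi.smul_apply, Pi.single_apply, smul_eq_mul]
    by_cases hx : π x = 0
    · rw [if_pos hx, Finset.sum_eq_single (-x)]
      · rw [add_neg_cancel, if_pos rfl, mul_one]
      · intro f _ hf
        rw [if_neg, mul_zero]
        intro h0
        exact hf (eq_neg_of_add_eq_zero_right h0)
      · intro hn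
        exfalso
        apply hn
        rw [Finset.mem_filter]
        exact ⟨Finset.mem_univ _, by rw [map_neg, hx, neg_zero]⟩
    · rw [if_neg hx]
      refine Finset.sum_eq_zero fun f hf => ?_
      rw [Finset.mem_filter] at hf
      rw [if_neg, mul_zero]
      intro h0
      apply hx
      have : x = -f := eq_neg_of_add_eq_zero_left h0
      rw [this, map_neg, hf.2, neg_zero]
  rwa [h2] at h1

/-- an extension of two groups with `λ = p`: `p² δ₀ ∈ H` -/
theorem s56fx_sq {F G E : Type} [AddCommGroup F] [AddCommGroup G]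
    [AddCommGroup E] [DecidableEq F] [DecidableEq G] [DecidableEq E] (ι : F →+ G) (π : G →+ E)
    (hι : Function.Injective ι) (hex : ∀ x : G, π x = 0 → ∃ y : F, ι y = x)
    {H : Subalgebra O (G → L)} {lam : L}
    (h1 : lam • (Pi.single 0 1 : F → L) ∈ mzo_restr (⇑ι) H)
    (h2 : lam • (Pi.single 0 1 : E → L) ∈ mzo_pull (⇑π) H) :
    (lam ^ 2) • (Pi.single 0 1 : G → L) ∈ H := by
  rw [pow_two]
  exact s56fx_ext ι π hι hex h1 h2

end Quot

end Fermat.Agent.S56
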