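/-
Project S56, node [LOC-p-FLAT] (owner helper27), cell F-SUBQ (helper17).  Prefix `s56fq_`.
THE SUBQUOTIENT OF ORDER `r⁴` (#3399).

`F` a field with `r²` elements, `χ : Γ →* Fˣ`; `V₁`, `V₂` two `F`-vector spaces on which `Γ` acts
through `χ`; `0 → V₁ → V → V₂` an exact sequence of `Γ`-modules, `V` finite, killed by `r`, with
an order `H`; `v : V` with `π v ≠ 0`; `ℓ : V₁ → F` a nonzero `F`-linear form.
`E := Y / ι (ker ℓ)`, `Y := π⁻¹(F · π v)`, `Q :=` the class of `v`: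
an extension of the `F`-line `F · π v` by the `F`-line `V₁ / ker ℓ`.  With the hypothesis
`s56fq_LineHyp` (= the conclusion of `s56fd_line`: every order of an `F`-line on which `Γ` acts
through `χ` contains `r δ₀`): `E` has an order `HE` with `r² δ₀ ∈ HE`, `r E = 0`, and
`Stab_Γ(Q) = {σ | χ σ = 1 ∧ σ v - v ∈ ι (ker ℓ)}`.

* `s56fq_Line F χ`   : the `F`-line with `Γ` acting through `χ` (a type synonym of `F`);
* `s56fq_core`       : an extension of two such lines has `r² δ₀` in every order;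
* `s56fq_main`       : the subquotient.
Mathlib + `MZ/Hopf/{Defs,Ctx,Basic,Quot}` + `MZ/Desc/SubQuot` + `S56/Flat/LamExt`.
-/
import Mathlib
import Fermat.Agent.MZ.Hopf.Defs
import Fermat.Agent.MZ.Hopf.Ctx
import Fermat.Agent.MZ.Hopf.Basic
import Fermat.Agent.MZ.Hopf.Quot
import Fermat.Agent.MZ.Desc.SubQuot
import Fermat.Agent.S56.Flat.LamExt

set_option autoImplicit false
set_option linter.unusedSectionVars false
set_option linter.style.haveILetI false

noncomputable section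

namespace Fermat.Agent.S56

open Fermat.Agent.MZ

/-! ### the `F`-line with `Γ` acting through `χ` -/

/-- the `F`-line on which `Γ` acts through the character `χ` -/
def s56fq_Line (F : Type) [Field F] {Γ : Type} [Group Γ] (_χ : Γ →* Fˣ) : Type := F

section Line

variable {F : Type} [Field F] {Γ : Type} [Group Γ] (χ : Γ →* Fˣ)

instance s56fq_instAddCommGroup : AddCommGroup (s56fq_Line F χ) :=
  inferInstanceAs (AddCommGroup F)

instance s56fq_instModule : Module F (s56fq_Line F χ) :=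
  inferInstanceAs (Module F F)

instance s56fq_instFintype [Fintype F] : Fintype (s56fq_Line F χ) :=
  inferInstanceAs (Fintype F)

/-- the identity `s56fq_Line F χ ≃ F` -/
def s56fq_lineEquiv : s56fq_Line F χ ≃ₗ[F] F := LinearEquiv.refl F F

instance s56fq_instAction : DistribMulAction Γ (s56fq_Line F χ) where
  smul σ x := ((χ σ : Fˣ) : F) • x
  one_smul x := by
    show ((χ 1 : Fˣ) : F) • x = x
    rw [map_one, Units.val_one, one_smul]
  mul_smul σ τ x := by
    show ((χ (σ * τ) : Fˣ) : F) • x = ((χ σ : Fˣ) : F) • (((χ τ : Fˣ) : F) • x)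
    rw [map_mul, Units.val_mul, mul_smul]
  smul_zero σ := by
    show ((χ σ : Fˣ) : F) • (0 : s56fq_Line F χ) = 0
    rw [smul_zero]
  smul_add σ x y := by
    show ((χ σ : Fˣ) : F) • (x + y) = ((χ σ : Fˣ) : F) • x + ((χ σ : Fˣ) : F) • y
    rw [smul_add]

theorem s56fq_line_smul (σ : Γ) (x : s56fq_Line F χ) : σ • x = ((χ σ : Fˣ) : F) • x := by
  show ((χ σ : Fˣ) : F) • x = ((χ σ : Fˣ) : F) • x
  rfl

theorem s56fq_line_card [Fintype F] : Nat.card (s56fq_Line F χ) = Fintype.card F := by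
  rw [Nat.card_eq_fintype_card]
  rfl

end Line

/-! ### the hypothesis and the core -/

/-- every order of an `F`-line on which `Γ` acts through `χ` contains `r δ₀`
(the conclusion of `s56fd_line`) -/
def s56fq_LineHyp (r : ℕ) (O : Type) [CommRing O] (L : Type) [Field L] [Algebra O L]
    (A : ValuationSubring L) (Γ : Type) [Group Γ] [MulSemiringAction Γ L]
    {F : Type} [Field F] (χ : Γ →* Fˣ) : Prop :=
  ∀ (G : Type) [AddCommGroup G] [Fintype G] [DecidableEq G] [Module F G]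
    [DistribMulAction Γ G],
    (∀ (σ : Γ) (x : G), σ • x = ((χ σ : Fˣ) : F) • x) → Nat.card G = r ^ 2 →
    ∀ H : Subalgebra O (G → L), mzo_IsOrder A Γ G H →
      (r : L) • (Pi.single 0 1 : G → L) ∈ H

section Core

variable {r : ℕ} {O : Type} [CommRing O] [IsDomain O] [IsDiscreteValuationRing O]
  {L : Type} [Field L] [Algebra O L] {A : ValuationSubring L}
  {Γ : Type} [Group Γ] [MulSemiringAction Γ L]

/-- **core**: an extension `E` of an `F`-line by an `F`-line (`Γ` acting through `χ` on both) has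
`r² δ₀` in every order -/
theorem s56fq_core (hctx : mzo_Ctx r O L A Γ) {F : Type} [Field F] (χ : Γ →* Fˣ)
    (hLD : s56fq_LineHyp r O L A Γ χ)
    {S₁ E S₂ : Type} [AddCommGroup S₁] [Fintype S₁] [DecidableEq S₁] [Module F S₁]
    [DistribMulAction Γ S₁] [AddCommGroup E] [Fintype E] [DecidableEq E] [DistribMulAction Γ E]
    [AddCommGroup S₂] [Fintype S₂] [DecidableEq S₂] [Module F S₂] [DistribMulAction Γ S₂]
    (h₁ : ∀ (σ : Γ) (x : S₁), σ • x = ((χ σ : Fˣ) : F) • x) (c₁ : Nat.card S₁ = r ^ 2)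
    (h₂ : ∀ (σ : Γ) (x : S₂), σ • x = ((χ σ : Fˣ) : F) • x) (c₂ : Nat.card S₂ = r ^ 2)
    (ι' : S₁ →+ E) (hι : Function.Injective ι') (hιe : ∀ (σ : Γ) (x : S₁), ι' (σ • x) = σ • ι' x)
    (π' : E →+ S₂) (hπ : Function.Surjective π') (hπe : ∀ (σ : Γ) (x : E), π' (σ • x) = σ • π' x)
    (hex : ∀ x : E, π' x = 0 → ∃ y : S₁, ι' y = x)
    {HE : Subalgebra O (E → L)} (hHE : mzo_IsOrder A Γ E HE) :
    ((r : L) ^ 2) • (Pi.single 0 1 : E → L) ∈ HE :=
  s56fx_sq ι' π' hι hex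
    (hLD S₁ h₁ c₁ _ (mzo_restr_isOrder ι' hι hιe hHE))
    (hLD S₂ h₂ c₂ _ (mzhp_seamQuot r O L A Γ hctx E S₂ π' hπ hπe HE hHE).1)

end Core

/-! ### the subquotient -/

section Main

variable {r : ℕ} {O : Type} [CommRing O] [IsDomain O] [IsDiscreteValuationRing O]
  {L : Type} [Field L] [Algebra O L] {A : ValuationSubring L}
  {Γ : Type} [Group Γ] [MulSemiringAction Γ L]

/-- **F-SUBQ**: the subquotient `E = π⁻¹(F · π v) / ι (ker ℓ)` of order `r⁴` with its point `Q`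
(the class of `v`) -/
theorem s56fq_main (hctx : mzo_Ctx r O L A Γ) {F : Type} [Field F] [Fintype F]
    (hF : Fintype.card F = r ^ 2) (χ : Γ →* Fˣ) (hLD : s56fq_LineHyp r O L A Γ χ)
    {V₁ V₂ V : Type} [AddCommGroup V₁] [Module F V₁] [DistribMulAction Γ V₁]
    [AddCommGroup V₂] [Module F V₂] [DistribMulAction Γ V₂]
    [AddCommGroup V] [Fintype V] [DecidableEq V] [DistribMulAction Γ V]
    (hV₁ : ∀ (σ : Γ) (x : V₁), σ • x = ((χ σ : Fˣ) : F) • x)
    (hV₂ : ∀ (σ : Γ) (x : V₂), σ • x = ((χ σ : Fˣ) : F) • x)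
    (hr : ∀ x : V, r • x = 0)
    {H : Subalgebra O (V → L)} (hH : mzo_IsOrder A Γ V H)
    (ι : V₁ →+ V) (hι : Function.Injective ι) (hιe : ∀ (σ : Γ) (x : V₁), ι (σ • x) = σ • ι x)
    (π : V →+ V₂) (hπ : Function.Surjective π) (hπe : ∀ (σ : Γ) (x : V), π (σ • x) = σ • π x)
    (hex : ∀ x : V, π x = 0 ↔ ∃ y : V₁, ι y = x)
    (v : V) (hv : π v ≠ 0) (ℓ : V₁ →ₗ[F] F) (hℓ : ℓ ≠ 0) :
    ∃ (E : Type) (_ : AddCommGroup E) (_ : Fintype E) (_ : DecidableEq E)
      (_ : DistribMulAction Γ E) (HE : Subalgebra O (E → L)) (Q : E),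
      mzo_IsOrder A Γ E HE ∧ (∀ x : E, r • x = 0) ∧
      ((r : L) ^ 2) • (Pi.single 0 1 : E → L) ∈ HE ∧
      ∀ σ : Γ, σ • Q = Q ↔ (χ σ = 1 ∧ ∃ x : V₁, ℓ x = 0 ∧ σ • v - v = ι x) := by
  classical
  -- `x₁` with `ℓ x₁ = 1`
  obtain ⟨x₀, hx₀⟩ : ∃ x, ℓ x ≠ 0 := by
    by_contra h
    simp only [not_exists, not_not] at h
    exact hℓ (LinearMap.ext h)
  obtain ⟨x₁, hx₁⟩ : ∃ x₁, ℓ x₁ = 1 :=
    ⟨(ℓ x₀)⁻¹ • x₀, by rw [map_smul, smul_eq_mul, inv_mul_cancel₀ hx₀]⟩
  -- a linear form `μ` on `V₂` with `μ (π v) = 1`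
  obtain ⟨μ, hμ⟩ := Module.Projective.exists_dual_eq_one F hv
  -- the two stable subgroups
  set Y : AddSubgroup V := (Submodule.span F {π v}).toAddSubgroup.comap π with hYdef
  set N : AddSubgroup V := (LinearMap.ker ℓ).toAddSubgroup.map ι with hNdef
  have memY : ∀ y : V, y ∈ Y ↔ ∃ c : F, c • π v = π y := by
    intro y
    rw [hYdef, AddSubgroup.mem_comap, Submodule.mem_toAddSubgroup, Submodule.mem_span_singleton]
  have memN : ∀ y : V, y ∈ N ↔ ∃ x : V₁, ℓ x = 0 ∧ ι x = y := by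
    intro y
    rw [hNdef, AddSubgroup.mem_map]
    constructor
    · rintro ⟨x, hx, rfl⟩
      exact ⟨x, by rwa [Submodule.mem_toAddSubgroup, LinearMap.mem_ker] at hx, rfl⟩
    · rintro ⟨x, hx, rfl⟩
      exact ⟨x, by rwa [Submodule.mem_toAddSubgroup, LinearMap.mem_ker], rfl⟩
  have hπι : ∀ x : V₁, π (ι x) = 0 := fun x => (hex _).2 ⟨x, rfl⟩
  have hY : mzh_Stable Γ Y := by
    intro σ a ha
    rw [memY] at ha ⊢
    obtain ⟨c, hc⟩ := ha
    exact ⟨((χ σ : Fˣ) : F) * c, by rw [hπe, hV₂, ← hc, mul_smul]⟩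
  have hN : mzh_Stable Γ N := by
    intro σ a ha
    rw [memN] at ha ⊢
    obtain ⟨x, hx, rfl⟩ := ha
    exact ⟨σ • x, by rw [hV₁, map_smul, hx, smul_zero], hιe σ x⟩
  have hvY : v ∈ Y := (memY v).2 ⟨1, one_smul _ _⟩
  letI actY : DistribMulAction Γ ↥Y := mzh_subAction Y hY
  letI actE : DistribMulAction Γ (mzds_SQ Y N) := mzds_sqAction Y N hY hN
  letI fE : Fintype (mzds_SQ Y N) := Fintype.ofFinite _
  -- the orders
  have hHY : mzo_IsOrder A Γ ↥Y (mzo_restr (⇑Y.subtype) H) :=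
    mzo_restr_isOrder Y.subtype Y.subtype_injective (fun σ x => rfl) hH
  set q : ↥Y →+ mzds_SQ Y N := QuotientAddGroup.mk' (N.addSubgroupOf Y) with hq
  have hqs : Function.Surjective q := QuotientAddGroup.mk'_surjective _
  have hqe : ∀ (σ : Γ) (x : ↥Y), q (σ • x) = σ • q x := fun σ x => rfl
  have hHE := (mzhp_seamQuot r O L A Γ hctx ↥Y (mzds_SQ Y N) q hqs hqe _ hHY).1
  have hq0 : ∀ a : ↥Y, q a = 0 ↔ ∃ x : V₁, ℓ x = 0 ∧ ι x = (a : V) := by
    intro a
    rw [hq, QuotientAddGroup.mk'_apply, QuotientAddGroup.eq_zero_iff,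
      AddSubgroup.mem_addSubgroupOf, memN]
  refine ⟨mzds_SQ Y N, inferInstance, fE, inferInstance, actE,
    mzo_pull (⇑q) (mzo_restr (⇑Y.subtype) H), q ⟨v, hvY⟩, hHE, ?_, ?_, ?_⟩
  · -- killed by `r`
    intro x
    obtain ⟨a, rfl⟩ := hqs x
    rw [← map_nsmul]
    have : r • a = 0 := Subtype.ext (by rw [AddSubgroup.coe_nsmul, hr]; rfl)
    rw [this, map_zero]
  · -- `r² δ₀`: the two lines
    set e := s56fq_lineEquiv (F := F) χ with he
    have hesm : ∀ (σ : Γ) (c : s56fq_Line F χ), e (σ • c) = ((χ σ : Fˣ) : F) * e c := by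
      intro σ c
      rw [s56fq_line_smul, map_smul, smul_eq_mul]
    let j₀ : s56fq_Line F χ →+ V :=
      ι.comp ((LinearMap.toSpanSingleton F V₁ x₁).comp e.toLinearMap).toAddMonoidHom
    have hj₀ : ∀ c, j₀ c = ι (e c • x₁) := fun c => rfl
    have hj₀Y : ∀ c, j₀ c ∈ Y := fun c => (memY _).2 ⟨0, by rw [zero_smul, hj₀, hπι]⟩
    let ι' : s56fq_Line F χ →+ mzds_SQ Y N := q.comp (j₀.codRestrict Y hj₀Y)
    have hι' : ∀ c, ι' c = q ⟨ι (e c • x₁), hj₀Y c⟩ := fun c => rfl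
    let p₀ : V →+ s56fq_Line F χ := (e.symm.toLinearMap.comp μ).toAddMonoidHom.comp π
    have hp₀ : ∀ y, p₀ y = e.symm (μ (π y)) := fun y => rfl
    have hker : N.addSubgroupOf Y ≤ (p₀.comp Y.subtype).ker := by
      intro a ha
      rw [AddSubgroup.mem_addSubgroupOf, memN] at ha
      obtain ⟨x, _, hxa⟩ := ha
      rw [AddMonoidHom.mem_ker, AddMonoidHom.comp_apply, AddSubgroup.coe_subtype, hp₀, ← hxa,
        hπι, map_zero, map_zero]
    let π' : mzds_SQ Y N →+ s56fq_Line F χ :=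
      QuotientAddGroup.lift (N.addSubgroupOf Y) (p₀.comp Y.subtype) hker
    have hπ' : ∀ a : ↥Y, π' (q a) = e.symm (μ (π (a : V))) := fun a => rfl
    have hcard : Nat.card (s56fq_Line F χ) = r ^ 2 := by rw [s56fq_line_card, hF]
    refine s56fq_core hctx χ hLD (s56fq_line_smul χ) hcard (s56fq_line_smul χ) hcard
      ι' ?_ ?_ π' ?_ ?_ ?_ hHE
    · -- injective
      rw [injective_iff_map_eq_zero]
      intro c hc
      rw [hι', hq0] at hc
      obtain ⟨x, hx, hxc⟩ := hc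
      have h1 : x = e c • x₁ := hι hxc
      rw [h1, map_smul, hx₁, smul_eq_mul, mul_one] at hx
      exact (LinearEquiv.map_eq_zero_iff e).1 hx
    · -- equivariant
      intro σ c
      rw [hι', hι', ← hqe]
      congr 1
      apply Subtype.ext
      show ι (e (σ • c) • x₁) = σ • ι (e c • x₁)
      rw [← hιe, hV₁, hesm, mul_smul]
    · -- surjective
      intro c
      obtain ⟨y, hy⟩ := hπ (e c • π v)
      have hyY : y ∈ Y := (memY y).2 ⟨e c, hy.symm⟩
      refine ⟨q ⟨y, hyY⟩, ?_⟩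
      rw [hπ']
      show e.symm (μ (π y)) = c
      rw [hy, map_smul, hμ, smul_eq_mul, mul_one, LinearEquiv.symm_apply_apply]
    · -- equivariant
      intro σ x
      obtain ⟨a, rfl⟩ := hqs x
      rw [← hqe, hπ', hπ']
      show e.symm (μ (π (σ • (a : V)))) = σ • e.symm (μ (π (a : V)))
      rw [hπe, hV₂, map_smul, map_smul, s56fq_line_smul]
    · -- exact
      intro x hx
      obtain ⟨a, rfl⟩ := hqs x
      rw [hπ'] at hx
      have h1 : μ (π (a : V)) = 0 := (LinearEquiv.map_eq_zero_iff e.symm).1 hx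
      obtain ⟨c₀, hc₀⟩ := (memY _).1 a.2
      have h2 : c₀ = 0 := by
        rw [← hc₀, map_smul, hμ, smul_eq_mul, mul_one] at h1
        exact h1
      have h3 : π (a : V) = 0 := by rw [← hc₀, h2, zero_smul]
      obtain ⟨z, hz⟩ := (hex _).1 h3
      refine ⟨e.symm (ℓ z), ?_⟩
      rw [hι', ← sub_eq_zero, ← map_sub, hq0]
      refine ⟨ℓ z • x₁ - z, by rw [map_sub, map_smul, hx₁, smul_eq_mul, mul_one, sub_self], ?_⟩
      show ι (ℓ z • x₁ - z) = ι (e (e.symm (ℓ z)) • x₁) - (a : V)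
      rw [LinearEquiv.apply_symm_apply, map_sub, hz]
  · -- the stabiliser of `Q`
    intro σ
    have h1 : σ • q ⟨v, hvY⟩ = q ⟨v, hvY⟩ ↔ ∃ x : V₁, ℓ x = 0 ∧ ι x = σ • v - v := by
      rw [← hqe, ← sub_eq_zero, ← map_sub, hq0]
      rfl
    rw [h1]
    constructor
    · rintro ⟨x, hx, hxv⟩
      refine ⟨?_, x, hx, hxv.symm⟩
      have h2 : π (σ • v - v) = 0 := by rw [← hxv, hπι]
      rw [map_sub, hπe, hV₂, sub_eq_zero] at h2
      have h3 : (((χ σ : Fˣ) : F) - 1) • π v = 0 := by rw [sub_smul, one_smul, h2, sub_self]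
      rcases smul_eq_zero.1 h3 with h4 | h4
      · exact Units.ext (by rw [Units.val_one]; exact sub_eq_zero.1 h4)
      · exact absurd h4 hv
    · rintro ⟨_, x, hx, hxv⟩
      exact ⟨x, hx, hxv.symm⟩

end Main

end Fermat.Agent.S56
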