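/-
Project S56, node [LOC-p-FLAT] (owner helper27), cell F-SUBQ (helper17).  Prefix `s56fq_`.
`s56fq_main` (Flat/SubQ.lean) with its hypothesis `s56fq_LineHyp` discharged by helper29's
`s56fd_line` (Flat/LDLine.lean): `χ` does not take its values in the prime field, `L` has all roots
of unity.
-/
import Mathlib
import Fermat.Agent.S56.Flat.SubQ
import Fermat.Agent.S56.Flat.LDLine

set_option autoImplicit false
set_option linter.unusedSectionVars false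

noncomputable section

namespace Fermat.Agent.S56

open Fermat.Agent.MZ

variable {r : ℕ} {O : Type} [CommRing O] [IsDomain O] [IsDiscreteValuationRing O]
  {L : Type} [Field L] [Algebra O L] {A : ValuationSubring L}
  {Γ : Type} [Group Γ] [MulSemiringAction Γ L]

/-- `s56fd_line` gives `s56fq_LineHyp` -/
theorem s56fq_lineHyp (hctx : mzo_Ctx r O L A Γ) {F : Type} [Field F] [Fintype F]
    (hF : Fintype.card F = r ^ 2) (χ : Γ →* Fˣ)
    (hχ : ∃ σ : Γ, ((χ σ : Fˣ) : F) ^ r ≠ (χ σ : Fˣ))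
    (hroots : ∀ n : ℕ, n ≠ 0 → ∃ ζ : L, IsPrimitiveRoot ζ n) : s56fq_LineHyp r O L A Γ χ :=
  fun _ _ _ _ _ _ hG hc _ hH => s56fd_line hctx hF χ hχ hG hc hroots hH

/-- **F-SUBQ**, hypothesis-free form -/
theorem s56fq_main' (hctx : mzo_Ctx r O L A Γ) {F : Type} [Field F] [Fintype F]
    (hF : Fintype.card F = r ^ 2) (χ : Γ →* Fˣ)
    (hχ : ∃ σ : Γ, ((χ σ : Fˣ) : F) ^ r ≠ (χ σ : Fˣ))
    (hroots : ∀ n : ℕ, n ≠ 0 → ∃ ζ : L, IsPrimitiveRoot ζ n)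
    {V₁ V₂ V : Type} [AddCommGroup V₁] [Module F V₁] [DistribMulAction Γ V₁]
    [AddCommGroup V₂] [Module F V₂] [DistribMulAction Γ V₂]
    [AddCommGroup V] [Fintype V] [DecidableEq V] [DistribMulAction Γ V]
    (hV₁ : ∀ (σ : Γ) (x : V₁), σ • x = ((χ σ : Fˣ) : F) • x)
    (hV₂ : ∀ (σ : Γ) (x : V₂), σ • x = ((χ σ : Fˣ) : F) • x)
    (hr : ∀ x : V, r • x = 0)
    {H : Subalgebra O (V → L)} (hH : mzo_IsOrder A Γ V H)
    (ι : V₁ →+ V) (hι : Function.Injective ι) (hιe : ∀ (σ : Γ) (x : V₁), ι (σ • x) = σ • ι x)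
    (π : V →+ V₂) (hπ : Function.Surjective π) (hπe : ∀ (σ : Γ) (x : V), π (σ • x) = σ • π x)
    (hex : ∀ x : V, π x = 0 ↔ ∃ y : V₁, ι y = x)
    (v : V) (hv : π v ≠ 0) (ℓ : V₁ →ₗ[F] F) (hℓ : ℓ ≠ 0) :
    ∃ (E : Type) (_ : AddCommGroup E) (_ : Fintype E) (_ : DecidableEq E)
      (_ : DistribMulAction Γ E) (HE : Subalgebra O (E → L)) (Q : E),
      mzo_IsOrder A Γ E HE ∧ (∀ x : E, r • x = 0) ∧
      ((r : L) ^ 2) • (Pi.single 0 1 : E → L) ∈ HE ∧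
      ∀ σ : Γ, σ • Q = Q ↔ (χ σ = 1 ∧ ∃ x : V₁, ℓ x = 0 ∧ σ • v - v = ι x) :=
  s56fq_main hctx hF χ (s56fq_lineHyp hctx hF χ hχ hroots) hV₁ hV₂ hr hH ι hι hιe π hπ hπe hex
    v hv ℓ hℓ

end Fermat.Agent.S56
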