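/-
Project S56, node [LOC-p-FLAT] (owner helper27), cell F-SSDICT (helper17).  Prefix `s56fj_`.
THE DICTIONARY between a `k[ε]`-deformation `r` (matrix level) and the subquotient of F-SUBQ.

`k` a finite field of characteristic `p`, `F` a field with `p²` elements, `j 0, j 1 : F →+* k`
(in the application `j 1 = Frobenius ∘ j 0`), `r : FramedRep (DualNumber k)`, `B := s56t_bar r`,
`c := s56t_coc r`; `Iₚ ≤ G_ℚ`, `Γ := ↥Iₚ`; `e 0, e 1` a basis of `k²` with
`B σ (e i) = j i (χ σ) • e i` for `σ ∈ Iₚ`, `χ : Γ →* Fˣ`.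

* `s56fj_Tw j χ`   : `k²` with the TWISTED `F`-structure `c ⋆ x = (j 0 c * x 0, j 1 c * x 1)` and
                     `Γ` acting through `χ`;
* `s56fj_entry e he M a b` : the `(a, b)`-entry of `M` in the basis `e`;
* `s56fj_main`     : for `lam : k →+ F` with `lam (j a c * x) = c * lam x`, `lam ≠ 0`: the subquotient
                     `(E, HE, Q)` of `V = k[ε]²` of F-SUBQ (for `v = e b`, `ℓ = lam ∘ (a-th coordinate)`)
                     has `Stab_Γ Q = {σ | χ σ = 1 ∧ lam (entry_{ab} (c σ)) = 0}`;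
* `s56fj_trace`    : every additive `f : k → 𝔽_p` is `tr_{F/𝔽_p} ∘ lam` for such a `lam`;
* `s56fj_main_fp`  : the same for an arbitrary nonzero additive `f : k → 𝔽_p`:
                     `σ • Q = Q → χ σ = 1 ∧ f (entry_{ab} (c σ)) = 0`.
Mathlib + `S56/Flat/Inst` + `S56/Flat/SubQ2`.
-/
import Mathlib
import Fermat.Agent.S56.Flat.Inst
import Fermat.Agent.S56.Flat.SubQ2

set_option autoImplicit false
set_option linter.unusedSectionVars false
set_option linter.style.haveILetI false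

noncomputable section

namespace Fermat.Agent.S56

open Fermat.Agent.MZ Fermat.Agent.FF Fermat.Agent.S53

/-! ### the twisted module -/

/-- `k²` with the twisted `F`-structure `c ⋆ x = (j 0 c * x 0, j 1 c * x 1)` and `Γ` acting
through `χ` -/
def s56fj_Tw {F k : Type} [Field F] [Field k] {Γ : Type} [Group Γ] (_j : Fin 2 → (F →+* k))
    (_χ : Γ →* Fˣ) : Type := Fin 2 → k

section Tw

variable {F k : Type} [Field F] [Field k] {Γ : Type} [Group Γ] (j : Fin 2 → (F →+* k))
  (χ : Γ →* Fˣ)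

instance s56fj_instAddCommGroup : AddCommGroup (s56fj_Tw j χ) :=
  inferInstanceAs (AddCommGroup (Fin 2 → k))

/-- the underlying vector -/
def s56fj_vec : s56fj_Tw j χ ≃+ (Fin 2 → k) := AddEquiv.refl _

instance s56fj_instModule : Module F (s56fj_Tw j χ) where
  smul c x := (s56fj_vec j χ).symm fun i => j i c * s56fj_vec j χ x i
  one_smul x := by
    show (s56fj_vec j χ).symm (fun i => j i 1 * s56fj_vec j χ x i) = x
    simp only [map_one, one_mul]
    rfl
  mul_smul c d x := by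
    show (s56fj_vec j χ).symm (fun i => j i (c * d) * s56fj_vec j χ x i) =
      (s56fj_vec j χ).symm (fun i => j i c * s56fj_vec j χ
        ((s56fj_vec j χ).symm fun i => j i d * s56fj_vec j χ x i) i)
    simp only [map_mul, mul_assoc]
    rfl
  smul_zero c := by
    show (s56fj_vec j χ).symm (fun i => j i c * s56fj_vec j χ 0 i) = 0
    simp only [map_zero, Pi.zero_apply, mul_zero]
    rfl
  smul_add c x y := by
    show (s56fj_vec j χ).symm (fun i => j i c * s56fj_vec j χ (x + y) i) =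
      (s56fj_vec j χ).symm (fun i => j i c * s56fj_vec j χ x i) +
      (s56fj_vec j χ).symm (fun i => j i c * s56fj_vec j χ y i)
    simp only [map_add, Pi.add_apply, mul_add]
    rfl
  add_smul c d x := by
    show (s56fj_vec j χ).symm (fun i => j i (c + d) * s56fj_vec j χ x i) =
      (s56fj_vec j χ).symm (fun i => j i c * s56fj_vec j χ x i) +
      (s56fj_vec j χ).symm (fun i => j i d * s56fj_vec j χ x i)
    simp only [map_add, add_mul]
    rfl
  zero_smul x := by
    show (s56fj_vec j χ).symm (fun i => j i 0 * s56fj_vec j χ x i) = 0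
    simp only [map_zero, zero_mul]
    rfl

theorem s56fj_vec_smul (c : F) (x : s56fj_Tw j χ) (i : Fin 2) :
    s56fj_vec j χ (c • x) i = j i c * s56fj_vec j χ x i := rfl

instance s56fj_instAction : DistribMulAction Γ (s56fj_Tw j χ) where
  smul σ x := ((χ σ : Fˣ) : F) • x
  one_smul x := by
    show ((χ 1 : Fˣ) : F) • x = x
    rw [map_one, Units.val_one, one_smul]
  mul_smul σ τ x := by
    show ((χ (σ * τ) : Fˣ) : F) • x = ((χ σ : Fˣ) : F) • (((χ τ : Fˣ) : F) • x)
    rw [map_mul, Units.val_mul, mul_smul]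
  smul_zero σ := by
    show ((χ σ : Fˣ) : F) • (0 : s56fj_Tw j χ) = 0
    rw [smul_zero]
  smul_add σ x y := by
    show ((χ σ : Fˣ) : F) • (x + y) = ((χ σ : Fˣ) : F) • x + ((χ σ : Fˣ) : F) • y
    rw [smul_add]

theorem s56fj_tw_smul (σ : Γ) (x : s56fj_Tw j χ) : σ • x = ((χ σ : Fˣ) : F) • x := by
  show ((χ σ : Fˣ) : F) • x = ((χ σ : Fˣ) : F) • x
  rfl

end Tw

/-! ### coordinates in a basis of `k²` -/

section Coord

variable {k : Type} [Field k] (e : Fin 2 → (Fin 2 → k)) (he : LinearIndependent k e)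

/-- coordinates in the basis `e` -/
def s56fj_coord : (Fin 2 → k) ≃ₗ[k] (Fin 2 → k) :=
  (basisOfLinearIndependentOfCardEqFinrank he
    (by rw [Fintype.card_fin, Module.finrank_fin_fun])).equivFun

theorem s56fj_coord_symm (x : Fin 2 → k) : (s56fj_coord e he).symm x = ∑ i, x i • e i := by
  rw [s56fj_coord, Module.Basis.equivFun_symm_apply, coe_basisOfLinearIndependentOfCardEqFinrank]

theorem s56fj_coord_self (i : Fin 2) : s56fj_coord e he (e i) = Pi.single i 1 := by
  have h := Module.Basis.equivFun_self (basisOfLinearIndependentOfCardEqFinrank he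
    (by rw [Fintype.card_fin, Module.finrank_fin_fun])) i
  rw [coe_basisOfLinearIndependentOfCardEqFinrank] at h
  funext a
  rw [s56fj_coord, h a, Pi.single_apply]
  by_cases hia : i = a
  · rw [if_pos hia, if_pos hia.symm]
  · rw [if_neg hia, if_neg (fun h' => hia h'.symm)]

theorem s56fj_sum_coord (y : Fin 2 → k) : ∑ i, s56fj_coord e he y i • e i = y := by
  rw [← s56fj_coord_symm e he, LinearEquiv.symm_apply_apply]

/-- the `(a, b)`-entry of `M` in the basis `e` -/
def s56fj_entry (M : Matrix (Fin 2) (Fin 2) k) (a b : Fin 2) : k :=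
  s56fj_coord e he (M.mulVec (e b)) a

theorem s56fj_entry_spec (M : Matrix (Fin 2) (Fin 2) k) (b : Fin 2) :
    M.mulVec (e b) = ∑ a, s56fj_entry e he M a b • e a :=
  (s56fj_sum_coord e he _).symm

theorem s56fj_entry_eq (M : Matrix (Fin 2) (Fin 2) k) (b : Fin 2) (x : Fin 2 → k)
    (h : M.mulVec (e b) = ∑ a, x a • e a) (a : Fin 2) : s56fj_entry e he M a b = x a := by
  rw [s56fj_entry, h, ← s56fj_coord_symm e he, LinearEquiv.apply_symm_apply]

/-- a matrix acting diagonally in the basis `e` -/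
theorem s56fj_coord_diag (M : Matrix (Fin 2) (Fin 2) k) (d : Fin 2 → k)
    (hM : ∀ i, M.mulVec (e i) = d i • e i) (y : Fin 2 → k) (i : Fin 2) :
    s56fj_coord e he (M.mulVec y) i = d i * s56fj_coord e he y i := by
  have h1 : M.mulVec y = (s56fj_coord e he).symm fun i => d i * s56fj_coord e he y i := by
    conv_lhs => rw [← s56fj_sum_coord e he y]
    rw [s56fj_coord_symm, Matrix.mulVec_sum]
    refine Finset.sum_congr rfl fun i _ => ?_
    rw [Matrix.mulVec_smul, hM, smul_smul, mul_comm]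
  rw [h1, LinearEquiv.apply_symm_apply]

end Coord

/-! ### the maps `ι`, `π` -/

section Maps

variable {k : Type} [Field k] {F : Type} [Field F] (r : FramedRep (DualNumber k))
  {I : Subgroup GQ} (j : Fin 2 → (F →+* k)) (χ : ↥I →* Fˣ)
  (e : Fin 2 → (Fin 2 → k)) (he : LinearIndependent k e)

/-- `ι x = ε (x 0 e₀ + x 1 e₁)` -/
def s56fj_iota : s56fj_Tw j χ →+ s56fi_Mod r.toMonoidHom :=
  (s56fi_eps r).comp ((s56fj_coord e he).symm.toLinearMap.toAddMonoidHom.comp
    (s56fj_vec j χ).toAddMonoidHom)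

/-- `π v =` the coordinates of `v mod ε` -/
def s56fj_pi : s56fi_Mod r.toMonoidHom →+ s56fj_Tw j χ :=
  (s56fj_vec j χ).symm.toAddMonoidHom.comp
    ((s56fj_coord e he).toLinearMap.toAddMonoidHom.comp (s56fi_red r))

theorem s56fj_iota_apply (x : s56fj_Tw j χ) :
    s56fj_iota r j χ e he x = s56fi_eps r (s56fi_of _ ((s56fj_coord e he).symm (s56fj_vec j χ x))) :=
  rfl

theorem s56fj_pi_apply (v : s56fi_Mod r.toMonoidHom) :
    s56fj_vec j χ (s56fj_pi r j χ e he v) = s56fj_coord e he (s56fi_vec _ (s56fi_red r v)) := rfl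

theorem s56fj_iota_injective : Function.Injective (s56fj_iota r j χ e he) := by
  intro x y h
  rw [s56fj_iota_apply, s56fj_iota_apply] at h
  have h1 := s56fi_eps_injective r h
  have h2 : (s56fj_coord e he).symm (s56fj_vec j χ x) = (s56fj_coord e he).symm (s56fj_vec j χ y) :=
    h1
  exact (s56fj_vec j χ).injective ((s56fj_coord e he).symm.injective h2)

theorem s56fj_pi_surjective : Function.Surjective (s56fj_pi r j χ e he) := by
  intro x
  obtain ⟨v, hv⟩ := s56fi_red_surjective r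
    (s56fi_of _ ((s56fj_coord e he).symm (s56fj_vec j χ x)))
  refine ⟨v, ?_⟩
  apply (s56fj_vec j χ).injective
  rw [s56fj_pi_apply, hv]
  exact LinearEquiv.apply_symm_apply _ _

theorem s56fj_exact (v : s56fi_Mod r.toMonoidHom) :
    s56fj_pi r j χ e he v = 0 ↔ ∃ y, s56fj_iota r j χ e he y = v := by
  constructor
  · intro h
    have h1 : s56fj_coord e he (s56fi_vec _ (s56fi_red r v)) = 0 := by
      rw [← s56fj_pi_apply r j χ e he, h]
      rfl
    have h2 : s56fi_red r v = 0 := (LinearEquiv.map_eq_zero_iff _).1 h1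
    obtain ⟨w, hw⟩ := (s56fi_red_eq_zero_iff r v).1 h2
    refine ⟨(s56fj_vec j χ).symm (s56fj_coord e he (s56fi_vec _ w)), ?_⟩
    rw [s56fj_iota_apply, AddEquiv.apply_symm_apply, LinearEquiv.symm_apply_apply]
    exact hw
  · rintro ⟨y, rfl⟩
    apply (s56fj_vec j χ).injective
    rw [s56fj_pi_apply, s56fj_iota_apply, (s56fi_red_eq_zero_iff r _).2 ⟨_, rfl⟩]
    exact map_zero _

variable (hB : ∀ (σ : ↥I) (i : Fin 2),
  (s56t_bar r (σ : GQ)).mulVec (e i) = (j i ((χ σ : Fˣ) : F)) • e i)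

include hB in
theorem s56fj_iota_smul (σ : ↥I) (x : s56fj_Tw j χ) :
    s56fj_iota r j χ e he (σ • x) = σ • s56fj_iota r j χ e he x := by
  rw [s56fj_iota_apply, s56fj_iota_apply]
  have h1 : (σ • s56fi_eps r (s56fi_of _ ((s56fj_coord e he).symm (s56fj_vec j χ x)))) =
      s56fi_eps r ((σ : GQ) • s56fi_of _ ((s56fj_coord e he).symm (s56fj_vec j χ x))) :=
    (s56fi_eps_smul r (σ : GQ) _).symm
  rw [h1]
  congr 1
  apply (s56fj_coord e he).injective
  funext i
  show s56fj_coord e he ((s56fj_coord e he).symm (s56fj_vec j χ (σ • x))) i =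
    s56fj_coord e he ((s56t_bar r (σ : GQ)).mulVec
      ((s56fj_coord e he).symm (s56fj_vec j χ x))) i
  rw [s56fj_coord_diag e he _ _ (hB σ), LinearEquiv.apply_symm_apply,
    LinearEquiv.apply_symm_apply, s56fj_tw_smul, s56fj_vec_smul]

include hB in
theorem s56fj_pi_smul (σ : ↥I) (v : s56fi_Mod r.toMonoidHom) :
    s56fj_pi r j χ e he (σ • v) = σ • s56fj_pi r j χ e he v := by
  apply (s56fj_vec j χ).injective
  funext i
  rw [s56fj_pi_apply, s56fj_tw_smul, s56fj_vec_smul, s56fj_pi_apply]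
  have h1 : s56fi_red r (σ • v) = (σ : GQ) • s56fi_red r v := s56fi_red_smul r (σ : GQ) v
  rw [h1]
  exact s56fj_coord_diag e he _ _ (hB σ) _ i

end Maps

/-! ### the dictionary -/

section Dict

variable {k : Type} [Field k] {F : Type} [Field F] (r : FramedRep (DualNumber k))
  {I : Subgroup GQ} (j : Fin 2 → (F →+* k)) (χ : ↥I →* Fˣ)
  (e : Fin 2 → (Fin 2 → k)) (he : LinearIndependent k e)

/-- the lift `(e b, 0)` of `e b` to `k[ε]²` -/
def s56fj_lift (b : Fin 2) : s56fi_Mod r.toMonoidHom :=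
  s56fi_of _ fun i => TrivSqZeroExt.inl (e b i)

theorem s56fj_pi_lift (b : Fin 2) :
    s56fj_vec j χ (s56fj_pi r j χ e he (s56fj_lift r e b)) = Pi.single b 1 := by
  rw [s56fj_pi_apply]
  have h1 : s56fi_vec _ (s56fi_red r (s56fj_lift r e b)) = e b := by
    funext i
    rw [s56fi_red_apply]
    exact TrivSqZeroExt.fst_inl k (e b i)
  rw [h1, s56fj_coord_self]

variable (hB : ∀ (σ : ↥I) (i : Fin 2),
  (s56t_bar r (σ : GQ)).mulVec (e i) = (j i ((χ σ : Fˣ) : F)) • e i)

include hB in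
/-- **the dictionary**: for `χ σ = 1`, `σ v - v = ι (coordinates of c σ (e b))`, `v = (e b, 0)` -/
theorem s56fj_dict (σ : ↥I) (hσ : χ σ = 1) (b : Fin 2) :
    σ • s56fj_lift r e b - s56fj_lift r e b =
      s56fj_iota r j χ e he ((s56fj_vec j χ).symm
        (s56fj_coord e he ((s56t_coc r (σ : GQ)).mulVec (e b)))) := by
  have hBb : (s56t_bar r (σ : GQ)).mulVec (e b) = e b := by
    rw [hB σ b, hσ, Units.val_one, map_one, one_smul]
  rw [s56fj_iota_apply, AddEquiv.apply_symm_apply, LinearEquiv.symm_apply_apply]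
  funext i
  show s56fi_vec _ ((σ : GQ) • s56fj_lift r e b) i - s56fi_vec _ (s56fj_lift r e b) i =
    s56fi_vec _ (s56fi_eps r (s56fi_of _ ((s56t_coc r (σ : GQ)).mulVec (e b)))) i
  rw [s56fi_smul_apply, s56fi_eps_apply]
  have hv : ∀ m, s56fi_vec _ (s56fj_lift r e b) m = TrivSqZeroExt.inl (e b m) := fun m => rfl
  simp only [hv]
  apply TrivSqZeroExt.ext
  · rw [TrivSqZeroExt.fst_sub, TrivSqZeroExt.fst_sum, TrivSqZeroExt.fst_inr,
      TrivSqZeroExt.fst_inl]
    have h1 : ∑ m, (r.toMonoidHom (σ : GQ) i m * TrivSqZeroExt.inl (e b m)).fst =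
        (s56t_bar r (σ : GQ)).mulVec (e b) i := by
      rw [Matrix.mulVec, dotProduct]
      refine Finset.sum_congr rfl fun m _ => ?_
      rw [TrivSqZeroExt.fst_mul, TrivSqZeroExt.fst_inl]
      rfl
    rw [h1, hBb, sub_self]
  · rw [TrivSqZeroExt.snd_sub, TrivSqZeroExt.snd_sum, TrivSqZeroExt.snd_inr,
      TrivSqZeroExt.snd_inl, sub_zero]
    have h1 : ∑ m, (r.toMonoidHom (σ : GQ) i m * TrivSqZeroExt.inl (e b m)).snd =
        (s56t_snd (r (σ : GQ))).mulVec (e b) i := by
      rw [Matrix.mulVec, dotProduct]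
      refine Finset.sum_congr rfl fun m _ => ?_
      rw [DualNumber.snd_mul, TrivSqZeroExt.snd_inl, TrivSqZeroExt.fst_inl, mul_zero, zero_add]
      rfl
    rw [h1, s56t_snd_eq, ← Matrix.mulVec_mulVec, hBb]
    rfl

end Dict

/-! ### the main theorem -/

section Main

variable {p : ℕ} {O : Type} [CommRing O] [IsDomain O] [IsDiscreteValuationRing O]
  {L : Type} [Field L] [Algebra O L] {A : ValuationSubring L}
  {I : Subgroup GQ} [MulSemiringAction ↥I L]
  {k : Type} [Field k] [Finite k] [CharP k p] {F : Type} [Field F] [Fintype F]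

omit [Finite k] in
/-- `p` kills `k[ε]²` -/
theorem s56fj_killed (r : FramedRep (DualNumber k)) (x : s56fi_Mod r.toMonoidHom) :
    p • x = 0 := by
  funext i
  show p • (s56fi_vec _ x i) = 0
  apply TrivSqZeroExt.ext
  · rw [TrivSqZeroExt.fst_smul, TrivSqZeroExt.fst_zero, nsmul_eq_mul, CharP.cast_eq_zero k p,
      zero_mul]
  · rw [TrivSqZeroExt.snd_smul, TrivSqZeroExt.snd_zero, nsmul_eq_mul, CharP.cast_eq_zero k p,
      zero_mul]

/-- **F-SSDICT**: the subquotient of `k[ε]²` attached to the `(a, b)`-entry of the cocycle and an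
`F`-(semi)linear form `lam`, with the stabiliser of its point. -/
theorem s56fj_main (hctx : mzo_Ctx p O L A ↥I) (hF : Fintype.card F = p ^ 2)
    (hroots : ∀ n : ℕ, n ≠ 0 → ∃ ζ : L, IsPrimitiveRoot ζ n)
    (r : FramedRep (DualNumber k)) (j : Fin 2 → (F →+* k)) (χ : ↥I →* Fˣ)
    (hχ : ∃ σ : ↥I, ((χ σ : Fˣ) : F) ^ p ≠ (χ σ : Fˣ))
    (e : Fin 2 → (Fin 2 → k)) (he : LinearIndependent k e)
    (hB : ∀ (σ : ↥I) (i : Fin 2),
      (s56t_bar r (σ : GQ)).mulVec (e i) = (j i ((χ σ : Fˣ) : F)) • e i)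
    {H : Subalgebra O (s56fi_Mod r.toMonoidHom → L)}
    (hH : mzo_IsOrder A ↥I (s56fi_Mod r.toMonoidHom) H)
    (a b : Fin 2) (lam : k →+ F) (hlam : ∀ (c : F) (x : k), lam (j a c * x) = c * lam x)
    (hlam0 : lam ≠ 0) :
    ∃ (E : Type) (_ : AddCommGroup E) (_ : Fintype E) (_ : DecidableEq E)
      (_ : DistribMulAction ↥I E) (HE : Subalgebra O (E → L)) (Q : E),
      mzo_IsOrder A ↥I E HE ∧ (∀ x : E, p • x = 0) ∧
      ((p : L) ^ 2) • (Pi.single 0 1 : E → L) ∈ HE ∧
      ∀ σ : ↥I, σ • Q = Q ↔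
        (χ σ = 1 ∧ lam (s56fj_entry e he (s56t_coc r (σ : GQ)) a b) = 0) := by
  classical
  haveI : Finite (DualNumber k) := inferInstanceAs (Finite (k × k))
  letI : Fintype (s56fi_Mod r.toMonoidHom) := Fintype.ofFinite _
  -- the linear form `ℓ = lam ∘ (a-th coordinate)`
  let ℓ : s56fj_Tw j χ →ₗ[F] F :=
    { toFun := fun x => lam (s56fj_vec j χ x a)
      map_add' := fun x y => by
        show lam (s56fj_vec j χ (x + y) a) = lam (s56fj_vec j χ x a) + lam (s56fj_vec j χ y a)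
        rw [map_add, Pi.add_apply, map_add]
      map_smul' := fun c x => by
        show lam (s56fj_vec j χ (c • x) a) = c • lam (s56fj_vec j χ x a)
        rw [s56fj_vec_smul, hlam, smul_eq_mul] }
  have hℓ_apply : ∀ x, ℓ x = lam (s56fj_vec j χ x a) := fun x => rfl
  have hℓ : ℓ ≠ 0 := by
    intro h0
    apply hlam0
    ext t
    have h1 := hℓ_apply ((s56fj_vec j χ).symm (Pi.single a t))
    rw [h0, LinearMap.zero_apply, AddEquiv.apply_symm_apply, Pi.single_eq_same] at h1
    rw [← h1]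
    rfl
  have hv : s56fj_pi r j χ e he (s56fj_lift r e b) ≠ 0 := by
    intro h
    have h1 := s56fj_pi_lift r j χ e he b
    rw [h] at h1
    have h2 := congrFun h1 b
    rw [Pi.single_eq_same] at h2
    exact zero_ne_one h2
  obtain ⟨E, i1, i2, i3, i4, HE, Q, hHE, hrE, hl, hstab⟩ := s56fq_main' hctx hF χ hχ hroots
    (s56fj_tw_smul j χ) (s56fj_tw_smul j χ) (s56fj_killed r) hH
    (s56fj_iota r j χ e he) (s56fj_iota_injective r j χ e he) (s56fj_iota_smul r j χ e he hB)
    (s56fj_pi r j χ e he) (s56fj_pi_surjective r j χ e he) (s56fj_pi_smul r j χ e he hB)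
    (s56fj_exact r j χ e he) (s56fj_lift r e b) hv ℓ hℓ
  refine ⟨E, i1, i2, i3, i4, HE, Q, hHE, hrE, hl, fun σ => ?_⟩
  rw [hstab σ]
  constructor
  · rintro ⟨h1, x, hx, hxv⟩
    refine ⟨h1, ?_⟩
    rw [s56fj_dict r j χ e he hB σ h1 b] at hxv
    have h2 := s56fj_iota_injective r j χ e he hxv
    rw [← h2, hℓ_apply, AddEquiv.apply_symm_apply] at hx
    exact hx
  · rintro ⟨h1, h2⟩
    refine ⟨h1, _, ?_, s56fj_dict r j χ e he hB σ h1 b⟩
    rw [hℓ_apply, AddEquiv.apply_symm_apply]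
    exact h2

end Main

/-! ### the trace form: every additive `k → 𝔽_p` is `tr ∘ (an F-linear k → F)` -/

section Trace

variable {p : ℕ} [Fact p.Prime] {F : Type} [Field F] [Finite F] [Algebra (ZMod p) F]
  {k : Type} [Field k]

/-- every additive `f : k → 𝔽_p` is `tr_{F/𝔽_p} ∘ lam` for a `j'`-linear `lam : k → F` -/
theorem s56fj_trace (j' : F →+* k) (f : k →+ ZMod p) :
    ∃ lam : k →+ F, (∀ (c : F) (x : k), lam (j' c * x) = c * lam x) ∧
      ∀ x, Algebra.trace (ZMod p) F (lam x) = f x := by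
  have hnd : (Algebra.traceForm (ZMod p) F).Nondegenerate := traceForm_nondegenerate (ZMod p) F
  set D := (Algebra.traceForm (ZMod p) F).toDual hnd with hD
  -- the functional `c ↦ f (j' c * x)`
  let g : k → (F →ₗ[ZMod p] ZMod p) := fun x =>
    (f.comp ((AddMonoidHom.mulRight x).comp j'.toAddMonoidHom)).toZModLinearMap p
  have hg : ∀ x c, g x c = f (j' c * x) := fun x c => rfl
  have key : ∀ x c, Algebra.trace (ZMod p) F (D.symm (g x) * c) = f (j' c * x) := by
    intro x c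
    rw [← Algebra.traceForm_apply, ← LinearMap.BilinForm.toDual_def hnd, ← hD,
      LinearEquiv.apply_symm_apply, hg]
  have hinj : ∀ y y' : F, (∀ c, Algebra.trace (ZMod p) F (y * c) = Algebra.trace (ZMod p) F (y' * c))
      → y = y' := by
    intro y y' h
    apply D.injective
    ext c
    rw [hD, LinearMap.BilinForm.toDual_def, LinearMap.BilinForm.toDual_def,
      Algebra.traceForm_apply, Algebra.traceForm_apply, h c]
  refine ⟨⟨⟨fun x => D.symm (g x), ?_⟩, ?_⟩, ?_, ?_⟩
  · apply hinj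
    intro c
    rw [key, mul_zero, map_zero, zero_mul, map_zero]
  · intro x y
    apply hinj
    intro c
    rw [key, add_mul, map_add, key, key, mul_add, map_add]
  · intro c x
    show D.symm (g (j' c * x)) = c * D.symm (g x)
    apply hinj
    intro d
    rw [key]
    have h1 : c * D.symm (g x) * d = D.symm (g x) * (c * d) := by ring
    rw [h1, key]
    congr 1
    rw [map_mul j']
    ring
  · intro x
    show Algebra.trace (ZMod p) F (D.symm (g x)) = f x
    have := key x 1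
    rwa [mul_one, map_one, one_mul] at this

end Trace

/-! ### the `𝔽_p`-form -/

section MainFp

variable {p : ℕ} {O : Type} [CommRing O] [IsDomain O] [IsDiscreteValuationRing O]
  {L : Type} [Field L] [Algebra O L] {A : ValuationSubring L}
  {I : Subgroup GQ} [MulSemiringAction ↥I L]
  {k : Type} [Field k] [Finite k] [CharP k p] {F : Type} [Field F] [Fintype F]
  [Algebra (ZMod p) F]

/-- **F-SSDICT, `𝔽_p`-form**: for an arbitrary nonzero additive `f : k → 𝔽_p` the subquotient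
`(E, HE, Q)` with `σ • Q = Q → χ σ = 1 ∧ f (entry_{ab} (c σ)) = 0`; more precisely
`Stab Q = {σ | χ σ = 1 ∧ lam (entry_{ab} (c σ)) = 0}` with `f = tr_{F/𝔽_p} ∘ lam`. -/
theorem s56fj_main_fp (hctx : mzo_Ctx p O L A ↥I) (hF : Fintype.card F = p ^ 2)
    (hroots : ∀ n : ℕ, n ≠ 0 → ∃ ζ : L, IsPrimitiveRoot ζ n)
    (r : FramedRep (DualNumber k)) (j : Fin 2 → (F →+* k)) (χ : ↥I →* Fˣ)
    (hχ : ∃ σ : ↥I, ((χ σ : Fˣ) : F) ^ p ≠ (χ σ : Fˣ))
    (e : Fin 2 → (Fin 2 → k)) (he : LinearIndependent k e)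
    (hB : ∀ (σ : ↥I) (i : Fin 2),
      (s56t_bar r (σ : GQ)).mulVec (e i) = (j i ((χ σ : Fˣ) : F)) • e i)
    {H : Subalgebra O (s56fi_Mod r.toMonoidHom → L)}
    (hH : mzo_IsOrder A ↥I (s56fi_Mod r.toMonoidHom) H)
    (a b : Fin 2) (f : k →+ ZMod p) (hf : f ≠ 0) :
    ∃ (E : Type) (_ : AddCommGroup E) (_ : Fintype E) (_ : DecidableEq E)
      (_ : DistribMulAction ↥I E) (HE : Subalgebra O (E → L)) (Q : E) (lam : k →+ F),
      mzo_IsOrder A ↥I E HE ∧ (∀ x : E, p • x = 0) ∧
      ((p : L) ^ 2) • (Pi.single 0 1 : E → L) ∈ HE ∧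
      (∀ (c : F) (x : k), lam (j a c * x) = c * lam x) ∧
      (∀ x, Algebra.trace (ZMod p) F (lam x) = f x) ∧
      (∀ σ : ↥I, σ • Q = Q ↔
        (χ σ = 1 ∧ lam (s56fj_entry e he (s56t_coc r (σ : GQ)) a b) = 0)) ∧
      ∀ σ : ↥I, σ • Q = Q →
        (χ σ = 1 ∧ f (s56fj_entry e he (s56t_coc r (σ : GQ)) a b) = 0) := by
  haveI : Fact p.Prime := ⟨hctx.r_prime⟩
  obtain ⟨lam, hlam, htr⟩ := s56fj_trace (j a) f
  have hlam0 : lam ≠ 0 := by
    intro h0
    apply hf
    ext x
    rw [← htr, h0, AddMonoidHom.zero_apply, map_zero, AddMonoidHom.zero_apply]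
  obtain ⟨E, i1, i2, i3, i4, HE, Q, hHE, hrE, hl, hstab⟩ :=
    s56fj_main hctx hF hroots r j χ hχ e he hB hH a b lam hlam hlam0
  refine ⟨E, i1, i2, i3, i4, HE, Q, lam, hHE, hrE, hl, hlam, htr, hstab, fun σ hσ => ?_⟩
  obtain ⟨h1, h2⟩ := (hstab σ).1 hσ
  exact ⟨h1, by rw [← htr, h2, map_zero]⟩

end MainFp

end Fermat.Agent.S56
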