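/-
Project S56, node [LOC-p-FLAT], supersingular case (helper27).  Prefix `s56fv_`.
THE EXCLUDED LEVELS: a Kummer radical `w` over `L^T` (`T = Stab ϖt`) whose character vanishes on
the stabiliser of a point `Q` of a finite `Γ`-module `E` killed by `p` with an order `HE`
containing `p² δ₀` has NEITHER level `0`, NOR level `2`, NOR level `p + 1`:

  `s56fv_level`.

Proof: `θ := φ Q` for an injective `φ ∈ HE` (helper29's `s56fa_exists_injective`) has the same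
stabiliser `S` as `Q`; helper14's `s56fe_main_mono` gives `ϖ` with `A ∩ L^S = O[ϖ]`; (DIFF)
(`s56f_df_main`, `n = p`, `lam = p²`) gives `p³ y² ∈ A` for every `y` of the trace dual of
`A ∩ L^S`; the Kummer side (T5) gives a `y` with `p³ y² ∉ A`.
-/
import Mathlib
import Fermat.Agent.S56.Flat.SSDefs
import Fermat.Agent.S56.Flat.SSAux
import Fermat.Agent.S56.Flat.Efn
import Fermat.Agent.S56.Flat.Diff

set_option autoImplicit false
set_option linter.unusedSectionVars false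

noncomputable section

namespace Fermat.Agent.S56

open Fermat.Agent.MZ Polynomial

section Level

variable {p : ℕ} {O : Type} [CommRing O] [IsDomain O] [IsDiscreteValuationRing O]
  {L : Type} [Field L] [CharZero L] [Algebra O L] {A : ValuationSubring L}
  {Γ : Type} [Group Γ] [MulSemiringAction Γ L] {T : Subgroup Γ} {ϖt ζ : L}
  {E : Type} [AddCommGroup E] [DistribMulAction Γ E] [Fintype E] [DecidableEq E]

/-- a finite sum `∑ o_i ϖ^i` is a polynomial expression. -/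
theorem s56fv_poly_of_sum (ϖ : L) {n : ℕ} (o : Fin n → O) :
    ∃ g : O[X], aeval ϖ g = ∑ i : Fin n, algebraMap O L (o i) * ϖ ^ (i : ℕ) := by
  refine ⟨∑ i : Fin n, C (o i) * X ^ (i : ℕ), ?_⟩
  rw [map_sum]
  refine Finset.sum_congr rfl fun i _ => ?_
  rw [map_mul, aeval_C, map_pow, aeval_X]

/-- **THE EXCLUDED LEVELS.** -/
theorem s56fv_level (hset : s56fs_Setting p O L A Γ T ϖt ζ)
    (hT5 : s56fs_T5_stmt p O L A Γ T ϖt ζ)
    {HE : Subalgebra O (E → L)} (hHE : mzo_IsOrder A Γ E HE) (hpE : ∀ x : E, p • x = 0)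
    (hlam : ((p : L) ^ 2) • (Pi.single 0 1 : E → L) ∈ HE) (Q : E)
    {w : L} {a : Γ → ZMod p} (hw : s56fs_IsRad p T ζ w a)
    (hS : ∀ σ : Γ, σ • Q = Q → σ ∈ T ∧ a σ = 0) :
    ¬ (s56fs_NF0 A p T ϖt w ∨ (∃ x : O, IsUnit x ∧ s56fs_NF A p T ϖt w 2 x) ∨
      ∃ x : O, IsUnit x ∧ s56fs_NF A p T ϖt w (p + 1) x) := by
  intro hcase
  have hctx := hset.hctx
  set S : Subgroup Γ := MulAction.stabilizer Γ Q with hSdef
  have hSQ : ∀ σ : Γ, σ ∈ S ↔ σ • Q = Q := fun σ => MulAction.mem_stabilizer_iff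
  obtain ⟨R, hR⟩ := s56fa_exists_transversal (Γ := Γ) Q (Set.toFinite _)
  have hST : S ≤ T := fun σ hσ => (hS σ ((hSQ σ).mp hσ)).1
  have hSw : ∀ s ∈ S, s • w = w := by
    intro s hs
    obtain ⟨hsT, has⟩ := hS s ((hSQ s).mp hs)
    rw [hw.2 s hsT, has, ZMod.val_zero, pow_zero, one_mul]
  obtain ⟨y, ⟨hyS, hdual⟩, hy⟩ := hT5 w a hw hcase S R hR hST hSw
  apply hy
  -- a primitive element
  obtain ⟨φ, hφH, hφinj⟩ := s56fa_exists_injective hHE
  set θ : L := φ Q with hθdef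
  have hθ : ∀ σ : Γ, σ • θ = θ ↔ σ • Q = Q := by
    intro σ
    rw [hθdef, ← hHE.equiv φ hφH σ Q]
    exact hφinj.eq_iff
  have hfin : (MulAction.orbit Γ θ).Finite := by
    refine (Set.finite_range φ).subset ?_
    rintro _ ⟨σ, rfl⟩
    exact ⟨σ • Q, hHE.equiv φ hφH σ Q⟩
  obtain ⟨ϖ, hϖnu, hϖstab, -, hgen⟩ := s56fe_main_mono hctx θ hfin
  have hϖA : ϖ ∈ A := ValuationSubring.nonunits_subset hϖnu
  have hϖS : ∀ s ∈ S, s • ϖ = ϖ := fun s hs =>
    (hϖstab s).mpr ((hθ s).mpr ((hSQ s).mp hs))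
  have hN : ∀ a ∈ A, (∀ s ∈ S, s • a = a) → ∃ g : O[X], aeval ϖ g = a := by
    intro a' ha' hfix
    obtain ⟨o, ho⟩ := hgen a' ha' (fun σ hσ => hfix σ ((hSQ σ).mpr ((hθ σ).mp hσ)))
    obtain ⟨g, hg⟩ := s56fv_poly_of_sum (O := O) ϖ o
    exact ⟨g, hg.trans ho.symm⟩
  have key := s56f_df_main hctx hHE hlam p hpE hR hSQ hϖA hϖS hN hyS hdual
  have e : (p : L) ^ 3 * y ^ 2 = (p : L) * (p : L) ^ 2 * y ^ 2 := by ring
  rw [e]
  exact key

end Level

end Fermat.Agent.S56
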