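/-
S56 / [LOC-p-FLAT] / cell F-SSEND (helper10, prefix `s56fz_`).  Mathlib + `H1Van/Coh.lean`.

The purely algebraic end of the supersingular count: `rb : Γ →* M₂(k)`, subgroups `Gt ≤ I ≤ D`,
`rb = 1` on `Gt`, `[I : Gt]` invertible in `k`, `rb|I` diagonal with some `rb s₀` having distinct
diagonal entries, `φ ∈ D` with `rb φ` antidiagonal, `D ⊆ ⟨φ⟩ · I · {s | rb s = 1 ∧ c s = 0}`.
Then a trace-zero `Ad rb`-cocycle `c` vanishing on `Gt` is a coboundary on `D` (`s56fz_end`).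

Also the linear-algebra bridge `s56fz_span_le_one`: a set of vectors any two of which are dependent
modulo `S` spans a space of dimension `≤ 1` modulo `S`.
-/
import Mathlib
import Fermat.Agent.S56.H1Van.Coh

set_option autoImplicit false
set_option linter.style.haveILetI false
set_option linter.unusedSectionVars false
set_option linter.unusedVariables false

namespace Fermat.Agent.S56

open Matrix Module

/-! ### the linear-algebra bridge -/

/-- a set of vectors any two of which are dependent modulo `S` spans a space of dimension `≤ 1`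
modulo `S`. -/
theorem s56fz_span_le_one {k V : Type*} [Field k] [AddCommGroup V] [Module k V]
    (S : Submodule k V) (T : Set V)
    (h : ∀ x ∈ T, ∀ y ∈ T, ∃ a b : k, (a ≠ 0 ∨ b ≠ 0) ∧ a • x + b • y ∈ S) :
    FiniteDimensional k (↥(Submodule.span k T) ⧸ S.comap (Submodule.span k T).subtype) ∧
      finrank k (↥(Submodule.span k T) ⧸ S.comap (Submodule.span k T).subtype) ≤ 1 := by
  classical
  set C := Submodule.span k T with hC
  set S' := S.comap C.subtype with hS'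
  -- a generator
  have hgen : ∃ x₀ : C, ∀ q : C ⧸ S', ∃ a : k, q = a • S'.mkQ x₀ := by
    by_cases hall : ∀ x ∈ T, x ∈ S
    · refine ⟨0, fun q => ⟨0, ?_⟩⟩
      obtain ⟨y, rfl⟩ := S'.mkQ_surjective q
      rw [zero_smul, Submodule.mkQ_apply, Submodule.Quotient.mk_eq_zero]
      show (y : V) ∈ S
      have : C ≤ S := Submodule.span_le.mpr hall
      exact this y.2
    · push Not at hall
      obtain ⟨x₀, hx₀T, hx₀S⟩ := hall
      refine ⟨⟨x₀, Submodule.subset_span hx₀T⟩, fun q => ?_⟩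
      obtain ⟨y, rfl⟩ := S'.mkQ_surjective q
      -- `y` is in the span of `T`: induction
      have key : ∀ z ∈ C, ∃ a : k, z - a • x₀ ∈ S := by
        intro z hz
        induction hz using Submodule.span_induction with
        | mem z hzT =>
          obtain ⟨a, b, hab, hmem⟩ := h x₀ hx₀T z hzT
          have hb : b ≠ 0 := by
            rintro rfl
            rw [zero_smul, add_zero] at hmem
            have ha : a ≠ 0 := by
              rcases hab with ha | hb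
              · exact ha
              · exact absurd rfl hb
            have := S.smul_mem a⁻¹ hmem
            rw [smul_smul, inv_mul_cancel₀ ha, one_smul] at this
            exact hx₀S this
          refine ⟨-(b⁻¹ * a), ?_⟩
          have := S.smul_mem b⁻¹ hmem
          rw [smul_add, smul_smul, smul_smul, inv_mul_cancel₀ hb, one_smul] at this
          rw [neg_smul, sub_neg_eq_add, add_comm]
          exact this
        | zero => exact ⟨0, by simp⟩
        | add z w _ _ hz hw =>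
          obtain ⟨a, ha⟩ := hz
          obtain ⟨b, hb⟩ := hw
          refine ⟨a + b, ?_⟩
          have := S.add_mem ha hb
          rw [add_smul]
          convert this using 1
          abel
        | smul t z _ hz =>
          obtain ⟨a, ha⟩ := hz
          refine ⟨t * a, ?_⟩
          have := S.smul_mem t ha
          rw [smul_sub, smul_smul] at this
          exact this
      obtain ⟨a, ha⟩ := key y y.2
      refine ⟨a, ?_⟩
      rw [← map_smul, ← sub_eq_zero, ← map_sub, Submodule.mkQ_apply,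
        Submodule.Quotient.mk_eq_zero]
      exact ha
  obtain ⟨x₀, hx₀⟩ := hgen
  have htop : Submodule.span k ({S'.mkQ x₀} : Set (C ⧸ S')) = ⊤ := by
    refine eq_top_iff.2 fun q _ => ?_
    obtain ⟨a, rfl⟩ := hx₀ q
    exact Submodule.smul_mem _ _ (Submodule.subset_span rfl)
  have hfin : FiniteDimensional k (C ⧸ S') :=
    Module.finite_def.2 (htop ▸ Submodule.fg_span (Set.finite_singleton _))
  refine ⟨hfin, ?_⟩
  refine finrank_le_one (S'.mkQ x₀) fun q => ?_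
  obtain ⟨a, rfl⟩ := hx₀ q
  exact ⟨a, rfl⟩

/-! ### the conjugation action and cocycles -/

section Coc

variable {k : Type*} [Field k] {Γ : Type*} [Group Γ] (rb : Γ →* Matrix (Fin 2) (Fin 2) k)

/-- `Ad rb σ : A ↦ rb σ * A * rb σ⁻¹` -/
def s56fz_ad (σ : Γ) (A : Matrix (Fin 2) (Fin 2) k) : Matrix (Fin 2) (Fin 2) k :=
  rb σ * A * rb σ⁻¹

theorem s56fz_rb_mul_inv (σ : Γ) : rb σ * rb σ⁻¹ = 1 := by
  rw [← map_mul, mul_inv_cancel, map_one]

theorem s56fz_rb_inv_mul (σ : Γ) : rb σ⁻¹ * rb σ = 1 := by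
  rw [← map_mul, inv_mul_cancel, map_one]

theorem s56fz_ad_one (A : Matrix (Fin 2) (Fin 2) k) : s56fz_ad rb 1 A = A := by
  simp [s56fz_ad]

theorem s56fz_ad_mul (σ τ : Γ) (A : Matrix (Fin 2) (Fin 2) k) :
    s56fz_ad rb (σ * τ) A = s56fz_ad rb σ (s56fz_ad rb τ A) := by
  simp only [s56fz_ad, map_mul, _root_.mul_inv_rev, Matrix.mul_assoc]

theorem s56fz_ad_add (σ : Γ) (A B : Matrix (Fin 2) (Fin 2) k) :
    s56fz_ad rb σ (A + B) = s56fz_ad rb σ A + s56fz_ad rb σ B := by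
  simp only [s56fz_ad, Matrix.mul_add, Matrix.add_mul]

theorem s56fz_ad_sub (σ : Γ) (A B : Matrix (Fin 2) (Fin 2) k) :
    s56fz_ad rb σ (A - B) = s56fz_ad rb σ A - s56fz_ad rb σ B := by
  simp only [s56fz_ad, Matrix.mul_sub, Matrix.sub_mul]

theorem s56fz_ad_smul (σ : Γ) (a : k) (A : Matrix (Fin 2) (Fin 2) k) :
    s56fz_ad rb σ (a • A) = a • s56fz_ad rb σ A := by
  simp only [s56fz_ad, Matrix.mul_smul, Matrix.smul_mul]

theorem s56fz_ad_zero (σ : Γ) : s56fz_ad rb σ (0 : Matrix (Fin 2) (Fin 2) k) = 0 := by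
  simp [s56fz_ad]

theorem s56fz_ad_id (σ : Γ) : s56fz_ad rb σ (1 : Matrix (Fin 2) (Fin 2) k) = 1 := by
  rw [s56fz_ad, Matrix.mul_one, s56fz_rb_mul_inv]

theorem s56fz_ad_trace (σ : Γ) (A : Matrix (Fin 2) (Fin 2) k) :
    (s56fz_ad rb σ A).trace = A.trace := by
  rw [s56fz_ad, Matrix.trace_mul_comm, ← Matrix.mul_assoc, s56fz_rb_inv_mul, Matrix.one_mul]

theorem s56fz_ad_of_one {σ : Γ} (h : rb σ = 1) (A : Matrix (Fin 2) (Fin 2) k) :
    s56fz_ad rb σ A = A := by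
  have h' : rb σ⁻¹ = 1 := by
    have := s56fz_rb_mul_inv rb σ
    rwa [h, Matrix.one_mul] at this
  rw [s56fz_ad, h, h', Matrix.one_mul, Matrix.mul_one]

/-- the representation of a subgroup on all matrices -/
def s56fz_rep (I : Subgroup Γ) : Representation k ↥I (Matrix (Fin 2) (Fin 2) k) where
  toFun σ :=
    { toFun := fun A => s56fz_ad rb (σ : Γ) A
      map_add' := s56fz_ad_add rb _
      map_smul' := fun a A => s56fz_ad_smul rb _ a A }
  map_one' := by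
    apply LinearMap.ext
    intro A
    exact s56fz_ad_one rb A
  map_mul' σ τ := by
    apply LinearMap.ext
    intro A
    exact s56fz_ad_mul rb _ _ A

/-- the matrix `h = diag(1, -1)` -/
def s56fz_h : Matrix (Fin 2) (Fin 2) k := !![1, 0; 0, -1]

theorem s56fz_h_trace : (s56fz_h : Matrix (Fin 2) (Fin 2) k).trace = 0 := by
  simp [s56fz_h, Matrix.trace_fin_two]

/-- a diagonal matrix commutes with `h` -/
theorem s56fz_ad_h_of_diag {σ : Γ} (hσ : rb σ 0 1 = 0 ∧ rb σ 1 0 = 0) :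
    s56fz_ad rb σ (s56fz_h : Matrix (Fin 2) (Fin 2) k) = s56fz_h := by
  have hcomm : rb σ * (s56fz_h : Matrix (Fin 2) (Fin 2) k) = s56fz_h * rb σ := by
    ext i j
    fin_cases i <;> fin_cases j <;>
      simp [s56fz_h, Matrix.mul_apply, Fin.sum_univ_two, hσ.1, hσ.2]
  rw [s56fz_ad, hcomm, Matrix.mul_assoc, s56fz_rb_mul_inv, Matrix.mul_one]

/-- an antidiagonal matrix anticommutes with `h` -/
theorem s56fz_ad_h_of_antidiag {σ : Γ} (hσ : rb σ 0 0 = 0 ∧ rb σ 1 1 = 0) :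
    s56fz_ad rb σ (s56fz_h : Matrix (Fin 2) (Fin 2) k) = -s56fz_h := by
  have h00 : (s56fz_h : Matrix (Fin 2) (Fin 2) k) 0 0 = 1 := by simp [s56fz_h]
  have h01 : (s56fz_h : Matrix (Fin 2) (Fin 2) k) 0 1 = 0 := by simp [s56fz_h]
  have h10 : (s56fz_h : Matrix (Fin 2) (Fin 2) k) 1 0 = 0 := by simp [s56fz_h]
  have h11 : (s56fz_h : Matrix (Fin 2) (Fin 2) k) 1 1 = -1 := by simp [s56fz_h]
  have hcomm : rb σ * (s56fz_h : Matrix (Fin 2) (Fin 2) k) = -(s56fz_h * rb σ) := by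
    ext i j
    fin_cases i <;> fin_cases j <;>
      simp only [Fin.zero_eta, Fin.mk_one, Fin.isValue, Matrix.mul_apply, Matrix.neg_apply,
        Fin.sum_univ_two, h00, h01, h10, h11, hσ.1, hσ.2] <;> ring
  rw [s56fz_ad, hcomm, Matrix.neg_mul, Matrix.mul_assoc, s56fz_rb_mul_inv, Matrix.mul_one]

/-- a matrix fixed by `Ad` of a diagonal matrix with distinct entries is diagonal -/
theorem s56fz_diag_of_fixed {σ : Γ} (hσ : rb σ 0 1 = 0 ∧ rb σ 1 0 = 0 ∧ rb σ 0 0 ≠ rb σ 1 1)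
    (X : Matrix (Fin 2) (Fin 2) k) (hX : s56fz_ad rb σ X = X) : X 0 1 = 0 ∧ X 1 0 = 0 := by
  have hcomm : rb σ * X = X * rb σ := by
    have := congrArg (fun Y => Y * rb σ) hX
    simp only [s56fz_ad] at this
    rw [Matrix.mul_assoc, s56fz_rb_inv_mul, Matrix.mul_one] at this
    exact this
  have e01 := congrFun (congrFun hcomm 0) 1
  have e10 := congrFun (congrFun hcomm 1) 0
  simp only [Matrix.mul_apply, Fin.sum_univ_two, hσ.1, hσ.2.1, zero_mul, mul_zero, add_zero,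
    zero_add] at e01 e10
  have hne : rb σ 0 0 - rb σ 1 1 ≠ 0 := sub_ne_zero.mpr hσ.2.2
  constructor
  · have : (rb σ 0 0 - rb σ 1 1) * X 0 1 = 0 := by linear_combination e01
    exact (mul_eq_zero.mp this).resolve_left hne
  · have : (rb σ 0 0 - rb σ 1 1) * X 1 0 = 0 := by linear_combination (-1 : k) * e10
    exact (mul_eq_zero.mp this).resolve_left hne

end Coc

/-! ### the end of the supersingular count -/

section End

variable {k : Type*} [Field k] {Γ : Type*} [Group Γ] (rb : Γ →* Matrix (Fin 2) (Fin 2) k)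

/-- a cocycle vanishing at `φ`, on `I` and on the elements of `U` vanishes on `⟨φ⟩ · I · U` -/
theorem s56fz_vanish (f : Γ → Matrix (Fin 2) (Fin 2) k)
    (hf : ∀ σ τ, f (σ * τ) = f σ + s56fz_ad rb σ (f τ)) (φ : Γ) (hφ : f φ = 0)
    (i : Γ) (hi : f i = 0) (s : Γ) (hs : f s = 0) (n : ℕ) : f (φ ^ n * i * s) = 0 := by
  have h1 : f 1 = 0 := by
    have := hf 1 1
    rw [mul_one, s56fz_ad_one] at this
    exact left_eq_add.mp this
  have hpow : f (φ ^ n) = 0 := by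
    induction n with
    | zero => rw [pow_zero]; exact h1
    | succ n ih => rw [pow_succ, hf, ih, hφ, s56fz_ad_zero, add_zero]
  rw [hf, hf, hpow, hi, hs, s56fz_ad_zero, s56fz_ad_zero, add_zero, add_zero]

/-- **F-SSEND.**  A trace-zero cocycle vanishing on `Gt` is a coboundary on `D`. -/
theorem s56fz_end (h2 : (2 : k) ≠ 0) (Gt I D : Subgroup Γ) (hGtI : Gt ≤ I)
    (hidx : (((Gt.subgroupOf I).index : ℕ) : k) ≠ 0)
    (hGt : ∀ s ∈ Gt, rb s = 1)
    (s₀ : Γ) (hs₀ : s₀ ∈ I)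
    (hs₀d : rb s₀ 0 1 = 0 ∧ rb s₀ 1 0 = 0 ∧ rb s₀ 0 0 ≠ rb s₀ 1 1)
    (hdiag : ∀ i ∈ I, rb i 0 1 = 0 ∧ rb i 1 0 = 0)
    (φ : Γ) (hφ : rb φ 0 0 = 0 ∧ rb φ 1 1 = 0) (hφs : φ⁻¹ * s₀ * φ ∈ I)
    (c : Γ → Matrix (Fin 2) (Fin 2) k) (htr : ∀ σ, (c σ).trace = 0)
    (hc : ∀ σ τ, c (σ * τ) = c σ + rb σ * c τ * rb σ⁻¹)
    (hcGt : ∀ s ∈ Gt, c s = 0)
    (hgen : ∀ d ∈ D, ∃ n : ℕ, ∃ i ∈ I, ∃ s : Γ, rb s = 1 ∧ c s = 0 ∧ d = φ ^ n * i * s) :
    ∃ m : Matrix (Fin 2) (Fin 2) k, m.trace = 0 ∧ ∀ σ ∈ D, c σ = rb σ * m * rb σ⁻¹ - m := by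
  have hc' : ∀ σ τ, c (σ * τ) = c σ + s56fz_ad rb σ (c τ) := hc
  -- step 1: `c` is a coboundary on `I` (inflated from the `p'`-group `I / Gt`)
  haveI : (Gt.subgroupOf I).FiniteIndex := ⟨fun h0 => hidx (by rw [h0, Nat.cast_zero])⟩
  obtain ⟨m₀, hm₀⟩ := s56hv_res_inj (s56fz_rep rb I) (Gt.subgroupOf I) hidx
    (fun σ => c (σ : Γ)) (fun σ τ => hc' σ τ)
    ⟨0, fun h hh => by
      rw [Subgroup.mem_subgroupOf] at hh
      rw [hcGt _ hh, map_zero, sub_zero]⟩
  have hm₀' : ∀ i ∈ I, c i = s56fz_ad rb i m₀ - m₀ := fun i hi => hm₀ ⟨i, hi⟩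
  -- step 2: the normalised cocycle `c₁ := c - ∂m₀`
  obtain ⟨c₁, hc₁def⟩ : ∃ c₁ : Γ → Matrix (Fin 2) (Fin 2) k,
      c₁ = fun σ => c σ - (s56fz_ad rb σ m₀ - m₀) := ⟨_, rfl⟩
  have hc₁ : ∀ σ τ, c₁ (σ * τ) = c₁ σ + s56fz_ad rb σ (c₁ τ) := by
    intro σ τ
    simp only [hc₁def]
    rw [hc', s56fz_ad_mul, s56fz_ad_sub, s56fz_ad_sub]
    abel
  have hc₁I : ∀ i ∈ I, c₁ i = 0 := by
    intro i hi
    simp only [hc₁def]
    rw [hm₀' i hi, sub_self]
  have hc₁tr : ∀ σ, (c₁ σ).trace = 0 := by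
    intro σ
    simp only [hc₁def]
    rw [Matrix.trace_sub, Matrix.trace_sub, s56fz_ad_trace, htr, sub_self, sub_zero]
  have hc₁U : ∀ s, rb s = 1 → c s = 0 → c₁ s = 0 := by
    intro s hs1 hs0
    simp only [hc₁def]
    rw [hs0, s56fz_ad_of_one rb hs1, sub_self, sub_zero]
  -- step 3: `c₁ φ` is a multiple of `h`
  have hfix : s56fz_ad rb s₀ (c₁ φ) = c₁ φ := by
    have e1 : c₁ (s₀ * φ) = s56fz_ad rb s₀ (c₁ φ) := by
      rw [hc₁, hc₁I s₀ hs₀, zero_add]
    have e2 : c₁ (s₀ * φ) = c₁ φ := by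
      have : s₀ * φ = φ * (φ⁻¹ * s₀ * φ) := by group
      rw [this, hc₁, hc₁I _ hφs, s56fz_ad_zero, add_zero]
    rw [← e1, e2]
  obtain ⟨x01, x10⟩ := s56fz_diag_of_fixed rb hs₀d (c₁ φ) hfix
  have x11 : c₁ φ 1 1 = -(c₁ φ 0 0) := by
    have := hc₁tr φ
    rw [Matrix.trace_fin_two] at this
    linear_combination this
  obtain ⟨t, ht⟩ : ∃ t : k, t = c₁ φ 0 0 := ⟨_, rfl⟩
  have hXh : c₁ φ = t • (s56fz_h : Matrix (Fin 2) (Fin 2) k) := by
    ext i j
    fin_cases i <;> fin_cases j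
    · simp [s56fz_h, ht]
    · simp [s56fz_h, x01]
    · simp [s56fz_h, x10]
    · simp [s56fz_h, x11, ht]
  -- step 4: subtract the coboundary of `μ h`, `μ = -t / 2`
  obtain ⟨μ, hμ⟩ : ∃ μ : k, 2 * μ = -t := ⟨-t / 2, by field_simp⟩
  obtain ⟨f, hfdef⟩ : ∃ f : Γ → Matrix (Fin 2) (Fin 2) k,
      f = fun σ => c₁ σ - (s56fz_ad rb σ (μ • s56fz_h) - μ • s56fz_h) := ⟨_, rfl⟩
  have hf : ∀ σ τ, f (σ * τ) = f σ + s56fz_ad rb σ (f τ) := by
    intro σ τ
    simp only [hfdef]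
    rw [hc₁, s56fz_ad_mul, s56fz_ad_sub, s56fz_ad_sub]
    abel
  have hfφ : f φ = 0 := by
    simp only [hfdef]
    rw [hXh, s56fz_ad_smul, s56fz_ad_h_of_antidiag rb hφ, smul_neg,
      show t = -(2 * μ) by linear_combination hμ]
    module
  have hfI : ∀ i ∈ I, f i = 0 := by
    intro i hi
    simp only [hfdef]
    rw [hc₁I i hi, s56fz_ad_smul, s56fz_ad_h_of_diag rb (hdiag i hi), sub_self, sub_zero]
  have hfU : ∀ s, rb s = 1 → c s = 0 → f s = 0 := by
    intro s hs1 hs0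
    simp only [hfdef]
    rw [hc₁U s hs1 hs0, s56fz_ad_of_one rb hs1, sub_self, sub_zero]
  have hfD : ∀ d ∈ D, f d = 0 := by
    intro d hd
    obtain ⟨n, i, hi, s, hs1, hs0, rfl⟩ := hgen d hd
    exact s56fz_vanish rb f hf φ hfφ i (hfI i hi) s (hfU s hs1 hs0) n
  -- step 5: assemble and fix the trace
  obtain ⟨m₁, hm₁def⟩ : ∃ m₁ : Matrix (Fin 2) (Fin 2) k, m₁ = m₀ + μ • s56fz_h := ⟨_, rfl⟩
  have hcob : ∀ d ∈ D, c d = s56fz_ad rb d m₁ - m₁ := by
    intro d hd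
    have h0 := hfD d hd
    simp only [hfdef, hc₁def] at h0
    rw [hm₁def, s56fz_ad_add]
    have : c d = (s56fz_ad rb d m₀ - m₀) + (s56fz_ad rb d (μ • s56fz_h) - μ • s56fz_h) := by
      rw [sub_sub, sub_eq_zero] at h0
      exact h0
    rw [this]
    abel
  obtain ⟨u, hu⟩ : ∃ u : k, 2 * u = m₁.trace := ⟨m₁.trace / 2, by field_simp⟩
  refine ⟨m₁ - u • 1, ?_, fun d hd => ?_⟩
  · rw [Matrix.trace_sub, Matrix.trace_smul, Matrix.trace_one, Fintype.card_fin, smul_eq_mul,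
      ← hu]
    push_cast
    ring
  · rw [hcob d hd]
    show s56fz_ad rb d m₁ - m₁ = s56fz_ad rb d (m₁ - u • 1) - (m₁ - u • 1)
    rw [s56fz_ad_sub, s56fz_ad_smul, s56fz_ad_id]
    abel

end End

end Fermat.Agent.S56
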