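/-
S56 / [LOC-p-FLAT] / cell F-SSEND (helper10, prefix `s56fz_`): `s56fz_end` in the vocabulary of
`Asm/Seams.lean` (`rb : FramedResidual k`, `c ∈ s56a_Z rb`, conclusion `c ∈ s56a_cobOn rb D`).
-/
import Mathlib
import Fermat.Agent.S56.Flat.SSEnd
import Fermat.Agent.S56.Asm.Seams

set_option autoImplicit false
set_option linter.style.haveILetI false
set_option linter.unusedVariables false

namespace Fermat.Agent.S56

open Matrix Module Fermat.Agent.S53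

local notation "GQ" => (AlgebraicClosure ℚ ≃ₐ[ℚ] AlgebraicClosure ℚ)

/-- **F-SSEND** for `G_ℚ`: a finite-level trace-zero cocycle of `ad rb` vanishing on `Gt` is a
coboundary on `D`. -/
theorem s56fz_cobOn {k : Type} [Field k] (h2 : (2 : k) ≠ 0) (rb : FramedResidual k)
    (Gt I D : Subgroup GQ) (hGtI : Gt ≤ I)
    (hidx : (((Gt.subgroupOf I).index : ℕ) : k) ≠ 0)
    (hGt : ∀ s ∈ Gt, rb s = 1)
    (s₀ : GQ) (hs₀ : s₀ ∈ I)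
    (hs₀d : rb s₀ 0 1 = 0 ∧ rb s₀ 1 0 = 0 ∧ rb s₀ 0 0 ≠ rb s₀ 1 1)
    (hdiag : ∀ i ∈ I, rb i 0 1 = 0 ∧ rb i 1 0 = 0)
    (φ : GQ) (hφ : rb φ 0 0 = 0 ∧ rb φ 1 1 = 0) (hφs : φ⁻¹ * s₀ * φ ∈ I)
    (hgen : ∀ L : IntermediateField ℚ (AlgebraicClosure ℚ), FiniteDimensional ℚ L →
      ∀ d ∈ D, ∃ n : ℕ, ∃ i ∈ I, ∃ s ∈ L.fixingSubgroup, d = φ ^ n * i * s)
    (c : GQ → Matrix (Fin 2) (Fin 2) k) (hcZ : c ∈ s56a_Z rb) (hcGt : ∀ s ∈ Gt, c s = 0) :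
    c ∈ s56a_cobOn rb D := by
  obtain ⟨htr, hc, Lc, hLc, hlev⟩ := (s56a_mem_Z rb c).1 hcZ
  obtain ⟨Lr, hLr, hrb⟩ := rb.finiteLevel
  haveI := hLc
  haveI := hLr
  have hc1 : c 1 = 0 := by
    have := hc 1 1
    rw [mul_one, rb.map_one, inv_one, rb.map_one, Matrix.one_mul, Matrix.mul_one] at this
    exact left_eq_add.mp this
  rw [s56a_mem_cobOn]
  refine s56fz_end rb.toMonoidHom h2 Gt I D hGtI hidx hGt s₀ hs₀ hs₀d hdiag φ hφ hφs c htr hc hcGt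
    (fun d hd => ?_)
  obtain ⟨n, i, hi, s, hs, rfl⟩ := hgen (Lc ⊔ Lr) (IntermediateField.finiteDimensional_sup Lc Lr) d hd
  have hsfix : ∀ x ∈ Lc ⊔ Lr, s x = x := fun x hx =>
    (IntermediateField.mem_fixingSubgroup_iff (Lc ⊔ Lr) s).1 hs x hx
  refine ⟨n, i, hi, s, hrb s (fun x hx => hsfix x ((le_sup_right : Lr ≤ Lc ⊔ Lr) hx)), ?_, rfl⟩
  have := hlev 1 s (fun x hx => hsfix x ((le_sup_left : Lc ≤ Lc ⊔ Lr) hx))
  rw [one_mul, hc1] at this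
  exact this

end Fermat.Agent.S56
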