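/-
Project S56, node [LOC-p-FLAT], supersingular case (helper27).  Prefix `s56fy_`.
TRANSPORT OF RADICALS AND NORMAL FORMS, AND THE TYPE ANALYSIS.

* `s56fy_isRad_mul/_pow/_inv/_one` : radicals form a group, characters add;
* `s56fy_isRad_smul`  : `τ • w` is a radical with character `s ↦ ω_τ · a (τ⁻¹ s τ)`;
* `s56fy_isRad_map`   : the same for a ring automorphism `Φ` of `L` (a Frobenius);
* `s56fy_nf_map`      : `NF w j x ⟹ NF (Φ w) j (u^j Φ(x))` for a ring automorphism `Φ` of `L`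
                        preserving `A` and `L^T` with `Φ ϖt = u ϖt`;
* `s56fy_nf_pow`, `s56fy_nf_trivial`;
* `s56fy_no_level`    : a TRIVIAL radical has no level (from `s56fs_Uniq_stmt`);
* `s56fy_type`        : THE TYPE ANALYSIS: if the character `a` of `w` satisfies
                        `a^{τ²} + n a = t a^{τ}` (conjugates by `τ`), and `NF w j x` with `x` a unit at
                        a valid level `j`, then `c² + n - t c` is not a unit, `c := ω'_τ ψ_τ^j`.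
-/
import Mathlib
import Fermat.Agent.S56.Flat.SSDefs

set_option autoImplicit false
set_option linter.unusedSectionVars false

noncomputable section

namespace Fermat.Agent.S56

open Fermat.Agent.MZ

section Rad

variable {L : Type} [Field L] {Γ : Type} [Group Γ] [MulSemiringAction Γ L] {p : ℕ} [NeZero p]
  {T : Subgroup Γ} {ζ : L}

/-- exponents of `ζ` only matter modulo `p`. -/
theorem s56fy_pow_val (hζ : ζ ^ p = 1) (n : ℕ) : ζ ^ ((n : ZMod p)).val = ζ ^ n := by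
  rw [ZMod.val_natCast]
  conv_rhs => rw [← Nat.div_add_mod n p, pow_add, pow_mul, hζ, one_pow, one_mul]

theorem s56fy_pow_val_add (hζ : ζ ^ p = 1) (a b : ZMod p) :
    ζ ^ (a + b).val = ζ ^ a.val * ζ ^ b.val := by
  rw [← pow_add, ← s56fy_pow_val hζ (a.val + b.val)]
  congr 2
  rw [Nat.cast_add, ZMod.natCast_zmod_val, ZMod.natCast_zmod_val]

theorem s56fy_pow_val_mul (hζ : ζ ^ p = 1) (n : ℕ) (a : ZMod p) :
    ζ ^ ((n : ZMod p) * a).val = (ζ ^ a.val) ^ n := by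
  rw [← pow_mul, ← s56fy_pow_val hζ (a.val * n)]
  congr 2
  rw [Nat.cast_mul, ZMod.natCast_zmod_val, mul_comm]

theorem s56fy_isRad_one : s56fs_IsRad p T ζ (1 : L) (fun _ => 0) :=
  ⟨one_ne_zero, fun s _ => by rw [smul_one, ZMod.val_zero, pow_zero, one_mul]⟩

theorem s56fy_isRad_mul (hζ : ζ ^ p = 1) {w w' : L} {a a' : Γ → ZMod p}
    (h : s56fs_IsRad p T ζ w a) (h' : s56fs_IsRad p T ζ w' a') :
    s56fs_IsRad p T ζ (w * w') (fun s => a s + a' s) := by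
  refine ⟨mul_ne_zero h.1 h'.1, fun s hs => ?_⟩
  rw [smul_mul', h.2 s hs, h'.2 s hs, s56fy_pow_val_add hζ]
  ring

theorem s56fy_isRad_pow (hζ : ζ ^ p = 1) {w : L} {a : Γ → ZMod p}
    (h : s56fs_IsRad p T ζ w a) (n : ℕ) :
    s56fs_IsRad p T ζ (w ^ n) (fun s => (n : ZMod p) * a s) := by
  refine ⟨pow_ne_zero _ h.1, fun s hs => ?_⟩
  rw [smul_pow', h.2 s hs, s56fy_pow_val_mul hζ, mul_pow]

theorem s56fy_isRad_inv (hζ : ζ ^ p = 1) {w : L} {a : Γ → ZMod p}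
    (h : s56fs_IsRad p T ζ w a) : s56fs_IsRad p T ζ w⁻¹ (fun s => - a s) := by
  refine ⟨inv_ne_zero h.1, fun s hs => ?_⟩
  rw [smul_inv'', h.2 s hs, mul_inv]
  congr 1
  have h1 : ζ ^ (- a s).val * ζ ^ (a s).val = 1 := by
    rw [← s56fy_pow_val_add hζ, neg_add_cancel, ZMod.val_zero, pow_zero]
  exact (eq_inv_of_mul_eq_one_left h1).symm

/-- a radical with trivial character is `T`-fixed. -/
theorem s56fy_fixed_of_trivial {w : L} {a : Γ → ZMod p} (h : s56fs_IsRad p T ζ w a)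
    (ha : ∀ s ∈ T, a s = 0) : ∀ s ∈ T, s • w = w := fun s hs => by
  rw [h.2 s hs, ha s hs, ZMod.val_zero, pow_zero, one_mul]

/-- the character of a radical only matters on `T`. -/
theorem s56fy_isRad_congr {w : L} {a a' : Γ → ZMod p} (h : s56fs_IsRad p T ζ w a)
    (haa : ∀ s ∈ T, a s = a' s) : s56fs_IsRad p T ζ w a' :=
  ⟨h.1, fun s hs => by rw [h.2 s hs, haa s hs]⟩

/-- `τ • w` is a radical, with character `s ↦ ω · a (τ⁻¹ s τ)` if `τ ζ = ζ ^ ω`. -/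
theorem s56fy_isRad_smul (hζ : ζ ^ p = 1) {w : L} {a : Γ → ZMod p}
    (h : s56fs_IsRad p T ζ w a) (τ : Γ) (hτT : ∀ s ∈ T, τ⁻¹ * s * τ ∈ T) (ω : ℕ)
    (hω : τ • ζ = ζ ^ ω) :
    s56fs_IsRad p T ζ (τ • w) (fun s => (ω : ZMod p) * a (τ⁻¹ * s * τ)) := by
  refine ⟨by rw [Ne, smul_eq_zero_iff_eq]; exact h.1, fun s hs => ?_⟩
  have h1 : s • τ • w = τ • ((τ⁻¹ * s * τ) • w) := by
    rw [← mul_smul, ← mul_smul]
    congr 1
    group
  rw [h1, h.2 _ (hτT s hs), smul_mul', smul_pow', hω, s56fy_pow_val_mul hζ, ← pow_mul, ← pow_mul,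
    mul_comm ω]

end Rad

section Map

variable {O : Type} [CommRing O] {L : Type} [Field L] [Algebra O L] {A : ValuationSubring L}
  {Γ : Type} [Group Γ] [MulSemiringAction Γ L] {p : ℕ} {T : Subgroup Γ}

/-- a ring automorphism preserving `A` preserves `≤` of valuations. -/
theorem s56fy_val_le (Φ : L ≃+* L) (hΦ : ∀ y, y ∈ A → Φ y ∈ A) {a b : L}
    (h : A.valuation a ≤ A.valuation b) : A.valuation (Φ a) ≤ A.valuation (Φ b) := by
  by_cases hb : b = 0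
  · rw [hb, map_zero, le_zero_iff, map_eq_zero] at h
    rw [h, hb]
  · have hvb : A.valuation b ≠ 0 := (map_ne_zero _).mpr hb
    have hq : a / b ∈ A := by
      rw [← A.valuation_le_one_iff, map_div₀]
      exact (div_le_one₀ (zero_lt_iff.mpr hvb)).mpr h
    have h2 := hΦ _ hq
    rw [map_div₀, ← A.valuation_le_one_iff, map_div₀] at h2
    have hΦb : A.valuation (Φ b) ≠ 0 := (map_ne_zero _).mpr ((map_ne_zero Φ).mpr hb)
    exact (div_le_one₀ (zero_lt_iff.mpr hΦb)).mp h2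

/-- a ring automorphism preserving `A` (in both directions) preserves `<` of valuations. -/
theorem s56fy_val_lt (Φ : L ≃+* L) (hΦ : ∀ y, y ∈ A ↔ Φ y ∈ A) {a b : L}
    (h : A.valuation a < A.valuation b) : A.valuation (Φ a) < A.valuation (Φ b) := by
  by_contra hn
  rw [not_lt] at hn
  have h1 := s56fy_val_le (A := A) Φ.symm (fun y hy => by
    rw [hΦ, RingEquiv.apply_symm_apply]
    exact hy) hn
  rw [RingEquiv.symm_apply_apply, RingEquiv.symm_apply_apply] at h1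
  exact absurd h (not_lt.mpr h1)

theorem s56fy_val_eq (Φ : L ≃+* L) (hΦ : ∀ y, y ∈ A ↔ Φ y ∈ A) {a b : L}
    (h : A.valuation a = A.valuation b) : A.valuation (Φ a) = A.valuation (Φ b) :=
  le_antisymm (s56fy_val_le Φ (fun y hy => (hΦ y).mp hy) h.le)
    (s56fy_val_le Φ (fun y hy => (hΦ y).mp hy) h.ge)

/-- **transport of normal forms** along a ring automorphism `Φ` of `L` preserving `A` and `L^T`,
with `Φ ϖt = u ϖt` (`u` a unit of `O`) and `Φ x = x'` on `O`. -/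
theorem s56fy_nf_map (Φ : L ≃+* L) (hΦ : ∀ y, y ∈ A ↔ Φ y ∈ A)
    (hΦT : ∀ z : L, (∀ s ∈ T, s • z = z) → ∀ s ∈ T, s • Φ z = Φ z)
    {ϖt : L} {u : O} (hu : A.valuation (algebraMap O L u) = 1)
    (hϖ : Φ ϖt = algebraMap O L u * ϖt) {x x' : O}
    (hx : Φ (algebraMap O L x) = algebraMap O L x') {w : L} {j : ℕ}
    (h : s56fs_NF A p T ϖt w j x) : s56fs_NF A p T ϖt (Φ w) j (u ^ j * x') := by
  obtain ⟨z, hz0, hzT, hv⟩ := h
  refine ⟨Φ z, (map_ne_zero Φ).mpr hz0, hΦT z hzT, ?_⟩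
  have hv' : A.valuation ((w * z) ^ p - 1 - algebraMap O L x * ϖt ^ j) < A.valuation (ϖt ^ j) := by
    rwa [map_pow]
  have h1 := s56fy_val_lt Φ hΦ hv'
  have e1 : Φ ((w * z) ^ p - 1 - algebraMap O L x * ϖt ^ j) =
      (Φ w * Φ z) ^ p - 1 - algebraMap O L (u ^ j * x') * ϖt ^ j := by
    rw [map_sub, map_sub, map_pow, map_mul, map_one, map_mul, map_pow, hϖ, hx, map_mul (algebraMap O L),
      map_pow (algebraMap O L)]
    ring
  rw [e1] at h1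
  refine lt_of_lt_of_eq h1 ?_
  rw [map_pow Φ, hϖ, mul_pow, map_mul, map_pow, hu, one_pow, one_mul, map_pow]

end Map

section RadMap

variable {L : Type} [Field L] {Γ : Type} [Group Γ] [MulSemiringAction Γ L] {p : ℕ} [NeZero p]
  {T : Subgroup Γ} {ζ : L}

/-- transport of radicals along a ring automorphism `Φ` of `L` normalising the action of `Γ`:
`Φ (σ • y) = c σ • Φ y`, `c' : T → T` inverse to `c`, `Φ ζ = ζ ^ ω`. -/
theorem s56fy_isRad_map (hζ : ζ ^ p = 1) {w : L} {a : Γ → ZMod p}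
    (h : s56fs_IsRad p T ζ w a) (Φ : L ≃+* L) (c c' : Γ → Γ)
    (hc : ∀ (σ : Γ) (y : L), Φ (σ • y) = c σ • Φ y)
    (hc' : ∀ s ∈ T, c' s ∈ T ∧ c (c' s) = s) (ω : ℕ) (hω : Φ ζ = ζ ^ ω) :
    s56fs_IsRad p T ζ (Φ w) (fun s => (ω : ZMod p) * a (c' s)) := by
  refine ⟨(map_ne_zero Φ).mpr h.1, fun s hs => ?_⟩
  obtain ⟨h1, h2⟩ := hc' s hs
  have h3 : s • Φ w = Φ (c' s • w) := by rw [hc, h2]
  rw [h3, h.2 _ h1, map_mul, map_pow, hω, s56fy_pow_val_mul hζ, ← pow_mul, ← pow_mul, mul_comm ω]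

end RadMap

section Levels

variable {O : Type} [CommRing O] {L : Type} [Field L] [Algebra O L] {A : ValuationSubring L}
  {Γ : Type} [Group Γ] [MulSemiringAction Γ L] {p : ℕ} {T : Subgroup Γ} {ϖt ζ : L}

/-- a `T`-fixed element has the normal form `1 + 0 · ϖt ^ j` at every level. -/
theorem s56fy_nf_trivial (hϖ0 : ϖt ≠ 0) {w : L} (hw : w ≠ 0) (hwT : ∀ s ∈ T, s • w = w) (j : ℕ) :
    s56fs_NF A p T ϖt w j (0 : O) := by
  refine ⟨w⁻¹, inv_ne_zero hw, fun s hs => by rw [smul_inv'', hwT s hs], ?_⟩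
  rw [mul_inv_cancel₀ hw, one_pow, sub_self, map_zero, zero_mul, sub_zero, map_zero]
  exact pow_pos (zero_lt_iff.mpr ((map_ne_zero _).mpr hϖ0)) j

theorem s56fy_nf_pow (hϖ0 : ϖt ≠ 0) (hAdd : s56fs_Add_stmt p O L A Γ T ϖt) {w : L} {j : ℕ} {x : O}
    (hj : 1 ≤ j) (h : s56fs_NF A p T ϖt w j x) (n : ℕ) :
    s56fs_NF A p T ϖt (w ^ n) j ((n : O) * x) := by
  induction n with
  | zero =>
    rw [pow_zero, Nat.cast_zero, zero_mul]
    exact s56fy_nf_trivial hϖ0 one_ne_zero (fun s _ => smul_one s) j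
  | succ n ih =>
    have := hAdd.1 _ _ _ _ _ hj ih h
    rw [pow_succ]
    have e : ((n + 1 : ℕ) : O) * x = (n : O) * x + x := by push_cast; ring
    rw [e]
    exact this

/-- **a trivial radical has no level.** -/
theorem s56fy_no_level [NeZero p] (hϖ0 : ϖt ≠ 0) (hU : s56fs_Uniq_stmt p O L A Γ T ϖt ζ)
    {W : L} {aW : Γ → ZMod p} (hW : s56fs_IsRad p T ζ W aW) (haW : ∀ s ∈ T, aW s = 0)
    {j : ℕ} {y : O} (hNF : s56fs_NF A p T ϖt W j y) (hj1 : 1 ≤ j) (hj2 : j < p ^ 2 + p)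
    (hj3 : ¬ p ∣ j) : ¬ IsUnit y := by
  intro hy
  have h0 := s56fy_nf_trivial (A := A) (O := O) (p := p) hϖ0 hW.1
    (s56fy_fixed_of_trivial hW haW) j
  have := (hU.1 W aW hW j j 0 y h0 hNF hy hj1 hj2 hj3 le_rfl).2
  rw [zero_sub, IsUnit.neg_iff] at this
  exact this hy

/-- **THE TYPE ANALYSIS.**  `τ ∈ Γ` with `τ ϖt = ψ ϖt`, `τ ζ = ζ ^ ω`, `ω ω' ≡ 1 mod p`; the
character `a` of `w` satisfies `a^{τ²} + n a = t a^{τ}` on `T` (where `a^{τ} s = a (τ⁻¹ s τ)`).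
If `NF w j x` at a valid level `j` with a unit `x`, then `c² + n - t c` is NOT a unit,
`c := ω' ψ ^ j`. -/
theorem s56fy_type [NeZero p] (hζ : ζ ^ p = 1) (hϖ0 : ϖt ≠ 0)
    (hU : s56fs_Uniq_stmt p O L A Γ T ϖt ζ) (hAdd : s56fs_Add_stmt p O L A Γ T ϖt)
    (hA : ∀ (σ : Γ) (y : L), y ∈ A ↔ σ • y ∈ A)
    (τ : Γ) (hτT : ∀ s ∈ T, τ⁻¹ * s * τ ∈ T)
    (ψ : O) (hψ : τ • ϖt = algebraMap O L ψ * ϖt) (hψv : A.valuation (algebraMap O L ψ) = 1)
    (hτO : ∀ x : O, τ • algebraMap O L x = algebraMap O L x)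
    (ω ω' : ℕ) (hω : τ • ζ = ζ ^ ω) (hωω' : ((ω * ω' : ℕ) : ZMod p) = 1)
    (t n : ℕ) {w : L} {a : Γ → ZMod p} (hw : s56fs_IsRad p T ζ w a)
    (hrel : ∀ s ∈ T, a (τ⁻¹ * (τ⁻¹ * s * τ) * τ) + (n : ZMod p) * a s =
      (t : ZMod p) * a (τ⁻¹ * s * τ))
    {j : ℕ} {x : O} (hNF : s56fs_NF A p T ϖt w j x) (hx : IsUnit x)
    (hj1 : 1 ≤ j) (hj2 : j < p ^ 2 + p) (hj3 : ¬ p ∣ j) :
    ¬ IsUnit (((ω' : O) * ψ ^ j) ^ 2 + (n : O) - (t : O) * ((ω' : O) * ψ ^ j)) := by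
  -- the ring automorphism `τ •`
  set Φ : L ≃+* L := MulSemiringAction.toRingEquiv Γ L τ with hΦdef
  have hΦ : ∀ y : L, Φ y = τ • y := fun y => rfl
  have hΦT : ∀ z : L, (∀ s ∈ T, s • z = z) → ∀ s ∈ T, s • Φ z = Φ z := by
    intro z hz s hs
    rw [hΦ]
    have h1 : s • τ • z = τ • ((τ⁻¹ * s * τ) • z) := by
      rw [← mul_smul, ← mul_smul]
      congr 1
      group
    rw [h1, hz _ (hτT s hs)]
  have hmap : ∀ {w' : L} {y : O}, s56fs_NF A p T ϖt w' j y →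
      s56fs_NF A p T ϖt (τ • w') j (ψ ^ j * y) := fun h =>
    s56fy_nf_map Φ (hA τ) hΦT hψv hψ (hτO _) h
  -- the conjugated radicals `w₁ := (τ w)^ω'`, `w₂ := (τ w₁)^ω'`
  have hr1 := s56fy_isRad_pow hζ (s56fy_isRad_smul hζ hw τ hτT ω hω) ω'
  have hn1 := s56fy_nf_pow hϖ0 hAdd hj1 (hmap hNF) ω'
  have hr2 := s56fy_isRad_pow hζ (s56fy_isRad_smul hζ hr1 τ hτT ω hω) ω'
  have hn2 := s56fy_nf_pow hϖ0 hAdd hj1 (hmap hn1) ω'
  -- `W := w₂ * w^n * (w₁^t)⁻¹`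
  have hrW := s56fy_isRad_mul hζ (s56fy_isRad_mul hζ hr2 (s56fy_isRad_pow hζ hw n))
    (s56fy_isRad_inv hζ (s56fy_isRad_pow hζ hr1 t))
  have hnW := hAdd.1 _ _ _ _ _ hj1 (hAdd.1 _ _ _ _ _ hj1 hn2 (s56fy_nf_pow hϖ0 hAdd hj1 hNF n))
    (hAdd.2 _ _ _ hj1 (pow_ne_zero _ hr1.1) (s56fy_nf_pow hϖ0 hAdd hj1 hn1 t))
  have hωω'' : (ω' : ZMod p) * (ω : ZMod p) = 1 := by
    rw [← hωω']
    push_cast
    ring
  have htriv : ∀ s ∈ T, (ω' : ZMod p) * ((ω : ZMod p) * ((ω' : ZMod p) * ((ω : ZMod p) *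
      a (τ⁻¹ * (τ⁻¹ * s * τ) * τ)))) + (n : ZMod p) * a s +
      -((t : ZMod p) * ((ω' : ZMod p) * ((ω : ZMod p) * a (τ⁻¹ * s * τ)))) = 0 := by
    intro s hs
    have e1 : (ω' : ZMod p) * ((ω : ZMod p) * ((ω' : ZMod p) * ((ω : ZMod p) *
        a (τ⁻¹ * (τ⁻¹ * s * τ) * τ)))) =
        ((ω' : ZMod p) * (ω : ZMod p)) * (((ω' : ZMod p) * (ω : ZMod p)) *
          a (τ⁻¹ * (τ⁻¹ * s * τ) * τ)) := by ring
    have e2 : (t : ZMod p) * ((ω' : ZMod p) * ((ω : ZMod p) * a (τ⁻¹ * s * τ))) =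
        ((ω' : ZMod p) * (ω : ZMod p)) * ((t : ZMod p) * a (τ⁻¹ * s * τ)) := by ring
    rw [e1, e2, hωω'', one_mul, one_mul, one_mul, hrel s hs]
    ring
  have hlev := s56fy_no_level hϖ0 hU hrW htriv hnW hj1 hj2 hj3
  intro hu
  apply hlev
  have e : (ω' : O) * (ψ ^ j * ((ω' : O) * (ψ ^ j * x))) + (n : O) * x +
      -((t : O) * ((ω' : O) * (ψ ^ j * x))) =
      (((ω' : O) * ψ ^ j) ^ 2 + (n : O) - (t : O) * ((ω' : O) * ψ ^ j)) * x := by ring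
  rw [e]
  exact hu.mul hx

end Levels

end Fermat.Agent.S56
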