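/-
Project S56, node [LOC-p-FLAT], supersingular case (helper27).  Prefix `s56fn_`.
THE ABSTRACT COUNT: a `k`-space `𝔅` of homomorphisms `B : T → k` all of whose characters
`ℓ ∘ B` (`ℓ : k → F_p`) have Kummer radicals with a normal form at ONE level `J`, which is
stable under an inertia element `τ₀` (eigenvalue `g`) and a "Frobenius" `Ψ` (acting trivially on
`𝔅`, as `x ↦ x^(p²)` on residues), has `k`-dimension `≤ 1`: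

  `s56fn_main : ∀ B B' ∈ 𝔅, ∃ (κ, κ') ≠ 0, κ B + κ' B' = 0`.

`Λ (B, ℓ)` := the residue of the leading coefficient of a radical of `ℓ ∘ B` at level `J`
(well defined by `s56fs_Uniq_stmt`, biadditive by `s56fs_Add_stmt`, injective by `s56fs_KNF_stmt`
+ the hypothesis `hbig` that no character of `𝔅` has a level above `J`); then helper19's
`s56fc_lang` (`Flat/Lang.lean`) with `m = 2`, `c₀ = 1`, `η = 1`.
-/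
import Mathlib
import Fermat.Agent.S56.Flat.SSType
import Fermat.Agent.S56.Flat.Lang

set_option autoImplicit false
set_option linter.unusedSectionVars false

noncomputable section

namespace Fermat.Agent.S56

open Fermat.Agent.MZ

section Count

variable {p : ℕ} [Fact p.Prime] {O : Type} [CommRing O]
  {L : Type} [Field L] [Algebra O L] {A : ValuationSubring L}
  {Γ : Type} [Group Γ] [MulSemiringAction Γ L] {T : Subgroup Γ} {ϖt ζ : L}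
  {k : Type} [Field k] [Algebra (ZMod p) k]

/-- the character `ℓ ∘ B` has a radical with normal form `1 + x ϖt ^ J`. -/
def s56fn_HasNF (A : ValuationSubring L) (T : Subgroup Γ) (ϖt ζ : L) (J : ℕ) (B : ↥T → k)
    (ℓ : k →ₗ[ZMod p] ZMod p) (x : O) : Prop :=
  ∃ (w : L) (a : Γ → ZMod p), (∀ s : ↥T, a s = ℓ (B s)) ∧ s56fs_IsRad p T ζ w a ∧
    s56fs_NF A p T ϖt w J x

variable {J : ℕ}

theorem s56fn_hasNF_add₁ (hζ : ζ ^ p = 1) (hAdd : s56fs_Add_stmt p O L A Γ T ϖt) (hJ : 1 ≤ J)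
    {B B' : ↥T → k} {ℓ : k →ₗ[ZMod p] ZMod p} {x x' : O}
    (h : s56fn_HasNF A T ϖt ζ J B ℓ x) (h' : s56fn_HasNF A T ϖt ζ J B' ℓ x') :
    s56fn_HasNF A T ϖt ζ J (B + B') ℓ (x + x') := by
  obtain ⟨w, a, ha, hw, hn⟩ := h
  obtain ⟨w', a', ha', hw', hn'⟩ := h'
  refine ⟨w * w', fun s => a s + a' s, fun s => ?_, s56fy_isRad_mul hζ hw hw',
    hAdd.1 _ _ _ _ _ hJ hn hn'⟩
  show a s + a' s = ℓ ((B + B') s)
  rw [ha, ha', Pi.add_apply, map_add]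

theorem s56fn_hasNF_add₂ (hζ : ζ ^ p = 1) (hAdd : s56fs_Add_stmt p O L A Γ T ϖt) (hJ : 1 ≤ J)
    {B : ↥T → k} {ℓ ℓ' : k →ₗ[ZMod p] ZMod p} {x x' : O}
    (h : s56fn_HasNF A T ϖt ζ J B ℓ x) (h' : s56fn_HasNF A T ϖt ζ J B ℓ' x') :
    s56fn_HasNF A T ϖt ζ J B (ℓ + ℓ') (x + x') := by
  obtain ⟨w, a, ha, hw, hn⟩ := h
  obtain ⟨w', a', ha', hw', hn'⟩ := h'
  refine ⟨w * w', fun s => a s + a' s, fun s => ?_, s56fy_isRad_mul hζ hw hw',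
    hAdd.1 _ _ _ _ _ hJ hn hn'⟩
  show a s + a' s = (ℓ + ℓ') (B s)
  rw [ha, ha', LinearMap.add_apply]

theorem s56fn_hasNF_semi (κ : k) {B : ↥T → k} {ℓ : k →ₗ[ZMod p] ZMod p} {x : O}
    (h : s56fn_HasNF A T ϖt ζ J B (ℓ ∘ₗ LinearMap.mulLeft (ZMod p) κ) x) :
    s56fn_HasNF A T ϖt ζ J (κ • B) ℓ x := by
  obtain ⟨w, a, ha, hw, hn⟩ := h
  refine ⟨w, a, fun s => ?_, hw, hn⟩
  rw [ha]
  rfl

/-- the residue of the leading coefficient is well defined. -/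
theorem s56fn_wd (hζ : ζ ^ p = 1) (hϖ0 : ϖt ≠ 0) (hU : s56fs_Uniq_stmt p O L A Γ T ϖt ζ)
    (hAdd : s56fs_Add_stmt p O L A Γ T ϖt) (hJ1 : 1 ≤ J) (hJ2 : J < p ^ 2 + p) (hJ3 : ¬ p ∣ J)
    {B : ↥T → k} {ℓ : k →ₗ[ZMod p] ZMod p} {x x' : O}
    (h : s56fn_HasNF A T ϖt ζ J B ℓ x) (h' : s56fn_HasNF A T ϖt ζ J B ℓ x') :
    ¬ IsUnit (x - x') := by
  obtain ⟨w, a, ha, hw, hn⟩ := h
  obtain ⟨w', a', ha', hw', hn'⟩ := h'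
  have hW := s56fy_isRad_mul hζ hw (s56fy_isRad_inv hζ hw')
  have hnW := hAdd.1 _ _ _ _ _ hJ1 hn (hAdd.2 _ _ _ hJ1 hw'.1 hn')
  have htriv : ∀ s ∈ T, a s + -a' s = 0 := fun s hs => by
    have h1 := ha ⟨s, hs⟩
    have h2 := ha' ⟨s, hs⟩
    simp only at h1 h2
    rw [h1, h2, add_neg_cancel]
  have := s56fy_no_level hϖ0 hU hW htriv hnW hJ1 hJ2 hJ3
  rwa [← sub_eq_add_neg] at this

end Count

section Main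

variable {p : ℕ} [Fact p.Prime] {O : Type} [CommRing O] [IsDomain O] [IsDiscreteValuationRing O]
  {L : Type} [Field L] [Algebra O L] {A : ValuationSubring L}
  {Γ : Type} [Group Γ] [MulSemiringAction Γ L] {T : Subgroup Γ} {ϖt ζ : L}
  {k : Type} [Field k] [Fintype k] [CharP k p] [Algebra (ZMod p) k]
  {𝕜 : Type} [Field 𝕜] [CharP 𝕜 p]

theorem s56fn_smul_mem_iff (hctx : mzo_Ctx p O L A Γ) (σ : Γ) (y : L) : y ∈ A ↔ σ • y ∈ A := by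
  have key : ∀ (τ : Γ) (a : L), a ∈ A → τ • a ∈ A := by
    intro τ a ha
    have h1 := hctx.inert τ a ha
    have h2 : τ • a - a ∈ A := ValuationSubring.nonunits_subset h1
    have := A.add_mem _ _ h2 ha
    rwa [sub_add_cancel] at this
  refine ⟨key σ y, fun h => ?_⟩
  have := key σ⁻¹ _ h
  rwa [inv_smul_smul] at this

theorem s56fn_pi_ne_zero (hset : s56fs_Setting p O L A Γ T ϖt ζ) : ϖt ≠ 0 := by
  intro h0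
  have h1 := hset.hϖ
  have hp : 2 ≤ p := (Fact.out : p.Prime).two_le
  have he : p ^ 2 - 1 ≠ 0 := by
    have : 4 ≤ p ^ 2 := by nlinarith
    omega
  rw [h0, zero_pow he] at h1
  exact hset.hctx.r_ne (neg_eq_zero.mp h1.symm)

/-- **THE ABSTRACT SUPERSINGULAR COUNT.** -/
theorem s56fn_main (hset : s56fs_Setting p O L A Γ T ϖt ζ)
    (hU : s56fs_Uniq_stmt p O L A Γ T ϖt ζ) (hAdd : s56fs_Add_stmt p O L A Γ T ϖt)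
    (hKNF : s56fs_KNF_stmt p O L A Γ T ϖt ζ)
    (res : O →+* 𝕜) (hres : ∀ x : O, res x = 0 ↔ ¬ IsUnit x) (ι₀ : k →+* 𝕜)
    (J : ℕ) (hJ1 : 1 ≤ J) (hJ2 : J < p ^ 2 + p) (hJ3 : ¬ p ∣ J)
    (𝔅 : Submodule k (↥T → k))
    (h1 : ∀ B ∈ 𝔅, ∀ ℓ : k →ₗ[ZMod p] ZMod p, ∃ x : O, s56fn_HasNF A T ϖt ζ J B ℓ x)
    (hbig : ∀ B ∈ 𝔅, ∀ (ℓ : k →ₗ[ZMod p] ZMod p) (w : L) (a : Γ → ZMod p) (j' : ℕ) (x' : O),
      (∀ s : ↥T, a s = ℓ (B s)) → s56fs_IsRad p T ζ w a → s56fs_NF A p T ϖt w j' x' →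
      IsUnit x' → 1 ≤ j' → j' < p ^ 2 + p → ¬ p ∣ j' → j' ≤ J)
    -- inertia
    (τ₀ : Γ) (hτT : ∀ s ∈ T, τ₀⁻¹ * s * τ₀ ∈ T) (ψ₀ : O)
    (hψ₀ : τ₀ • ϖt = algebraMap O L ψ₀ * ϖt) (hψv : A.valuation (algebraMap O L ψ₀) = 1)
    (ω₀ ω₀' : ℕ) (hω₀ : τ₀ • ζ = ζ ^ ω₀) (hωω' : ((ω₀ * ω₀' : ℕ) : ZMod p) = 1)
    (g : k)
    (h2 : ∀ B ∈ 𝔅, ∀ (s : Γ) (hs : s ∈ T), B ⟨τ₀⁻¹ * s * τ₀, hτT s hs⟩ = g * B ⟨s, hs⟩)
    (i₀ : ℕ) (hsel : ∀ i : ℕ, ι₀ g ^ p ^ i = res ((ω₀' : O) * ψ₀ ^ J) → i % 2 = i₀ % 2)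
    (hmd : 2 ∣ Module.finrank (ZMod p) k)
    -- Frobenius (already squared)
    (Ψ : L ≃+* L) (hΨA : ∀ y, y ∈ A ↔ Ψ y ∈ A) (cΨ c'Ψ : Γ → Γ)
    (hcΨ : ∀ (σ : Γ) (y : L), Ψ (σ • y) = cΨ σ • Ψ y)
    (hc'Ψ : ∀ s ∈ T, c'Ψ s ∈ T ∧ cΨ (c'Ψ s) = s) (hΨϖ : Ψ ϖt = ϖt) (hΨζ : Ψ ζ = ζ)
    (hΨO : ∀ x : O, ∃ x' : O, Ψ (algebraMap O L x) = algebraMap O L x' ∧ res x' = res x ^ p ^ 2)
    (h3 : ∀ B ∈ 𝔅, ∀ (s : Γ) (hs : s ∈ T), B ⟨c'Ψ s, (hc'Ψ s hs).1⟩ = B ⟨s, hs⟩) :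
    ∀ B ∈ 𝔅, ∀ B' ∈ 𝔅, ∃ κ κ' : k, (κ ≠ 0 ∨ κ' ≠ 0) ∧ ∀ s : ↥T, κ * B s + κ' * B' s = 0 := by
  have hctx := hset.hctx
  have hζ : ζ ^ p = 1 := hset.hζ.pow_eq_one
  have hϖ0 : ϖt ≠ 0 := s56fn_pi_ne_zero hset
  have hA : ∀ (σ : Γ) (y : L), y ∈ A ↔ σ • y ∈ A := s56fn_smul_mem_iff hctx
  have hτO : ∀ x : O, τ₀ • algebraMap O L x = algebraMap O L x := fun x => hctx.fixed x τ₀
  have hnonunit_add : ∀ x y : O, ¬ IsUnit x → ¬ IsUnit y → ¬ IsUnit (x + y) := by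
    intro x y hx hy
    rw [← hres] at hx hy ⊢
    rw [map_add, hx, hy, add_zero]
  -- the leading coefficient
  set Λ : ↥𝔅 → (k →ₗ[ZMod p] ZMod p) → 𝕜 := fun B ℓ => res (h1 B.1 B.2 ℓ).choose with hΛ
  have hΛspec : ∀ (B : ↥T → k) (hB : B ∈ 𝔅) (ℓ : k →ₗ[ZMod p] ZMod p) (x : O),
      s56fn_HasNF A T ϖt ζ J B ℓ x → Λ ⟨B, hB⟩ ℓ = res x := by
    intro B hB ℓ x hx
    have h := s56fn_wd hζ hϖ0 hU hAdd hJ1 hJ2 hJ3 (h1 B hB ℓ).choose_spec hx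
    rw [← hres, map_sub, sub_eq_zero] at h
    exact h
  have hΛex : ∀ (B : ↥𝔅) (ℓ : k →ₗ[ZMod p] ZMod p), ∃ x : O,
      s56fn_HasNF A T ϖt ζ J B.1 ℓ x ∧ Λ B ℓ = res x := fun B ℓ =>
    ⟨_, (h1 B.1 B.2 ℓ).choose_spec, rfl⟩
  have hadd₁ : ∀ (B B' : ↥𝔅) ℓ, Λ (B + B') ℓ = Λ B ℓ + Λ B' ℓ := by
    intro B B' ℓ
    obtain ⟨x, hx, ex⟩ := hΛex B ℓ
    obtain ⟨x', hx', ex'⟩ := hΛex B' ℓ
    rw [ex, ex', ← map_add]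
    exact hΛspec _ (B + B').2 ℓ _ (s56fn_hasNF_add₁ hζ hAdd hJ1 hx hx')
  have hadd₂ : ∀ (B : ↥𝔅) ℓ ℓ', Λ B (ℓ + ℓ') = Λ B ℓ + Λ B ℓ' := by
    intro B ℓ ℓ'
    obtain ⟨x, hx, ex⟩ := hΛex B ℓ
    obtain ⟨x', hx', ex'⟩ := hΛex B ℓ'
    rw [ex, ex', ← map_add]
    exact hΛspec _ B.2 _ _ (s56fn_hasNF_add₂ hζ hAdd hJ1 hx hx')
  have hsemi : ∀ (κ : k) (B : ↥𝔅) ℓ,
      Λ (κ • B) ℓ = Λ B (ℓ ∘ₗ LinearMap.mulLeft (ZMod p) κ) := by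
    intro κ B ℓ
    obtain ⟨x, hx, ex⟩ := hΛex B (ℓ ∘ₗ LinearMap.mulLeft (ZMod p) κ)
    rw [ex]
    exact hΛspec _ (κ • B).2 ℓ _ (s56fn_hasNF_semi κ hx)
  -- injectivity
  have hinj : ∀ B : ↥𝔅, (∀ ℓ, Λ B ℓ = 0) → B = 0 := by
    intro B hB0
    apply Subtype.ext
    funext s
    show B.1 s = 0
    rw [← Module.forall_dual_apply_eq_zero_iff (ZMod p)]
    intro ℓ
    obtain ⟨x, ⟨w, a, ha, hw, hn⟩, ex⟩ := hΛex B ℓ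
    have hxn : ¬ IsUnit x := by
      rw [← hres, ← ex]
      exact hB0 ℓ
    rcases hKNF w a hw with h0 | h0 | ⟨j', x', hj1, hj2, hj3, hx', hn'⟩
    · rw [← ha s]
      exact h0 s s.2
    · exact absurd h0 (hU.2.1 w a hw J x hJ1 hn)
    · exfalso
      have hle := hbig B.1 B.2 ℓ w a j' x' ha hw hn' hx' hj1 hj2 hj3
      obtain ⟨-, h5⟩ := hU.1 w a hw J j' x x' hn hn' hx' hj1 hj2 hj3 hle
      have h6 : ¬ IsUnit (-(x - x')) := by rwa [IsUnit.neg_iff]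
      have := hnonunit_add _ _ hxn h6
      rw [show x + -(x - x') = x' by ring] at this
      exact this hx'
  -- Frobenius
  have hΨT : ∀ z : L, (∀ s ∈ T, s • z = z) → ∀ s ∈ T, s • Ψ z = Ψ z := by
    intro z hz s hs
    obtain ⟨h4, h5⟩ := hc'Ψ s hs
    rw [← h5, ← hcΨ, hz _ h4]
  have hfrob : ∀ (B : ↥𝔅) ℓ, Λ ((1 : k) • B) ℓ = (1 : 𝕜) * Λ B ℓ ^ p ^ 2 := by
    intro B ℓ
    rw [one_smul, one_mul]
    obtain ⟨x, ⟨w, a, ha, hw, hn⟩, ex⟩ := hΛex B ℓ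
    obtain ⟨x', hx', hrx'⟩ := hΨO x
    have hgoal : Λ B ℓ = res x' := by
      refine hΛspec _ B.2 ℓ _ ⟨Ψ w, _, ?_, s56fy_isRad_map hζ hw Ψ cΨ c'Ψ hcΨ hc'Ψ 1
        (by rw [hΨζ, pow_one]), ?_⟩
      · intro s
        show ((1 : ℕ) : ZMod p) * a (c'Ψ s) = ℓ (B.1 s)
        rw [Nat.cast_one, one_mul]
        have := ha ⟨c'Ψ s, (hc'Ψ s s.2).1⟩
        rw [this, h3 B.1 B.2 s s.2]
      · have h7 := s56fy_nf_map (p := p) (T := T) Ψ hΨA hΨT (u := (1 : O))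
          (by rw [map_one, map_one]) (by rw [map_one, one_mul, hΨϖ]) hx' hn
        rwa [one_pow, one_mul] at h7
    calc Λ B ℓ = res x' := hgoal
      _ = res x ^ p ^ 2 := hrx'
      _ = Λ B ℓ ^ p ^ 2 := by rw [ex]
  -- inertia
  set Φ : L ≃+* L := MulSemiringAction.toRingEquiv Γ L τ₀ with hΦdef
  have hΦT : ∀ z : L, (∀ s ∈ T, s • z = z) → ∀ s ∈ T, s • Φ z = Φ z := by
    intro z hz s hs
    show s • τ₀ • z = τ₀ • z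
    have h8 : s • τ₀ • z = τ₀ • ((τ₀⁻¹ * s * τ₀) • z) := by
      rw [← mul_smul, ← mul_smul]
      congr 1
      group
    rw [h8, hz _ (hτT s hs)]
  have hωω'' : (ω₀' : ZMod p) * (ω₀ : ZMod p) = 1 := by
    rw [← hωω']
    push_cast
    ring
  have hΓ : ∀ (B : ↥𝔅) ℓ, Λ (g • B) ℓ = res ((ω₀' : O) * ψ₀ ^ J) * Λ B ℓ := by
    intro B ℓ
    obtain ⟨x, ⟨w, a, ha, hw, hn⟩, ex⟩ := hΛex B ℓ
    rw [ex, ← map_mul]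
    have hr1 := s56fy_isRad_pow hζ (s56fy_isRad_smul hζ hw τ₀ hτT ω₀ hω₀) ω₀'
    have hn1 := s56fy_nf_pow hϖ0 hAdd hJ1
      (s56fy_nf_map (p := p) (T := T) Φ (hA τ₀) hΦT hψv hψ₀ (hτO x) hn) ω₀'
    refine hΛspec _ (g • B).2 ℓ _ ⟨_, _, ?_, hr1, ?_⟩
    · intro s
      show (ω₀' : ZMod p) * ((ω₀ : ZMod p) * a (τ₀⁻¹ * s * τ₀)) = ℓ ((g • B.1) s)
      rw [← mul_assoc, hωω'', one_mul]
      have := ha ⟨τ₀⁻¹ * s * τ₀, hτT s s.2⟩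
      rw [this, h2 B.1 B.2 s s.2]
      rfl
    · have e : (ω₀' : O) * ψ₀ ^ J * x = (ω₀' : O) * (ψ₀ ^ J * x) := by ring
      rw [e]
      exact hn1
  -- Lang
  intro B hB B' hB'
  obtain ⟨κ, κ', hκ, h9⟩ := s56fc_lang ι₀ Λ hadd₁ hadd₂ hsemi hinj 2 (by norm_num) hmd 1 one_ne_zero
    1 one_ne_zero hfrob g _ hΓ i₀ hsel ⟨B, hB⟩ ⟨B', hB'⟩
  refine ⟨κ, κ', hκ, fun s => ?_⟩
  have h10 := congrArg (fun X : ↥𝔅 => X.1 s) h9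
  exact h10

end Main

end Fermat.Agent.S56
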