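/-
Project S56, node [LOC-p-FLAT], supersingular case (helper27).  Prefix `s56fw_`.
THE TWO ABSTRACT ENTRY THEOREMS (everything in the vocabulary of `Flat/SSDefs.lean`):

* `s56fw_levels` : the type analysis `s56fy_type` read in the residue field: if the character of
  the radical `w` satisfies `a^{τ²} + n a = t a^{τ}` and `X² - t X + n = (X - ψ̄^α)(X - ψ̄^β)`,
  a valid level `j` of `w` is `≡ p + 1 + α` or `≡ p + 1 + β` modulo `p² - 1`;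
* `s56fw_A` : a function `T → k` of type `1` (`A (τ₀⁻¹ s τ₀) = A s`) all of whose characters have
  radicals avoiding the levels `0, 2, p + 1` vanishes (the diagonal entries);
* `s56fw_B` : a set of functions `T → k` of type `g` (`B (τ₀⁻¹ s τ₀) = g B s`, `ι₀ g = ψ̄^(p-1)`),
  invariant under the squared Frobenius, all of whose characters have radicals avoiding the levels
  `0, 2, p + 1`: any two of them are `k`-dependent (the off-diagonal entries; `s56fn_main`).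
-/
import Mathlib
import Fermat.Agent.S56.Flat.SSCount

set_option autoImplicit false
set_option linter.unusedSectionVars false

noncomputable section

namespace Fermat.Agent.S56

open Fermat.Agent.MZ

/-! ### arithmetic of the levels -/

section Arith

/-- residues below `2 M`. -/
theorem s56fw_ar_core {M r j : ℕ} (hr : r < M) (h : j % M = r) (hj : j < 2 * M) :
    j = r ∨ j = M + r := by
  have h3 := Nat.div_add_mod j M
  have h4 : j / M = 0 ∨ j / M = 1 ∨ 2 ≤ j / M := by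
    generalize j / M = q
    omega
  rcases h4 with h4 | h4 | h4
  · rw [h4, mul_zero, zero_add] at h3
    left
    omega
  · rw [h4, mul_one] at h3
    right
    omega
  · have : M * 2 ≤ M * (j / M) := Nat.mul_le_mul_left M h4
    omega

variable {p : ℕ}

theorem s56fw_M_facts (hp : 3 ≤ p) :
    ∃ M : ℕ, M = p ^ 2 - 1 ∧ 3 * p - 1 ≤ M ∧ p ^ 2 + p = M + 1 + p ∧ p ^ 2 = M + 1 := by
  refine ⟨p ^ 2 - 1, rfl, ?_, ?_, ?_⟩
  · have : 3 * p ≤ p ^ 2 := by nlinarith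
    omega
  · have : 9 ≤ p ^ 2 := by nlinarith
    omega
  · have : 9 ≤ p ^ 2 := by nlinarith
    omega

/-- the only valid level `≡ p + 1` is `p + 1`. -/
theorem s56fw_ar3 (hp : 3 ≤ p) {j : ℕ} (hj2 : j < p ^ 2 + p)
    (h : j ≡ p + 1 + 0 [MOD p ^ 2 - 1]) : j = p + 1 := by
  obtain ⟨M, hM, h1, h2, h3⟩ := s56fw_M_facts hp
  rw [← hM, add_zero] at h
  have h4 : j % M = p + 1 := by
    have h5 : j % M = (p + 1) % M := h
    rwa [Nat.mod_eq_of_lt (show p + 1 < M by omega)] at h5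
  rcases s56fw_ar_core (by omega) h4 (by omega) with h6 | h6
  · exact h6
  · omega

/-- the valid levels `≡ p² + 1` are `2` and `p² + 1`. -/
theorem s56fw_ar2 (hp : 3 ≤ p) {j : ℕ} (hj2 : j < p ^ 2 + p)
    (h : j ≡ p + 1 + (p ^ 2 - p) [MOD p ^ 2 - 1]) : j = 2 ∨ j = p ^ 2 + 1 := by
  obtain ⟨M, hM, h1, h2, h3⟩ := s56fw_M_facts hp
  have e : p + 1 + (p ^ 2 - p) = M + 2 := by omega
  rw [← hM, e] at h
  have h4 : j % M = 2 := by
    have h5 : j % M = (M + 2) % M := h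
    rwa [Nat.add_mod_left, Nat.mod_eq_of_lt (show 2 < M by omega)] at h5
  rcases s56fw_ar_core (by omega) h4 (by omega) with h6 | h6
  · exact Or.inl h6
  · right
    omega

/-- no valid level is `≡ 2 p`. -/
theorem s56fw_ar1 (hp : 3 ≤ p) {j : ℕ} (hj2 : j < p ^ 2 + p) (hj3 : ¬ p ∣ j)
    (h : j ≡ p + 1 + (p - 1) [MOD p ^ 2 - 1]) : False := by
  obtain ⟨M, hM, h1, h2, h3⟩ := s56fw_M_facts hp
  have e : p + 1 + (p - 1) = 2 * p := by omega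
  rw [← hM, e] at h
  have h4 : j % M = 2 * p := by
    have h5 : j % M = (2 * p) % M := h
    rwa [Nat.mod_eq_of_lt (show 2 * p < M by omega)] at h5
  rcases s56fw_ar_core (by omega) h4 (by omega) with h6 | h6
  · exact hj3 ⟨2, by omega⟩
  · omega

/-- the inertia selects the odd embeddings. -/
theorem s56fw_odd (hp : 3 ≤ p) {i : ℕ}
    (h : (p - 1) * p ^ i + (p + 1) ≡ p ^ 2 + 1 [MOD p ^ 2 - 1]) : i % 2 = 1 % 2 := by
  by_contra hi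
  have hi' : i % 2 = 0 := by omega
  obtain ⟨m, rfl⟩ : ∃ m, i = 2 * m := ⟨i / 2, by omega⟩
  obtain ⟨M, hM, h1', h2', h3'⟩ := s56fw_M_facts hp
  rw [← hM] at h
  have h1 : p ^ 2 ≡ 1 [MOD M] := by
    rw [h3']
    show (M + 1) % M = 1 % M
    rw [Nat.add_mod_left]
  have h2 : p ^ (2 * m) ≡ 1 [MOD M] := by
    rw [pow_mul]
    have := h1.pow m
    rwa [one_pow] at this
  have h3 : (p - 1) * p ^ (2 * m) + (p + 1) ≡ (p - 1) * 1 + (p + 1) [MOD M] :=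
    (h2.mul_left _).add_right _
  have h4 : p ^ 2 + 1 ≡ 1 + 1 [MOD M] := h1.add_right 1
  have h5 : (p - 1) * 1 + (p + 1) ≡ 1 + 1 [MOD M] := (h3.symm.trans h).trans h4
  have e : (p - 1) * 1 + (p + 1) = 2 * p := by omega
  rw [e] at h5
  have h6 := (Nat.modEq_iff_dvd' (by omega : 1 + 1 ≤ 2 * p)).1 h5.symm
  have h7 := Nat.le_of_dvd (by omega) h6
  omega

end Arith

/-! ### elements of the prime field -/

section Prime

variable {p : ℕ} [Fact p.Prime] {k : Type} [Field k] [CharP k p]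

/-- an element fixed by the Frobenius is in the prime field. -/
theorem s56fw_exists_nat {x : k} (hx : x ^ p = x) : ∃ t : ℕ, (t : k) = x := by
  classical
  by_contra hcon
  push Not at hcon
  have hpp : p.Prime := Fact.out
  set f : Polynomial k := Polynomial.X ^ p - Polynomial.X with hf
  have hdeg : f.natDegree = p := by
    rw [hf]
    have h1 : (Polynomial.X : Polynomial k).degree < (Polynomial.X ^ p : Polynomial k).degree := by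
      rw [Polynomial.degree_X_pow, Polynomial.degree_X]
      exact_mod_cast hpp.one_lt
    rw [Polynomial.natDegree_sub_eq_left_of_natDegree_lt, Polynomial.natDegree_X_pow]
    rw [Polynomial.natDegree_X_pow, Polynomial.natDegree_X]
    exact hpp.one_lt
  have hf0 : f ≠ 0 := fun h0 => by
    rw [h0, Polynomial.natDegree_zero] at hdeg
    exact hpp.ne_zero hdeg.symm
  set R : Finset k := (Finset.range p).image (Nat.cast : ℕ → k) with hR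
  have hinj : Set.InjOn (Nat.cast : ℕ → k) (Finset.range p : Set ℕ) := by
    intro a ha b hb hab
    have ha' : a < p := Finset.mem_range.mp ha
    have hb' : b < p := Finset.mem_range.mp hb
    have := (CharP.natCast_eq_natCast k p).mp hab
    exact Nat.ModEq.eq_of_lt_of_lt this ha' hb'
  have hRcard : R.card = p := by
    rw [hR, Finset.card_image_of_injOn hinj, Finset.card_range]
  have hxR : x ∉ R := by
    intro hxR
    obtain ⟨t, -, ht⟩ := Finset.mem_image.mp hxR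
    exact hcon t ht
  have hsub : insert x R ⊆ f.roots.toFinset := by
    intro y hy
    rw [Multiset.mem_toFinset, Polynomial.mem_roots hf0, Polynomial.IsRoot.def, hf,
      Polynomial.eval_sub, Polynomial.eval_pow, Polynomial.eval_X, sub_eq_zero]
    rcases Finset.mem_insert.mp hy with rfl | hy
    · exact hx
    · obtain ⟨t, -, rfl⟩ := Finset.mem_image.mp hy
      have := map_natCast (frobenius k p) t
      rwa [frobenius_def] at this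
  have h1 := Finset.card_le_card hsub
  rw [Finset.card_insert_of_notMem hxR, hRcard] at h1
  have h2 : f.roots.toFinset.card ≤ p := by
    calc f.roots.toFinset.card ≤ Multiset.card f.roots := Multiset.toFinset_card_le _
      _ ≤ f.natDegree := Polynomial.card_roots' f
      _ = p := hdeg
  omega

end Prime

/-! ### the entry theorems -/

section Entries

variable {p : ℕ} [Fact p.Prime] {O : Type} [CommRing O] [IsDomain O] [IsDiscreteValuationRing O]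
  {L : Type} [Field L] [Algebra O L] {A : ValuationSubring L}
  {Γ : Type} [Group Γ] [MulSemiringAction Γ L] {T : Subgroup Γ} {ϖt ζ : L}
  {k : Type} [Field k] [Fintype k] [CharP k p] [Algebra (ZMod p) k]
  {𝕜 : Type} [Field 𝕜] [CharP 𝕜 p]

theorem s56fw_three_le (hset : s56fs_Setting p O L A Γ T ϖt ζ) : 3 ≤ p := by
  have h1 := (Fact.out : p.Prime).two_le
  have h2 := hset.hp2
  omega

/-- **the type analysis in the residue field.** -/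
theorem s56fw_levels (hset : s56fs_Setting p O L A Γ T ϖt ζ)
    (hU : s56fs_Uniq_stmt p O L A Γ T ϖt ζ) (hAdd : s56fs_Add_stmt p O L A Γ T ϖt)
    (res : O →+* 𝕜) (hres : ∀ x : O, res x = 0 ↔ ¬ IsUnit x)
    (τ₀ : Γ) (hτT : ∀ s ∈ T, τ₀⁻¹ * s * τ₀ ∈ T) (ψ₀ : O)
    (hψ₀ : τ₀ • ϖt = algebraMap O L ψ₀ * ϖt) (hψv : A.valuation (algebraMap O L ψ₀) = 1)
    (ω₀ ω₀' : ℕ) (hω₀ : τ₀ • ζ = ζ ^ ω₀) (hωω' : ((ω₀ * ω₀' : ℕ) : ZMod p) = 1)
    (hord : ∀ n m : ℕ, res ψ₀ ^ n = res ψ₀ ^ m → n ≡ m [MOD p ^ 2 - 1])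
    (hωψ : res (ω₀ : O) = res ψ₀ ^ (p + 1))
    (t n α β : ℕ) (ht : (t : 𝕜) = res ψ₀ ^ α + res ψ₀ ^ β)
    (hn : (n : 𝕜) = res ψ₀ ^ α * res ψ₀ ^ β)
    {w : L} {a : Γ → ZMod p} (hw : s56fs_IsRad p T ζ w a)
    (hrel : ∀ s ∈ T, a (τ₀⁻¹ * (τ₀⁻¹ * s * τ₀) * τ₀) + (n : ZMod p) * a s =
      (t : ZMod p) * a (τ₀⁻¹ * s * τ₀))
    {j : ℕ} {x : O} (hNF : s56fs_NF A p T ϖt w j x) (hx : IsUnit x)
    (hj1 : 1 ≤ j) (hj2 : j < p ^ 2 + p) (hj3 : ¬ p ∣ j) :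
    j ≡ p + 1 + α [MOD p ^ 2 - 1] ∨ j ≡ p + 1 + β [MOD p ^ 2 - 1] := by
  have hζ : ζ ^ p = 1 := hset.hζ.pow_eq_one
  have hϖ0 : ϖt ≠ 0 := s56fn_pi_ne_zero hset
  have hA : ∀ (σ : Γ) (y : L), y ∈ A ↔ σ • y ∈ A := s56fn_smul_mem_iff hset.hctx
  have hτO : ∀ x : O, τ₀ • algebraMap O L x = algebraMap O L x := fun x => hset.hctx.fixed x τ₀
  have key := s56fy_type hζ hϖ0 hU hAdd hA τ₀ hτT ψ₀ hψ₀ hψv hτO ω₀ ω₀' hω₀ hωω' t n hw hrel
    hNF hx hj1 hj2 hj3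
  rw [← hres] at key
  simp only [map_sub, map_add, map_mul, map_pow, map_natCast] at key
  rw [ht, hn] at key
  set ψb : 𝕜 := res ψ₀ with hψb
  have hfac : ((ω₀' : 𝕜) * ψb ^ j - ψb ^ α) * ((ω₀' : 𝕜) * ψb ^ j - ψb ^ β) = 0 := by
    linear_combination key
  have hωω𝕜 : (ω₀ : 𝕜) * (ω₀' : 𝕜) = 1 := by
    have h1 := congrArg (ZMod.castHom (dvd_refl p) 𝕜) hωω'
    rw [map_natCast, map_one] at h1
    rw [← h1]
    push_cast
    ring
  have hω𝕜 : (ω₀ : 𝕜) = ψb ^ (p + 1) := by rw [← hωψ, map_natCast]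
  have hfin : ∀ γ : ℕ, (ω₀' : 𝕜) * ψb ^ j - ψb ^ γ = 0 → j ≡ p + 1 + γ [MOD p ^ 2 - 1] := by
    intro γ h
    apply hord
    have h2 : (ω₀' : 𝕜) * ψb ^ j = ψb ^ γ := sub_eq_zero.mp h
    calc ψb ^ j = ((ω₀ : 𝕜) * (ω₀' : 𝕜)) * ψb ^ j := by rw [hωω𝕜, one_mul]
      _ = (ω₀ : 𝕜) * ((ω₀' : 𝕜) * ψb ^ j) := by ring
      _ = ψb ^ (p + 1) * ψb ^ γ := by rw [h2, hω𝕜]
      _ = ψb ^ (p + 1 + γ) := (pow_add _ _ _).symm
  rcases mul_eq_zero.mp hfac with h | h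
  · exact Or.inl (hfin α h)
  · exact Or.inr (hfin β h)

/-- **the diagonal entries**: a function of type `1` whose characters avoid the levels
`0, 2, p + 1` vanishes. -/
theorem s56fw_A (hset : s56fs_Setting p O L A Γ T ϖt ζ)
    (hU : s56fs_Uniq_stmt p O L A Γ T ϖt ζ) (hAdd : s56fs_Add_stmt p O L A Γ T ϖt)
    (hKNF : s56fs_KNF_stmt p O L A Γ T ϖt ζ)
    (res : O →+* 𝕜) (hres : ∀ x : O, res x = 0 ↔ ¬ IsUnit x)
    (τ₀ : Γ) (hτT : ∀ s ∈ T, τ₀⁻¹ * s * τ₀ ∈ T) (ψ₀ : O)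
    (hψ₀ : τ₀ • ϖt = algebraMap O L ψ₀ * ϖt) (hψv : A.valuation (algebraMap O L ψ₀) = 1)
    (ω₀ ω₀' : ℕ) (hω₀ : τ₀ • ζ = ζ ^ ω₀) (hωω' : ((ω₀ * ω₀' : ℕ) : ZMod p) = 1)
    (hord : ∀ n m : ℕ, res ψ₀ ^ n = res ψ₀ ^ m → n ≡ m [MOD p ^ 2 - 1])
    (hωψ : res (ω₀ : O) = res ψ₀ ^ (p + 1))
    (Afn : ↥T → k)
    (hA2 : ∀ (s : Γ) (hs : s ∈ T), Afn ⟨τ₀⁻¹ * s * τ₀, hτT s hs⟩ = Afn ⟨s, hs⟩)
    (hA0 : ∀ ℓ : k →ₗ[ZMod p] ZMod p, ∃ (w : L) (a : Γ → ZMod p),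
      (∀ s : ↥T, a s = ℓ (Afn s)) ∧ s56fs_IsRad p T ζ w a ∧
      ¬ (s56fs_NF0 A p T ϖt w ∨ (∃ x : O, IsUnit x ∧ s56fs_NF A p T ϖt w 2 x) ∨
        ∃ x : O, IsUnit x ∧ s56fs_NF A p T ϖt w (p + 1) x)) :
    ∀ s : ↥T, Afn s = 0 := by
  intro s
  rw [← Module.forall_dual_apply_eq_zero_iff (ZMod p)]
  intro ℓ
  obtain ⟨w, a, ha, hw, hex⟩ := hA0 ℓ
  rcases hKNF w a hw with h0 | h0 | ⟨j, x, hj1, hj2, hj3, hx, hn⟩
  · rw [← ha s]
    exact h0 s s.2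
  · exact absurd (Or.inl h0) hex
  · exfalso
    have hrel : ∀ s ∈ T, a (τ₀⁻¹ * (τ₀⁻¹ * s * τ₀) * τ₀) + ((1 : ℕ) : ZMod p) * a s =
        ((2 : ℕ) : ZMod p) * a (τ₀⁻¹ * s * τ₀) := by
      intro s hs
      have e1 := ha ⟨τ₀⁻¹ * (τ₀⁻¹ * s * τ₀) * τ₀, hτT _ (hτT s hs)⟩
      have e2 := ha ⟨τ₀⁻¹ * s * τ₀, hτT s hs⟩
      have e3 := ha ⟨s, hs⟩
      simp only at e1 e2 e3
      rw [e1, e2, e3, hA2 _ (hτT s hs), hA2 s hs]
      push_cast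
      ring
    have hl := s56fw_levels hset hU hAdd res hres τ₀ hτT ψ₀ hψ₀ hψv ω₀ ω₀' hω₀ hωω' hord hωψ
      2 1 0 0 (by push_cast; rw [pow_zero]; norm_num) (by push_cast; rw [pow_zero, mul_one])
      hw hrel hn hx hj1 hj2 hj3
    have hj : j = p + 1 := by
      rcases hl with hl | hl <;> exact s56fw_ar3 (s56fw_three_le hset) hj2 hl
    subst hj
    exact hex (Or.inr (Or.inr ⟨x, hx, hn⟩))

/-- **the off-diagonal entries**: any two functions of type `g` (`ι₀ g = ψ̄ ^ (p - 1)`), invariant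
under the squared Frobenius, whose characters avoid the levels `0, 2, p + 1`, are `k`-dependent. -/
theorem s56fw_B (hset : s56fs_Setting p O L A Γ T ϖt ζ)
    (hU : s56fs_Uniq_stmt p O L A Γ T ϖt ζ) (hAdd : s56fs_Add_stmt p O L A Γ T ϖt)
    (hKNF : s56fs_KNF_stmt p O L A Γ T ϖt ζ)
    (res : O →+* 𝕜) (hres : ∀ x : O, res x = 0 ↔ ¬ IsUnit x) (ι₀ : k →+* 𝕜)
    -- inertia
    (τ₀ : Γ) (hτT : ∀ s ∈ T, τ₀⁻¹ * s * τ₀ ∈ T) (ψ₀ : O)
    (hψ₀ : τ₀ • ϖt = algebraMap O L ψ₀ * ϖt) (hψv : A.valuation (algebraMap O L ψ₀) = 1)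
    (ω₀ ω₀' : ℕ) (hω₀ : τ₀ • ζ = ζ ^ ω₀) (hωω' : ((ω₀ * ω₀' : ℕ) : ZMod p) = 1)
    (hψ1 : res ψ₀ ^ (p ^ 2 - 1) = 1)
    (hord : ∀ n m : ℕ, res ψ₀ ^ n = res ψ₀ ^ m → n ≡ m [MOD p ^ 2 - 1])
    (hωψ : res (ω₀ : O) = res ψ₀ ^ (p + 1))
    (g : k) (hg : ι₀ g = res ψ₀ ^ (p - 1))
    (hmd : 2 ∣ Module.finrank (ZMod p) k)
    -- Frobenius (already squared)
    (Ψ : L ≃+* L) (hΨA : ∀ y, y ∈ A ↔ Ψ y ∈ A) (cΨ c'Ψ : Γ → Γ)
    (hcΨ : ∀ (σ : Γ) (y : L), Ψ (σ • y) = cΨ σ • Ψ y)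
    (hc'Ψ : ∀ s ∈ T, c'Ψ s ∈ T ∧ cΨ (c'Ψ s) = s) (hΨϖ : Ψ ϖt = ϖt) (hΨζ : Ψ ζ = ζ)
    (hΨO : ∀ x : O, ∃ x' : O, Ψ (algebraMap O L x) = algebraMap O L x' ∧ res x' = res x ^ p ^ 2)
    -- the generators
    (𝒢 : Set (↥T → k))
    (hG0 : ∀ B ∈ 𝒢, ∀ ℓ : k →ₗ[ZMod p] ZMod p, ∃ (w : L) (a : Γ → ZMod p),
      (∀ s : ↥T, a s = ℓ (B s)) ∧ s56fs_IsRad p T ζ w a ∧
      ¬ (s56fs_NF0 A p T ϖt w ∨ (∃ x : O, IsUnit x ∧ s56fs_NF A p T ϖt w 2 x) ∨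
        ∃ x : O, IsUnit x ∧ s56fs_NF A p T ϖt w (p + 1) x))
    (hG2 : ∀ B ∈ 𝒢, ∀ (s : Γ) (hs : s ∈ T), B ⟨τ₀⁻¹ * s * τ₀, hτT s hs⟩ = g * B ⟨s, hs⟩)
    (hG3 : ∀ B ∈ 𝒢, ∀ (s : Γ) (hs : s ∈ T), B ⟨c'Ψ s, (hc'Ψ s hs).1⟩ = B ⟨s, hs⟩) :
    ∀ B ∈ 𝒢, ∀ B' ∈ 𝒢, ∃ κ κ' : k, (κ ≠ 0 ∨ κ' ≠ 0) ∧
      ∀ s : ↥T, κ * B s + κ' * B' s = 0 := by
  have hp3 : 3 ≤ p := s56fw_three_le hset
  have hζ : ζ ^ p = 1 := hset.hζ.pow_eq_one
  have hϖ0 : ϖt ≠ 0 := s56fn_pi_ne_zero hset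
  obtain ⟨M, hM, hM1, hM2, hM3⟩ := s56fw_M_facts hp3
  set ψb : 𝕜 := res ψ₀ with hψb
  set J : ℕ := p ^ 2 + 1 with hJ
  have hJ1 : 1 ≤ J := by omega
  have hJ2 : J < p ^ 2 + p := by omega
  have hJ3 : ¬ p ∣ J := by
    intro h
    have h1 : p ∣ p ^ 2 := dvd_pow_self p (by norm_num)
    have h2 : p ∣ 1 := (Nat.dvd_add_right h1).mp h
    have := Nat.le_of_dvd one_pos h2
    omega
  -- the arithmetic of `g`
  have hψp2 : ψb ^ p ^ 2 = ψb := by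
    rw [hM3, pow_succ, hM, hψ1, one_mul]
  have hιg2 : ι₀ (g ^ p ^ 2) = ι₀ g := by
    rw [map_pow, hg, ← pow_mul, mul_comm, pow_mul, hψp2]
  have hg2 : g ^ p ^ 2 = g := ι₀.injective hιg2
  have hgn : g ^ (p + 1) = 1 := by
    apply ι₀.injective
    rw [map_pow, hg, ← pow_mul, map_one]
    have e : (p - 1) * (p + 1) = p ^ 2 - 1 := by
      have : (p - 1) * (p + 1) + 1 = p ^ 2 := by
        obtain ⟨q, rfl⟩ : ∃ q, p = q + 1 := ⟨p - 1, by omega⟩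
        simp only [Nat.add_sub_cancel]
        ring
      omega
    rw [e, hψ1]
  obtain ⟨t, ht⟩ := s56fw_exists_nat (p := p) (x := g + g ^ p) (by
    rw [add_pow_char, ← pow_mul, ← sq, hg2, add_comm])
  have hgrel : g ^ 2 + 1 = (t : k) * g := by
    rw [ht, add_mul, ← pow_succ, hgn]
    ring
  have ht𝕜 : (t : 𝕜) = ψb ^ (p - 1) + ψb ^ (p ^ 2 - p) := by
    have h1 : (t : 𝕜) = ι₀ (t : k) := (map_natCast ι₀ t).symm
    rw [h1, ht, map_add, map_pow, hg, ← pow_mul]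
    congr 2
    obtain ⟨q, rfl⟩ : ∃ q, p = q + 1 := ⟨p - 1, by omega⟩
    simp only [Nat.add_sub_cancel]
    have : (q + 1) ^ 2 = q * (q + 1) + (q + 1) := by ring
    omega
  have hn𝕜 : ((1 : ℕ) : 𝕜) = ψb ^ (p - 1) * ψb ^ (p ^ 2 - p) := by
    rw [← pow_add, Nat.cast_one]
    have e : p - 1 + (p ^ 2 - p) = p ^ 2 - 1 := by
      have : p ≤ p ^ 2 := by nlinarith
      omega
    rw [e, hψ1]
  -- the span
  set 𝔅 : Submodule k (↥T → k) := Submodule.span k 𝒢 with h𝔅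
  have h2 : ∀ B ∈ 𝔅, ∀ (s : Γ) (hs : s ∈ T), B ⟨τ₀⁻¹ * s * τ₀, hτT s hs⟩ = g * B ⟨s, hs⟩ := by
    intro B hB
    induction hB using Submodule.span_induction with
    | mem B hB => exact hG2 B hB
    | zero => intro s hs; simp
    | add B B' _ _ ih ih' =>
      intro s hs
      rw [Pi.add_apply, Pi.add_apply, ih s hs, ih' s hs, mul_add]
    | smul κ B _ ih =>
      intro s hs
      rw [Pi.smul_apply, Pi.smul_apply, ih s hs, smul_eq_mul, smul_eq_mul]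
      ring
  have h3 : ∀ B ∈ 𝔅, ∀ (s : Γ) (hs : s ∈ T), B ⟨c'Ψ s, (hc'Ψ s hs).1⟩ = B ⟨s, hs⟩ := by
    intro B hB
    induction hB using Submodule.span_induction with
    | mem B hB => exact hG3 B hB
    | zero => intro s hs; simp
    | add B B' _ _ ih ih' =>
      intro s hs
      rw [Pi.add_apply, Pi.add_apply, ih s hs, ih' s hs]
    | smul κ B _ ih =>
      intro s hs
      rw [Pi.smul_apply, Pi.smul_apply, ih s hs]
  -- the relation of the characters of `𝔅`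
  have hrel : ∀ B ∈ 𝔅, ∀ (ℓ : k →ₗ[ZMod p] ZMod p) (a : Γ → ZMod p),
      (∀ s : ↥T, a s = ℓ (B s)) → ∀ s ∈ T,
      a (τ₀⁻¹ * (τ₀⁻¹ * s * τ₀) * τ₀) + ((1 : ℕ) : ZMod p) * a s =
        (t : ZMod p) * a (τ₀⁻¹ * s * τ₀) := by
    intro B hB ℓ a ha s hs
    have e1 := ha ⟨τ₀⁻¹ * (τ₀⁻¹ * s * τ₀) * τ₀, hτT _ (hτT s hs)⟩
    have e2 := ha ⟨τ₀⁻¹ * s * τ₀, hτT s hs⟩
    have e3 := ha ⟨s, hs⟩
    simp only at e1 e2 e3
    rw [e1, e2, e3, h2 B hB _ (hτT s hs), h2 B hB s hs, Nat.cast_one, one_mul, ← map_add]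
    have e4 : g * (g * B ⟨s, hs⟩) + B ⟨s, hs⟩ = (t : ZMod p) • (g * B ⟨s, hs⟩) := by
      rw [Nat.cast_smul_eq_nsmul, nsmul_eq_mul]
      linear_combination (B ⟨s, hs⟩) * hgrel
    rw [e4, map_smul, smul_eq_mul]
  -- the levels of the characters of `𝔅`
  have hlev : ∀ B ∈ 𝔅, ∀ (ℓ : k →ₗ[ZMod p] ZMod p) (w : L) (a : Γ → ZMod p) (j' : ℕ) (x' : O),
      (∀ s : ↥T, a s = ℓ (B s)) → s56fs_IsRad p T ζ w a → s56fs_NF A p T ϖt w j' x' →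
      IsUnit x' → 1 ≤ j' → j' < p ^ 2 + p → ¬ p ∣ j' → j' = 2 ∨ j' = J := by
    intro B hB ℓ w a j' x' ha hw hn hx hj1 hj2 hj3
    have hl := s56fw_levels hset hU hAdd res hres τ₀ hτT ψ₀ hψ₀ hψv ω₀ ω₀' hω₀ hωω' hord hωψ
      t 1 (p - 1) (p ^ 2 - p) ht𝕜 hn𝕜 hw (hrel B hB ℓ a ha) hn hx hj1 hj2 hj3
    rcases hl with hl | hl
    · exact (s56fw_ar1 hp3 hj2 hj3 hl).elim
    · exact s56fw_ar2 hp3 hj2 hl
  have hbig : ∀ B ∈ 𝔅, ∀ (ℓ : k →ₗ[ZMod p] ZMod p) (w : L) (a : Γ → ZMod p) (j' : ℕ) (x' : O),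
      (∀ s : ↥T, a s = ℓ (B s)) → s56fs_IsRad p T ζ w a → s56fs_NF A p T ϖt w j' x' →
      IsUnit x' → 1 ≤ j' → j' < p ^ 2 + p → ¬ p ∣ j' → j' ≤ J := by
    intro B hB ℓ w a j' x' ha hw hn hx hj1 hj2 hj3
    rcases hlev B hB ℓ w a j' x' ha hw hn hx hj1 hj2 hj3 with h | h <;> omega
  -- every character of `𝔅` has a normal form at level `J`
  have h1 : ∀ B ∈ 𝔅, ∀ ℓ : k →ₗ[ZMod p] ZMod p, ∃ x : O, s56fn_HasNF A T ϖt ζ J B ℓ x := by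
    intro B hB
    induction hB using Submodule.span_induction with
    | mem B hB =>
      intro ℓ
      obtain ⟨w, a, ha, hw, hex⟩ := hG0 B hB ℓ
      rcases hKNF w a hw with h0 | h0 | ⟨j, x, hj1, hj2, hj3, hx, hn⟩
      · exact ⟨0, w, a, ha, hw, s56fy_nf_trivial hϖ0 hw.1 (s56fy_fixed_of_trivial hw h0) J⟩
      · exact absurd (Or.inl h0) hex
      · rcases hlev B (Submodule.subset_span hB) ℓ w a j x ha hw hn hx hj1 hj2 hj3 with h | h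
        · subst h
          exact absurd (Or.inr (Or.inl ⟨x, hx, hn⟩)) hex
        · subst h
          exact ⟨x, w, a, ha, hw, hn⟩
    | zero =>
      intro ℓ
      refine ⟨0, 1, fun _ => 0, fun s => ?_, s56fy_isRad_one,
        s56fy_nf_trivial hϖ0 one_ne_zero (fun s _ => smul_one s) J⟩
      rw [Pi.zero_apply, map_zero]
    | add B B' _ _ ih ih' =>
      intro ℓ
      obtain ⟨x, hx⟩ := ih ℓ
      obtain ⟨x', hx'⟩ := ih' ℓ
      exact ⟨x + x', s56fn_hasNF_add₁ hζ hAdd hJ1 hx hx'⟩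
    | smul κ B _ ih =>
      intro ℓ
      obtain ⟨x, hx⟩ := ih (ℓ ∘ₗ LinearMap.mulLeft (ZMod p) κ)
      exact ⟨x, s56fn_hasNF_semi κ hx⟩
  -- the selection of the odd embeddings
  have hωω𝕜 : (ω₀ : 𝕜) * (ω₀' : 𝕜) = 1 := by
    have h4 := congrArg (ZMod.castHom (dvd_refl p) 𝕜) hωω'
    rw [map_natCast, map_one] at h4
    rw [← h4]
    push_cast
    ring
  have hω𝕜 : (ω₀ : 𝕜) = ψb ^ (p + 1) := by rw [← hωψ, map_natCast]
  have hsel : ∀ i : ℕ, ι₀ g ^ p ^ i = res ((ω₀' : O) * ψ₀ ^ J) → i % 2 = 1 % 2 := by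
    intro i hi
    apply s56fw_odd hp3
    rw [← hM]
    have h5 : ψb ^ ((p - 1) * p ^ i + (p + 1)) = ψb ^ (p ^ 2 + 1) := by
      rw [pow_add, pow_mul, ← hg, hi, map_mul, map_natCast, map_pow, ← hω𝕜]
      calc (ω₀' : 𝕜) * ψb ^ J * (ω₀ : 𝕜) = ((ω₀ : 𝕜) * (ω₀' : 𝕜)) * ψb ^ J := by ring
        _ = ψb ^ J := by rw [hωω𝕜, one_mul]
    have := hord _ _ h5
    rwa [← hM] at this
  intro B hB B' hB'
  exact s56fn_main hset hU hAdd hKNF res hres ι₀ J hJ1 hJ2 hJ3 𝔅 h1 hbig τ₀ hτT ψ₀ hψ₀ hψv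
    ω₀ ω₀' hω₀ hωω' g h2 1 hsel hmd Ψ hΨA cΨ c'Ψ hcΨ hc'Ψ hΨϖ hΨζ hΨO h3
    B (Submodule.subset_span hB) B' (Submodule.subset_span hB')

end Entries

end Fermat.Agent.S56
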