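/-
Project S56, node [LOC-p-FLAT], supersingular case (helper27).  Prefix `s56fu_`.
THE MATRIX-LEVEL COUNT: `rb` diagonal on the inertia group `I` (characters `χ`, `χ^p`, `χ` the
fundamental character of level two), antidiagonal at a Frobenius `φ` fixing `ϖt` and `ζ`.  Two
trace-zero cocycles `c₁, c₂` of `ad rb` all of whose entry characters on `T = Stab_I ϖt` avoid the
Kummer levels `0, 2, p + 1` (`s56fu_Excl`) are dependent modulo the coboundaries on `D`: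

  `s56fu_pair`,   and the shape   `s56fu_shape : s56a_LocShape rb D Pr 1`.
-/
import Mathlib
import Fermat.Agent.S56.Flat.SSOne
import Fermat.Agent.S56.Flat.SSEndGQ
import Fermat.Agent.S56.Asm.Seams

set_option autoImplicit false
set_option linter.unusedSectionVars false

noncomputable section

namespace Fermat.Agent.S56

open Fermat.Agent.MZ Fermat.Agent.S53 Matrix

local notation "GQ" => (AlgebraicClosure ℚ ≃ₐ[ℚ] AlgebraicClosure ℚ)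
local notation "Qb" => AlgebraicClosure ℚ

/-! ### cocycle algebra -/

section Coc

variable {k : Type} [Field k] (rb : FramedResidual k)

theorem s56fu_rb_mul_inv (σ : GQ) : rb σ * rb σ⁻¹ = 1 := by
  rw [← rb.map_mul, mul_inv_cancel, rb.map_one]

theorem s56fu_rb_inv_mul (σ : GQ) : rb σ⁻¹ * rb σ = 1 := by
  rw [← rb.map_mul, inv_mul_cancel, rb.map_one]

theorem s56fu_coc_one {c : GQ → Matrix (Fin 2) (Fin 2) k} (hc : c ∈ s56a_Z rb) : c 1 = 0 := by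
  have := hc.2.1 1 1
  rw [mul_one, rb.map_one, inv_one, rb.map_one, Matrix.one_mul, Matrix.mul_one] at this
  exact left_eq_add.mp this

/-- on the kernel of `rb` a cocycle is conjugation-equivariant. -/
theorem s56fu_conj {c : GQ → Matrix (Fin 2) (Fin 2) k} (hc : c ∈ s56a_Z rb) {s : GQ}
    (hs : rb s = 1) (τ : GQ) : c (τ⁻¹ * s * τ) = rb τ⁻¹ * c s * rb τ := by
  have h1 := hc.2.1 (τ⁻¹ * s) τ
  have h2 := hc.2.1 τ⁻¹ s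
  have h3 := hc.2.1 τ⁻¹ τ
  rw [inv_mul_cancel, s56fu_coc_one rb hc] at h3
  have e1 : rb (τ⁻¹ * s) = rb τ⁻¹ := by rw [rb.map_mul, hs, Matrix.mul_one]
  have e2 : rb (τ⁻¹ * s)⁻¹ = rb τ := by
    rw [_root_.mul_inv_rev, inv_inv, rb.map_mul]
    have : rb s⁻¹ = 1 := by
      have h4 := s56fu_rb_mul_inv rb s
      rwa [hs, Matrix.one_mul] at h4
    rw [this, Matrix.one_mul]
  rw [inv_inv] at h2 h3
  rw [h1, h2, e1, e2]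
  have h5 : c τ⁻¹ = -(rb τ⁻¹ * c τ * rb τ) := by
    rw [eq_neg_iff_add_eq_zero]
    exact h3.symm
  rw [h5]
  abel

end Coc

/-! ### the count -/

section Pair

variable {p : ℕ} [Fact p.Prime] {O : Type} [CommRing O] [IsDomain O] [IsDiscreteValuationRing O]
  [Algebra O Qb] {A : ValuationSubring Qb} {I : Subgroup GQ} {T : Subgroup ↥I} {ϖt ζ : Qb}
  {k : Type} [Field k] [Fintype k] [CharP k p] [Algebra (ZMod p) k]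
  {𝕜 : Type} [Field 𝕜] [CharP 𝕜 p]

/-- all entry characters of the cochain `c` on `T` have radicals avoiding the Kummer levels
`0`, `2`, `p + 1`. -/
def s56fu_Excl (p : ℕ) (O : Type) [CommRing O] [Algebra O Qb] (A : ValuationSubring Qb)
    {I : Subgroup GQ} (T : Subgroup ↥I) (ϖt ζ : Qb) {k : Type} [Field k] [Algebra (ZMod p) k]
    (c : GQ → Matrix (Fin 2) (Fin 2) k) : Prop :=
  ∀ (a b : Fin 2) (ℓ : k →ₗ[ZMod p] ZMod p), ∃ (w : Qb) (a' : ↥I → ZMod p),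
    (∀ s : ↥T, a' (s : ↥I) = ℓ (c (((s : ↥I)) : GQ) a b)) ∧ s56fs_IsRad p T ζ w a' ∧
    ¬ (s56fs_NF0 A p T ϖt w ∨ (∃ x : O, IsUnit x ∧ s56fs_NF A p T ϖt w 2 x) ∨
      ∃ x : O, IsUnit x ∧ s56fs_NF A p T ϖt w (p + 1) x)

/-- conjugation by `ψ` on a subgroup normalised by `ψ`. -/
def s56fu_cj (I : Subgroup GQ) (ψ : GQ) (h : ∀ i ∈ I, ψ * i * ψ⁻¹ ∈ I) : ↥I → ↥I :=
  fun σ => ⟨ψ * (σ : GQ) * ψ⁻¹, h σ σ.2⟩

theorem s56fu_diag_inv (rb : FramedResidual k) (hdiag : ∀ i ∈ I, rb i 0 1 = 0 ∧ rb i 1 0 = 0)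
    {τ : GQ} (hτ : τ ∈ I) : rb τ⁻¹ 0 0 * rb τ 0 0 = 1 ∧ rb τ⁻¹ 1 1 * rb τ 1 1 = 1 := by
  have h1 := s56fu_rb_inv_mul rb τ
  have h00 := congrFun (congrFun h1 0) 0
  have h11 := congrFun (congrFun h1 1) 1
  obtain ⟨a1, a2⟩ := hdiag τ hτ
  obtain ⟨b1, b2⟩ := hdiag τ⁻¹ (inv_mem hτ)
  simp only [Matrix.mul_apply, Fin.sum_univ_two, a1, a2, b1, b2, mul_zero, zero_mul, add_zero,
    zero_add, Matrix.one_apply_eq] at h00 h11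
  exact ⟨h00, h11⟩

theorem s56fu_anti_inv (rb : FramedResidual k) {φ : GQ} (hφ : rb φ 0 0 = 0 ∧ rb φ 1 1 = 0) :
    rb φ⁻¹ 0 0 = 0 ∧ rb φ⁻¹ 1 1 = 0 ∧ rb φ⁻¹ 0 1 * rb φ 1 0 = 1 ∧ rb φ⁻¹ 1 0 * rb φ 0 1 = 1 := by
  have h1 := s56fu_rb_inv_mul rb φ
  have h00 := congrFun (congrFun h1 0) 0
  have h01 := congrFun (congrFun h1 0) 1
  have h10 := congrFun (congrFun h1 1) 0
  have h11 := congrFun (congrFun h1 1) 1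
  simp only [Matrix.mul_apply, Fin.sum_univ_two, hφ.1, hφ.2, mul_zero, zero_mul, add_zero,
    zero_add, Matrix.one_apply_eq, Matrix.one_apply_ne, ne_eq, Fin.reduceEq, not_false_eq_true,
    Fin.isValue, one_ne_zero, zero_ne_one] at h00 h01 h10 h11
  have hu : rb φ 0 1 ≠ 0 := by
    intro h0
    rw [h0, mul_zero] at h11
    exact zero_ne_one h11
  have hv : rb φ 1 0 ≠ 0 := by
    intro h0
    rw [h0, mul_zero] at h00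
    exact zero_ne_one h00
  exact ⟨(mul_eq_zero.mp h01).resolve_right hu, (mul_eq_zero.mp h10).resolve_right hv, h00, h11⟩

/-- **THE MATRIX-LEVEL SUPERSINGULAR COUNT.** -/
theorem s56fu_pair (rb : FramedResidual k) (D : Subgroup GQ)
    (hset : s56fs_Setting p O Qb A ↥I T ϖt ζ)
    (hU : s56fs_Uniq_stmt p O Qb A ↥I T ϖt ζ) (hAdd : s56fs_Add_stmt p O Qb A ↥I T ϖt)
    (hKNF : s56fs_KNF_stmt p O Qb A ↥I T ϖt ζ)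
    (res : O →+* 𝕜) (hres : ∀ x : O, res x = 0 ↔ ¬ IsUnit x) (ι₀ : k →+* 𝕜)
    -- the tame inertia
    (τ₀ : ↥I) (ψ₀ : O)
    (hψ₀ : τ₀ • ϖt = algebraMap O Qb ψ₀ * ϖt) (hψv : A.valuation (algebraMap O Qb ψ₀) = 1)
    (ω₀ ω₀' : ℕ) (hω₀ : τ₀ • ζ = ζ ^ ω₀) (hωω' : ((ω₀ * ω₀' : ℕ) : ZMod p) = 1)
    (hψ1 : res ψ₀ ^ (p ^ 2 - 1) = 1)
    (hord : ∀ n m : ℕ, res ψ₀ ^ n = res ψ₀ ^ m → n ≡ m [MOD p ^ 2 - 1])
    (hωψ : res (ω₀ : O) = res ψ₀ ^ (p + 1))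
    -- `rb` on inertia
    (hdiag : ∀ i ∈ I, rb i 0 1 = 0 ∧ rb i 1 0 = 0)
    (hτ₀ : ι₀ (rb (τ₀ : GQ) 0 0) = res ψ₀) (hτ₀' : rb (τ₀ : GQ) 1 1 = rb (τ₀ : GQ) 0 0 ^ p)
    (hT1 : ∀ s : ↥T, rb (((s : ↥I)) : GQ) = 1)
    (hidx : ((((T.map I.subtype).subgroupOf I).index : ℕ) : k) ≠ 0)
    (hmd : 2 ∣ Module.finrank (ZMod p) k)
    -- the Frobenius
    (φ : GQ) (hφA : ∀ y, y ∈ A ↔ φ y ∈ A)
    (hφI : ∀ i ∈ I, φ * i * φ⁻¹ ∈ I) (hφI' : ∀ i ∈ I, φ⁻¹ * i * φ ∈ I)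
    (hφϖ : φ ϖt = ϖt) (hφζ : φ ζ = ζ)
    (hφO : ∀ x : O, ∃ x' : O, φ (algebraMap O Qb x) = algebraMap O Qb x' ∧ res x' = res x ^ p)
    (hφrb : rb φ 0 0 = 0 ∧ rb φ 1 1 = 0)
    (hgen : ∀ L : IntermediateField ℚ Qb, FiniteDimensional ℚ L →
      ∀ d ∈ D, ∃ n : ℕ, ∃ i ∈ I, ∃ s ∈ L.fixingSubgroup, d = φ ^ n * i * s)
    -- the two cocycles
    (c₁ c₂ : GQ → Matrix (Fin 2) (Fin 2) k) (hc₁ : c₁ ∈ s56a_Z rb) (hc₂ : c₂ ∈ s56a_Z rb)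
    (he₁ : s56fu_Excl p O A T ϖt ζ c₁) (he₂ : s56fu_Excl p O A T ϖt ζ c₂) :
    ∃ κ κ' : k, (κ ≠ 0 ∨ κ' ≠ 0) ∧ κ • c₁ + κ' • c₂ ∈ s56a_cobOn rb D := by
  classical
  have hp3 : 3 ≤ p := s56fw_three_le hset
  have hpp : p.Prime := Fact.out
  -- `T` is the stabiliser of `ϖt`
  have hTmem : ∀ σ : ↥I, σ ∈ T ↔ (σ : GQ) ϖt = ϖt := fun σ => hset.hT σ
  have hψfix : ∀ σ : ↥I, (σ : GQ) (algebraMap O Qb ψ₀) = algebraMap O Qb ψ₀ := fun σ =>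
    hset.hctx.fixed ψ₀ σ
  have hτ₀ϖ : (τ₀ : GQ) ϖt = algebraMap O Qb ψ₀ * ϖt := hψ₀
  have hτT : ∀ s ∈ T, τ₀⁻¹ * s * τ₀ ∈ T := by
    intro s hs
    rw [hTmem]
    have h1 : (s : GQ) ϖt = ϖt := (hTmem s).mp hs
    show (τ₀ : GQ)⁻¹ (((s : GQ)) ((τ₀ : GQ) ϖt)) = ϖt
    rw [hτ₀ϖ, map_mul, hψfix s, h1, ← hτ₀ϖ]
    exact (τ₀ : GQ).symm_apply_apply ϖt
  -- the entries of `rb τ₀`
  obtain ⟨d00, d11⟩ := s56fu_diag_inv rb hdiag τ₀.2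
  set d₀ : k := rb (τ₀ : GQ) 0 0 with hd₀
  have hd₀0 : d₀ ≠ 0 := by
    intro h0
    rw [h0, mul_zero] at d00
    exact zero_ne_one d00
  set g : k := d₀ ^ (p - 1) with hgdef
  have hg : ι₀ g = res ψ₀ ^ (p - 1) := by rw [hgdef, map_pow, hτ₀]
  have hgd : rb (τ₀ : GQ)⁻¹ 0 0 * rb (τ₀ : GQ) 1 1 = g := by
    rw [hτ₀']
    have e : d₀ ^ p = d₀ ^ (p - 1) * d₀ := by
      rw [← pow_succ]
      congr 1
      omega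
    rw [e, hgdef]
    calc rb (τ₀ : GQ)⁻¹ 0 0 * (d₀ ^ (p - 1) * d₀) = (rb (τ₀ : GQ)⁻¹ 0 0 * d₀) * d₀ ^ (p - 1) := by
          ring
      _ = d₀ ^ (p - 1) := by rw [d00, one_mul]
  -- conjugation by `τ₀` on the entries
  have hconjτ : ∀ (c : GQ → Matrix (Fin 2) (Fin 2) k), c ∈ s56a_Z rb → ∀ (s : ↥I) (hs : s ∈ T),
      c ((τ₀⁻¹ * s * τ₀ : ↥I) : GQ) 0 1 = g * c (s : GQ) 0 1 ∧
      c ((τ₀⁻¹ * s * τ₀ : ↥I) : GQ) 0 0 = c (s : GQ) 0 0 := by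
    intro c hc s hs
    have h1 := s56fu_conj rb hc (hT1 ⟨s, hs⟩) (τ₀ : GQ)
    have e : ((τ₀⁻¹ * s * τ₀ : ↥I) : GQ) = (τ₀ : GQ)⁻¹ * (s : GQ) * (τ₀ : GQ) := rfl
    obtain ⟨a1, a2⟩ := hdiag (τ₀ : GQ) τ₀.2
    obtain ⟨b1, b2⟩ := hdiag (τ₀ : GQ)⁻¹ (inv_mem τ₀.2)
    rw [e, h1]
    constructor
    · simp only [Matrix.mul_apply, Fin.sum_univ_two, a1, a2, b1, b2, mul_zero, zero_mul,
        add_zero, zero_add]
      rw [← hgd]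
      ring
    · simp only [Matrix.mul_apply, Fin.sum_univ_two, a1, a2, b1, b2, mul_zero, zero_mul,
        add_zero, zero_add]
      calc rb (τ₀ : GQ)⁻¹ 0 0 * c (s : GQ) 0 0 * rb (τ₀ : GQ) 0 0
          = (rb (τ₀ : GQ)⁻¹ 0 0 * rb (τ₀ : GQ) 0 0) * c (s : GQ) 0 0 := by ring
        _ = c (s : GQ) 0 0 := by rw [d00, one_mul]
  -- the squared Frobenius
  set Ψ : Qb ≃+* Qb := ((φ * φ : GQ) : Qb ≃ₐ[ℚ] Qb).toRingEquiv with hΨdef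
  have hΨ : ∀ y : Qb, Ψ y = φ (φ y) := fun y => rfl
  have hΨA : ∀ y, y ∈ A ↔ Ψ y ∈ A := fun y => by rw [hΨ, ← hφA, ← hφA]
  have hφφI : ∀ i ∈ I, (φ * φ) * i * (φ * φ)⁻¹ ∈ I := by
    intro i hi
    have := hφI _ (hφI i hi)
    have e : (φ * φ) * i * (φ * φ)⁻¹ = φ * (φ * i * φ⁻¹) * φ⁻¹ := by group
    rw [e]
    exact this
  have hφφI' : ∀ i ∈ I, (φ * φ)⁻¹ * i * (φ * φ)⁻¹⁻¹ ∈ I := by
    intro i hi
    have := hφI' _ (hφI' i hi)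
    have e : (φ * φ)⁻¹ * i * (φ * φ)⁻¹⁻¹ = φ⁻¹ * (φ⁻¹ * i * φ) * φ := by
      rw [inv_inv, _root_.mul_inv_rev]
      simp only [mul_assoc]
    rw [e]
    exact this
  set cΨ : ↥I → ↥I := s56fu_cj I (φ * φ) hφφI with hcΨdef
  set c'Ψ : ↥I → ↥I := s56fu_cj I (φ * φ)⁻¹ hφφI' with hc'Ψdef
  have hcΨ : ∀ (σ : ↥I) (y : Qb), Ψ (σ • y) = cΨ σ • Ψ y := by
    intro σ y
    show (φ * φ) ((σ : GQ) y) = ((φ * φ) * (σ : GQ) * (φ * φ)⁻¹) ((φ * φ) y)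
    rw [AlgEquiv.mul_apply ((φ * φ) * (σ : GQ)), AlgEquiv.mul_apply (φ * φ) (σ : GQ)]
    congr 2
    exact ((φ * φ).symm_apply_apply y).symm
  have hΨϖ : Ψ ϖt = ϖt := by rw [hΨ, hφϖ, hφϖ]
  have hΨζ : Ψ ζ = ζ := by rw [hΨ, hφζ, hφζ]
  have hφinvϖ : φ⁻¹ ϖt = ϖt := by
    conv_lhs => rw [← hφϖ]
    exact φ.symm_apply_apply ϖt
  have hc'Ψ : ∀ s ∈ T, c'Ψ s ∈ T ∧ cΨ (c'Ψ s) = s := by
    intro s hs
    constructor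
    · rw [hTmem]
      show ((φ * φ)⁻¹ * (s : GQ) * (φ * φ)⁻¹⁻¹) ϖt = ϖt
      rw [inv_inv, _root_.mul_inv_rev]
      show φ⁻¹ (φ⁻¹ ((s : GQ) (φ (φ ϖt)))) = ϖt
      rw [hφϖ, hφϖ, (hTmem s).mp hs, hφinvϖ, hφinvϖ]
    · apply Subtype.ext
      show (φ * φ) * ((φ * φ)⁻¹ * (s : GQ) * (φ * φ)⁻¹⁻¹) * (φ * φ)⁻¹ = (s : GQ)
      group
  have hΨO : ∀ x : O, ∃ x' : O, Ψ (algebraMap O Qb x) = algebraMap O Qb x' ∧
      res x' = res x ^ p ^ 2 := by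
    intro x
    obtain ⟨x', h1, h2⟩ := hφO x
    obtain ⟨x'', h3, h4⟩ := hφO x'
    exact ⟨x'', by rw [hΨ, h1, h3], by rw [h4, h2, ← pow_mul, sq]⟩
  -- `rb (φ φ)` is a scalar
  obtain ⟨f00, f11, f01, f10⟩ := s56fu_anti_inv rb hφrb
  have hscal : ∀ X : Matrix (Fin 2) (Fin 2) k, rb (φ * φ)⁻¹ * X * rb (φ * φ) = X := by
    intro X
    have h1 : rb (φ * φ) = (rb φ 0 1 * rb φ 1 0) • (1 : Matrix (Fin 2) (Fin 2) k) := by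
      rw [rb.map_mul]
      ext i j
      fin_cases i <;> fin_cases j <;>
        simp [Matrix.mul_apply, Fin.sum_univ_two, hφrb.1, hφrb.2, mul_comm]
    have h2 : X * rb (φ * φ) = rb (φ * φ) * X := by
      rw [h1, Matrix.mul_smul, Matrix.smul_mul, Matrix.mul_one, Matrix.one_mul]
    rw [Matrix.mul_assoc, h2, ← Matrix.mul_assoc, s56fu_rb_inv_mul, Matrix.one_mul]
  have hconjΨ : ∀ (c : GQ → Matrix (Fin 2) (Fin 2) k), c ∈ s56a_Z rb → ∀ (s : ↥I) (hs : s ∈ T),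
      c ((c'Ψ s : ↥I) : GQ) = c (s : GQ) := by
    intro c hc s hs
    have h1 := s56fu_conj rb hc (hT1 ⟨s, hs⟩) (φ * φ)
    have e : ((c'Ψ s : ↥I) : GQ) = (φ * φ)⁻¹ * (s : GQ) * (φ * φ) := by
      show (φ * φ)⁻¹ * (s : GQ) * (φ * φ)⁻¹⁻¹ = _
      rw [inv_inv]
    rw [e, h1, hscal]
  -- the generators
  set B₁ : ↥T → k := fun s => c₁ ((s : ↥I) : GQ) 0 1 with hB₁
  set B₂ : ↥T → k := fun s => c₂ ((s : ↥I) : GQ) 0 1 with hB₂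
  have hBB := s56fw_B hset hU hAdd hKNF res hres ι₀ τ₀ hτT ψ₀ hψ₀ hψv ω₀ ω₀' hω₀ hωω' hψ1 hord
    hωψ g hg hmd Ψ hΨA cΨ c'Ψ hcΨ hc'Ψ hΨϖ hΨζ hΨO ({B₁, B₂} : Set (↥T → k))
    (by
      rintro B (rfl | rfl) ℓ
      · exact he₁ 0 1 ℓ
      · exact he₂ 0 1 ℓ)
    (by
      rintro B (rfl | rfl) s hs
      · exact (hconjτ c₁ hc₁ s hs).1
      · exact (hconjτ c₂ hc₂ s hs).1)
    (by
      rintro B (rfl | rfl) s hs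
      · exact congrFun (congrFun (hconjΨ c₁ hc₁ s hs) 0) 1
      · exact congrFun (congrFun (hconjΨ c₂ hc₂ s hs) 0) 1)
    B₁ (Or.inl rfl) B₂ (Or.inr rfl)
  obtain ⟨κ, κ', hκ, hB⟩ := hBB
  refine ⟨κ, κ', hκ, ?_⟩
  -- the diagonal entries vanish on `T`
  have hAA : ∀ (c : GQ → Matrix (Fin 2) (Fin 2) k), c ∈ s56a_Z rb → s56fu_Excl p O A T ϖt ζ c →
      ∀ s : ↥T, c ((s : ↥I) : GQ) 0 0 = 0 := by
    intro c hc he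
    exact s56fw_A hset hU hAdd hKNF res hres τ₀ hτT ψ₀ hψ₀ hψv ω₀ ω₀' hω₀ hωω' hord hωψ
      (fun s => c ((s : ↥I) : GQ) 0 0) (fun s hs => (hconjτ c hc s hs).2) (fun ℓ => he 0 0 ℓ)
  -- the combination
  set c : GQ → Matrix (Fin 2) (Fin 2) k := κ • c₁ + κ' • c₂ with hcdef
  have hcZ : c ∈ s56a_Z rb :=
    (s56a_Z rb).add_mem ((s56a_Z rb).smul_mem κ hc₁) ((s56a_Z rb).smul_mem κ' hc₂)
  have hc00 : ∀ s : ↥T, c ((s : ↥I) : GQ) 0 0 = 0 := by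
    intro s
    show κ * c₁ _ 0 0 + κ' * c₂ _ 0 0 = 0
    rw [hAA c₁ hc₁ he₁ s, hAA c₂ hc₂ he₂ s, mul_zero, mul_zero, add_zero]
  have hc01 : ∀ s : ↥T, c ((s : ↥I) : GQ) 0 1 = 0 := fun s => hB s
  have hc11 : ∀ s : ↥T, c ((s : ↥I) : GQ) 1 1 = 0 := by
    intro s
    have h1 := hcZ.1 ((s : ↥I) : GQ)
    rw [Matrix.trace_fin_two, hc00 s, zero_add] at h1
    exact h1
  have hc10 : ∀ s : ↥T, c ((s : ↥I) : GQ) 1 0 = 0 := by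
    intro s
    -- `φ⁻¹ s φ ∈ T`
    have hmemI : φ⁻¹ * ((s : ↥I) : GQ) * φ ∈ I := hφI' _ (s : ↥I).2
    have hmemT : (⟨φ⁻¹ * ((s : ↥I) : GQ) * φ, hmemI⟩ : ↥I) ∈ T := by
      rw [hTmem]
      show φ⁻¹ (((s : ↥I) : GQ) (φ ϖt)) = ϖt
      rw [hφϖ, (hTmem (s : ↥I)).mp s.2, hφinvϖ]
    have h1 := hc01 ⟨⟨φ⁻¹ * ((s : ↥I) : GQ) * φ, hmemI⟩, hmemT⟩
    have h2 := s56fu_conj rb hcZ (hT1 s) φ
    have h3 : c (φ⁻¹ * ((s : ↥I) : GQ) * φ) 0 1 = 0 := h1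
    rw [h2] at h3
    simp only [Matrix.mul_apply, Fin.sum_univ_two, hφrb.1, hφrb.2, f00, f11, mul_zero, zero_mul,
      add_zero, zero_add] at h3
    have hu : rb φ 0 1 ≠ 0 := by
      intro h0
      rw [h0, mul_zero] at f10
      exact zero_ne_one f10
    have hv' : rb φ⁻¹ 0 1 ≠ 0 := by
      intro h0
      rw [h0, zero_mul] at f01
      exact zero_ne_one f01
    rcases mul_eq_zero.mp h3 with h4 | h4
    · rcases mul_eq_zero.mp h4 with h5 | h5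
      · exact absurd h5 hv'
      · exact h5
    · exact absurd h4 hu
  have hcT : ∀ s ∈ T.map I.subtype, c s = 0 := by
    rintro _ ⟨s, hs, rfl⟩
    ext i j
    fin_cases i <;> fin_cases j
    · exact hc00 ⟨s, hs⟩
    · exact hc01 ⟨s, hs⟩
    · exact hc10 ⟨s, hs⟩
    · exact hc11 ⟨s, hs⟩
  -- distinct eigenvalues at `τ₀`
  have hdist : rb (τ₀ : GQ) 0 0 ≠ rb (τ₀ : GQ) 1 1 := by
    rw [hτ₀']
    intro h
    have h1 : res ψ₀ ^ 1 = res ψ₀ ^ p := by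
      rw [pow_one, ← hτ₀, ← map_pow, ← h]
    have h2 := hord 1 p h1
    obtain ⟨M, hM, hM1, hM2, hM3⟩ := s56fw_M_facts hp3
    rw [← hM] at h2
    have h3 : 1 % M = p % M := h2
    rw [Nat.mod_eq_of_lt (show 1 < M by omega), Nat.mod_eq_of_lt (show p < M by omega)] at h3
    omega
  have h2k : (2 : k) ≠ 0 := by
    intro h
    have h1 : ((2 : ℕ) : k) = 0 := by exact_mod_cast h
    rw [CharP.cast_eq_zero_iff k p] at h1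
    exact hset.hp2 ((Nat.prime_dvd_prime_iff_eq hpp Nat.prime_two).1 h1)
  refine s56fz_cobOn h2k rb (T.map I.subtype) I D ?_ hidx ?_ (τ₀ : GQ) τ₀.2
    ⟨(hdiag _ τ₀.2).1, (hdiag _ τ₀.2).2, hdist⟩ hdiag φ hφrb (hφI' _ τ₀.2) hgen c hcZ hcT
  · rintro _ ⟨s, -, rfl⟩
    exact s.2
  · rintro _ ⟨s, hs, rfl⟩
    exact hT1 ⟨s, hs⟩

/-- **THE SUPERSINGULAR SHAPE**: the span of the cocycles of the lifts with the property `Pr` has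
dimension `≤ 1` modulo the coboundaries on `D`. -/
theorem s56fu_shape (rb : FramedResidual k) (D : Subgroup GQ)
    (hset : s56fs_Setting p O Qb A ↥I T ϖt ζ)
    (hU : s56fs_Uniq_stmt p O Qb A ↥I T ϖt ζ) (hAdd : s56fs_Add_stmt p O Qb A ↥I T ϖt)
    (hKNF : s56fs_KNF_stmt p O Qb A ↥I T ϖt ζ)
    (res : O →+* 𝕜) (hres : ∀ x : O, res x = 0 ↔ ¬ IsUnit x) (ι₀ : k →+* 𝕜)
    (τ₀ : ↥I) (ψ₀ : O)
    (hψ₀ : τ₀ • ϖt = algebraMap O Qb ψ₀ * ϖt) (hψv : A.valuation (algebraMap O Qb ψ₀) = 1)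
    (ω₀ ω₀' : ℕ) (hω₀ : τ₀ • ζ = ζ ^ ω₀) (hωω' : ((ω₀ * ω₀' : ℕ) : ZMod p) = 1)
    (hψ1 : res ψ₀ ^ (p ^ 2 - 1) = 1)
    (hord : ∀ n m : ℕ, res ψ₀ ^ n = res ψ₀ ^ m → n ≡ m [MOD p ^ 2 - 1])
    (hωψ : res (ω₀ : O) = res ψ₀ ^ (p + 1))
    (hdiag : ∀ i ∈ I, rb i 0 1 = 0 ∧ rb i 1 0 = 0)
    (hτ₀ : ι₀ (rb (τ₀ : GQ) 0 0) = res ψ₀) (hτ₀' : rb (τ₀ : GQ) 1 1 = rb (τ₀ : GQ) 0 0 ^ p)
    (hT1 : ∀ s : ↥T, rb (((s : ↥I)) : GQ) = 1)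
    (hidx : ((((T.map I.subtype).subgroupOf I).index : ℕ) : k) ≠ 0)
    (hmd : 2 ∣ Module.finrank (ZMod p) k)
    (φ : GQ) (hφA : ∀ y, y ∈ A ↔ φ y ∈ A)
    (hφI : ∀ i ∈ I, φ * i * φ⁻¹ ∈ I) (hφI' : ∀ i ∈ I, φ⁻¹ * i * φ ∈ I)
    (hφϖ : φ ϖt = ϖt) (hφζ : φ ζ = ζ)
    (hφO : ∀ x : O, ∃ x' : O, φ (algebraMap O Qb x) = algebraMap O Qb x' ∧ res x' = res x ^ p)
    (hφrb : rb φ 0 0 = 0 ∧ rb φ 1 1 = 0)
    (hgen : ∀ L : IntermediateField ℚ Qb, FiniteDimensional ℚ L →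
      ∀ d ∈ D, ∃ n : ℕ, ∃ i ∈ I, ∃ s ∈ L.fixingSubgroup, d = φ ^ n * i * s)
    (Pr : FramedRep (DualNumber k) → Prop)
    (hPr : ∀ r : FramedRep (DualNumber k), (∀ σ, s56t_bar r σ = rb σ) → Pr r →
      s56t_coc r ∈ s56a_Z rb ∧ s56fu_Excl p O A T ϖt ζ (s56t_coc r)) :
    s56a_LocShape rb D Pr 1 := by
  set S : Set (GQ → Matrix (Fin 2) (Fin 2) k) :=
    {c | ∃ r : FramedRep (DualNumber k), (∀ σ, s56t_bar r σ = rb σ) ∧ Pr r ∧ c = s56t_coc r}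
    with hS
  obtain ⟨hfin, hrank⟩ := s56fz_span_le_one (s56a_cobOn rb D) S (by
    rintro c₁ ⟨r₁, hb₁, hP₁, rfl⟩ c₂ ⟨r₂, hb₂, hP₂, rfl⟩
    obtain ⟨hZ₁, he₁⟩ := hPr r₁ hb₁ hP₁
    obtain ⟨hZ₂, he₂⟩ := hPr r₂ hb₂ hP₂
    exact s56fu_pair rb D hset hU hAdd hKNF res hres ι₀ τ₀ ψ₀ hψ₀ hψv ω₀ ω₀' hω₀ hωω' hψ1 hord
      hωψ hdiag hτ₀ hτ₀' hT1 hidx hmd φ hφA hφI hφI' hφϖ hφζ hφO hφrb hgen _ _ hZ₁ hZ₂ he₁ he₂)
  refine ⟨Submodule.span k S, fun r hb hP => Submodule.subset_span ⟨r, hb, hP, rfl⟩, hfin, ?_⟩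
  exact hrank.trans (Nat.le_add_left 1 _)

end Pair

end Fermat.Agent.S56
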