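/-
Project S56 (Taylor–Wiles primes), node [LOC-p-FLAT] (owner helper27), cell F-SETTING, part (S1)
(helper29).  Prefix `s56fh_`.  THE CONCRETE INSTANCE OF `s56fs_Setting` (`Flat/SSDefs.lean`) at a
place `P` of `Q̄` over `p ≠ 2`: `O`, `Γ` and the actions are exactly those of `mzg_ctx`
(`MZ/Geo/Ctx.lean`), `T` is the stabiliser of `ϖt` in the inertia group.

* `s56fh_val_one_sub_pow`      (Z1) : `v (1 - ζ ^ i) = v (1 - ζ)` for `p ∤ i` (any valuation subring);
* `s56fh_val_one_sub_pow_pred` (Z2) : `v (1 - ζ) ^ (p - 1) = v p`;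
* `s56fh_fix_zeta`             (Z3) : an inertia element fixing some `c₀` with `v c₀ = v (1 - ζ)`
                                      fixes `ζ` (used with `c₀ = ϖt ^ (p + 1)`; `c₀ = ϖ` for
                                      `ϖ ^ (p - 1) = -p`);
* `s56fh_pow_sub_pow_mem`           : congruent elements have congruent powers;
* `s56fh_setting`                   : the instance;  `s56fh_exists` : `ϖt` and `ζ` exist.
-/
import Mathlib
import Fermat.Agent.MZ.Geo.Ctx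
import Fermat.Agent.MZ.Hopf.DualOrder
import Fermat.Agent.S56.Flat.SSDefs

set_option autoImplicit false
set_option linter.unusedSectionVars false

noncomputable section

namespace Fermat.Agent.S56

open Fermat.Agent.MZ Fermat.Agent.FF

section Cyclo

variable {L : Type} [Field L] (A : ValuationSubring L) {p : ℕ}

/-- a root of unity lies in every valuation subring. -/
theorem s56fh_root_mem {η : L} {n : ℕ} (hn : n ≠ 0) (hη : η ^ n = 1) : η ∈ A := by
  rw [← A.valuation_le_one_iff]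
  by_contra h
  push Not at h
  have h1 := one_lt_pow₀ h hn
  rw [← map_pow, hη, map_one] at h1
  exact lt_irrefl _ h1

/-- `v (1 - η ^ i) ≤ v (1 - η)` for a root of unity `η`. -/
theorem s56fh_val_one_sub_pow_le {η : L} {n : ℕ} (hn : n ≠ 0) (hη : η ^ n = 1) (i : ℕ) :
    A.valuation (1 - η ^ i) ≤ A.valuation (1 - η) := by
  have h1 : 1 - η ^ i = (1 - η) * ∑ j ∈ Finset.range i, η ^ j := (mul_neg_geom_sum η i).symm
  have h2 : ∑ j ∈ Finset.range i, η ^ j ∈ A :=
    sum_mem fun j _ => pow_mem (s56fh_root_mem A hn hη) j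
  rw [h1, map_mul]
  calc A.valuation (1 - η) * A.valuation (∑ j ∈ Finset.range i, η ^ j)
      ≤ A.valuation (1 - η) * 1 := mul_le_mul_right ((A.valuation_le_one_iff _).mpr h2) _
    _ = A.valuation (1 - η) := mul_one _

/-- **(Z1)** all `1 - ζ ^ i`, `p ∤ i`, have the same valuation. -/
theorem s56fh_val_one_sub_pow (hp : p.Prime) {ζ : L} (hζ : ζ ^ p = 1) {i : ℕ} (hi : ¬ p ∣ i) :
    A.valuation (1 - ζ ^ i) = A.valuation (1 - ζ) := by
  refine le_antisymm (s56fh_val_one_sub_pow_le A hp.ne_zero hζ i) ?_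
  have hcop : Nat.Coprime i p := (Nat.Prime.coprime_iff_not_dvd hp).mpr hi |>.symm
  obtain ⟨j, -, hj⟩ := Nat.exists_mul_mod_eq_one_of_coprime hcop hp.one_lt
  have h1 : (ζ ^ i) ^ j = ζ := by
    rw [← pow_mul, pow_eq_pow_mod _ hζ, hj, pow_one]
  have h2 : (ζ ^ i) ^ p = 1 := by rw [← pow_mul, mul_comm, pow_mul, hζ, one_pow]
  have h3 := s56fh_val_one_sub_pow_le A hp.ne_zero h2 j
  rwa [h1] at h3

/-- **(Z2)** `v (1 - ζ) ^ (p - 1) = v p`. -/
theorem s56fh_val_one_sub_pow_pred (hp : p.Prime) {ζ : L} (hζ : IsPrimitiveRoot ζ p) :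
    A.valuation (1 - ζ) ^ (p - 1) = A.valuation (p : L) := by
  obtain ⟨n, rfl⟩ : ∃ n, p = n + 1 := ⟨p - 1, (Nat.succ_pred_eq_of_pos hp.pos).symm⟩
  have h1 := hζ.prod_one_sub_pow_eq_order
  have h2 : ((n + 1 : ℕ) : L) = (n : L) + 1 := by push_cast; ring
  rw [h2, ← h1, map_prod, Nat.add_sub_cancel]
  rw [Finset.prod_congr rfl fun k hk => s56fh_val_one_sub_pow A hp hζ.pow_eq_one
    (i := k + 1) (by
      intro hdvd
      have := Nat.le_of_dvd (Nat.succ_pos k) hdvd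
      have := Finset.mem_range.mp hk
      omega)]
  rw [Finset.prod_const, Finset.card_range]


/-- **(Z3)** an inertia element fixing an element `c₀` with `v c₀ = v (1 - ζ)` fixes `ζ`. -/
theorem s56fh_fix_zeta {Γ : Type} [Group Γ] [MulSemiringAction Γ L] (hp : p.Prime) {ζ : L}
    (hζ : IsPrimitiveRoot ζ p) {c₀ : L} (hc₀ : A.valuation c₀ = A.valuation (1 - ζ)) {σ : Γ}
    (hinert : ∀ a : L, a ∈ A → σ • a - a ∈ A.nonunits) (hσ : σ • c₀ = c₀) : σ • ζ = ζ := by
  have hp1 : p ≠ 1 := hp.one_lt.ne'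
  have hζ1 : (1 : L) - ζ ≠ 0 := sub_ne_zero.mpr (hζ.ne_one hp.one_lt).symm
  have hv0 : A.valuation (1 - ζ) ≠ 0 := (map_ne_zero _).mpr hζ1
  have hc0 : c₀ ≠ 0 := by
    intro h
    rw [h, map_zero] at hc₀
    exact hv0 hc₀.symm
  have hcA : (1 - ζ) / c₀ ∈ A := by
    rw [← A.valuation_le_one_iff, map_div₀, hc₀, div_self hv0]
  have h1 := hinert _ hcA
  have hσζ : (σ • ζ) ^ p = 1 := by rw [← smul_pow', hζ.pow_eq_one, smul_one]
  have : NeZero p := ⟨hp.ne_zero⟩
  obtain ⟨m, hm, hm'⟩ := hζ.eq_pow_of_pow_eq_one hσζ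
  by_contra hne
  have hm1 : m ≠ 1 := by
    rintro rfl
    rw [pow_one] at hm'
    exact hne hm'.symm
  have h2 : σ • ((1 - ζ) / c₀) - (1 - ζ) / c₀ = (ζ - ζ ^ m) / c₀ := by
    rw [smul_div₀', hσ, smul_sub, smul_one, ← hm']
    field_simp
    ring
  have h3 : A.valuation (ζ - ζ ^ m) = A.valuation (1 - ζ) := by
    rcases Nat.eq_zero_or_pos m with rfl | hmpos
    · rw [pow_zero, ← neg_sub, Valuation.map_neg]
    · obtain ⟨d, rfl⟩ : ∃ d, m = d + 1 := ⟨m - 1, (Nat.succ_pred_eq_of_pos hmpos).symm⟩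
      have h4 : ζ - ζ ^ (d + 1) = ζ * (1 - ζ ^ d) := by ring
      have hd : ¬ p ∣ d := by
        intro hdvd
        have hd0 : d ≠ 0 := fun h => hm1 (by rw [h])
        have := Nat.le_of_dvd (Nat.pos_of_ne_zero hd0) hdvd
        omega
      have hvζ : A.valuation ζ = 1 := by
        have h5 : A.valuation ζ ^ p = 1 := by rw [← map_pow, hζ.pow_eq_one, map_one]
        exact (pow_eq_one_iff_of_nonneg zero_le hp.ne_zero).mp h5
      rw [h4, map_mul, hvζ, one_mul, s56fh_val_one_sub_pow A hp hζ.pow_eq_one hd]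
  rw [h2, ValuationSubring.mem_nonunits_iff, map_div₀, h3, hc₀, div_self hv0] at h1
  exact lt_irrefl _ h1

end Cyclo


section Residue

variable {L : Type} [Field L] (A : ValuationSubring L)

/-- congruent elements of `A` have congruent powers. -/
theorem s56fh_pow_sub_pow_mem {a b : L} (ha : a ∈ A) (hb : b ∈ A) (hab : a - b ∈ A.nonunits)
    (n : ℕ) : a ^ n - b ^ n ∈ A.nonunits := by
  rw [← geom_sum₂_mul, mul_comm]
  exact mzo_nonunits_mul_mem hab
    (sum_mem fun i _ => mul_mem (pow_mem ha _) (pow_mem hb _))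

end Residue


section Concrete

open Polynomial

/-- `(p + 1) (p - 1) = p² - 1`. -/
theorem s56fh_sq_sub_one (p : ℕ) (hp : 0 < p) : (p + 1) * (p - 1) = p ^ 2 - 1 := by
  obtain ⟨n, rfl⟩ : ∃ n, p = n + 1 := ⟨p - 1, (Nat.succ_pred_eq_of_pos hp).symm⟩
  rw [Nat.add_sub_cancel]
  apply (Nat.sub_eq_of_eq_add _).symm
  ring

/-- **F-SETTING**: the standing hypotheses of the Kummer side hold at every place `P` of `Q̄` over
`p ≠ 2`, for every `ϖt` with `ϖt ^ (p² - 1) = -p`, `T` its stabiliser in the inertia group, and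
every primitive `p`-th root of unity `ζ`. -/
theorem s56fh_setting (p : ℕ) [hp : Fact p.Prime] (hp2 : p ≠ 2) (P : ValuationSubring ff_Qb)
    (hP : P.LiesOverPrime p) {ϖt ζ : ff_Qb} (hϖ : ϖt ^ (p ^ 2 - 1) = -(p : ff_Qb))
    (hζ : IsPrimitiveRoot ζ p) :
    s56fs_Setting p ↥(ffi_O P ↥(ffi_L P)) ff_Qb P ↥(P.inertiaSubgroupIn ℚ)
      (MulAction.stabilizer ↥(P.inertiaSubgroupIn ℚ) ϖt) ϖt ζ := by
  have hctx := mzg_ctx p P hP
  have hpp := hp.out
  have : IsDiscreteValuationRing ↥(ffi_O P ↥(ffi_L P)) := mzg_ctx_dvr p P hP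
  refine ⟨hctx, hp2, hϖ, fun σ => MulAction.mem_stabilizer_iff, hζ, fun s hs => ?_, fun x => ?_,
    fun c x _ => ?_⟩
  · -- `T` fixes `ζ`
    have hs' : s • ϖt = ϖt := MulAction.mem_stabilizer_iff.mp hs
    have hc₀ : P.valuation (ϖt ^ (p + 1)) = P.valuation (1 - ζ) := by
      have hn : p - 1 ≠ 0 := Nat.sub_ne_zero_of_lt hpp.one_lt
      apply (pow_left_inj₀ zero_le zero_le hn).mp
      rw [s56fh_val_one_sub_pow_pred P hpp hζ, ← map_pow, ← pow_mul, s56fh_sq_sub_one p hpp.pos,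
        hϖ, Valuation.map_neg]
    exact s56fh_fix_zeta P hpp hζ hc₀ (fun a ha => hctx.inert s a ha) (by rw [smul_pow', hs'])
  · -- the residue field is perfect
    obtain ⟨y₀, hy₀⟩ := IsAlgClosed.exists_pow_nat_eq
      (algebraMap ↥(ffi_O P ↥(ffi_L P)) ff_Qb x) hpp.pos
    have hy₀P : y₀ ∈ P := by
      rw [← P.valuation_le_one_iff]
      have h1 : P.valuation y₀ ^ p ≤ 1 := by
        rw [← map_pow, hy₀]
        exact (P.valuation_le_one_iff _).mpr (hctx.mem_A x)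
      exact (pow_le_one_iff_of_nonneg zero_le hpp.ne_zero).mp h1
    obtain ⟨y, hy⟩ := hctx.res_full y₀ hy₀P
    refine ⟨y, ?_⟩
    rw [map_sub, map_pow, ← hy₀]
    have h2 := s56fh_pow_sub_pow_mem P hy₀P (hctx.mem_A y) hy p
    have h3 := mzo_nonunits_neg h2
    rwa [neg_sub] at h3
  · -- Artin–Schreier
    set c' := algebraMap ↥(ffi_O P ↥(ffi_L P)) ff_Qb c with hc'
    set x' := algebraMap ↥(ffi_O P ↥(ffi_L P)) ff_Qb x with hx'
    have hdeg : (C c' * X + C x' : ff_Qb[X]).degree < ((p : ℕ) : WithBot ℕ) := by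
      refine lt_of_le_of_lt (degree_linear_le) ?_
      exact_mod_cast hpp.one_lt
    have hmonic : (X ^ p - (C c' * X + C x') : ff_Qb[X]).Monic := monic_X_pow_sub hdeg
    have hdeg' : (X ^ p - (C c' * X + C x') : ff_Qb[X]).degree ≠ 0 := by
      rw [degree_sub_eq_left_of_degree_lt (by rwa [degree_X_pow]), degree_X_pow]
      exact_mod_cast hpp.ne_zero
    obtain ⟨y₀, hy₀⟩ := IsAlgClosed.exists_root _ hdeg'
    rw [IsRoot.def, eval_sub, eval_pow, eval_X, eval_add, eval_mul, eval_C, eval_X, eval_C] at hy₀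
    have hy₀P : y₀ ∈ P := by
      refine mzo_mem_of_isIntegral P (fun o => hctx.mem_A o) ?_
      have hdegO : (C c * X + C x : (↥(ffi_O P ↥(ffi_L P)))[X]).degree < ((p : ℕ) : WithBot ℕ) := by
        refine lt_of_le_of_lt (degree_linear_le) ?_
        exact_mod_cast hpp.one_lt
      refine ⟨X ^ p - (C c * X + C x), monic_X_pow_sub hdegO, ?_⟩
      rw [eval₂_sub, eval₂_pow, eval₂_X, eval₂_add, eval₂_mul, eval₂_C, eval₂_X, eval₂_C]
      exact hy₀
    obtain ⟨y, hy⟩ := hctx.res_full y₀ hy₀P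
    refine ⟨y, ?_⟩
    have hyP := hctx.mem_A y
    set a := algebraMap ↥(ffi_O P ↥(ffi_L P)) ff_Qb y with ha
    have h1 : algebraMap ↥(ffi_O P ↥(ffi_L P)) ff_Qb (y ^ p - c * y - x) =
        -((y₀ ^ p - a ^ p) - c' * (y₀ - a)) := by
      rw [map_sub, map_sub, map_pow, map_mul]
      have : y₀ ^ p = c' * y₀ + x' := sub_eq_zero.mp hy₀
      rw [this]
      ring
    rw [h1]
    refine mzo_nonunits_neg (mzo_nonunits_sub (s56fh_pow_sub_pow_mem P hy₀P hyP hy p) ?_)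
    rw [mul_comm]
    exact mzo_nonunits_mul_mem hy (hctx.mem_A c)

/-- existence of `ϖt` and `ζ`. -/
theorem s56fh_exists (p : ℕ) [hp : Fact p.Prime] :
    ∃ ϖt ζ : ff_Qb, ϖt ^ (p ^ 2 - 1) = -(p : ff_Qb) ∧ IsPrimitiveRoot ζ p := by
  have h1 : 0 < p ^ 2 - 1 := by
    have := hp.out.one_lt
    have h2 : 1 < p ^ 2 := Nat.one_lt_pow (by norm_num) this
    omega
  obtain ⟨ϖt, hϖ⟩ := IsAlgClosed.exists_pow_nat_eq (-(p : ff_Qb)) h1
  have : NeZero p := ⟨hp.out.ne_zero⟩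
  obtain ⟨ζ, hζ⟩ := HasEnoughRootsOfUnity.exists_primitiveRoot ff_Qb p
  exact ⟨ϖt, ζ, hϖ, hζ⟩

end Concrete

end Fermat.Agent.S56
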