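/-
Project S56, node [LOC-p-FLAT] (owner helper27), cell F-SSEXCL (helper17).  Prefix `s56fje_`.
THE GLUE (iii) OF `s56fu_shape`: a flat deformation `r` to `k[ε]` with cyclotomic determinant of a
residual representation which on the inertia group `I` at `p` is `diag (χ, χ ^ p)` (`χ` of order
dividing `p² - 1`, `χ ^ p ≠ χ`, kernel of `χ` = the stabiliser `T` of `ϖt`) has a cocycle in
`s56a_Z rb` all of whose entry characters on `T` avoid the Kummer levels `0`, `2`, `p + 1`: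

  `s56fje_main : s56t_coc r ∈ s56a_Z rb ∧ s56fu_Excl p O P T ϖt ζ (s56t_coc r)`.

Route: `F := {x ∈ k | x ^ p² = x}` (`p²` elements because `χ σ₀ ∉ 𝔽_p`), `χ` into `Fˣ`,
`j 0 :=` inclusion, `j 1 :=` Frobenius `∘` inclusion, standard basis; for a linear form
`ℓ : k → 𝔽_p`: if `ℓ = 0` take `w := 1` (`s56ku_uniq`, `s56fy_no_level`); otherwise the radical `w`
of F-KDICT (`s56fk_main`), the subquotient of F-SSDICT (`s56fj_main_fp`) and the excluded levels
(`s56fv_level`, `s56ku_T5`).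
-/
import Mathlib
import Fermat.Agent.S56.Flat.SSMat
import Fermat.Agent.S56.Flat.SSDict
import Fermat.Agent.S56.Flat.KDict
import Fermat.Agent.S56.Flat.SSLevel
import Fermat.Agent.S56.Flat.SSType
import Fermat.Agent.S56.Flat.SettingP
import Fermat.Agent.S56.KumT.Uniq
import Fermat.Agent.S56.Tan.Spec

set_option autoImplicit false
set_option linter.unusedSectionVars false
set_option linter.style.haveILetI false

noncomputable section

namespace Fermat.Agent.S56

open Fermat.Agent.MZ Fermat.Agent.FF Fermat.Agent.S53 Matrix Polynomial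

section Sub

variable (p : ℕ) [Fact p.Prime] (k : Type) [Field k] [CharP k p]

/-- the subfield `{x | x ^ p ^ 2 = x}` of `k`. -/
def s56fje_F : Subfield k :=
  RingHom.eqLocusField (iterateFrobenius k p 2) (RingHom.id k)

variable {p k}

theorem s56fje_mem_F {x : k} : x ∈ s56fje_F p k ↔ x ^ p ^ 2 = x := by
  have h : x ∈ s56fje_F p k ↔ iterateFrobenius k p 2 x = RingHom.id k x := Iff.rfl
  rw [h, iterateFrobenius_def, RingHom.id_apply]

theorem s56fje_charP_F : CharP ↥(s56fje_F p k) p :=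
  (RingHom.charP_iff (s56fje_F p k).subtype Subtype.val_injective p).2 inferInstance

theorem s56fje_card_F [Finite k] [Fintype ↥(s56fje_F p k)] (x₀ : k) (h1 : x₀ ^ p ^ 2 = x₀)
    (h2 : x₀ ^ p ≠ x₀) : Fintype.card ↥(s56fje_F p k) = p ^ 2 := by
  classical
  have hpp : p.Prime := Fact.out
  have := s56fje_charP_F (p := p) (k := k)
  obtain ⟨n, -, hn⟩ := FiniteField.card ↥(s56fje_F p k) p
  -- upper bound
  have hle : Fintype.card ↥(s56fje_F p k) ≤ p ^ 2 := by
    have hne : (X ^ p ^ 2 - X : k[X]) ≠ 0 :=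
      FiniteField.X_pow_card_pow_sub_X_ne_zero k two_ne_zero hpp.one_lt
    have hdeg : (X ^ p ^ 2 - X : k[X]).natDegree = p ^ 2 :=
      FiniteField.X_pow_card_pow_sub_X_natDegree_eq k two_ne_zero hpp.one_lt
    have hsub : (Finset.univ.image (Subtype.val : ↥(s56fje_F p k) → k)) ⊆
        (X ^ p ^ 2 - X : k[X]).roots.toFinset := by
      intro x hx
      obtain ⟨y, -, rfl⟩ := Finset.mem_image.1 hx
      rw [Multiset.mem_toFinset, mem_roots hne, IsRoot.def, eval_sub, eval_pow, eval_X,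
        s56fje_mem_F.1 y.2, sub_self]
    calc Fintype.card ↥(s56fje_F p k)
        = (Finset.univ.image (Subtype.val : ↥(s56fje_F p k) → k)).card := by
          rw [Finset.card_image_of_injective _ Subtype.val_injective, Finset.card_univ]
      _ ≤ (X ^ p ^ 2 - X : k[X]).roots.toFinset.card := Finset.card_le_card hsub
      _ ≤ (X ^ p ^ 2 - X : k[X]).roots.card := Multiset.toFinset_card_le _
      _ ≤ (X ^ p ^ 2 - X : k[X]).natDegree := card_roots' _
      _ = p ^ 2 := hdeg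
  -- `n ≠ 1`
  have hn1 : (n : ℕ) ≠ 1 := by
    intro h
    rw [h, pow_one] at hn
    have h3 := FiniteField.pow_card (⟨x₀, s56fje_mem_F.2 h1⟩ : ↥(s56fje_F p k))
    rw [hn] at h3
    exact h2 (congrArg Subtype.val h3)
  have hn2 : (n : ℕ) ≤ 2 := by
    rw [hn] at hle
    exact (Nat.pow_le_pow_iff_right hpp.one_lt).1 hle
  have hn0 : 0 < (n : ℕ) := n.pos
  have : (n : ℕ) = 2 := by omega
  rw [hn, this]

end Sub

/-- the entries in the standard basis are the matrix entries. -/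
theorem s56fje_entry_std {k : Type} [Field k] (M : Matrix (Fin 2) (Fin 2) k) (a b : Fin 2) :
    s56fj_entry (fun i : Fin 2 => (Pi.single i 1 : Fin 2 → k))
      (Pi.linearIndependent_single_one (Fin 2) k) M a b = M a b := by
  refine s56fj_entry_eq _ _ M b (fun a => M a b) ?_ a
  rw [Matrix.mulVec_single_one]
  funext i
  rw [Finset.sum_apply, Fin.sum_univ_two]
  fin_cases i <;> simp

/-- **F-SSEXCL.** -/
theorem s56fje_main (p : ℕ) [Fact p.Prime] (hp2 : p ≠ 2) (P : ValuationSubring ff_Qb)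
    (hP : P.LiesOverPrime p) {ϖt ζ : ff_Qb} (hϖ : ϖt ^ (p ^ 2 - 1) = -(p : ff_Qb))
    (hζ : IsPrimitiveRoot ζ p)
    {k : Type} [Field k] [Fintype k] [CharP k p] [Algebra (ZMod p) k]
    (rb : FramedResidual k) (χ : ↥(P.inertiaSubgroupIn ℚ) →* kˣ)
    (hrb : ∀ σ : ↥(P.inertiaSubgroupIn ℚ), rb (σ : GQ) 0 0 = (χ σ : k) ∧
      rb (σ : GQ) 1 1 = (χ σ : k) ^ p ∧ rb (σ : GQ) 0 1 = 0 ∧ rb (σ : GQ) 1 0 = 0)
    (hχ0 : ∃ σ₀ : ↥(P.inertiaSubgroupIn ℚ), (χ σ₀ : k) ^ p ≠ (χ σ₀ : k))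
    (hχ1 : ∀ σ : ↥(P.inertiaSubgroupIn ℚ), χ σ ^ (p ^ 2 - 1) = 1)
    (hχT : ∀ σ : ↥(P.inertiaSubgroupIn ℚ), σ • ϖt = ϖt → χ σ = 1)
    (hχT' : ∀ σ : ↥(P.inertiaSubgroupIn ℚ), χ σ = 1 → σ • ϖt = ϖt)
    (r : FramedRep (DualNumber k)) (hbar : ∀ σ, s56t_bar r σ = rb σ)
    (hdet : r.toGaloisRepAdic.DetIsCyclotomic p) (hflat : r.toGaloisRepAdic.IsFlatAt p) :
    s56t_coc r ∈ s56a_Z rb ∧
      s56fu_Excl p ↥(ffi_O P ↥(ffi_L P)) P
        (MulAction.stabilizer ↥(P.inertiaSubgroupIn ℚ) ϖt) ϖt ζ (s56t_coc r) := by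
  classical
  have hpp : p.Prime := Fact.out
  have hp3 : 3 ≤ p := by
    have := hpp.two_le
    omega
  have hset := s56fh_setting p hp2 P hP hϖ hζ
  have hctx := hset.hctx
  have hDVR : IsDiscreteValuationRing ↥(ffi_O P ↥(ffi_L P)) := mzg_ctx_dvr p P hP
  have hϖ0 : ϖt ≠ 0 := by
    rintro rfl
    have h1 : 0 < p ^ 2 - 1 := by
      have : 1 < p ^ 2 := Nat.one_lt_pow two_ne_zero hpp.one_lt
      omega
    rw [zero_pow h1.ne', eq_comm, neg_eq_zero] at hϖ
    exact (Nat.cast_ne_zero.2 hpp.ne_zero) hϖ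
  -- `rb` on `T`
  have hTχ : ∀ s ∈ MulAction.stabilizer ↥(P.inertiaSubgroupIn ℚ) ϖt, χ s = 1 := fun s hs =>
    hχT s (MulAction.mem_stabilizer_iff.1 hs)
  have hT1 : ∀ s ∈ MulAction.stabilizer ↥(P.inertiaSubgroupIn ℚ) ϖt, rb (s : GQ) = 1 := by
    intro s hs
    obtain ⟨h00, h11, h01, h10⟩ := hrb s
    rw [hTχ s hs, Units.val_one] at h00 h11
    rw [one_pow] at h11
    ext i j
    fin_cases i <;> fin_cases j <;> simp [h00, h11, h01, h10]
  -- the cocycle
  have hZ : s56t_coc r ∈ s56a_Z rb := by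
    refine ⟨fun σ => s56t_cyc_trace r hdet σ, fun σ τ => ?_, ?_⟩
    · rw [s56t_coc_mul, hbar, hbar]
    · obtain ⟨L, hL, h⟩ := s56t_coc_level r
      exact ⟨L, hL, fun σ s hs => (h σ s hs).1⟩
  refine ⟨hZ, ?_⟩
  intro a b ℓ
  set a' : ↥(P.inertiaSubgroupIn ℚ) → ZMod p := fun σ => ℓ (s56t_coc r (σ : GQ) a b) with ha'
  by_cases hℓ : ℓ = 0
  · -- the trivial character: `w = 1`
    have hz : ∀ s ∈ MulAction.stabilizer ↥(P.inertiaSubgroupIn ℚ) ϖt, a' s = 0 := by
      intro s _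
      rw [ha', hℓ]
      rfl
    have hrad : s56fs_IsRad p (MulAction.stabilizer ↥(P.inertiaSubgroupIn ℚ) ϖt) ζ
        (1 : ff_Qb) a' := by
      refine ⟨one_ne_zero, fun s hs => ?_⟩
      rw [hz s hs, ZMod.val_zero, pow_zero, mul_one, smul_one]
    refine ⟨1, a', fun s => rfl, hrad, ?_⟩
    have hU := s56ku_uniq hset
    rintro (h | ⟨x, hx, h⟩ | ⟨x, hx, h⟩)
    · exact hU.2.2 1 a' hrad hz h
    · refine s56fy_no_level hϖ0 hU hrad hz h (by norm_num) ?_ ?_ hx
      · nlinarith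
      · intro hd
        exact hp2 ((Nat.prime_dvd_prime_iff_eq hpp Nat.prime_two).1 hd)
    · refine s56fy_no_level hϖ0 hU hrad hz h (by omega) ?_ ?_ hx
      · nlinarith
      · intro hd
        have h1 : p ∣ 1 := (Nat.dvd_add_right (dvd_refl p)).1 hd
        exact hpp.one_lt.ne' (Nat.dvd_one.1 h1)
  · -- the radical
    have hrbinv : ∀ s ∈ MulAction.stabilizer ↥(P.inertiaSubgroupIn ℚ) ϖt,
        rb ((s : GQ))⁻¹ = 1 := by
      intro s hs
      have h1 := hT1 s⁻¹ (inv_mem hs)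
      exact h1
    obtain ⟨w, hw0, hw⟩ := s56fk_main p
      ((MulAction.stabilizer ↥(P.inertiaSubgroupIn ℚ) ϖt).map (P.inertiaSubgroupIn ℚ).subtype)
      (fun σ => ℓ (s56t_coc r σ a b))
      (by
        rintro _ ⟨s, hs, rfl⟩ _ ⟨t, ht, rfl⟩
        show ℓ (s56t_coc r ((s : GQ) * (t : GQ)) a b) =
          ℓ (s56t_coc r (s : GQ) a b) + ℓ (s56t_coc r (t : GQ) a b)
        rw [hZ.2.1, hT1 s hs, hrbinv s hs, Matrix.one_mul, Matrix.mul_one, Matrix.add_apply,
          map_add])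
      (by
        obtain ⟨L, hL, h⟩ := s56t_coc_level r
        exact ⟨L, hL, fun σ s hs => by
          show ℓ (s56t_coc r (σ * s) a b) = ℓ (s56t_coc r σ a b)
          rw [(h σ s hs).1]⟩)
      ζ hζ.pow_eq_one
      (by
        rintro _ ⟨s, hs, rfl⟩
        exact hset.hζT s hs)
    have hrad : s56fs_IsRad p (MulAction.stabilizer ↥(P.inertiaSubgroupIn ℚ) ϖt) ζ w a' :=
      ⟨hw0, fun s hs => hw (s : GQ) ⟨s, hs, rfl⟩⟩
    refine ⟨w, a', fun s => rfl, hrad, ?_⟩
    -- the field with `p²` elements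
    letI : Fintype ↥(s56fje_F p k) := Fintype.ofFinite _
    haveI := s56fje_charP_F (p := p) (k := k)
    letI : Algebra (ZMod p) ↥(s56fje_F p k) := ZMod.algebra _ p
    obtain ⟨σ₀, hσ₀⟩ := hχ0
    have hχpow : ∀ σ : ↥(P.inertiaSubgroupIn ℚ), (χ σ : k) ^ p ^ 2 = (χ σ : k) := by
      intro σ
      have h1 : 1 ≤ p ^ 2 := Nat.one_le_pow _ _ hpp.pos
      have h2 : ((χ σ : kˣ) : k) ^ (p ^ 2 - 1) = 1 := by
        rw [← Units.val_pow_eq_pow_val, hχ1 σ, Units.val_one]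
      calc (χ σ : k) ^ p ^ 2 = (χ σ : k) ^ (p ^ 2 - 1 + 1) := by rw [Nat.sub_add_cancel h1]
        _ = (χ σ : k) := by rw [pow_succ, h2, one_mul]
    have hχF : ∀ σ : ↥(P.inertiaSubgroupIn ℚ), (χ σ : k) ∈ s56fje_F p k := fun σ =>
      s56fje_mem_F.2 (hχpow σ)
    have hF : Fintype.card ↥(s56fje_F p k) = p ^ 2 :=
      s56fje_card_F (χ σ₀ : k) (hχpow σ₀) hσ₀
    let χ₀ : ↥(P.inertiaSubgroupIn ℚ) →* ↥(s56fje_F p k) :=
      { toFun := fun σ => ⟨(χ σ : k), hχF σ⟩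
        map_one' := by
          apply Subtype.ext
          show ((χ 1 : kˣ) : k) = 1
          rw [map_one, Units.val_one]
        map_mul' := fun σ τ => by
          apply Subtype.ext
          show ((χ (σ * τ) : kˣ) : k) = (χ σ : k) * (χ τ : k)
          rw [map_mul, Units.val_mul] }
    set χF : ↥(P.inertiaSubgroupIn ℚ) →* (↥(s56fje_F p k))ˣ := χ₀.toHomUnits with hχFdef
    have hχFv : ∀ σ, ((((χF σ : (↥(s56fje_F p k))ˣ)) : ↥(s56fje_F p k)) : k) = (χ σ : k) := by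
      intro σ
      rw [hχFdef, MonoidHom.coe_toHomUnits]
      rfl
    let j : Fin 2 → (↥(s56fje_F p k) →+* k) := fun i =>
      if i = 0 then (s56fje_F p k).subtype else (frobenius k p).comp (s56fje_F p k).subtype
    have hj0 : ∀ c : ↥(s56fje_F p k), j 0 c = (c : k) := fun c => rfl
    have hj1 : ∀ c : ↥(s56fje_F p k), j 1 c = (c : k) ^ p := fun c => rfl
    have hB : ∀ (σ : ↥(P.inertiaSubgroupIn ℚ)) (i : Fin 2),
        (s56t_bar r (σ : GQ)).mulVec ((fun i : Fin 2 => (Pi.single i 1 : Fin 2 → k)) i) =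
          (j i ((χF σ : (↥(s56fje_F p k))ˣ) : ↥(s56fje_F p k))) •
            (fun i : Fin 2 => (Pi.single i 1 : Fin 2 → k)) i := by
      intro σ i
      obtain ⟨h00, h11, h01, h10⟩ := hrb σ
      rw [hbar, Matrix.mulVec_single_one]
      funext m
      fin_cases i <;> fin_cases m
      · show rb (σ : GQ) 0 0 = j 0 _ * (Pi.single (0 : Fin 2) (1 : k) : Fin 2 → k) 0
        rw [hj0, hχFv, h00, Pi.single_eq_same, mul_one]
      · show rb (σ : GQ) 1 0 = j 0 _ * (Pi.single (0 : Fin 2) (1 : k) : Fin 2 → k) 1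
        rw [h10, Pi.single_eq_of_ne (by decide), mul_zero]
      · show rb (σ : GQ) 0 1 = j 1 _ * (Pi.single (1 : Fin 2) (1 : k) : Fin 2 → k) 0
        rw [h01, Pi.single_eq_of_ne (by decide), mul_zero]
      · show rb (σ : GQ) 1 1 = j 1 _ * (Pi.single (1 : Fin 2) (1 : k) : Fin 2 → k) 1
        rw [hj1, hχFv, h11, Pi.single_eq_same, mul_one]
    haveI : Finite (DualNumber k) := inferInstanceAs (Finite (k × k))
    obtain ⟨H, hH⟩ := s56fi_order r p hflat P hP
    have hroots : ∀ n : ℕ, n ≠ 0 → ∃ ζ' : ff_Qb, IsPrimitiveRoot ζ' n := fun n hn => by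
      haveI : NeZero n := ⟨hn⟩
      exact HasEnoughRootsOfUnity.exists_primitiveRoot ff_Qb n
    have hf : ℓ.toAddMonoidHom ≠ 0 := by
      intro h0
      apply hℓ
      ext x
      have := DFunLike.congr_fun h0 x
      exact this
    obtain ⟨E, i1, i2, i3, i4, HE, Q, lam, hHE, hpE, hlamE, -, -, -, hstab⟩ :=
      s56fj_main_fp hctx hF hroots r j χF
        ⟨σ₀, fun h => hσ₀ (by
          have h1 := congrArg (Subtype.val : ↥(s56fje_F p k) → k) h
          rw [SubmonoidClass.coe_pow, hχFv] at h1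
          exact h1)⟩
        (fun i : Fin 2 => (Pi.single i 1 : Fin 2 → k))
        (Pi.linearIndependent_single_one (Fin 2) k) hB hH a b ℓ.toAddMonoidHom hf
    refine s56fv_level hset (s56ku_T5 hset) hHE hpE hlamE Q hrad (fun σ hσ => ?_)
    obtain ⟨h1, h2⟩ := hstab σ hσ
    have hχσ : χ σ = 1 := by
      apply Units.ext
      rw [← hχFv, h1, Units.val_one, Units.val_one]
      rfl
    refine ⟨MulAction.mem_stabilizer_iff.2 (hχT' σ hχσ), ?_⟩
    rw [s56fje_entry_std] at h2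
    exact h2

end Fermat.Agent.S56
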