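/-
Project S56, node [LOC-p-FLAT], supersingular case (helper27).  Prefix `s56fr_`.
THE TWO GLUE SEAMS of the final assembly (`Flat/Main.lean`), in the concrete vocabulary of
`mzg_ctx` at a place `P` of `Q̄` over `p`:  `I = P.inertiaSubgroupIn ℚ`, `O = ffi_O P (ffi_L P)`,
`T = Stab_I ϖt`, `𝕜 = ResidueField ↥P`.

* `s56fr_Inst_stmt`  (cell F-SSINST): the `rb`-independent hypotheses of `s56fu_shape`;
* `s56fr_Excl_stmt`  (cell F-SSEXCL): the cocycle of a flat lift of an `rb` which is diagonal on `I`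
  (characters `χ`, `χ ^ p`, `χ` of level two) lies in `s56a_Z rb` and satisfies `s56fu_Excl`.
-/
import Mathlib
import Fermat.Agent.S56.Flat.SSMat
import Fermat.Agent.S56.Flat.SettingP
import Fermat.Agent.S56.Flat.Wild

set_option autoImplicit false

noncomputable section

namespace Fermat.Agent.S56

open Fermat.Agent.MZ Fermat.Agent.FF Fermat.Agent.S53

/-- **F-SSINST**: the local data at `P` consumed by `s56fu_shape`. -/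
def s56fr_Inst_stmt : Prop :=
  ∀ (p : ℕ) [Fact p.Prime], p ≠ 2 → ∀ (P : ValuationSubring ff_Qb), P.LiesOverPrime p →
    ∀ (ϖt ζ : ff_Qb), ϖt ^ (p ^ 2 - 1) = -(p : ff_Qb) → IsPrimitiveRoot ζ p →
    ∃ res : ↥(ffi_O P ↥(ffi_L P)) →+* IsLocalRing.ResidueField ↥P,
      (∀ x : ↥(ffi_O P ↥(ffi_L P)), res x = 0 ↔ ¬ IsUnit x) ∧
      (∀ (i : ↥(P.inertiaSubgroupIn ℚ)) (ψ : ↥(ffi_O P ↥(ffi_L P))),
        i • ϖt = algebraMap ↥(ffi_O P ↥(ffi_L P)) ff_Qb ψ * ϖt → res ψ = s56fc_theta P i ϖt) ∧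
      (∀ (k : Type) [Field k] [CharP k p],
        (((((MulAction.stabilizer ↥(P.inertiaSubgroupIn ℚ) ϖt).map
          (P.inertiaSubgroupIn ℚ).subtype).subgroupOf (P.inertiaSubgroupIn ℚ)).index : ℕ) : k)
            ≠ 0) ∧
      ∃ (τ₀ : ↥(P.inertiaSubgroupIn ℚ)) (ψ₀ : ↥(ffi_O P ↥(ffi_L P))) (ω₀ ω₀' : ℕ),
        τ₀ • ϖt = algebraMap ↥(ffi_O P ↥(ffi_L P)) ff_Qb ψ₀ * ϖt ∧
        P.valuation (algebraMap ↥(ffi_O P ↥(ffi_L P)) ff_Qb ψ₀) = 1 ∧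
        τ₀ • ζ = ζ ^ ω₀ ∧ ((ω₀ * ω₀' : ℕ) : ZMod p) = 1 ∧
        ψ₀ ^ (p ^ 2 - 1) = 1 ∧
        (∀ n m : ℕ, res ψ₀ ^ n = res ψ₀ ^ m → n ≡ m [MOD p ^ 2 - 1]) ∧
        res (ω₀ : ↥(ffi_O P ↥(ffi_L P))) = res ψ₀ ^ (p + 1) ∧
        (∀ σ : ↥(P.inertiaSubgroupIn ℚ), ∃ n : ℕ,
          σ • ϖt = algebraMap ↥(ffi_O P ↥(ffi_L P)) ff_Qb (ψ₀ ^ n) * ϖt) ∧
        ∃ φ : ff_GQ, (∀ y : ff_Qb, y ∈ P ↔ φ y ∈ P) ∧
          (∀ i ∈ P.inertiaSubgroupIn ℚ, φ * i * φ⁻¹ ∈ P.inertiaSubgroupIn ℚ) ∧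
          (∀ i ∈ P.inertiaSubgroupIn ℚ, φ⁻¹ * i * φ ∈ P.inertiaSubgroupIn ℚ) ∧
          φ ϖt = ϖt ∧ φ ζ = ζ ∧
          (∀ x : ↥(ffi_O P ↥(ffi_L P)), ∃ x' : ↥(ffi_O P ↥(ffi_L P)),
            φ (algebraMap ↥(ffi_O P ↥(ffi_L P)) ff_Qb x) =
              algebraMap ↥(ffi_O P ↥(ffi_L P)) ff_Qb x' ∧ res x' = res x ^ p) ∧
          P.IsFrobeniusAt φ p ∧
          ∀ L : IntermediateField ℚ ff_Qb, FiniteDimensional ℚ L →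
            ∀ d ∈ P.decompositionSubgroup ℚ, ∃ n : ℕ, ∃ i ∈ P.inertiaSubgroupIn ℚ,
              ∃ s ∈ L.fixingSubgroup, d = φ ^ n * i * s

/-- **F-SSEXCL**: the cocycle of a flat lift avoids the Kummer levels `0`, `2`, `p + 1`. -/
def s56fr_Excl_stmt : Prop :=
  ∀ (p : ℕ) [Fact p.Prime], p ≠ 2 → ∀ (P : ValuationSubring ff_Qb), P.LiesOverPrime p →
    ∀ (ϖt ζ : ff_Qb), ϖt ^ (p ^ 2 - 1) = -(p : ff_Qb) → IsPrimitiveRoot ζ p →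
    ∀ (k : Type) [Field k] [Fintype k] [CharP k p] [Algebra (ZMod p) k] (rb : FramedResidual k)
      (χ : ↥(P.inertiaSubgroupIn ℚ) →* kˣ),
      (∀ σ : ↥(P.inertiaSubgroupIn ℚ), rb (σ : ff_GQ) 0 0 = ((χ σ : kˣ) : k) ∧
        rb (σ : ff_GQ) 1 1 = ((χ σ : kˣ) : k) ^ p ∧ rb (σ : ff_GQ) 0 1 = 0 ∧
        rb (σ : ff_GQ) 1 0 = 0) →
      (∃ σ₀ : ↥(P.inertiaSubgroupIn ℚ), ((χ σ₀ : kˣ) : k) ^ p ≠ ((χ σ₀ : kˣ) : k)) →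
      (∀ σ : ↥(P.inertiaSubgroupIn ℚ), χ σ ^ (p ^ 2 - 1) = 1) →
      (∀ σ : ↥(P.inertiaSubgroupIn ℚ), σ • ϖt = ϖt ↔ χ σ = 1) →
      ∀ r : FramedRep (DualNumber k), (∀ σ, s56t_bar r σ = rb σ) →
        r.toGaloisRepAdic.DetIsCyclotomic p → r.toGaloisRepAdic.IsFlatAt p →
        s56t_coc r ∈ s56a_Z rb ∧
          s56fu_Excl p ↥(ffi_O P ↥(ffi_L P)) P
            (MulAction.stabilizer ↥(P.inertiaSubgroupIn ℚ) ϖt) ϖt ζ (s56t_coc r)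

end Fermat.Agent.S56
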