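/-
Project S56, node [LOC-p-FLAT] (owner helper27), cell F-SSEXCL (helper17).  Prefix `s56fje_`.
THE SEAM `s56fr_Excl_stmt` (`Flat/SSSeams.lean`) VERBATIM, from `s56fje_main` (`Flat/SSExcl.lean`).
-/
import Mathlib
import Fermat.Agent.S56.Flat.SSExcl
import Fermat.Agent.S56.Flat.SSSeams

set_option autoImplicit false

noncomputable section

namespace Fermat.Agent.S56

open Fermat.Agent.MZ Fermat.Agent.FF Fermat.Agent.S53

/-- **F-SSEXCL**, the seam of `Flat/Main.lean`. -/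
theorem s56fje_excl : s56fr_Excl_stmt := by
  intro p _ hp2 P hP ϖt ζ hϖ hζ k _ _ _ _ rb χ hrb hχ0 hχ1 hχT r hbar hdet hflat
  exact s56fje_main p hp2 P hP hϖ hζ rb χ hrb hχ0 hχ1 (fun σ h => (hχT σ).1 h)
    (fun σ h => (hχT σ).2 h) r hbar hdet hflat

end Fermat.Agent.S56
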