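/-
Project S56 (Taylor–Wiles primes), node [LOC-p-FLAT] (owner helper27), cell F-SETTING, parts (S2),
(S3) (helper29).  Prefix `s56fh_`.  THE TAME CHARACTER OF `ϖt` (abstract `mzo_Ctx` vocabulary, then
the concrete forms at a place `P | p` of `Q̄`).

* `s56fh_root_eq_one`, `s56fh_smul_root`, `s56fh_root_mem_O` : roots of unity of order `e` with
  `v e = 1` are not congruent to `1`, are fixed by `Γ` (inertia), and come from `O`;
* `s56fh_eta`, `s56fh_psi` : the tame character `σ ↦ σ ϖ / ϖ : Γ →* Lˣ` (for `ϖ ^ e` fixed by `Γ`);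
* `s56fh_tame_onto` (S2) : for `ϖ ^ e = -p`, `v e = 1`: `∃ τ₀ ψ₀, τ₀ ϖ = ψ₀ ϖ`, `ψ₀ ^ e = 1`,
  `ψ₀ ^ n - 1` a unit for `0 < n < e`, and every `σ ϖ = ψ₀ ^ n ϖ` [the image has order `d`,
  `ϖ ^ d ∈ O`, value group of `O`];
* `s56fh_omega_psi` (S3) : `τ ζ = ζ ^ ω`, `τ ϖt = ψ ϖt`  ⟹  `ω ≡ ψ ^ (p + 1)` modulo `𝔪`;
* `s56fh_S2`, `s56fh_S3` : the concrete forms.
-/
import Mathlib
import Fermat.Agent.S56.Flat.SettingP
import Fermat.Agent.S56.Flat.SSAux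

set_option autoImplicit false
set_option linter.unusedSectionVars false

noncomputable section

namespace Fermat.Agent.S56

open Fermat.Agent.MZ

section Tame

variable {p : ℕ} {O : Type} [CommRing O] [IsDomain O] [IsDiscreteValuationRing O]
  {L : Type} [Field L] [Algebra O L] {A : ValuationSubring L}
  {Γ : Type} [Group Γ] [MulSemiringAction Γ L]

/-- a root of unity `ξ ≠ 1` of order prime to the residue characteristic is not congruent to `1`: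
`ξ ^ e = 1`, `v e = 1`, `ξ - 1 ∈ 𝔪_A`  ⟹  `ξ = 1`. -/
theorem s56fh_root_eq_one {e : ℕ} (he : A.valuation (e : L) = 1) {ξ : L} (hξ : ξ ^ e = 1)
    (h1 : ξ - 1 ∈ A.nonunits) : ξ = 1 := by
  by_contra hne
  have he0 : e ≠ 0 := by
    rintro rfl
    rw [Nat.cast_zero, map_zero] at he
    exact zero_ne_one he
  have hξA : ξ ∈ A := s56fh_root_mem A he0 hξ
  -- the geometric sum vanishes
  have hS : ∑ j ∈ Finset.range e, ξ ^ j = 0 := by
    have h2 := mul_neg_geom_sum ξ e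
    rw [hξ, sub_self] at h2
    rcases mul_eq_zero.mp h2 with h3 | h3
    · exact absurd (sub_eq_zero.mp h3).symm hne
    · exact h3
  -- but it is congruent to `e`
  have h3 : (e : L) - ∑ j ∈ Finset.range e, ξ ^ j ∈ A.nonunits := by
    have h4 : (e : L) - ∑ j ∈ Finset.range e, ξ ^ j = ∑ j ∈ Finset.range e, (1 - ξ ^ j) := by
      rw [Finset.sum_sub_distrib, Finset.sum_const, Finset.card_range, nsmul_eq_mul, mul_one]
    rw [h4]
    refine mzo_nonunits_sum _ _ fun j _ => ?_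
    have h5 := s56fh_pow_sub_pow_mem A (A.one_mem) hξA (by
      have := mzo_nonunits_neg h1
      rwa [neg_sub] at this) j
    rwa [one_pow] at h5
  rw [hS, sub_zero, ValuationSubring.mem_nonunits_iff, he] at h3
  exact lt_irrefl _ h3

/-- `Γ` (inertia) fixes the roots of unity of order prime to the residue characteristic. -/
theorem s56fh_smul_root (hctx : mzo_Ctx p O L A Γ) {e : ℕ} (he : A.valuation (e : L) = 1) {ξ : L}
    (hξ : ξ ^ e = 1) (σ : Γ) : σ • ξ = ξ := by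
  have he0 : e ≠ 0 := by
    rintro rfl
    rw [Nat.cast_zero, map_zero] at he
    exact zero_ne_one he
  have hξA : ξ ∈ A := s56fh_root_mem A he0 hξ
  have hξ0 : ξ ≠ 0 := by
    rintro rfl
    rw [zero_pow he0] at hξ
    exact zero_ne_one hξ
  have h1 : (σ • ξ / ξ) ^ e = 1 := by
    rw [div_pow, ← smul_pow', hξ, smul_one, div_one]
  have h2 : σ • ξ / ξ - 1 ∈ A.nonunits := by
    have h3 : σ • ξ / ξ - 1 = (σ • ξ - ξ) * ξ⁻¹ := by
      field_simp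
    rw [h3]
    refine mzo_nonunits_mul_mem (hctx.inert σ ξ hξA) ?_
    exact s56fh_root_mem A he0 (by rw [inv_pow, hξ, inv_one])
  have h4 := s56fh_root_eq_one he h1 h2
  rwa [div_eq_one_iff_eq hξ0] at h4

/-- roots of unity of order prime to the residue characteristic come from `O`. -/
theorem s56fh_root_mem_O (hctx : mzo_Ctx p O L A Γ) {e : ℕ} (he : A.valuation (e : L) = 1) {ξ : L}
    (hξ : ξ ^ e = 1) : ∃ o : O, algebraMap O L o = ξ := by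
  have he0 : e ≠ 0 := by
    rintro rfl
    rw [Nat.cast_zero, map_zero] at he
    exact zero_ne_one he
  exact hctx.exists_of_fixed (s56fh_root_mem A he0 hξ) (s56fh_smul_root hctx he hξ)


/-! ### the tame character of `ϖt` -/

/-- the quotient `σ ϖ / ϖ` as a unit of `L`. -/
def s56fh_eta {ϖ : L} (hϖ0 : ϖ ≠ 0) (σ : Γ) : Lˣ :=
  Units.mk0 (σ • ϖ / ϖ) (div_ne_zero (by
    intro h
    apply hϖ0
    have := congrArg (fun x => σ⁻¹ • x) h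
    simpa using this) hϖ0)

theorem s56fh_eta_val {ϖ : L} (hϖ0 : ϖ ≠ 0) (σ : Γ) :
    ((s56fh_eta hϖ0 σ : Lˣ) : L) = σ • ϖ / ϖ := rfl

theorem s56fh_eta_smul {ϖ : L} (hϖ0 : ϖ ≠ 0) (σ : Γ) :
    σ • ϖ = ((s56fh_eta hϖ0 σ : Lˣ) : L) * ϖ := by
  rw [s56fh_eta_val, div_mul_cancel₀ _ hϖ0]

theorem s56fh_eta_pow {ϖ : L} (hϖ0 : ϖ ≠ 0) {e : ℕ} (hfix : ∀ σ : Γ, σ • ϖ ^ e = ϖ ^ e) (σ : Γ) :
    ((s56fh_eta hϖ0 σ : Lˣ) : L) ^ e = 1 := by
  rw [s56fh_eta_val, div_pow, ← smul_pow', hfix, div_self (pow_ne_zero _ hϖ0)]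

/-- **the tame character** `σ ↦ σ ϖ / ϖ`, a homomorphism `Γ → Lˣ`. -/
def s56fh_psi (hctx : mzo_Ctx p O L A Γ) {e : ℕ} (he : A.valuation (e : L) = 1) {ϖ : L}
    (hϖ0 : ϖ ≠ 0) (hfix : ∀ σ : Γ, σ • ϖ ^ e = ϖ ^ e) : Γ →* Lˣ :=
  MonoidHom.mk' (s56fh_eta hϖ0) (by
    intro σ τ
    apply Units.ext
    rw [Units.val_mul, s56fh_eta_val, mul_smul, s56fh_eta_smul hϖ0 τ, smul_mul',
      s56fh_smul_root hctx he (s56fh_eta_pow hϖ0 hfix τ) σ, s56fh_eta_smul hϖ0 σ]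
    field_simp)

theorem s56fh_psi_apply (hctx : mzo_Ctx p O L A Γ) {e : ℕ} (he : A.valuation (e : L) = 1) {ϖ : L}
    (hϖ0 : ϖ ≠ 0) (hfix : ∀ σ : Γ, σ • ϖ ^ e = ϖ ^ e) (σ : Γ) :
    s56fh_psi hctx he hϖ0 hfix σ = s56fh_eta hϖ0 σ := rfl

/-- the image of the tame character is generated by one element. -/
theorem s56fh_psi_cyclic (hctx : mzo_Ctx p O L A Γ) {e : ℕ} (he : A.valuation (e : L) = 1) {ϖ : L}
    (hϖ0 : ϖ ≠ 0) (hfix : ∀ σ : Γ, σ • ϖ ^ e = ϖ ^ e) :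
    ∃ τ₀ : Γ, ∀ σ : Γ, ∃ n : ℕ, s56fh_eta hϖ0 σ = s56fh_eta hϖ0 τ₀ ^ n := by
  have he0 : e ≠ 0 := by
    rintro rfl
    rw [Nat.cast_zero, map_zero] at he
    exact zero_ne_one he
  have : NeZero e := ⟨he0⟩
  set ψ := s56fh_psi hctx he hϖ0 hfix with hψ
  have hle : ψ.range ≤ rootsOfUnity e L := by
    rintro _ ⟨σ, rfl⟩
    rw [mem_rootsOfUnity]
    apply Units.ext
    rw [Units.val_pow_eq_pow_val, Units.val_one]
    exact s56fh_eta_pow hϖ0 hfix σ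
  have hfin : Finite ψ.range :=
    Finite.of_injective (fun x : ψ.range => (⟨x.1, hle x.2⟩ : rootsOfUnity e L))
      (fun x y h => Subtype.ext (by
        have h' : (⟨x.1, hle x.2⟩ : rootsOfUnity e L) = ⟨y.1, hle y.2⟩ := h
        exact Subtype.mk.inj h'))
  obtain ⟨g, hg⟩ := IsCyclic.exists_monoid_generator (α := ψ.range)
  obtain ⟨τ₀, hτ₀⟩ := g.2
  refine ⟨τ₀, fun σ => ?_⟩
  obtain ⟨n, hn⟩ := hg ⟨ψ σ, σ, rfl⟩
  refine ⟨n, ?_⟩
  have := congrArg Subtype.val hn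
  simp only [SubmonoidClass.coe_pow] at this
  rw [← s56fh_psi_apply hctx he hϖ0 hfix τ₀, ← hψ, hτ₀, this]
  rfl


/-- the valuation of a nonzero element of `O` is a power of `v p`. -/
theorem s56fh_val_O (hctx : mzo_Ctx p O L A Γ) {o : O} (ho : o ≠ 0) :
    ∃ m : ℕ, A.valuation (algebraMap O L o) = A.valuation (p : L) ^ m := by
  obtain ⟨m, u, hu⟩ := IsDiscreteValuationRing.eq_unit_mul_pow_irreducible ho hctx.irreducible_r
  refine ⟨m, ?_⟩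
  rw [hu, map_mul, map_pow, map_natCast, map_mul, s56fa_val_unit hctx u.isUnit, one_mul, map_pow]

/-- **(S2) THE TAME CHARACTER IS ONTO** `μ_e`: for `ϖ ^ e = -p`, `v e = 1`, there are `τ₀ ∈ Γ` and
`ψ₀ ∈ O`, a root of unity of exact order `e` modulo `𝔪`, with `τ₀ ϖ = ψ₀ ϖ`, and every `σ ∈ Γ`
multiplies `ϖ` by a power of `ψ₀`. -/
theorem s56fh_tame_onto (hctx : mzo_Ctx p O L A Γ) {e : ℕ} (he : A.valuation (e : L) = 1) {ϖ : L}
    (hϖ : ϖ ^ e = -(p : L)) :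
    ∃ (τ₀ : Γ) (ψ₀ : O), τ₀ • ϖ = algebraMap O L ψ₀ * ϖ ∧ ψ₀ ^ e = 1 ∧
      (∀ n : ℕ, 0 < n → n < e → algebraMap O L (ψ₀ ^ n - 1) ∉ A.nonunits) ∧
      ∀ σ : Γ, ∃ n : ℕ, σ • ϖ = algebraMap O L (ψ₀ ^ n) * ϖ := by
  have he0 : e ≠ 0 := by
    rintro rfl
    rw [Nat.cast_zero, map_zero] at he
    exact zero_ne_one he
  have hϖ0 : ϖ ≠ 0 := by
    rintro rfl
    rw [zero_pow he0] at hϖ
    exact hctx.r_ne (neg_eq_zero.mp hϖ.symm)
  have hfix : ∀ σ : Γ, σ • ϖ ^ e = ϖ ^ e := fun σ => by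
    rw [hϖ, smul_neg, mzo_smul_natCast]
  have hvp : A.valuation (p : L) < 1 := (ValuationSubring.mem_nonunits_iff A).mp hctx.r_mem
  have hvϖe : A.valuation ϖ ^ e = A.valuation (p : L) := by
    rw [← map_pow, hϖ, Valuation.map_neg]
  have hvϖ0 : A.valuation ϖ ≠ 0 := (map_ne_zero _).mpr hϖ0
  have hvϖ1 : A.valuation ϖ < 1 := by
    by_contra h
    push Not at h
    have := one_le_pow₀ h (n := e)
    rw [hvϖe] at this
    exact absurd hvp (not_lt.mpr this)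
  obtain ⟨τ₀, hτ₀⟩ := s56fh_psi_cyclic hctx he hϖ0 hfix
  set g := s56fh_eta hϖ0 τ₀ with hg
  have hge : g ^ e = 1 := by
    apply Units.ext
    rw [Units.val_pow_eq_pow_val, Units.val_one]
    exact s56fh_eta_pow hϖ0 hfix τ₀
  set d := orderOf g with hd
  have hdpos : 0 < d := orderOf_pos_iff.mpr (isOfFinOrder_iff_pow_eq_one.mpr
    ⟨e, Nat.pos_of_ne_zero he0, hge⟩)
  have hde : d ∣ e := orderOf_dvd_of_pow_eq_one hge
  -- `ϖ ^ d` is fixed by `Γ`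
  have hfixd : ∀ σ : Γ, σ • ϖ ^ d = ϖ ^ d := by
    intro σ
    obtain ⟨n, hn⟩ := hτ₀ σ
    have h1 : (g ^ n) ^ d = 1 := by
      rw [← pow_mul, mul_comm, pow_mul, hd, pow_orderOf_eq_one, one_pow]
    rw [smul_pow', s56fh_eta_smul hϖ0 σ, hn, mul_pow, ← Units.val_pow_eq_pow_val, h1,
      Units.val_one, one_mul]
  have hϖA : ϖ ∈ A := (A.valuation_le_one_iff _).mp hvϖ1.le
  obtain ⟨o, ho⟩ := hctx.exists_of_fixed (pow_mem hϖA d) hfixd
  have ho0 : o ≠ 0 := by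
    rintro rfl
    rw [map_zero] at ho
    exact pow_ne_zero d hϖ0 ho.symm
  obtain ⟨m, hm⟩ := s56fh_val_O hctx ho0
  have hdem : d = e * m := by
    rw [ho, map_pow, ← hvϖe, ← pow_mul] at hm
    exact pow_right_injective₀ (zero_lt_iff.mpr hvϖ0) hvϖ1.ne hm
  have hd_eq : d = e := by
    have hm0 : m ≠ 0 := by
      rintro rfl
      rw [mul_zero] at hdem
      omega
    have h1 : e ≤ d := by
      rw [hdem]
      exact Nat.le_mul_of_pos_right e (Nat.pos_of_ne_zero hm0)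
    exact le_antisymm (Nat.le_of_dvd (Nat.pos_of_ne_zero he0) hde) h1
  -- `ψ₀`
  have hgL : ((g : Lˣ) : L) ^ e = 1 := s56fh_eta_pow hϖ0 hfix τ₀
  obtain ⟨ψ₀, hψ₀⟩ := s56fh_root_mem_O hctx he hgL
  refine ⟨τ₀, ψ₀, ?_, ?_, fun n hn0 hne hmem => ?_, fun σ => ?_⟩
  · rw [hψ₀]
    exact s56fh_eta_smul hϖ0 τ₀
  · apply hctx.inj
    rw [map_pow, hψ₀, hgL, map_one]
  · have h1 : ((g : Lˣ) : L) ^ n - 1 ∈ A.nonunits := by
      rw [map_sub, map_pow, hψ₀, map_one] at hmem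
      exact hmem
    have h2 : (((g : Lˣ) : L) ^ n) ^ e = 1 := by rw [← pow_mul, mul_comm, pow_mul, hgL, one_pow]
    have h3 := s56fh_root_eq_one he h2 h1
    have h4 : g ^ n = 1 := by
      apply Units.ext
      rw [Units.val_pow_eq_pow_val, Units.val_one]
      exact h3
    have h5 := orderOf_dvd_of_pow_eq_one h4
    rw [← hd, hd_eq] at h5
    exact absurd (Nat.le_of_dvd hn0 h5) (not_le.mpr hne)
  · obtain ⟨n, hn⟩ := hτ₀ σ
    refine ⟨n, ?_⟩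
    rw [map_pow, hψ₀, s56fh_eta_smul hϖ0 σ, hn, Units.val_pow_eq_pow_val]

end Tame


section Omega

variable {p : ℕ} {O : Type} [CommRing O] [IsDomain O] [IsDiscreteValuationRing O]
  {L : Type} [Field L] [Algebra O L] {A : ValuationSubring L}
  {Γ : Type} [Group Γ] [MulSemiringAction Γ L]

/-- `v (ϖt ^ (p + 1)) = v (1 - ζ)` for `ϖt ^ (p² - 1) = -p`. -/
theorem s56fh_val_pow_succ (hp : p.Prime) {ϖt ζ : L} (hϖ : ϖt ^ (p ^ 2 - 1) = -(p : L))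
    (hζ : IsPrimitiveRoot ζ p) : A.valuation (ϖt ^ (p + 1)) = A.valuation (1 - ζ) := by
  have hn : p - 1 ≠ 0 := Nat.sub_ne_zero_of_lt hp.one_lt
  apply (pow_left_inj₀ zero_le zero_le hn).mp
  rw [s56fh_val_one_sub_pow_pred A hp hζ, ← map_pow, ← pow_mul, s56fh_sq_sub_one p hp.pos,
    hϖ, Valuation.map_neg]

/-- `v (1 - ζ) < 1`. -/
theorem s56fh_val_one_sub_lt (hctx : mzo_Ctx p O L A Γ) {ζ : L} (hζ : IsPrimitiveRoot ζ p) :
    A.valuation (1 - ζ) < 1 := by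
  have hp := hctx.r_prime
  have hvp : A.valuation (p : L) < 1 := (ValuationSubring.mem_nonunits_iff A).mp hctx.r_mem
  by_contra h
  push Not at h
  have := one_le_pow₀ h (n := p - 1)
  rw [s56fh_val_one_sub_pow_pred A hp hζ] at this
  exact absurd hvp (not_lt.mpr this)

/-- `n - (1 + ζ + … + ζ ^ (n - 1)) ∈ 𝔪`. -/
theorem s56fh_geom_sub_mem (hctx : mzo_Ctx p O L A Γ) {ζ : L} (hζ : IsPrimitiveRoot ζ p) (n : ℕ) :
    (n : L) - ∑ j ∈ Finset.range n, ζ ^ j ∈ A.nonunits := by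
  have hp := hctx.r_prime
  have h4 : (n : L) - ∑ j ∈ Finset.range n, ζ ^ j = ∑ j ∈ Finset.range n, (1 - ζ ^ j) := by
    rw [Finset.sum_sub_distrib, Finset.sum_const, Finset.card_range, nsmul_eq_mul, mul_one]
  rw [h4]
  refine mzo_nonunits_sum _ _ fun j _ => ?_
  rw [ValuationSubring.mem_nonunits_iff]
  exact lt_of_le_of_lt (s56fh_val_one_sub_pow_le A hp.ne_zero hζ.pow_eq_one j)
    (s56fh_val_one_sub_lt hctx hζ)

/-- **(S3) `ω` VERSUS `ψ`**: if `τ ζ = ζ ^ ω` and `τ ϖt = ψ ϖt` then `ω ≡ ψ ^ (p + 1)` modulo `𝔪`. -/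
theorem s56fh_omega_psi (hctx : mzo_Ctx p O L A Γ) {ϖt ζ : L}
    (hϖ : ϖt ^ (p ^ 2 - 1) = -(p : L)) (hζ : IsPrimitiveRoot ζ p) {τ : Γ} {ω : ℕ} {ψ : O}
    (hτζ : τ • ζ = ζ ^ ω) (hτϖ : τ • ϖt = algebraMap O L ψ * ϖt) :
    algebraMap O L ((ω : O) - ψ ^ (p + 1)) ∈ A.nonunits := by
  have hp := hctx.r_prime
  set ψ' := algebraMap O L ψ with hψ'
  set c₀ := ϖt ^ (p + 1) with hc₀
  have hvc₀ : A.valuation c₀ = A.valuation (1 - ζ) := s56fh_val_pow_succ hp hϖ hζ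
  have hζ1 : (1 : L) - ζ ≠ 0 := sub_ne_zero.mpr (hζ.ne_one hp.one_lt).symm
  have hv0 : A.valuation (1 - ζ) ≠ 0 := (map_ne_zero _).mpr hζ1
  have hc₀0 : c₀ ≠ 0 := by
    intro h
    rw [h, map_zero] at hvc₀
    exact hv0 hvc₀.symm
  have hϖ0 : ϖt ≠ 0 := fun h => hc₀0 (by rw [hc₀, h, zero_pow (Nat.succ_ne_zero p)])
  -- `ψ'` is a root of unity
  have hψe : ψ' ^ (p ^ 2 - 1) = 1 := by
    have h1 : τ • ϖt ^ (p ^ 2 - 1) = ϖt ^ (p ^ 2 - 1) := by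
      rw [hϖ, smul_neg, mzo_smul_natCast]
    rw [smul_pow', hτϖ, mul_pow] at h1
    exact mul_right_cancel₀ (pow_ne_zero _ hϖ0) (by rw [one_mul]; exact h1)
  have he0 : p ^ 2 - 1 ≠ 0 := by have := s56fa_two_le hp; omega
  have hψA : ψ' ∈ A := s56fh_root_mem A he0 hψe
  have hψ0 : ψ' ≠ 0 := by
    intro h
    rw [h, zero_pow he0] at hψe
    exact zero_ne_one hψe
  -- the unit `c`
  set c := (1 - ζ) / c₀ with hc
  have hvc : A.valuation c = 1 := by rw [hc, map_div₀, hvc₀, div_self hv0]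
  have hcA : c ∈ A := (A.valuation_le_one_iff _).mp hvc.le
  have hc0 : c ≠ 0 := by
    intro h
    rw [h, map_zero] at hvc
    exact zero_ne_one hvc
  have hcinv : c⁻¹ ∈ A := by rw [← A.valuation_le_one_iff, map_inv₀, hvc, inv_one]
  have h1 := hctx.inert τ c hcA
  set S := ∑ j ∈ Finset.range ω, ζ ^ j with hS
  have hgeom : 1 - ζ ^ ω = (1 - ζ) * S := (mul_neg_geom_sum ζ ω).symm
  have h2 : τ • c = c * S / ψ' ^ (p + 1) := by
    rw [hc, smul_div₀', smul_sub, smul_one, hτζ, hc₀, smul_pow', hτϖ, hgeom, mul_pow]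
    field_simp
  have h3 : S - ψ' ^ (p + 1) = (τ • c - c) * (ψ' ^ (p + 1) * c⁻¹) := by
    rw [h2]
    field_simp
  have h4 : S - ψ' ^ (p + 1) ∈ A.nonunits := by
    rw [h3]
    exact mzo_nonunits_mul_mem h1 (mul_mem (pow_mem hψA _) hcinv)
  have h5 : algebraMap O L ((ω : O) - ψ ^ (p + 1)) = ((ω : L) - S) + (S - ψ' ^ (p + 1)) := by
    rw [map_sub, map_natCast, map_pow]
    ring
  rw [h5]
  exact mzo_nonunits_add (s56fh_geom_sub_mem hctx hζ ω) h4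

end Omega


/-! ### the concrete forms at a place `P` of `Q̄` over `p` -/

section Concrete

open Fermat.Agent.FF

/-- **(S2)** at a place `P | p` of `Q̄` (vocabulary of `mzg_ctx`). -/
theorem s56fh_S2 (p : ℕ) [Fact p.Prime] (P : ValuationSubring ff_Qb) (hP : P.LiesOverPrime p)
    {ϖt : ff_Qb} (hϖ : ϖt ^ (p ^ 2 - 1) = -(p : ff_Qb)) :
    ∃ (τ₀ : ↥(P.inertiaSubgroupIn ℚ)) (ψ₀ : ↥(ffi_O P ↥(ffi_L P))),
      τ₀ • ϖt = algebraMap ↥(ffi_O P ↥(ffi_L P)) ff_Qb ψ₀ * ϖt ∧ ψ₀ ^ (p ^ 2 - 1) = 1 ∧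
      (∀ n : ℕ, 0 < n → n < p ^ 2 - 1 →
        algebraMap ↥(ffi_O P ↥(ffi_L P)) ff_Qb (ψ₀ ^ n - 1) ∉ P.nonunits) ∧
      ∀ σ : ↥(P.inertiaSubgroupIn ℚ), ∃ n : ℕ,
        σ • ϖt = algebraMap ↥(ffi_O P ↥(ffi_L P)) ff_Qb (ψ₀ ^ n) * ϖt := by
  have : IsDiscreteValuationRing ↥(ffi_O P ↥(ffi_L P)) := mzg_ctx_dvr p P hP
  exact s56fh_tame_onto (mzg_ctx p P hP) (s56kt_val_e (mzg_ctx p P hP)) hϖ

/-- **(S3)** at a place `P | p` of `Q̄`. -/
theorem s56fh_S3 (p : ℕ) [Fact p.Prime] (P : ValuationSubring ff_Qb) (hP : P.LiesOverPrime p)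
    {ϖt ζ : ff_Qb} (hϖ : ϖt ^ (p ^ 2 - 1) = -(p : ff_Qb)) (hζ : IsPrimitiveRoot ζ p)
    {τ : ↥(P.inertiaSubgroupIn ℚ)} {ω : ℕ} {ψ : ↥(ffi_O P ↥(ffi_L P))}
    (hτζ : τ • ζ = ζ ^ ω) (hτϖ : τ • ϖt = algebraMap ↥(ffi_O P ↥(ffi_L P)) ff_Qb ψ * ϖt) :
    algebraMap ↥(ffi_O P ↥(ffi_L P)) ff_Qb ((ω : ↥(ffi_O P ↥(ffi_L P))) - ψ ^ (p + 1)) ∈
      P.nonunits := by
  have : IsDiscreteValuationRing ↥(ffi_O P ↥(ffi_L P)) := mzg_ctx_dvr p P hP
  exact s56fh_omega_psi (mzg_ctx p P hP) hϖ hζ hτζ hτϖ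

end Concrete

end Fermat.Agent.S56
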