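/-
Project S56 (Taylor–Wiles primes), node [LOC-p-FLAT] (owner helper27), cell F-SETTING, part (S4) and
the consumer shapes of (S2), (S3) (helper29).  Prefix `s56fh_`.  Concrete vocabulary of `mzg_ctx`:
`P` a place of `Q̄` over `p`, `Γ = ↥(P.inertiaSubgroupIn ℚ)`, `O = ffi_O P (ffi_L P)`.

* `s56fh_prod_sub_prod_mem` : products of congruent elements are congruent;
* `s56fh_wilson`  : `(1 - ζ) ^ (p - 1) / (-p) ≡ 1` modulo `𝔪` (Wilson's theorem);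
* `s56fh_tame`    (S2) : `∃ τ₀ ψ₀, τ₀ ϖt = ψ₀ ϖt ∧ ψ₀ ^ (p²-1) = 1 ∧
                         (∀ n m, ψ₀ ^ n ≡ ψ₀ ^ m mod 𝔪 → n ≡ m [MOD p²-1]) ∧ ∀ σ, ∃ n, σ ϖt = ψ₀ ^ n ϖt`;
* `s56fh_omega`   (S3) : `τ ϖt = ψ ϖt → τ ζ = ζ ^ ω → ω ≡ ψ ^ (p+1)` modulo `𝔪`;
* `s56fh_frob`    (S4) : `∃ φ, φ • P = P ∧ (∀ a ∈ P, φ a - a ^ p ∈ 𝔪) ∧ φ ϖt = ϖt ∧ φ ζ = ζ`
                         [a Frobenius times a power of `τ₀`; `φ ζ = ζ` by Wilson].
-/
import Mathlib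
import Fermat.Agent.S56.Flat.SettingC
import Fermat.Agent.MZ.F3.TameFrobAt
import Fermat.Agent.S56.LocQ.Tame

set_option autoImplicit false
set_option linter.unusedSectionVars false

noncomputable section

namespace Fermat.Agent.S56

open Fermat.Agent.MZ
open scoped Pointwise

section Wilson

variable {L : Type} [Field L] (A : ValuationSubring L) {p : ℕ}

/-- products of congruent elements of `A` are congruent. -/
theorem s56fh_prod_sub_prod_mem {ι : Type} (s : Finset ι) (f g : ι → L)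
    (hf : ∀ i ∈ s, f i ∈ A) (hg : ∀ i ∈ s, g i ∈ A) (hfg : ∀ i ∈ s, f i - g i ∈ A.nonunits) :
    ∏ i ∈ s, f i - ∏ i ∈ s, g i ∈ A.nonunits := by
  classical
  induction s using Finset.induction_on with
  | empty =>
    rw [Finset.prod_empty, Finset.prod_empty, sub_self]
    exact mzo_nonunits_zero
  | insert a s ha ih =>
    rw [Finset.prod_insert ha, Finset.prod_insert ha]
    have h1 : f a * ∏ i ∈ s, f i - g a * ∏ i ∈ s, g i =
        (f a - g a) * ∏ i ∈ s, f i + (∏ i ∈ s, f i - ∏ i ∈ s, g i) * g a := by ring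
    rw [h1]
    refine mzo_nonunits_add (mzo_nonunits_mul_mem (hfg a (Finset.mem_insert_self a s))
      (prod_mem fun i hi => hf i (Finset.mem_insert_of_mem hi))) ?_
    refine mzo_nonunits_mul_mem (ih (fun i hi => hf i (Finset.mem_insert_of_mem hi))
      (fun i hi => hg i (Finset.mem_insert_of_mem hi))
      (fun i hi => hfg i (Finset.mem_insert_of_mem hi))) (hg a (Finset.mem_insert_self a s))

/-- natural numbers lie in `A`. -/
theorem s56fh_natCast_mem (n : ℕ) : (n : L) ∈ A := natCast_mem A n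


/-- `n - (1 + ζ + … + ζ ^ (n - 1)) ∈ 𝔪` (abstract form). -/
theorem s56fh_geom_sub_mem' (hp : p.Prime) (hpm : (p : L) ∈ A.nonunits) {ζ : L}
    (hζ : IsPrimitiveRoot ζ p) (n : ℕ) :
    (n : L) - ∑ j ∈ Finset.range n, ζ ^ j ∈ A.nonunits := by
  have hlt : A.valuation (1 - ζ) < 1 := by
    have hvp : A.valuation (p : L) < 1 := (ValuationSubring.mem_nonunits_iff A).mp hpm
    by_contra h
    push Not at h
    have := one_le_pow₀ h (n := p - 1)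
    rw [s56fh_val_one_sub_pow_pred A hp hζ] at this
    exact absurd hvp (not_lt.mpr this)
  have h4 : (n : L) - ∑ j ∈ Finset.range n, ζ ^ j = ∑ j ∈ Finset.range n, (1 - ζ ^ j) := by
    rw [Finset.sum_sub_distrib, Finset.sum_const, Finset.card_range, nsmul_eq_mul, mul_one]
  rw [h4]
  refine mzo_nonunits_sum _ _ fun j _ => ?_
  rw [ValuationSubring.mem_nonunits_iff]
  exact lt_of_le_of_lt (s56fh_val_one_sub_pow_le A hp.ne_zero hζ.pow_eq_one j) hlt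

/-- **Wilson**: `(1 - ζ) ^ (p - 1) / (-p) ≡ 1` modulo `𝔪`. -/
theorem s56fh_wilson (hp : p.Prime) (hpm : (p : L) ∈ A.nonunits) (hp0 : (p : L) ≠ 0) {ζ : L}
    (hζ : IsPrimitiveRoot ζ p) : (1 - ζ) ^ (p - 1) / (-(p : L)) - 1 ∈ A.nonunits := by
  have hfact : Fact p.Prime := ⟨hp⟩
  have hwil : ((p - 1).factorial : ZMod p) = -1 := ZMod.wilsons_lemma p
  have hζA : ζ ∈ A := s56fh_root_mem A hp.ne_zero hζ.pow_eq_one
  obtain ⟨n, rfl⟩ : ∃ n, p = n + 1 := ⟨p - 1, (Nat.succ_pred_eq_of_pos hp.pos).symm⟩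
  rw [Nat.add_sub_cancel] at hwil ⊢
  have hprod := hζ.prod_one_sub_pow_eq_order
  set S : ℕ → L := fun m => ∑ j ∈ Finset.range m, ζ ^ j with hS
  set Q : L := ∏ k ∈ Finset.range n, S (k + 1) with hQ
  have h1 : ((n : L) + 1) = (1 - ζ) ^ n * Q := by
    rw [← hprod, hQ]
    rw [Finset.prod_congr rfl fun k _ => (mul_neg_geom_sum ζ (k + 1)).symm,
      Finset.prod_mul_distrib, Finset.prod_const, Finset.card_range]
  -- `Q ≡ n!`
  have h2 : Q - ∏ k ∈ Finset.range n, (((k + 1 : ℕ)) : L) ∈ A.nonunits := by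
    refine s56fh_prod_sub_prod_mem A _ _ _ (fun k _ => sum_mem fun j _ => pow_mem hζA j)
      (fun k _ => natCast_mem A _) (fun k _ => ?_)
    have := mzo_nonunits_neg (s56fh_geom_sub_mem' A hp hpm hζ (k + 1))
    rwa [neg_sub] at this
  have h3 : ∏ k ∈ Finset.range n, (((k + 1 : ℕ)) : L) = (n.factorial : L) := by
    rw [← Nat.cast_prod, Finset.prod_range_add_one_eq_factorial]
  rw [h3] at h2
  -- `n! + 1 ≡ 0`
  have h4 : (n.factorial : L) + 1 ∈ A.nonunits := by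
    have h5 : ((n.factorial + 1 : ℕ) : ZMod (n + 1)) = 0 := by
      rw [Nat.cast_add, hwil, Nat.cast_one, neg_add_cancel]
    obtain ⟨t, ht⟩ := (ZMod.natCast_eq_zero_iff _ _).mp h5
    have h6 : (n.factorial : L) + 1 = ((n + 1 : ℕ) : L) * (t : L) := by
      rw [← Nat.cast_mul, ← ht, Nat.cast_add, Nat.cast_one]
    rw [h6]
    exact mzo_nonunits_mul_mem hpm (natCast_mem A t)
  have h7 : Q + 1 ∈ A.nonunits := by
    have : Q + 1 = (Q - (n.factorial : L)) + ((n.factorial : L) + 1) := by ring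
    rw [this]
    exact mzo_nonunits_add h2 h4
  have hvQ : A.valuation Q = 1 := by
    have h8 : Q = (Q + 1) + (-1) := by ring
    rw [h8, Valuation.map_add_eq_of_lt_right, Valuation.map_neg, map_one]
    rw [Valuation.map_neg, map_one]
    exact (ValuationSubring.mem_nonunits_iff A).mp h7
  have hQ0 : Q ≠ 0 := by
    intro h
    rw [h, map_zero] at hvQ
    exact zero_ne_one hvQ
  have hQinv : Q⁻¹ ∈ A := by rw [← A.valuation_le_one_iff, map_inv₀, hvQ, inv_one]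
  have hz : (1 - ζ) ^ n ≠ 0 := by
    intro h
    rw [h, zero_mul] at h1
    apply hp0
    rw [Nat.cast_add, Nat.cast_one]
    exact h1
  have h9 : (1 - ζ) ^ n / (-((n + 1 : ℕ) : L)) - 1 = -(Q + 1) * Q⁻¹ := by
    rw [Nat.cast_add, Nat.cast_one, h1]
    field_simp
    ring
  rw [h9]
  exact mzo_nonunits_mul_mem (mzo_nonunits_neg h7) hQinv

end Wilson


section Frob

open Fermat.Agent.FF

variable (p : ℕ) [hp : Fact p.Prime] (P : ValuationSubring ff_Qb) (hP : P.LiesOverPrime p)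

include hP in
/-- **(S2)**, in the shape consumed by the supersingular assembly. -/
theorem s56fh_tame {ϖt : ff_Qb} (hϖ : ϖt ^ (p ^ 2 - 1) = -(p : ff_Qb)) :
    ∃ (τ₀ : ↥(P.inertiaSubgroupIn ℚ)) (ψ₀ : ↥(ffi_O P ↥(ffi_L P))), τ₀ • ϖt = algebraMap ↥(ffi_O P ↥(ffi_L P)) ff_Qb ψ₀ * ϖt ∧ ψ₀ ^ (p ^ 2 - 1) = 1 ∧
      (∀ n m : ℕ, algebraMap ↥(ffi_O P ↥(ffi_L P)) ff_Qb (ψ₀ ^ n - ψ₀ ^ m) ∈ P.nonunits → n ≡ m [MOD p ^ 2 - 1]) ∧
      ∀ σ : ↥(P.inertiaSubgroupIn ℚ), ∃ n : ℕ, σ • ϖt = algebraMap ↥(ffi_O P ↥(ffi_L P)) ff_Qb (ψ₀ ^ n) * ϖt := by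
  have hdvr : IsDiscreteValuationRing ↥(ffi_O P ↥(ffi_L P)) := mzg_ctx_dvr p P hP
  have hctx := mzg_ctx p P hP
  obtain ⟨τ₀, ψ₀, h1, h2, h3, h4⟩ := s56fh_S2 p P hP hϖ
  refine ⟨τ₀, ψ₀, h1, h2, ?_, h4⟩
  have he0 : 0 < p ^ 2 - 1 := lt_of_lt_of_le two_pos (s56fa_two_le hp.out)
  -- the key case `m ≤ n`
  have key : ∀ n m : ℕ, m ≤ n → algebraMap ↥(ffi_O P ↥(ffi_L P)) ff_Qb (ψ₀ ^ n - ψ₀ ^ m) ∈ P.nonunits →
      n ≡ m [MOD p ^ 2 - 1] := by
    intro n m hmn hmem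
    obtain ⟨d, rfl⟩ := Nat.exists_eq_add_of_le hmn
    set r := d % (p ^ 2 - 1) with hr
    have hpow : ψ₀ ^ d = ψ₀ ^ r := by
      conv_lhs => rw [← Nat.mod_add_div d (p ^ 2 - 1)]
      rw [pow_add, pow_mul, h2, one_pow, mul_one]
    have hunit : IsUnit (ψ₀ ^ m) := by
      refine IsUnit.pow m (IsUnit.of_mul_eq_one (ψ₀ ^ (p ^ 2 - 1 - 1)) ?_)
      rw [← pow_succ', Nat.sub_add_cancel he0, h2]
    have h5 : algebraMap ↥(ffi_O P ↥(ffi_L P)) ff_Qb (ψ₀ ^ r - 1) ∈ P.nonunits := by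
      have h6 : ψ₀ ^ (m + d) - ψ₀ ^ m = ψ₀ ^ m * (ψ₀ ^ r - 1) := by rw [pow_add, hpow]; ring
      rw [h6, map_mul] at hmem
      have hinv : (algebraMap ↥(ffi_O P ↥(ffi_L P)) ff_Qb (ψ₀ ^ m))⁻¹ ∈ P := by
        rw [← P.valuation_le_one_iff, map_inv₀, s56fa_val_unit hctx hunit, inv_one]
      have h7 := mzo_nonunits_mul_mem hmem hinv
      have hne : algebraMap ↥(ffi_O P ↥(ffi_L P)) ff_Qb (ψ₀ ^ m) ≠ 0 := by
        intro h0
        have := s56fa_val_unit hctx hunit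
        rw [h0, map_zero] at this
        exact zero_ne_one this
      rwa [mul_comm, ← mul_assoc, inv_mul_cancel₀ hne, one_mul] at h7
    have hr0 : r = 0 := by
      by_contra hne
      exact h3 r (Nat.pos_of_ne_zero hne) (Nat.mod_lt d he0) h5
    rw [Nat.ModEq, Nat.add_mod, ← hr, hr0, add_zero, Nat.mod_mod]
  intro n m hmem
  rcases le_total m n with h | h
  · exact key n m h hmem
  · refine (key m n h ?_).symm
    have := mzo_nonunits_neg hmem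
    rwa [← map_neg, neg_sub] at this

include hP in
/-- **(S3)**, in the shape consumed by the supersingular assembly. -/
theorem s56fh_omega {ϖt ζ : ff_Qb} (hϖ : ϖt ^ (p ^ 2 - 1) = -(p : ff_Qb))
    (hζ : IsPrimitiveRoot ζ p) (τ : ↥(P.inertiaSubgroupIn ℚ)) (ψ : ↥(ffi_O P ↥(ffi_L P))) (ω : ℕ)
    (hτϖ : τ • ϖt = algebraMap ↥(ffi_O P ↥(ffi_L P)) ff_Qb ψ * ϖt) (hτζ : τ • ζ = ζ ^ ω) :
    algebraMap ↥(ffi_O P ↥(ffi_L P)) ff_Qb ((ω : ↥(ffi_O P ↥(ffi_L P))) - ψ ^ (p + 1)) ∈ P.nonunits :=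
  s56fh_S3 p P hP hϖ hζ hτζ hτϖ


include hP in
/-- `a ∈ P`, `φ • P = P` ⟹ `φ a ∈ P`. -/
theorem s56fh_map_mem {φ : ff_GQ} (hφ : φ • P = P) {a : ff_Qb} (ha : a ∈ P) : φ a ∈ P := by
  have h1 : φ • a ∈ φ • P := ValuationSubring.smul_mem_pointwise_smul φ a P ha
  rw [hφ] at h1
  exact h1

include hP in
/-- **(S4) FROBENIUS**: there is a Frobenius element at `P` fixing `ϖt` and `ζ`. -/
theorem s56fh_frob {ϖt ζ : ff_Qb} (hϖ : ϖt ^ (p ^ 2 - 1) = -(p : ff_Qb))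
    (hζ : IsPrimitiveRoot ζ p) :
    ∃ φ : ff_GQ, φ • P = P ∧ (∀ a ∈ P, φ a - a ^ p ∈ P.nonunits) ∧ φ ϖt = ϖt ∧ φ ζ = ζ := by
  have hpp := hp.out
  have hdvr : IsDiscreteValuationRing ↥(ffi_O P ↥(ffi_L P)) := mzg_ctx_dvr p P hP
  have hctx := mzg_ctx p P hP
  set e := p ^ 2 - 1 with he
  have he0 : 0 < e := lt_of_lt_of_le two_pos (s56fa_two_le hpp)
  have hϖ0 : ϖt ≠ 0 := by
    rintro rfl
    rw [zero_pow he0.ne'] at hϖ
    exact hctx.r_ne (neg_eq_zero.mp hϖ.symm)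
  -- a Frobenius
  obtain ⟨φ₀, hφ₀F, hφ₀P, -, -⟩ := mzf3_tfa_exists P hpp hP
  have hφ₀ := (mzf3_tfa_unfold P hφ₀F).2
  -- the tame generator
  obtain ⟨τ₀, ψ₀, h1, h2, h3, -⟩ := s56fh_S2 p P hP hϖ
  set ψ' := algebraMap ↥(ffi_O P ↥(ffi_L P)) ff_Qb ψ₀ with hψ'
  have hψe : ψ' ^ e = 1 := by rw [hψ', ← map_pow, h2, map_one]
  have hprim : IsPrimitiveRoot ψ' e := by
    refine ⟨hψe, fun l hl => ?_⟩
    set r := l % e with hr
    have hpow : ψ' ^ r = 1 := by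
      have : ψ' ^ l = ψ' ^ r := by
        conv_lhs => rw [← Nat.mod_add_div l e]
        rw [pow_add, pow_mul, hψe, one_pow, mul_one]
      rw [← this, hl]
    have hr0 : r = 0 := by
      by_contra hne
      apply h3 r (Nat.pos_of_ne_zero hne) (Nat.mod_lt l he0)
      rw [map_sub, map_pow, map_one, ← hψ', hpow, sub_self]
      exact mzo_nonunits_zero
    exact Nat.dvd_of_mod_eq_zero hr0
  -- `φ₀ ϖt = η ϖt`, `η = ψ' ^ n`
  have hη : (φ₀ ϖt / ϖt) ^ e = 1 := by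
    rw [div_pow, ← map_pow, hϖ, map_neg, map_natCast, div_self (neg_ne_zero.mpr hctx.r_ne)]
  have : NeZero e := ⟨he0.ne'⟩
  obtain ⟨n, hn, hn'⟩ := hprim.eq_pow_of_pow_eq_one hη
  have hφ₀ϖ : φ₀ ϖt = ψ' ^ n * ϖt := by rw [hn', div_mul_cancel₀ _ hϖ0]
  -- powers of `τ₀`
  have hτfix : ((τ₀ : ff_GQ)) ψ' = ψ' := hctx.fixed ψ₀ τ₀
  have hτpow : ∀ k : ℕ, ((τ₀ : ff_GQ) ^ k) ϖt = ψ' ^ k * ϖt := by
    intro k
    induction k with
    | zero => simp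
    | succ k ih =>
      rw [pow_succ', AlgEquiv.mul_apply, ih, map_mul, map_pow, hτfix]
      have : (τ₀ : ff_GQ) ϖt = ψ' * ϖt := h1
      rw [this, pow_succ]
      ring
  have hτkfix : ∀ k : ℕ, ((τ₀ : ff_GQ) ^ k) ψ' = ψ' := by
    intro k
    induction k with
    | zero => simp
    | succ k ih => rw [pow_succ', AlgEquiv.mul_apply, ih, hτfix]
  have hτI : ∀ k : ℕ, (τ₀ : ff_GQ) ^ k ∈ P.inertiaSubgroupIn ℚ := fun k => pow_mem τ₀.2 k
  set σ : ff_GQ := (τ₀ : ff_GQ) ^ (e - n) with hσ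
  have hσI : σ ∈ P.inertiaSubgroupIn ℚ := hτI _
  have hσP : σ • P = P := s56q_inertia_smul P hσI
  have hφP : (σ * φ₀) • P = P := by rw [mul_smul, hφ₀P, hσP]
  have hφF : ∀ a ∈ P, (σ * φ₀) a - a ^ p ∈ P.nonunits := by
    intro a ha
    have haφ : φ₀ a ∈ P := s56fh_map_mem p P hP hφ₀P ha
    have h4 : σ (φ₀ a) - φ₀ a ∈ P.nonunits :=
      ((Fermat.Agent.S55.tl_mem_inertiaSubgroupIn_iff P σ).1 hσI).2 _ haφ
    have h5 : (σ * φ₀) a - a ^ p = (σ (φ₀ a) - φ₀ a) + (φ₀ a - a ^ p) := by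
      rw [AlgEquiv.mul_apply]
      ring
    rw [h5]
    exact mzo_nonunits_add h4 (hφ₀ a ha)
  have hφϖ : (σ * φ₀) ϖt = ϖt := by
    rw [AlgEquiv.mul_apply, hφ₀ϖ, map_mul, map_pow, hσ, hτkfix, hτpow, ← mul_assoc, ← pow_add,
      Nat.add_sub_cancel' hn.le, hψe, one_mul]
  refine ⟨σ * φ₀, hφP, hφF, hφϖ, ?_⟩
  set φ := σ * φ₀ with hφ
  -- `φ ζ = ζ ^ a`
  have hφζ : (φ ζ) ^ p = 1 := by rw [← map_pow, hζ.pow_eq_one, map_one]
  have : NeZero p := ⟨hpp.ne_zero⟩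
  obtain ⟨a, ha, ha'⟩ := hζ.eq_pow_of_pow_eq_one hφζ
  -- the unit `c`
  have hvc₀ : P.valuation (ϖt ^ (p + 1)) = P.valuation (1 - ζ) := s56fh_val_pow_succ hpp hϖ hζ
  have hζ1 : (1 : ff_Qb) - ζ ≠ 0 := sub_ne_zero.mpr (hζ.ne_one hpp.one_lt).symm
  have hv0 : P.valuation (1 - ζ) ≠ 0 := (map_ne_zero _).mpr hζ1
  set c := (1 - ζ) / ϖt ^ (p + 1) with hc
  have hvc : P.valuation c = 1 := by rw [hc, map_div₀, hvc₀, div_self hv0]
  have hcP : c ∈ P := (P.valuation_le_one_iff _).mp hvc.le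
  have hc0 : c ≠ 0 := by
    intro h
    rw [h, map_zero] at hvc
    exact zero_ne_one hvc
  have hcinv : c⁻¹ ∈ P := by rw [← P.valuation_le_one_iff, map_inv₀, hvc, inv_one]
  set S := ∑ j ∈ Finset.range a, ζ ^ j with hS
  have hgeom : 1 - ζ ^ a = (1 - ζ) * S := (mul_neg_geom_sum ζ a).symm
  have hφc : φ c = c * S := by
    rw [hc, map_div₀, map_sub, map_one, map_pow, hφϖ, ← ha', hgeom]
    ring
  have h6 := hφF c hcP
  have hp1 : p = (p - 1) + 1 := (Nat.succ_pred_eq_of_pos hpp.pos).symm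
  have h7 : S - c ^ (p - 1) ∈ P.nonunits := by
    have h8 : S - c ^ (p - 1) = (φ c - c ^ p) * c⁻¹ := by
      rw [hφc]
      conv_rhs => rw [hp1, pow_succ]
      field_simp
    rw [h8]
    exact mzo_nonunits_mul_mem h6 hcinv
  have h9 : c ^ (p - 1) - 1 ∈ P.nonunits := by
    have h10 : c ^ (p - 1) = (1 - ζ) ^ (p - 1) / (-(p : ff_Qb)) := by
      rw [hc, div_pow, ← pow_mul, s56fh_sq_sub_one p hpp.pos, hϖ]
    rw [h10]
    exact s56fh_wilson P hpp hctx.r_mem hctx.r_ne hζ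
  have h11 : (a : ff_Qb) - 1 ∈ P.nonunits := by
    have h12 : (a : ff_Qb) - 1 = ((a : ff_Qb) - S) + (S - c ^ (p - 1)) + (c ^ (p - 1) - 1) := by
      ring
    rw [h12]
    exact mzo_nonunits_add (mzo_nonunits_add (s56fh_geom_sub_mem' P hpp hctx.r_mem hζ a) h7) h9
  -- conclude `a = 1`
  have ha1 : a = 1 := by
    rcases Nat.eq_zero_or_pos a with rfl | hapos
    · rw [Nat.cast_zero, zero_sub, ValuationSubring.mem_nonunits_iff, Valuation.map_neg,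
        map_one] at h11
      exact absurd h11 (lt_irrefl _)
    · obtain ⟨b, rfl⟩ : ∃ b, a = b + 1 := ⟨a - 1, (Nat.succ_pred_eq_of_pos hapos).symm⟩
      by_contra hb
      have hb0 : b ≠ 0 := fun h => hb (by rw [h])
      have hnd : ¬ p ∣ b := fun hd => by
        have := Nat.le_of_dvd (Nat.pos_of_ne_zero hb0) hd
        omega
      have h13 := s56q_val_natCast_eq_one P hpp hP hnd
      rw [Nat.cast_add, Nat.cast_one, add_sub_cancel_right, ValuationSubring.mem_nonunits_iff,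
        h13] at h11
      exact lt_irrefl _ h11
  rw [← ha', ha1, pow_one]

end Frob

end Fermat.Agent.S56
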