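/-
Project S56 (Taylor–Wiles primes), node [LOC-p-FLAT] (owner helper27), cell F-SSINST (helper29).
Prefix `s56fhi_`.  THE CONCRETE INSTANCE AT A PLACE `P ∣ p` OF `Q̄` OF ALL THE `rb`-INDEPENDENT
HYPOTHESES OF helper27's `s56fu_shape` (`Flat/SSMat.lean`), in the vocabulary of `mzg_ctx`:

  `I := P.inertiaSubgroupIn ℚ`, `T := MulAction.stabilizer ↥I ϖt`, `O := ↥(ffi_O P ↥(ffi_L P))`,
  `𝕜 := IsLocalRing.ResidueField ↥P`, `res := s56fhi_res P = residue ∘ (O ⊆ P)`.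

* `s56fhi_res`, `s56fhi_res_eq_zero_iff`, `s56fhi_res_unit`, `s56fhi_res_surj`,
  `s56fhi_charP`, `s56fhi_algClosed`;
* `s56fhi_link`  : `i • ϖt = ψ ϖt ⟹ res ψ = s56fc_theta P i ϖt` (helper13's tame symbol);
* `s56fhi_Data`  : the tame generator `τ₀, ψ₀, ω₀, ω₀'` and the Frobenius `φ` (fixing `ϖt`, `ζ`)
                   with all their properties;     `s56fhi_main : ∃ τ₀ ψ₀ ω₀ ω₀' φ, s56fhi_Data …`;
* `s56fhi_parity`, `s56fhi_sel` : the selection hypothesis `hsel` of `s56fn_main` from one solution.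
-/
import Mathlib
import Fermat.Agent.S56.Flat.SettingF
import Fermat.Agent.S56.Flat.Wild
import Fermat.Agent.S56.Cheb.Frob
import Fermat.Agent.S56.LocD.FrobGen

set_option autoImplicit false
set_option linter.unusedSectionVars false

noncomputable section

namespace Fermat.Agent.S56

open Fermat.Agent.MZ Fermat.Agent.FF
open scoped Pointwise

section Sel

variable {p : ℕ}

/-- `ξ ^ (p²) = ξ` ⟹ `ξ ^ (p ^ d) = ξ ^ (p ^ (d % 2))`. -/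
theorem s56fhi_pow_period {M : Type} [Monoid M] {ξ : M} (hξ2 : ξ ^ p ^ 2 = ξ) (d : ℕ) :
    ξ ^ p ^ d = ξ ^ p ^ (d % 2) := by
  induction d using Nat.strong_induction_on with
  | _ d ih =>
    rcases Nat.lt_or_ge d 2 with hd | hd
    · rw [Nat.mod_eq_of_lt hd]
    · obtain ⟨c, rfl⟩ := Nat.exists_eq_add_of_le hd
      rw [Nat.add_mod_left, ← ih c (by omega), pow_add, pow_mul, hξ2]

/-- **the parity selection**: if `ξ ^ (p²) = ξ ≠ ξ ^ p`, the exponents `i` with `y ^ (p ^ i) = ξ`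
all have the same parity. -/
theorem s56fhi_parity {M : Type} [Monoid M] {y ξ : M} (hξ2 : ξ ^ p ^ 2 = ξ) (hξ1 : ξ ^ p ≠ ξ)
    {i i₁ : ℕ} (h₁ : y ^ p ^ i₁ = ξ) (h : y ^ p ^ i = ξ) : i % 2 = i₁ % 2 := by
  wlog hle : i₁ ≤ i generalizing i i₁
  · exact (this h h₁ (le_of_not_ge hle)).symm
  obtain ⟨d, rfl⟩ := Nat.exists_eq_add_of_le hle
  rw [pow_add, pow_mul, h₁, s56fhi_pow_period hξ2] at h
  rcases Nat.mod_two_eq_zero_or_one d with hd | hd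
  · omega
  · rw [hd, pow_one] at h
    exact absurd h hξ1

/-- a finite field of characteristic `p` embeds into an algebraically closed field of
characteristic `p`. -/
theorem s56fhi_exists_emb [Fact p.Prime] (k : Type) [Field k] [Finite k] [Algebra (ZMod p) k]
    (𝕜 : Type) [Field 𝕜] [CharP 𝕜 p] [IsAlgClosed 𝕜] : Nonempty (k →+* 𝕜) := by
  let _ : Algebra (ZMod p) 𝕜 := ZMod.algebra 𝕜 p
  have : Module.Finite (ZMod p) k := Module.Finite.of_finite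
  have : Algebra.IsAlgebraic (ZMod p) k := Algebra.IsAlgebraic.of_finite (ZMod p) k
  exact ⟨(IsAlgClosed.lift (R := ZMod p) (S := k) (M := 𝕜)).toRingHom⟩

/-- natural numbers are fixed by Frobenius. -/
theorem s56fhi_natCast_pow [hp : Fact p.Prime] {𝕜 : Type} [Field 𝕜] [CharP 𝕜 p] (n : ℕ) :
    ((n : ℕ) : 𝕜) ^ p = n := by
  rw [← frobenius_def, map_natCast]

/-- `p + 1 ∤ p² + 1`. -/
theorem s56fhi_not_dvd (hpp : p.Prime) : ¬ (p + 1) ∣ p ^ 2 + 1 := by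
  intro h
  have h1 : (p + 1) ∣ (p + 1) * (p - 1) := dvd_mul_right _ _
  rw [s56fh_sq_sub_one p hpp.pos] at h1
  have h2 : p ^ 2 + 1 = (p ^ 2 - 1) + 2 := by
    have : 1 ≤ p ^ 2 := Nat.one_le_pow _ _ hpp.pos
    omega
  rw [h2] at h
  have h3 := (Nat.dvd_add_right h1).mp h
  have h4 := Nat.le_of_dvd two_pos h3
  have h5 := hpp.two_le
  omega

/-- `p² - 1` is invertible in characteristic `p`. -/
theorem s56fhi_idx_ne (hpp : p.Prime) (k : Type) [Field k] [CharP k p] :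
    (((p ^ 2 - 1 : ℕ)) : k) ≠ 0 := by
  intro h
  rw [CharP.cast_eq_zero_iff k p] at h
  have h1 : p ∣ p ^ 2 := dvd_pow_self p two_ne_zero
  have h2 : 1 ≤ p ^ 2 := Nat.one_le_pow _ _ hpp.pos
  have h3 : p ∣ p ^ 2 - (p ^ 2 - 1) := Nat.dvd_sub h1 h
  have h4 : p ^ 2 - (p ^ 2 - 1) = 1 := by omega
  rw [h4] at h3
  exact hpp.one_lt.ne' (Nat.dvd_one.mp h3)

end Sel

section Res

variable (p : ℕ) [hp : Fact p.Prime] (P : ValuationSubring ff_Qb) (hP : P.LiesOverPrime p)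

/-- **the residue map** of `O = P ∩ Q̄^{I_P}`, into the residue field of `P`. -/
def s56fhi_res : ↥(ffi_O P ↥(ffi_L P)) →+* IsLocalRing.ResidueField ↥P :=
  (IsLocalRing.residue ↥P).comp (ffi_OtoA P ↥(ffi_L P))

theorem s56fhi_res_apply (x : ↥(ffi_O P ↥(ffi_L P))) :
    s56fhi_res P x = IsLocalRing.residue ↥P (ffi_OtoA P ↥(ffi_L P) x) := rfl

theorem s56fhi_residue_eq_zero_iff (a : ↥P) :
    IsLocalRing.residue ↥P a = 0 ↔ (a : ff_Qb) ∈ P.nonunits := by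
  rw [IsLocalRing.residue_eq_zero_iff, ValuationSubring.coe_mem_nonunits_iff]

theorem s56fhi_res_eq_zero_iff (x : ↥(ffi_O P ↥(ffi_L P))) :
    s56fhi_res P x = 0 ↔ algebraMap ↥(ffi_O P ↥(ffi_L P)) ff_Qb x ∈ P.nonunits :=
  s56fhi_residue_eq_zero_iff P (ffi_OtoA P ↥(ffi_L P) x)

include hP in
/-- the residue field of `P` has characteristic `p`. -/
theorem s56fhi_charP : CharP (IsLocalRing.ResidueField ↥P) p := by
  have hctx := mzg_ctx p P hP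
  have hp0 : ((p : ℕ) : IsLocalRing.ResidueField ↥P) = 0 := by
    rw [← map_natCast (IsLocalRing.residue ↥P), s56fhi_residue_eq_zero_iff]
    push_cast
    exact hctx.r_mem
  exact ringChar.of_eq (CharP.ringChar_of_prime_eq_zero hp.out hp0)

include hP in
/-- the residue field of `P` is algebraically closed. -/
theorem s56fhi_algClosed : IsAlgClosed (IsLocalRing.ResidueField ↥P) :=
  (ffi_lvi p P hP).algClosed

include hP in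
theorem s56fhi_res_unit (x : ↥(ffi_O P ↥(ffi_L P))) : s56fhi_res P x = 0 ↔ ¬ IsUnit x := by
  have hdvr : IsDiscreteValuationRing ↥(ffi_O P ↥(ffi_L P)) := mzg_ctx_dvr p P hP
  exact (s56fhi_res_eq_zero_iff P x).trans ((mzg_ctx p P hP).nonunit_iff x)

include hP in
theorem s56fhi_res_surj : Function.Surjective (s56fhi_res P) := by
  have hctx := mzg_ctx p P hP
  intro y
  obtain ⟨a, rfl⟩ := IsLocalRing.residue_surjective y
  obtain ⟨o, ho⟩ := hctx.res_full (a : ff_Qb) a.2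
  refine ⟨o, ?_⟩
  have h1 : IsLocalRing.residue ↥P (a - ffi_OtoA P ↥(ffi_L P) o) = 0 := by
    rw [s56fhi_residue_eq_zero_iff]
    exact ho
  rw [map_sub, sub_eq_zero] at h1
  exact h1.symm

/-- **the link with helper13's tame symbol**. -/
theorem s56fhi_link {ϖt : ff_Qb} (hϖ0 : ϖt ≠ 0) (i : ↥(P.inertiaSubgroupIn ℚ))
    (ψ : ↥(ffi_O P ↥(ffi_L P)))
    (h : i • ϖt = algebraMap ↥(ffi_O P ↥(ffi_L P)) ff_Qb ψ * ϖt) :
    s56fhi_res P ψ = s56fc_theta P i ϖt := by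
  have he : i • ϖt / ϖt = algebraMap ↥(ffi_O P ↥(ffi_L P)) ff_Qb ψ := by
    rw [h, mul_div_assoc, div_self hϖ0, mul_one]
  have hmem : i • ϖt / ϖt ∈ P := by
    rw [he]
    exact (ffi_OtoA P ↥(ffi_L P) ψ).2
  rw [s56fc_theta_eq hmem, s56fhi_res_apply]
  congr 1
  exact Subtype.ext he.symm

end Res

section Inst

variable (p : ℕ) [hp : Fact p.Prime] (P : ValuationSubring ff_Qb) (hP : P.LiesOverPrime p)

/-- **the `rb`-independent data of `s56fu_shape`** at a place `P` of `Q̄` over `p`: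
the tame generator `τ₀` (`τ₀ ϖt = ψ₀ ϖt`, `τ₀ ζ = ζ ^ ω₀`) and the Frobenius `φ` fixing `ϖt`, `ζ`.
Field names = the hypothesis names of `s56fu_shape` where they exist. -/
structure s56fhi_Data (ϖt ζ : ff_Qb)
    (τ₀ : ↥(P.inertiaSubgroupIn ℚ)) (ψ₀ : ↥(ffi_O P ↥(ffi_L P))) (ω₀ ω₀' : ℕ) (φ : ff_GQ) :
    Prop where
  hψ₀ : τ₀ • ϖt = algebraMap ↥(ffi_O P ↥(ffi_L P)) ff_Qb ψ₀ * ϖt
  hψv : P.valuation (algebraMap ↥(ffi_O P ↥(ffi_L P)) ff_Qb ψ₀) = 1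
  hψe : ψ₀ ^ (p ^ 2 - 1) = 1
  hψ1 : s56fhi_res P ψ₀ ^ (p ^ 2 - 1) = 1
  /-- the residue of `ψ₀` has exact order `p² - 1` -/
  hord : ∀ n m : ℕ, s56fhi_res P ψ₀ ^ n = s56fhi_res P ψ₀ ^ m → n ≡ m [MOD p ^ 2 - 1]
  hψall : ∀ σ : ↥(P.inertiaSubgroupIn ℚ), ∃ n : ℕ,
    σ • ϖt = algebraMap ↥(ffi_O P ↥(ffi_L P)) ff_Qb (ψ₀ ^ n) * ϖt
  /-- `τ₀` normalises `T = Stab ϖt` -/
  hτT : ∀ s ∈ MulAction.stabilizer ↥(P.inertiaSubgroupIn ℚ) ϖt,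
    τ₀⁻¹ * s * τ₀ ∈ MulAction.stabilizer ↥(P.inertiaSubgroupIn ℚ) ϖt
  hω₀ : τ₀ • ζ = ζ ^ ω₀
  hωω' : ((ω₀ * ω₀' : ℕ) : ZMod p) = 1
  /-- `ω = ψ ^ (p + 1)` on residues -/
  hωψ : s56fhi_res P (ω₀ : ↥(ffi_O P ↥(ffi_L P))) = s56fhi_res P ψ₀ ^ (p + 1)
  hω'ψ : s56fhi_res P (ω₀' : ↥(ffi_O P ↥(ffi_L P))) * s56fhi_res P ψ₀ ^ (p + 1) = 1
  /-- the index of `T` in `I` is `p² - 1` -/
  hindex : (((MulAction.stabilizer ↥(P.inertiaSubgroupIn ℚ) ϖt).map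
    (P.inertiaSubgroupIn ℚ).subtype).subgroupOf (P.inertiaSubgroupIn ℚ)).index = p ^ 2 - 1
  hidx : ∀ (k : Type) [Field k] [CharP k p],
    (((((MulAction.stabilizer ↥(P.inertiaSubgroupIn ℚ) ϖt).map
      (P.inertiaSubgroupIn ℚ).subtype).subgroupOf (P.inertiaSubgroupIn ℚ)).index : ℕ) : k) ≠ 0
  /-- `φ` is a Frobenius at `P` fixing `ϖt` and `ζ` -/
  hφP : φ • P = P
  hφF : ∀ a ∈ P, φ a - a ^ p ∈ P.nonunits
  hfrob : P.IsFrobeniusAt φ p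
  hφD : φ ∈ P.decompositionSubgroup ℚ
  hφA : ∀ y : ff_Qb, y ∈ P ↔ φ y ∈ P
  hφI : ∀ i ∈ P.inertiaSubgroupIn ℚ, φ * i * φ⁻¹ ∈ P.inertiaSubgroupIn ℚ
  hφI' : ∀ i ∈ P.inertiaSubgroupIn ℚ, φ⁻¹ * i * φ ∈ P.inertiaSubgroupIn ℚ
  hφϖ : φ ϖt = ϖt
  hφζ : φ ζ = ζ
  hφψ : φ (algebraMap ↥(ffi_O P ↥(ffi_L P)) ff_Qb ψ₀) =
    algebraMap ↥(ffi_O P ↥(ffi_L P)) ff_Qb ψ₀ ^ p
  /-- `φ τ₀ φ⁻¹ = τ₀ ^ p` on `ϖt` -/
  hφτ : (φ * (τ₀ : ff_GQ) * φ⁻¹) ϖt = algebraMap ↥(ffi_O P ↥(ffi_L P)) ff_Qb (ψ₀ ^ p) * ϖt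
  hφO : ∀ x : ↥(ffi_O P ↥(ffi_L P)), ∃ x' : ↥(ffi_O P ↥(ffi_L P)),
    φ (algebraMap ↥(ffi_O P ↥(ffi_L P)) ff_Qb x) = algebraMap ↥(ffi_O P ↥(ffi_L P)) ff_Qb x' ∧
      s56fhi_res P x' = s56fhi_res P x ^ p
  hgen : ∀ L : IntermediateField ℚ ff_Qb, FiniteDimensional ℚ L →
    ∀ d ∈ P.decompositionSubgroup ℚ, ∃ n : ℕ, ∃ i ∈ P.inertiaSubgroupIn ℚ,
      ∃ s ∈ L.fixingSubgroup, d = φ ^ n * i * s

include hP in
/-- **F-SSINST**: the data exist. -/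
theorem s56fhi_main {ϖt ζ : ff_Qb} (hϖ : ϖt ^ (p ^ 2 - 1) = -(p : ff_Qb))
    (hζ : IsPrimitiveRoot ζ p) :
    ∃ (τ₀ : ↥(P.inertiaSubgroupIn ℚ)) (ψ₀ : ↥(ffi_O P ↥(ffi_L P))) (ω₀ ω₀' : ℕ) (φ : ff_GQ),
      s56fhi_Data p P ϖt ζ τ₀ ψ₀ ω₀ ω₀' φ := by
  have hpp := hp.out
  have hdvr : IsDiscreteValuationRing ↥(ffi_O P ↥(ffi_L P)) := mzg_ctx_dvr p P hP
  have hctx := mzg_ctx p P hP
  have hchar : CharP (IsLocalRing.ResidueField ↥P) p := s56fhi_charP p P hP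
  set e := p ^ 2 - 1 with he
  have he0 : 0 < e := lt_of_lt_of_le two_pos (s56fa_two_le hpp)
  have hϖ0 : ϖt ≠ 0 := by
    rintro rfl
    rw [zero_pow he0.ne'] at hϖ
    exact hctx.r_ne (neg_eq_zero.mp hϖ.symm)
  have hresP := s56fhi_res_eq_zero_iff P
  -- the tame generator
  obtain ⟨τ₀, ψ₀, h1, h2, h3, h4⟩ := s56fh_tame p P hP hϖ
  set ψ' := algebraMap ↥(ffi_O P ↥(ffi_L P)) ff_Qb ψ₀ with hψ'
  have hψ'e : ψ' ^ e = 1 := by rw [hψ', ← map_pow, h2, map_one]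
  have hψ'P : ψ' ∈ P := hctx.mem_A ψ₀
  have hψ'0 : ψ' ≠ 0 := by
    intro h
    rw [h, zero_pow he0.ne'] at hψ'e
    exact zero_ne_one hψ'e
  have hψv : P.valuation ψ' = 1 := by
    have h5 : P.valuation ψ' ^ e = 1 ^ e := by rw [← map_pow, hψ'e, map_one, one_pow]
    exact (pow_left_inj₀ zero_le zero_le he0.ne').mp h5
  have hτT : ∀ s ∈ MulAction.stabilizer ↥(P.inertiaSubgroupIn ℚ) ϖt,
      τ₀⁻¹ * s * τ₀ ∈ MulAction.stabilizer ↥(P.inertiaSubgroupIn ℚ) ϖt := by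
    intro s hs
    rw [MulAction.mem_stabilizer_iff] at hs ⊢
    rw [mul_smul, mul_smul, h1, smul_mul', hctx.fixed ψ₀ s, hs, ← h1, inv_smul_smul]
  have hψsep : ∀ n m : ℕ, s56fhi_res P ψ₀ ^ n = s56fhi_res P ψ₀ ^ m → n ≡ m [MOD e] := by
    intro n m hnm
    apply h3
    rw [← hresP, map_sub, map_pow, map_pow, hnm, sub_self]
  have hψ1 : s56fhi_res P ψ₀ ^ e = 1 := by rw [← map_pow, h2, map_one]
  -- the cyclotomic character of `τ₀`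
  have : NeZero p := ⟨hpp.ne_zero⟩
  have hτζ : (τ₀ • ζ) ^ p = 1 := by rw [← smul_pow', hζ.pow_eq_one, smul_one]
  obtain ⟨ω₀, -, hω₀⟩ := hζ.eq_pow_of_pow_eq_one hτζ
  have hω₀ne : (ω₀ : ZMod p) ≠ 0 := by
    intro h0
    rw [ZMod.natCast_eq_zero_iff] at h0
    obtain ⟨c, rfl⟩ := h0
    rw [pow_mul, hζ.pow_eq_one, one_pow] at hω₀
    have h5 : ζ = 1 := by
      have h6 := congrArg (fun z => τ₀⁻¹ • z) hω₀
      simp only [smul_one, inv_smul_smul] at h6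
      exact h6.symm
    exact hζ.ne_one hpp.one_lt h5
  set ω₀' := ((ω₀ : ZMod p)⁻¹).val with hω₀'
  have hωω' : ((ω₀ * ω₀' : ℕ) : ZMod p) = 1 := by
    rw [Nat.cast_mul, hω₀', ZMod.natCast_zmod_val, mul_inv_cancel₀ hω₀ne]
  have hωψ : s56fhi_res P (ω₀ : ↥(ffi_O P ↥(ffi_L P))) = s56fhi_res P ψ₀ ^ (p + 1) := by
    have h5 := s56fh_omega p P hP hϖ hζ τ₀ ψ₀ ω₀ h1 hω₀.symm
    rw [← hresP, map_sub, sub_eq_zero, map_pow] at h5
    exact h5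
  have hω'ψ : s56fhi_res P (ω₀' : ↥(ffi_O P ↥(ffi_L P))) * s56fhi_res P ψ₀ ^ (p + 1) = 1 := by
    rw [← hωψ, ← map_mul, ← Nat.cast_mul, map_natCast]
    have h5 : ((ω₀' * ω₀ : ℕ) : ZMod p) = ((1 : ℕ) : ZMod p) := by
      rw [mul_comm, hωω', Nat.cast_one]
    rw [ZMod.natCast_eq_natCast_iff] at h5
    have h6 := (CharP.natCast_eq_natCast (IsLocalRing.ResidueField ↥P) p).mpr h5
    rw [h6, Nat.cast_one]
  -- the index of `T`
  have hτpow : ∀ n : ℕ, (τ₀ ^ n) • ϖt = ψ' ^ n * ϖt := by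
    intro n
    induction n with
    | zero => rw [pow_zero, one_smul, pow_zero, one_mul]
    | succ n ih =>
      rw [pow_succ', mul_smul, ih, smul_mul', smul_pow', hctx.fixed ψ₀ τ₀, h1, pow_succ]
      ring
  have hindex : (((MulAction.stabilizer ↥(P.inertiaSubgroupIn ℚ) ϖt).map
      (P.inertiaSubgroupIn ℚ).subtype).subgroupOf (P.inertiaSubgroupIn ℚ)).index = e := by
    have h5 : ((MulAction.stabilizer ↥(P.inertiaSubgroupIn ℚ) ϖt).map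
        (P.inertiaSubgroupIn ℚ).subtype).subgroupOf (P.inertiaSubgroupIn ℚ) =
        MulAction.stabilizer ↥(P.inertiaSubgroupIn ℚ) ϖt :=
      Subgroup.comap_map_eq_self_of_injective Subtype.coe_injective _
    rw [h5, MulAction.index_stabilizer]
    have h6 : MulAction.orbit ↥(P.inertiaSubgroupIn ℚ) ϖt =
        (fun n : ℕ => ψ' ^ n * ϖt) '' (Finset.range e : Set ℕ) := by
      ext y
      constructor
      · rintro ⟨σ, rfl⟩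
        obtain ⟨n, hn⟩ := h4 σ
        refine ⟨n % e, Finset.mem_coe.mpr (Finset.mem_range.mpr (Nat.mod_lt n he0)), ?_⟩
        show ψ' ^ (n % e) * ϖt = σ • ϖt
        rw [hn, map_pow]
        congr 1
        conv_rhs => rw [← Nat.mod_add_div n e]
        rw [pow_add, pow_mul, hψ'e, one_pow, mul_one]
      · rintro ⟨n, -, rfl⟩
        exact ⟨τ₀ ^ n, hτpow n⟩
    have hinj : Set.InjOn (fun n : ℕ => ψ' ^ n * ϖt) (Finset.range e : Set ℕ) := by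
      intro n hn m hm hnm
      have hn' : n < e := Finset.mem_range.mp (Finset.mem_coe.mp hn)
      have hm' : m < e := Finset.mem_range.mp (Finset.mem_coe.mp hm)
      have h7 : ψ' ^ n = ψ' ^ m := mul_right_cancel₀ hϖ0 hnm
      have h8 : n ≡ m [MOD e] := by
        apply h3
        rw [map_sub, map_pow, map_pow, ← hψ', h7, sub_self]
        exact mzo_nonunits_zero
      exact Nat.ModEq.eq_of_lt_of_lt h8 hn' hm'
    rw [h6, hinj.ncard_image, Set.ncard_coe_finset, Finset.card_range]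
  -- Frobenius
  obtain ⟨φ, hφP, hφF, hφϖ, hφζ⟩ := s56fh_frob p P hP hϖ hζ
  have hve : P.valuation ((e : ℕ) : ff_Qb) = 1 := s56kt_val_e hctx
  have hφψ : φ ψ' = ψ' ^ p := by
    have h5 : (φ ψ' / ψ' ^ p) ^ e = 1 := by
      rw [div_pow, ← map_pow, hψ'e, map_one, ← pow_mul, mul_comm, pow_mul, hψ'e, one_pow, div_one]
    have h6 : φ ψ' / ψ' ^ p - 1 ∈ P.nonunits := by
      have h7 : φ ψ' / ψ' ^ p - 1 = (φ ψ' - ψ' ^ p) * (ψ' ^ p)⁻¹ := by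
        field_simp
      rw [h7]
      refine mzo_nonunits_mul_mem (hφF ψ' hψ'P) ?_
      exact s56fh_root_mem P he0.ne'
        (by rw [inv_pow, ← pow_mul, mul_comm, pow_mul, hψ'e, one_pow, inv_one])
    have h8 := s56fh_root_eq_one hve h5 h6
    rwa [div_eq_one_iff_eq (pow_ne_zero p hψ'0)] at h8
  have hφinvϖ : φ⁻¹ ϖt = ϖt := by
    conv_lhs => rw [← hφϖ]
    exact φ.symm_apply_apply ϖt
  have hφτ : (φ * (τ₀ : ff_GQ) * φ⁻¹) ϖt =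
      algebraMap ↥(ffi_O P ↥(ffi_L P)) ff_Qb (ψ₀ ^ p) * ϖt := by
    show φ ((τ₀ : ff_GQ) (φ⁻¹ ϖt)) = _
    rw [hφinvϖ]
    have h5 : (τ₀ : ff_GQ) ϖt = ψ' * ϖt := h1
    rw [h5, map_mul, hφψ, hφϖ, map_pow]
  have hφinvP : φ⁻¹ • P = P := mzf3_tfq_inv_smul P hφP
  have hφI : ∀ i ∈ P.inertiaSubgroupIn ℚ, φ * i * φ⁻¹ ∈ P.inertiaSubgroupIn ℚ :=
    fun i hi => mzf3_tfq_conj_mem P hφP hi
  have hφI' : ∀ i ∈ P.inertiaSubgroupIn ℚ, φ⁻¹ * i * φ ∈ P.inertiaSubgroupIn ℚ := by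
    intro i hi
    have h5 := mzf3_tfq_conj_mem P hφinvP hi
    rwa [inv_inv] at h5
  have hφA : ∀ y : ff_Qb, y ∈ P ↔ φ y ∈ P := fun y => mzf3_tfq_mem_iff P hφP y
  have hφO : ∀ x : ↥(ffi_O P ↥(ffi_L P)), ∃ x' : ↥(ffi_O P ↥(ffi_L P)),
      φ (algebraMap ↥(ffi_O P ↥(ffi_L P)) ff_Qb x) = algebraMap ↥(ffi_O P ↥(ffi_L P)) ff_Qb x' ∧
        s56fhi_res P x' = s56fhi_res P x ^ p := by
    intro x
    set a := algebraMap ↥(ffi_O P ↥(ffi_L P)) ff_Qb x with ha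
    have haP : a ∈ P := hctx.mem_A x
    have hφaP : φ a ∈ P := (hφA a).mp haP
    have hfix : ∀ σ : ↥(P.inertiaSubgroupIn ℚ), σ • φ a = φ a := by
      intro σ
      have h5 : (φ⁻¹ * (σ : ff_GQ) * φ) a = a :=
        hctx.fixed x ⟨φ⁻¹ * (σ : ff_GQ) * φ, hφI' σ σ.2⟩
      have h6 : (σ : ff_GQ) (φ a) = φ ((φ⁻¹ * (σ : ff_GQ) * φ) a) := by
        show (σ : ff_GQ) (φ a) = φ (φ⁻¹ ((σ : ff_GQ) (φ a)))
        exact (φ.apply_symm_apply _).symm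
      show (σ : ff_GQ) (φ a) = φ a
      rw [h6, h5]
    obtain ⟨x', hx'⟩ := hctx.exists_of_fixed hφaP hfix
    refine ⟨x', hx'.symm, ?_⟩
    have h7 : s56fhi_res P (x' - x ^ p) = 0 := by
      rw [hresP, map_sub, map_pow, hx']
      exact hφF a haP
    rw [map_sub, sub_eq_zero, map_pow] at h7
    exact h7
  have hgen : ∀ L : IntermediateField ℚ ff_Qb, FiniteDimensional ℚ L →
      ∀ d ∈ P.decompositionSubgroup ℚ, ∃ n : ℕ, ∃ i ∈ P.inertiaSubgroupIn ℚ,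
        ∃ s ∈ L.fixingSubgroup, d = φ ^ n * i * s := by
    intro L hL d hd
    exact s56ld_frob_gen P hpp hP L hφP hφF (MulAction.mem_stabilizer_iff.1 hd)
  exact ⟨τ₀, ψ₀, ω₀, ω₀', φ,
    { hψ₀ := h1, hψv := hψv, hψe := h2, hψ1 := hψ1, hord := hψsep, hψall := h4, hτT := hτT,
      hω₀ := hω₀.symm, hωω' := hωω', hωψ := hωψ, hω'ψ := hω'ψ, hindex := hindex,
      hidx := fun k _ _ => by
        rw [hindex]
        exact s56fhi_idx_ne hpp k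
      hφP := hφP, hφF := hφF, hfrob := (s56c_isFrob_iff P).mpr ⟨hφP, hφF⟩,
      hφD := MulAction.mem_stabilizer_iff.2 hφP, hφA := hφA, hφI := hφI, hφI' := hφI',
      hφϖ := hφϖ, hφζ := hφζ, hφψ := hφψ, hφτ := hφτ, hφO := hφO, hgen := hgen }⟩

section Xi

variable {p} {P}
variable {ϖt ζ : ff_Qb} {τ₀ : ↥(P.inertiaSubgroupIn ℚ)} {ψ₀ : ↥(ffi_O P ↥(ffi_L P))}
  {ω₀ ω₀' : ℕ} {φ : ff_GQ}

/-- the residue of `ψ₀` lies in `F_{p²}`. -/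
theorem s56fhi_psi_sq (hI : s56fhi_Data p P ϖt ζ τ₀ ψ₀ ω₀ ω₀' φ) :
    s56fhi_res P ψ₀ ^ p ^ 2 = s56fhi_res P ψ₀ := by
  have he0 : 0 < p ^ 2 - 1 := lt_of_lt_of_le two_pos (s56fa_two_le hp.out)
  have h1 : p ^ 2 = (p ^ 2 - 1) + 1 := (Nat.sub_add_cancel (by omega)).symm
  conv_lhs => rw [h1, pow_succ, hI.hψ1, one_mul]

include hP in
/-- `ξ_J := res (ω₀' ψ₀ ^ J)` lies in `F_{p²}`. -/
theorem s56fhi_xi_sq (hI : s56fhi_Data p P ϖt ζ τ₀ ψ₀ ω₀ ω₀' φ) (J : ℕ) :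
    s56fhi_res P ((ω₀' : ↥(ffi_O P ↥(ffi_L P))) * ψ₀ ^ J) ^ p ^ 2 =
      s56fhi_res P ((ω₀' : ↥(ffi_O P ↥(ffi_L P))) * ψ₀ ^ J) := by
  have hchar : CharP (IsLocalRing.ResidueField ↥P) p := s56fhi_charP p P hP
  rw [map_mul, map_pow, map_natCast, mul_pow, ← pow_mul, mul_comm J, pow_mul,
    s56fhi_psi_sq hI, pow_two, pow_mul, s56fhi_natCast_pow, s56fhi_natCast_pow]

include hP in
/-- `ξ_J ∉ F_p` unless `p + 1 ∣ J`. -/
theorem s56fhi_xi_ne (hI : s56fhi_Data p P ϖt ζ τ₀ ψ₀ ω₀ ω₀' φ) {J : ℕ}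
    (hJ : ¬ (p + 1) ∣ J) :
    s56fhi_res P ((ω₀' : ↥(ffi_O P ↥(ffi_L P))) * ψ₀ ^ J) ^ p ≠
      s56fhi_res P ((ω₀' : ↥(ffi_O P ↥(ffi_L P))) * ψ₀ ^ J) := by
  intro h
  have hpp := hp.out
  have hchar : CharP (IsLocalRing.ResidueField ↥P) p := s56fhi_charP p P hP
  rw [map_mul, map_pow, map_natCast, mul_pow, s56fhi_natCast_pow, ← pow_mul] at h
  have hn0 : ((ω₀' : ℕ) : IsLocalRing.ResidueField ↥P) ≠ 0 := by
    intro h0
    have h1 := hI.hω'ψ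
    rw [map_natCast, h0, zero_mul] at h1
    exact zero_ne_one h1
  have h2 := hI.hord _ _ (mul_left_cancel₀ hn0 h)
  have h3 : J ≤ J * p := Nat.le_mul_of_pos_right J hpp.pos
  have h4 := (Nat.modEq_iff_dvd' h3).mp h2.symm
  have h5 : J * p - J = J * (p - 1) := by
    rw [Nat.mul_sub, mul_one]
  rw [h5, ← s56fh_sq_sub_one p hpp.pos] at h4
  exact hJ (Nat.dvd_of_mul_dvd_mul_right (Nat.sub_pos_of_lt hpp.one_lt) h4)

include hP in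
/-- **the selection hypothesis `hsel` of `s56fn_main`** holds as soon as ONE exponent `i₁` with
`y ^ (p ^ i₁) = ξ_J` is known (and `p + 1 ∤ J`, e.g. `J = p² + 1`: `s56fhi_not_dvd`). -/
theorem s56fhi_sel (hI : s56fhi_Data p P ϖt ζ τ₀ ψ₀ ω₀ ω₀' φ) {J : ℕ}
    (hJ : ¬ (p + 1) ∣ J) {y : IsLocalRing.ResidueField ↥P} {i₁ : ℕ}
    (h₁ : y ^ p ^ i₁ = s56fhi_res P ((ω₀' : ↥(ffi_O P ↥(ffi_L P))) * ψ₀ ^ J)) :
    ∀ i : ℕ, y ^ p ^ i = s56fhi_res P ((ω₀' : ↥(ffi_O P ↥(ffi_L P))) * ψ₀ ^ J) →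
      i % 2 = i₁ % 2 :=
  fun _ h => s56fhi_parity (s56fhi_xi_sq hP hI J) (s56fhi_xi_ne hP hI hJ) h₁ h

end Xi

end Inst

end Fermat.Agent.S56
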