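/-
Project S56 (Taylor–Wiles primes), node [LOC-p-FLAT] (owner helper27), cell F-SSINST, part 2
(helper29).  Prefix `s56fhi_`.  helper27's `s56fu_shape` (`Flat/SSMat.lean`) WITH EVERY
`rb`-INDEPENDENT HYPOTHESIS DISCHARGED at a place `P ∣ p` of `Q̄` (by `s56fhi_main`,
`s56fh_setting`, `s56ku_uniq`, `s56ku_add_stmt`, `s56kt_knf`): what remains is the output of
helper13's `s56fc_ss_adapt` (diagonal on inertia with `ι₀ ∘ χ = θ_ϖt`, trivial on `Stab ϖt`,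
antidiagonal at every Frobenius), `2 ∣ [k : F_p]`, and the exclusion `hPr`.

* `s56fhi_inst  : s56fr_Inst_stmt`  (THE SEAM of `Flat/SSSeams.lean`, verbatim);
* `s56fhi_shape : … → s56a_LocShape rb (P.decompositionSubgroup ℚ) Pr 1`.
-/
import Mathlib
import Fermat.Agent.S56.Flat.SSInst
import Fermat.Agent.S56.Flat.SSMat
import Fermat.Agent.S56.Flat.SSSeams
import Fermat.Agent.S56.KumT.KnfSeam
import Fermat.Agent.S56.KumT.UniqAdd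

set_option autoImplicit false
set_option linter.unusedSectionVars false

noncomputable section

namespace Fermat.Agent.S56

open Fermat.Agent.MZ Fermat.Agent.FF Fermat.Agent.S53 Matrix
open scoped Pointwise

variable (p : ℕ) [hp : Fact p.Prime] (P : ValuationSubring ff_Qb) (hP : P.LiesOverPrime p)

include hP in
/-- **THE SUPERSINGULAR SHAPE AT `P`**. -/
theorem s56fhi_shape (hp2 : p ≠ 2) {ϖt ζ : ff_Qb} (hϖ : ϖt ^ (p ^ 2 - 1) = -(p : ff_Qb))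
    (hζ : IsPrimitiveRoot ζ p)
    {k : Type} [Field k] [Fintype k] [CharP k p] [Algebra (ZMod p) k]
    (rb : FramedResidual k) (ι₀ : k →+* IsLocalRing.ResidueField ↥P)
    (hdiag : ∀ (i : ff_GQ) (hi : i ∈ P.inertiaSubgroupIn ℚ),
      rb i 0 1 = 0 ∧ rb i 1 0 = 0 ∧ rb i 1 1 = rb i 0 0 ^ p ∧
      ι₀ (rb i 0 0) = s56fc_theta P (⟨i, hi⟩ : ↥(P.inertiaSubgroupIn ℚ)) ϖt)
    (hT1 : ∀ i ∈ P.inertiaSubgroupIn ℚ, i ϖt = ϖt → rb i = 1)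
    (hfr : ∀ φ : ff_GQ, P.IsFrobeniusAt φ p → rb φ 0 0 = 0 ∧ rb φ 1 1 = 0)
    (hmd : 2 ∣ Module.finrank (ZMod p) k)
    (Pr : FramedRep (DualNumber k) → Prop)
    (hPr : ∀ r : FramedRep (DualNumber k), (∀ σ, s56t_bar r σ = rb σ) → Pr r →
      s56t_coc r ∈ s56a_Z rb ∧
      s56fu_Excl p ↥(ffi_O P ↥(ffi_L P)) P
        (MulAction.stabilizer ↥(P.inertiaSubgroupIn ℚ) ϖt) ϖt ζ (s56t_coc r)) :
    s56a_LocShape rb (P.decompositionSubgroup ℚ) Pr 1 := by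
  have hdvr : IsDiscreteValuationRing ↥(ffi_O P ↥(ffi_L P)) := mzg_ctx_dvr p P hP
  have hchar : CharP (IsLocalRing.ResidueField ↥P) p := s56fhi_charP p P hP
  have hset := s56fh_setting p hp2 P hP hϖ hζ
  have hϖ0 : ϖt ≠ 0 := s56fn_pi_ne_zero hset
  obtain ⟨τ₀, ψ₀, ω₀, ω₀', φ, hI⟩ := s56fhi_main p P hP hϖ hζ
  refine s56fu_shape rb (P.decompositionSubgroup ℚ) hset (s56ku_uniq hset) (s56ku_add_stmt hset)
    (s56kt_knf hset) (s56fhi_res P) (s56fhi_res_unit p P hP) ι₀ τ₀ ψ₀ hI.hψ₀ hI.hψv ω₀ ω₀'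
    hI.hω₀ hI.hωω' hI.hψ1 hI.hord hI.hωψ (fun i hi => ⟨(hdiag i hi).1, (hdiag i hi).2.1⟩) ?_
    (hdiag τ₀ τ₀.2).2.2.1 ?_ (hI.hidx k) hmd φ hI.hφA hI.hφI hI.hφI' hI.hφϖ hI.hφζ hI.hφO
    (hfr φ hI.hfrob) hI.hgen Pr hPr
  · rw [(hdiag τ₀ τ₀.2).2.2.2]
    exact (s56fhi_link P hϖ0 τ₀ ψ₀ hI.hψ₀).symm
  · intro s
    exact hT1 _ (s : ↥(P.inertiaSubgroupIn ℚ)).2 (MulAction.mem_stabilizer_iff.mp s.2)

/-- **THE SEAM F-SSINST** of `Flat/SSSeams.lean`. -/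
theorem s56fhi_inst : s56fr_Inst_stmt := by
  intro p _ hp2 P hP ϖt ζ hϖ hζ
  have hdvr : IsDiscreteValuationRing ↥(ffi_O P ↥(ffi_L P)) := mzg_ctx_dvr p P hP
  have hϖ0 : ϖt ≠ 0 := s56fn_pi_ne_zero (s56fh_setting p hp2 P hP hϖ hζ)
  obtain ⟨τ₀, ψ₀, ω₀, ω₀', φ, hI⟩ := s56fhi_main p P hP hϖ hζ
  exact ⟨s56fhi_res P, s56fhi_res_unit p P hP, fun i ψ h => s56fhi_link P hϖ0 i ψ h, hI.hidx,
    τ₀, ψ₀, ω₀, ω₀', hI.hψ₀, hI.hψv, hI.hω₀, hI.hωω', hI.hψe, hI.hord, hI.hωψ, hI.hψall,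
    φ, hI.hφA, hI.hφI, hI.hφI', hI.hφϖ, hI.hφζ, hI.hφO, hI.hfrob, hI.hgen⟩

end Fermat.Agent.S56
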