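/-
Project S56, node [LOC-p-FLAT] (owner helper27).  Prefix `s56f_`.
**THE SEAM `s56a_LocPFlat_stmt` CLOSED**, no hypothesis left:

  `s56f_closed : s56a_LocPFlat_stmt`
    = `s56f_main s56fhi_inst s56fje_excl s56f_ord`

* `s56fhi_inst` (helper29, `Flat/SSInstShape.lean`)  : the local data at `P` (F-SSINST);
* `s56fje_excl` (helper17, `Flat/SSExclSeam.lean`)   : the excluded Kummer levels (F-SSEXCL);
* `s56f_ord`    (helper1's `s56fo_main`, `Flat/Ord/Main.lean`, at `P = padicPlace p`): F-ORD.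
-/
import Mathlib
import Fermat.Agent.S56.Flat.Main
import Fermat.Agent.S56.Flat.SSInstShape
import Fermat.Agent.S56.Flat.SSExclSeam
import Fermat.Agent.S56.Flat.Ord.Main

set_option autoImplicit false

namespace Fermat.Agent.S56

open Fermat.Agent.MZ Fermat.Agent.FF Fermat.Agent.S53

/-- **F-ORD**, the seam of `Flat/Main.lean`. -/
theorem s56f_ord : s56f_Ord_stmt := fun p _ hp2 k _ _ _ rb hord =>
  s56fo_main hp2 rb (padicPlace p) (Fermat.Agent.S55.pl_padicPlace_liesOver p) hord

/-- **[LOC-p-FLAT]**: the seam `s56a_LocPFlat_stmt` of `Asm/Seams.lean`, closed. -/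
theorem s56f_closed : s56a_LocPFlat_stmt := s56f_main s56fhi_inst s56fje_excl s56f_ord

end Fermat.Agent.S56
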