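/-
S56, node [LOC-p-FLAT] (helper10), cell F-CONJ: `s56a_LocShape` IS CONJUGATION INVARIANT.

* `s56fcj_conj g rb` : the framed residual representation `σ ↦ g * rb σ * g⁻¹`;
* `s56fcj_main` : `s56a_LocShape (s56fcj_conj g rb) D P e → s56a_LocShape rb D P e` for every
  property `P` of framed lifts that is stable under conjugation;
* `s56fcj_P` : the property `P` of `s56a_LocPFlat_stmt` (cyclotomic determinant + flat at `p`) is
  stable under conjugation;  `s56fcj_flat` : the two combined.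
Prefix `s56fcj_`.
-/
import Mathlib
import Fermat.Agent.S56.Asm.Seams
import Fermat.Agent.S56.Tan.Transport

set_option autoImplicit false
set_option linter.unusedSectionVars false

namespace Fermat.Agent.S56

open Fermat.Agent.S53 Matrix Module

noncomputable section

variable {k : Type} [Field k]

/-- the conjugate `σ ↦ g * rb σ * g⁻¹` of a framed residual representation. -/
def s56fcj_conj (g : GL (Fin 2) k) (rb : FramedResidual k) : FramedResidual k where
  toMonoidHom :=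
    { toFun := fun σ => (g : Matrix (Fin 2) (Fin 2) k) * rb σ * ((g⁻¹ : GL (Fin 2) k) :
        Matrix (Fin 2) (Fin 2) k)
      map_one' := by rw [rb.map_one, mul_one, Units.mul_inv]
      map_mul' := fun σ τ => by
        rw [rb.map_mul]
        have h1 : ((g⁻¹ : GL (Fin 2) k) : Matrix (Fin 2) (Fin 2) k) * (g : Matrix (Fin 2) (Fin 2) k)
            = 1 := Units.inv_mul g
        calc (g : Matrix (Fin 2) (Fin 2) k) * (rb σ * rb τ) * ((g⁻¹ : GL (Fin 2) k) :
              Matrix (Fin 2) (Fin 2) k)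
            = (g : Matrix (Fin 2) (Fin 2) k) * rb σ * (((g⁻¹ : GL (Fin 2) k) :
                Matrix (Fin 2) (Fin 2) k) * (g : Matrix (Fin 2) (Fin 2) k)) * rb τ *
                ((g⁻¹ : GL (Fin 2) k) : Matrix (Fin 2) (Fin 2) k) := by
              rw [h1]; simp only [mul_one, mul_assoc]
          _ = _ := by simp only [mul_assoc] }
  finiteLevel := by
    obtain ⟨L, hL, h⟩ := rb.finiteLevel
    refine ⟨L, hL, fun σ hσ => ?_⟩
    show (g : Matrix (Fin 2) (Fin 2) k) * rb.toMonoidHom σ * ((g⁻¹ : GL (Fin 2) k) :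
      Matrix (Fin 2) (Fin 2) k) = 1
    rw [h σ hσ, mul_one, Units.mul_inv]

@[simp] theorem s56fcj_conj_apply (g : GL (Fin 2) k) (rb : FramedResidual k) (σ : GQ) :
    s56fcj_conj g rb σ = (g : Matrix (Fin 2) (Fin 2) k) * rb σ * ((g⁻¹ : GL (Fin 2) k) :
      Matrix (Fin 2) (Fin 2) k) := rfl

/-- `m ↦ g * m * g⁻¹` as a linear automorphism of `M₂(k)`. -/
def s56fcj_Psi (g : GL (Fin 2) k) : Matrix (Fin 2) (Fin 2) k ≃ₗ[k] Matrix (Fin 2) (Fin 2) k where
  toFun m := (g : Matrix (Fin 2) (Fin 2) k) * m * ((g⁻¹ : GL (Fin 2) k) : Matrix (Fin 2) (Fin 2) k)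
  map_add' a b := by rw [mul_add, add_mul]
  map_smul' a m := by rw [Matrix.mul_smul, Matrix.smul_mul, RingHom.id_apply]
  invFun m := ((g⁻¹ : GL (Fin 2) k) : Matrix (Fin 2) (Fin 2) k) * m * (g : Matrix (Fin 2) (Fin 2) k)
  left_inv m := by
    show ((g⁻¹ : GL (Fin 2) k) : Matrix (Fin 2) (Fin 2) k) * ((g : Matrix (Fin 2) (Fin 2) k) * m *
      ((g⁻¹ : GL (Fin 2) k) : Matrix (Fin 2) (Fin 2) k)) * (g : Matrix (Fin 2) (Fin 2) k) = m
    rw [mul_assoc (g : Matrix (Fin 2) (Fin 2) k), Units.inv_mul_cancel_left,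
      Units.inv_mul_cancel_right]
  right_inv m := by
    show (g : Matrix (Fin 2) (Fin 2) k) * (((g⁻¹ : GL (Fin 2) k) : Matrix (Fin 2) (Fin 2) k) * m *
      (g : Matrix (Fin 2) (Fin 2) k)) * ((g⁻¹ : GL (Fin 2) k) : Matrix (Fin 2) (Fin 2) k) = m
    rw [mul_assoc ((g⁻¹ : GL (Fin 2) k) : Matrix (Fin 2) (Fin 2) k), Units.mul_inv_cancel_left,
      Units.mul_inv_cancel_right]

@[simp] theorem s56fcj_Psi_apply (g : GL (Fin 2) k) (m : Matrix (Fin 2) (Fin 2) k) :
    s56fcj_Psi g m = (g : Matrix (Fin 2) (Fin 2) k) * m * ((g⁻¹ : GL (Fin 2) k) :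
      Matrix (Fin 2) (Fin 2) k) := rfl

theorem s56fcj_Psi_mul (g : GL (Fin 2) k) (m n : Matrix (Fin 2) (Fin 2) k) :
    s56fcj_Psi g (m * n) = s56fcj_Psi g m * s56fcj_Psi g n := by
  simp only [s56fcj_Psi_apply]
  rw [mul_assoc ((g : Matrix (Fin 2) (Fin 2) k) * m), mul_assoc (g : Matrix (Fin 2) (Fin 2) k) n,
    Units.inv_mul_cancel_left]
  simp only [mul_assoc]

theorem s56fcj_Psi_trace (g : GL (Fin 2) k) (m : Matrix (Fin 2) (Fin 2) k) :
    Matrix.trace (s56fcj_Psi g m) = Matrix.trace m :=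
  Matrix.trace_units_conj g m

/-- `c ↦ (σ ↦ g * c σ * g⁻¹)` as a linear automorphism of the cochains. -/
def s56fcj_Phi (g : GL (Fin 2) k) :
    (GQ → Matrix (Fin 2) (Fin 2) k) ≃ₗ[k] (GQ → Matrix (Fin 2) (Fin 2) k) :=
  LinearEquiv.piCongrRight (fun _ : GQ => s56fcj_Psi g)

@[simp] theorem s56fcj_Phi_apply (g : GL (Fin 2) k) (c : GQ → Matrix (Fin 2) (Fin 2) k) (σ : GQ) :
    s56fcj_Phi g c σ = s56fcj_Psi g (c σ) := rfl

/-- `Φ` identifies the coboundaries on `D` of `rb` and of its conjugate. -/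
theorem s56fcj_cobOn_iff (g : GL (Fin 2) k) (rb : FramedResidual k) (D : Subgroup GQ)
    (c : GQ → Matrix (Fin 2) (Fin 2) k) :
    s56fcj_Phi g c ∈ s56a_cobOn (s56fcj_conj g rb) D ↔ c ∈ s56a_cobOn rb D := by
  have hconj : ∀ σ, s56fcj_conj g rb σ = s56fcj_Psi g (rb σ) := fun σ => rfl
  constructor
  · rintro ⟨m, hm, h⟩
    refine ⟨(s56fcj_Psi g).symm m, ?_, fun σ hσ => ?_⟩
    · rw [← s56fcj_Psi_trace g, LinearEquiv.apply_symm_apply, hm]
    · apply (s56fcj_Psi g).injective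
      have h1 := h σ hσ
      rw [s56fcj_Phi_apply] at h1
      rw [h1, map_sub, s56fcj_Psi_mul, s56fcj_Psi_mul, LinearEquiv.apply_symm_apply, hconj, hconj]
  · rintro ⟨m, hm, h⟩
    refine ⟨s56fcj_Psi g m, by rw [s56fcj_Psi_trace, hm], fun σ hσ => ?_⟩
    rw [s56fcj_Phi_apply, h σ hσ, map_sub, s56fcj_Psi_mul, s56fcj_Psi_mul, hconj, hconj]

/-- `Ψ` identifies the invariants on `D` of `rb` and of its conjugate. -/
theorem s56fcj_inv_iff (g : GL (Fin 2) k) (rb : FramedResidual k) (D : Subgroup GQ)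
    (m : Matrix (Fin 2) (Fin 2) k) :
    s56fcj_Psi g m ∈ s56a_inv (s56fcj_conj g rb) D ↔ m ∈ s56a_inv rb D := by
  have hconj : ∀ σ, s56fcj_conj g rb σ = s56fcj_Psi g (rb σ) := fun σ => rfl
  rw [s56a_mem_inv, s56a_mem_inv, s56fcj_Psi_trace]
  refine and_congr_right fun _ => forall₂_congr fun σ _ => ?_
  rw [hconj, ← s56fcj_Psi_mul, ← s56fcj_Psi_mul]
  exact (s56fcj_Psi g).injective.eq_iff

/-! ### lifting `g` to `k[ε]` -/

/-- the constant lift of `g` to `GL₂(k[ε])`. -/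
def s56fcj_lift (g : GL (Fin 2) k) : (Matrix (Fin 2) (Fin 2) (DualNumber k))ˣ :=
  Units.map ((TrivSqZeroExt.inlHom k k).mapMatrix :
    Matrix (Fin 2) (Fin 2) k →+* Matrix (Fin 2) (Fin 2) (DualNumber k)).toMonoidHom g

theorem s56fcj_lift_val (g : GL (Fin 2) k) :
    ((s56fcj_lift g : (Matrix (Fin 2) (Fin 2) (DualNumber k))ˣ) :
      Matrix (Fin 2) (Fin 2) (DualNumber k)) = s56t_mk (g : Matrix (Fin 2) (Fin 2) k) 0 := by
  apply s56t_ext
  · ext i j; rfl
  · ext i j; rfl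

theorem s56fcj_lift_inv (g : GL (Fin 2) k) :
    (s56fcj_lift g).inv = s56t_mk ((g⁻¹ : GL (Fin 2) k) : Matrix (Fin 2) (Fin 2) k) 0 := by
  apply s56t_ext
  · ext i j; rfl
  · ext i j; rfl

theorem s56fcj_conj_fst (g : GL (Fin 2) k) (r : FramedRep (DualNumber k)) (σ : GQ) :
    s56t_fst (r.conj (s56fcj_lift g) σ) = s56fcj_Psi g (s56t_fst (r σ)) := by
  rw [FramedRep.conj_apply, s56fcj_lift_val, s56fcj_lift_inv, s56t_fst_mul, s56t_fst_mul,
    s56t_fst_mk, s56t_fst_mk, s56fcj_Psi_apply]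

theorem s56fcj_conj_snd (g : GL (Fin 2) k) (r : FramedRep (DualNumber k)) (σ : GQ) :
    s56t_snd (r.conj (s56fcj_lift g) σ) = s56fcj_Psi g (s56t_snd (r σ)) := by
  rw [FramedRep.conj_apply, s56fcj_lift_val, s56fcj_lift_inv, s56t_snd_mul, s56t_snd_mul,
    s56t_fst_mul, s56t_fst_mk, s56t_fst_mk, s56t_snd_mk, s56t_snd_mk, s56fcj_Psi_apply,
    Matrix.mul_zero, Matrix.zero_mul, zero_add, add_zero]

theorem s56fcj_conj_bar (g : GL (Fin 2) k) (r : FramedRep (DualNumber k)) (σ : GQ) :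
    s56t_bar (r.conj (s56fcj_lift g)) σ = s56fcj_Psi g (s56t_bar r σ) := by
  rw [s56t_bar_apply, s56fcj_conj_fst, s56t_bar_apply]

theorem s56fcj_conj_coc (g : GL (Fin 2) k) (r : FramedRep (DualNumber k)) :
    s56t_coc (r.conj (s56fcj_lift g)) = s56fcj_Phi g (s56t_coc r) := by
  funext σ
  rw [s56fcj_Phi_apply, s56t_coc, s56t_coc, s56fcj_conj_snd, s56fcj_conj_bar, s56fcj_Psi_mul]

/-! ### the main theorem -/

/-- **`s56a_LocShape` is conjugation invariant.** -/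
theorem s56fcj_main (rb : FramedResidual k) (g : GL (Fin 2) k) (D : Subgroup GQ)
    (P : FramedRep (DualNumber k) → Prop)
    (hP : ∀ (r : FramedRep (DualNumber k)) (γ : (Matrix (Fin 2) (Fin 2) (DualNumber k))ˣ),
      P r → P (r.conj γ))
    (e : ℕ) (h : s56a_LocShape (s56fcj_conj g rb) D P e) : s56a_LocShape rb D P e := by
  obtain ⟨C', hC', hfd, hrank⟩ := h
  -- the equivalence of the quotients
  obtain ⟨C, hCdef⟩ : ∃ C : Submodule k (GQ → Matrix (Fin 2) (Fin 2) k),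
      C = C'.comap (s56fcj_Phi g).toLinearMap := ⟨_, rfl⟩
  subst hCdef
  obtain ⟨F, hF⟩ : ∃ F : ↥(C'.comap (s56fcj_Phi g).toLinearMap) ≃ₗ[k] ↥C',
      ∀ y, ((F y : ↥C') : GQ → Matrix (Fin 2) (Fin 2) k) = s56fcj_Phi g y.1 :=
    ⟨LinearEquiv.ofSubmodule' (s56fcj_Phi g) C', fun _ => rfl⟩
  have hmap : Submodule.map F.toLinearMap
      ((s56a_cobOn rb D).comap (C'.comap (s56fcj_Phi g).toLinearMap).subtype)
      = (s56a_cobOn (s56fcj_conj g rb) D).comap C'.subtype := by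
    ext x
    rw [Submodule.mem_map, Submodule.mem_comap]
    constructor
    · rintro ⟨y, hy, rfl⟩
      rw [Submodule.mem_comap] at hy
      show ((F y : ↥C') : GQ → Matrix (Fin 2) (Fin 2) k) ∈ _
      rw [hF]
      exact (s56fcj_cobOn_iff g rb D _).mpr hy
    · intro hx
      refine ⟨F.symm x, ?_, F.apply_symm_apply x⟩
      rw [Submodule.mem_comap]
      apply (s56fcj_cobOn_iff g rb D _).mp
      show s56fcj_Phi g (F.symm x).1 ∈ _
      rw [← hF, F.apply_symm_apply]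
      exact hx
  let E := Submodule.Quotient.equiv _ _ F hmap
  -- the equivalence of the invariants
  have hinv : s56a_inv rb D
      = (s56a_inv (s56fcj_conj g rb) D).comap ((s56fcj_Psi g : _ ≃ₗ[k] _) : _ →ₗ[k] _) := by
    ext m
    rw [Submodule.mem_comap]
    exact (s56fcj_inv_iff g rb D m).symm
  have hinvrank : finrank k (s56a_inv rb D) = finrank k (s56a_inv (s56fcj_conj g rb) D) := by
    rw [hinv]
    exact (LinearEquiv.ofSubmodule' (s56fcj_Psi g) _).finrank_eq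
  refine ⟨C'.comap (s56fcj_Phi g).toLinearMap, fun r hr hPr => ?_, ?_, ?_⟩
  · rw [Submodule.mem_comap]
    have h1 := hC' (r.conj (s56fcj_lift g)) (fun σ => by
      rw [s56fcj_conj_bar, hr σ]; rfl) (hP r _ hPr)
    rw [s56fcj_conj_coc] at h1
    exact h1
  · exact Module.Finite.equiv E.symm
  · rw [E.finrank_eq, hinvrank]
    exact hrank

/-- the property `P` of `s56a_LocPFlat_stmt` is stable under conjugation. -/
theorem s56fcj_P (p : ℕ) (r : FramedRep (DualNumber k))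
    (γ : (Matrix (Fin 2) (Fin 2) (DualNumber k))ˣ)
    (h : r.toGaloisRepAdic.DetIsCyclotomic p ∧ r.toGaloisRepAdic.IsFlatAt p) :
    (r.conj γ).toGaloisRepAdic.DetIsCyclotomic p ∧ (r.conj γ).toGaloisRepAdic.IsFlatAt p := by
  obtain ⟨e⟩ := r.conj_isEquiv γ
  exact ⟨s56t_tr_detIsCyclotomic e h.1, s56t_tr_isFlatAt e h.2⟩

/-- **[LOC-p-FLAT] may be proved after conjugating `rb`.** -/
theorem s56fcj_flat (p : ℕ) (rb : FramedResidual k) (g : GL (Fin 2) k) (D : Subgroup GQ) (e : ℕ)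
    (h : s56a_LocShape (s56fcj_conj g rb) D
      (fun r => r.toGaloisRepAdic.DetIsCyclotomic p ∧ r.toGaloisRepAdic.IsFlatAt p) e) :
    s56a_LocShape rb D
      (fun r => r.toGaloisRepAdic.DetIsCyclotomic p ∧ r.toGaloisRepAdic.IsFlatAt p) e :=
  s56fcj_main rb g D _ (fun r γ hr => s56fcj_P p r γ hr) e h

end

end Fermat.Agent.S56
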