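/-
Project S56 (Taylor–Wiles primes), node [LOC-p-FLAT], cell [F-CLASS] part 10 (helper13).
Prefix `s56fc_`.  Namespace `Fermat.Agent.S56`.
THE SUPERSINGULAR SHAPE IN MATRIX FORM (the shape consumed by the supersingular assembly,
finding #3475): after conjugation by `g ∈ GL₂(k)` (helper10's `s56fcj_conj`) the inertia group is
diagonal `diag (χ, χ ^ p)`, every Frobenius is antidiagonal, and `ι₀ : k →+* P / 𝔪_P` sends `χ σ` to
`σ ϖt / ϖt mod 𝔪_P`, `ϖt ^ (p² - 1) = -p`.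

* `s56fc_residue_isAlgClosed` : the residue field of a valuation ring of an algebraically closed
                                 field is algebraically closed;
* `s56fc_extend_iota`         : a ring homomorphism from a subring of a finite field `k` to an
                                 algebraically closed field extends to `k`;
* `s56fc_ss_adapt`            : `s56fc_SS p rb.toMonoidHom P`  ⟹  the matrix form.
-/
import Mathlib
import Fermat.Agent.S56.Flat.Class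
import Fermat.Agent.S56.Flat.Conj

set_option autoImplicit false
set_option linter.unusedSectionVars false

noncomputable section

namespace Fermat.Agent.S56

open Fermat.Agent.MZ Fermat.Agent.FF Fermat.Agent.S53 Fermat.Agent.S55 Matrix
open scoped Pointwise

local notation "Qb" => AlgebraicClosure ℚ

/-- the residue field of a valuation subring of an algebraically closed field is algebraically
closed. -/
theorem s56fc_residue_isAlgClosed {F : Type*} [Field F] [IsAlgClosed F] (A : ValuationSubring F) :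
    IsAlgClosed (IsLocalRing.ResidueField ↥A) := by
  refine IsAlgClosed.of_exists_root _ fun p hp hirr => ?_
  have hsurj : Function.Surjective (IsLocalRing.residue ↥A) := IsLocalRing.residue_surjective
  obtain ⟨q0, hq0⟩ := Polynomial.map_surjective (IsLocalRing.residue ↥A) hsurj p
  have hlift : p ∈ Polynomial.lifts (IsLocalRing.residue ↥A) :=
    (Polynomial.mem_lifts p).mpr ⟨q0, hq0⟩
  obtain ⟨q, hq, hdeg, hmon⟩ := Polynomial.lifts_and_natDegree_eq_and_monic hlift hp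
  have hdegpos : 0 < p.natDegree :=
    Polynomial.natDegree_pos_iff_degree_pos.mpr (Polynomial.degree_pos_of_irreducible hirr)
  have hq' : (q.map A.subtype).degree ≠ 0 := by
    rw [Polynomial.degree_map_eq_of_injective A.subtype_injective]
    intro h
    rw [Polynomial.degree_eq_natDegree hmon.ne_zero] at h
    have : q.natDegree = 0 := by exact_mod_cast h
    omega
  obtain ⟨α, hα⟩ := IsAlgClosed.exists_root (q.map A.subtype) hq'
  have hint : IsIntegral A α := ⟨q, hmon, by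
    rw [Polynomial.IsRoot, Polynomial.eval_map] at hα; exact hα⟩
  obtain ⟨a, ha⟩ := IsIntegrallyClosed.isIntegral_iff.mp hint
  refine ⟨IsLocalRing.residue ↥A a, ?_⟩
  rw [← hq, Polynomial.eval_map, Polynomial.eval₂_hom]
  have : Polynomial.eval a q = 0 := by
    apply A.subtype_injective
    rw [map_zero, ← Polynomial.eval₂_hom, ← Polynomial.eval_map]
    have : A.subtype a = α := ha
    rw [this]; exact hα
  rw [this, map_zero]

/-- a ring homomorphism from a subring of a finite field to an algebraically closed field extends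
to the whole field. -/
theorem s56fc_extend_iota {k : Type} [Field k] [Finite k] {Ω : Type} [Field Ω] [IsAlgClosed Ω]
    (F : Subring k) (ι : ↥F →+* Ω) : ∃ ι₀ : k →+* Ω, ∀ x : ↥F, ι₀ (x : k) = ι x := by
  let _ : Algebra ↥F Ω := ι.toAlgebra
  have hinj : Function.Injective (algebraMap ↥F Ω) := s56fc_iota_injective F ι
  have : Module.IsTorsionFree ↥F Ω := Module.isTorsionFree_iff_algebraMap_injective.mpr hinj
  have : Module.IsTorsionFree ↥F k :=
    Module.isTorsionFree_iff_algebraMap_injective.mpr Subtype.val_injective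
  have : Algebra.IsAlgebraic ↥F k := Algebra.IsAlgebraic.of_finite ↥F k
  let f : k →ₐ[↥F] Ω := IsAlgClosed.lift
  exact ⟨f.toRingHom, fun x => f.commutes x⟩

section colmat

variable {k : Type} [Field k]

/-- the matrix with columns `e₁, e₂`. -/
def s56fc_colMat (e₁ e₂ : Fin 2 → k) : Matrix (Fin 2) (Fin 2) k :=
  Matrix.of fun i j => if j = 0 then e₁ i else e₂ i

theorem s56fc_colMat_det (e₁ e₂ : Fin 2 → k) :
    (s56fc_colMat e₁ e₂).det = s56fc_wedge e₁ e₂ := by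
  rw [Matrix.det_fin_two]
  unfold s56fc_colMat s56fc_wedge
  simp only [Matrix.of_apply]
  simp
  ring

/-- uniqueness of coordinates. -/
theorem s56fc_coord_unique {e₁ e₂ : Fin 2 → k} (hW : s56fc_wedge e₁ e₂ ≠ 0) {a b a' b' : k}
    (h : a' • e₁ + b' • e₂ = a • e₁ + b • e₂) : a' = a ∧ b' = b := by
  have h1 := congrArg (fun y => s56fc_wedge y e₂) h
  have h2 := congrArg (fun y => s56fc_wedge e₁ y) h
  simp only [s56fc_wedge_add_left, s56fc_wedge_smul_left, s56fc_wedge_self, mul_zero,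
    add_zero] at h1
  simp only [s56fc_wedge_add_right, s56fc_wedge_smul_right, s56fc_wedge_self, mul_zero,
    zero_add] at h2
  exact ⟨mul_right_cancel₀ hW h1, mul_right_cancel₀ hW h2⟩

/-- the entries of `N = M⁻¹ X M`, `M` the matrix with columns `e₁, e₂`. -/
theorem s56fc_conj_entry {e₁ e₂ : Fin 2 → k} (hW : s56fc_wedge e₁ e₂ ≠ 0)
    {N X : Matrix (Fin 2) (Fin 2) k} (h : s56fc_colMat e₁ e₂ * N = X * s56fc_colMat e₁ e₂) :
    (∀ a b : k, X *ᵥ e₁ = a • e₁ + b • e₂ → N 0 0 = a ∧ N 1 0 = b) ∧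
    (∀ a b : k, X *ᵥ e₂ = a • e₁ + b • e₂ → N 0 1 = a ∧ N 1 1 = b) := by
  have hcol0 : N 0 0 • e₁ + N 1 0 • e₂ = X *ᵥ e₁ := by
    funext i
    have := congrFun (congrFun h i) 0
    simp only [Matrix.mul_apply, Fin.sum_univ_two, s56fc_colMat, Matrix.of_apply] at this
    simp only [Pi.add_apply, Pi.smul_apply, smul_eq_mul, Matrix.mulVec, dotProduct,
      Fin.sum_univ_two]
    simp at this
    linear_combination this
  have hcol1 : N 0 1 • e₁ + N 1 1 • e₂ = X *ᵥ e₂ := by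
    funext i
    have := congrFun (congrFun h i) 1
    simp only [Matrix.mul_apply, Fin.sum_univ_two, s56fc_colMat, Matrix.of_apply] at this
    simp only [Pi.add_apply, Pi.smul_apply, smul_eq_mul, Matrix.mulVec, dotProduct,
      Fin.sum_univ_two]
    simp at this
    linear_combination this
  refine ⟨fun a b hab => ?_, fun a b hab => ?_⟩
  · exact s56fc_coord_unique hW (hcol0.trans hab)
  · exact s56fc_coord_unique hW (hcol1.trans hab)

end colmat

section adapt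

variable {p : ℕ} [hp : Fact p.Prime] {k : Type} [Field k] [Finite k]

/-- **the supersingular shape in matrix form**: in the basis `e₁, e₂` (conjugation by
`g = (e₁ | e₂)⁻¹`) inertia is `diag (χ, χ ^ p)`, `ι₀ ∘ χ` is the tame symbol of `ϖt`,
`ϖt ^ (p² - 1) = -p`, the stabiliser of `ϖt` in inertia acts trivially, every element of `D_P` is
diagonal or antidiagonal, every Frobenius is antidiagonal, and there is no `D_P`-stable line. -/
theorem s56fc_ss_adapt (rb : FramedResidual k) (P : ValuationSubring Qb)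
    (h : s56fc_SS p rb.toMonoidHom P) :
    ∃ (g : GL (Fin 2) k) (ϖt : Qb) (ι₀ : k →+* IsLocalRing.ResidueField ↥P),
      ϖt ^ (p ^ 2 - 1) = -((p : ℕ) : Qb) ∧
      (∀ (i : GQ) (hi : i ∈ P.inertiaSubgroupIn ℚ),
        s56fcj_conj g rb i 0 1 = 0 ∧ s56fcj_conj g rb i 1 0 = 0 ∧
        s56fcj_conj g rb i 1 1 = (s56fcj_conj g rb i 0 0) ^ p ∧
        ι₀ (s56fcj_conj g rb i 0 0) = s56fc_theta P (⟨i, hi⟩ : s56fc_In P) ϖt) ∧
      (∃ s₀ ∈ P.inertiaSubgroupIn ℚ, s56fcj_conj g rb s₀ 0 0 ≠ s56fcj_conj g rb s₀ 1 1) ∧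
      (∀ i ∈ P.inertiaSubgroupIn ℚ, i ϖt = ϖt → rb i = 1) ∧
      (∀ τ ∈ P.decompositionSubgroup ℚ,
        (s56fcj_conj g rb τ 0 1 = 0 ∧ s56fcj_conj g rb τ 1 0 = 0) ∨
        (s56fcj_conj g rb τ 0 0 = 0 ∧ s56fcj_conj g rb τ 1 1 = 0)) ∧
      (∀ φ : GQ, P.IsFrobeniusAt φ p →
        s56fcj_conj g rb φ 0 0 = 0 ∧ s56fcj_conj g rb φ 1 1 = 0) ∧
      ¬ ∃ u : Fin 2 → k, u ≠ 0 ∧ ∀ τ ∈ P.decompositionSubgroup ℚ, ∃ x : k, rb τ *ᵥ u = x • u := by
  obtain ⟨e₁, e₂, χ, ϖ, hW, hϖ, hI, ⟨σ₀, hσ₀⟩, hpow, ⟨F, hF, ι, hι⟩, hfix, hD, hφ, hirr⟩ := h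
  have hdet : (s56fc_colMat e₁ e₂).det ≠ 0 := by rw [s56fc_colMat_det]; exact hW
  obtain ⟨gM, hgM⟩ : ∃ gM : GL (Fin 2) k, (gM : Matrix (Fin 2) (Fin 2) k) = s56fc_colMat e₁ e₂ :=
    ⟨Matrix.GeneralLinearGroup.mkOfDetNeZero (s56fc_colMat e₁ e₂) hdet, rfl⟩
  have key : ∀ σ : GQ, s56fc_colMat e₁ e₂ * (s56fcj_conj gM⁻¹ rb σ) = rb σ * s56fc_colMat e₁ e₂ := by
    intro σ
    rw [s56fcj_conj_apply, inv_inv, ← hgM, mul_assoc, Units.mul_inv_cancel_left]
  have : IsAlgClosed (IsLocalRing.ResidueField ↥P) := s56fc_residue_isAlgClosed P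
  obtain ⟨ι₀, hι₀⟩ := s56fc_extend_iota F ι
  refine ⟨gM⁻¹, ϖ, ι₀, hϖ, fun i hi => ?_, ?_, fun i hi hfixi => ?_, fun τ hτ => ?_,
    fun φ hφ' => ?_, hirr⟩
  · obtain ⟨h1, h2⟩ := hI ⟨i, hi⟩
    obtain ⟨c1, c2⟩ := s56fc_conj_entry hW (key i)
    have h1' : rb i *ᵥ e₁ = ((χ ⟨i, hi⟩ : kˣ) : k) • e₁ + (0 : k) • e₂ := by
      rw [zero_smul, add_zero]; exact h1
    have h2' : rb i *ᵥ e₂ = (0 : k) • e₁ + ((χ ⟨i, hi⟩ : kˣ) : k) ^ p • e₂ := by
      rw [zero_smul, zero_add]; exact h2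
    obtain ⟨a1, a2⟩ := c1 _ _ h1'
    obtain ⟨b1, b2⟩ := c2 _ _ h2'
    refine ⟨b1, a2, ?_, ?_⟩
    · rw [b2, a1]
    · rw [a1, ← hι ⟨i, hi⟩, ← hι₀]
  · refine ⟨(σ₀ : GQ), σ₀.2, ?_⟩
    obtain ⟨h1, h2⟩ := hI σ₀
    obtain ⟨c1, c2⟩ := s56fc_conj_entry hW (key (σ₀ : GQ))
    have h1' : rb (σ₀ : GQ) *ᵥ e₁ = ((χ σ₀ : kˣ) : k) • e₁ + (0 : k) • e₂ := by
      rw [zero_smul, add_zero]; exact h1
    have h2' : rb (σ₀ : GQ) *ᵥ e₂ = (0 : k) • e₁ + ((χ σ₀ : kˣ) : k) ^ p • e₂ := by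
      rw [zero_smul, zero_add]; exact h2
    obtain ⟨a1, -⟩ := c1 _ _ h1'
    obtain ⟨-, b2⟩ := c2 _ _ h2'
    rw [a1, b2]
    exact fun h => hσ₀ h.symm
  · exact hfix ⟨i, hi⟩ hfixi
  · obtain ⟨c1, c2⟩ := s56fc_conj_entry hW (key τ)
    rcases hD τ hτ with ⟨⟨x, hx⟩, ⟨y, hy⟩⟩ | ⟨⟨x, hx⟩, ⟨y, hy⟩⟩
    · left
      have h1' : rb τ *ᵥ e₁ = x • e₁ + (0 : k) • e₂ := by rw [zero_smul, add_zero]; exact hx
      have h2' : rb τ *ᵥ e₂ = (0 : k) • e₁ + y • e₂ := by rw [zero_smul, zero_add]; exact hy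
      exact ⟨(c2 _ _ h2').1, (c1 _ _ h1').2⟩
    · right
      have h1' : rb τ *ᵥ e₁ = (0 : k) • e₁ + x • e₂ := by rw [zero_smul, zero_add]; exact hx
      have h2' : rb τ *ᵥ e₂ = y • e₁ + (0 : k) • e₂ := by rw [zero_smul, add_zero]; exact hy
      exact ⟨(c1 _ _ h1').1, (c2 _ _ h2').2⟩
  · obtain ⟨c1, c2⟩ := s56fc_conj_entry hW (key φ)
    obtain ⟨⟨x, hx⟩, ⟨y, hy⟩⟩ := hφ φ hφ'
    have h1' : rb φ *ᵥ e₁ = (0 : k) • e₁ + x • e₂ := by rw [zero_smul, zero_add]; exact hx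
    have h2' : rb φ *ᵥ e₂ = y • e₁ + (0 : k) • e₂ := by rw [zero_smul, add_zero]; exact hy
    exact ⟨(c1 _ _ h1').1, (c2 _ _ h2').2⟩

end adapt

end Fermat.Agent.S56
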