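/-
Project S56 (Taylor–Wiles primes), node [LOC-p-FLAT], cell [F-CLASS] part 11 (helper13).
Prefix `s56fc_`.  Namespace `Fermat.Agent.S56`.
GLUE BETWEEN THE SUPERSINGULAR SHAPE `s56fc_SS` AND THE MATRIX-LEVEL COUNT `s56fu_shape`
(`Flat/SSMat.lean`): all the `rb`-dependent hypotheses of `s56fu_shape` for `rb' = g rb g⁻¹`.

* `s56fc_resP P`            : `O = P ∩ Q̄^{I_P} → P / 𝔪_P`, a ring homomorphism to a field of
                               characteristic `p` with `res x = 0 ↔ ¬ IsUnit x`;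
* `s56fc_res_congr`         : two such residue maps have the same fibres (transfer of any clause
                               `res a = res b` between `P / 𝔪_P` and `O / 𝔪_O`);
* `s56fc_theta_resP`        : `τ ϖ = ψ ϖ`, `ψ ∈ O`  ⟹  the tame symbol `θ_ϖ (τ) = res ψ`;
* `s56fc_even_finrank`      : `x ^ p² = x`, `x ^ p ≠ x` in `k`  ⟹  `2 ∣ [k : 𝔽_p]`;
* `s56fc_ss_ker`            : in the supersingular shape, `χ σ = 1 ↔ σ ϖ = ϖ`;
* `s56fc_ss_glue`           : the package.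
-/
import Mathlib
import Fermat.Agent.S56.Flat.ClassA

set_option autoImplicit false
set_option linter.unusedSectionVars false

noncomputable section

namespace Fermat.Agent.S56

open Fermat.Agent.MZ Fermat.Agent.FF Fermat.Agent.S53 Fermat.Agent.S55 Matrix
open scoped Pointwise

local notation "Qb" => AlgebraicClosure ℚ

/-! ### the residue map `O → P / 𝔪_P` -/

section resP

variable (P : ValuationSubring Qb)

/-- `O = P ∩ Q̄^{I_P} → P / 𝔪_P`. -/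
def s56fc_resP : ↥(ffi_O P ↥(ffi_L P)) →+* IsLocalRing.ResidueField ↥P :=
  (IsLocalRing.residue ↥P).comp (ffi_OtoA P ↥(ffi_L P))

theorem s56fc_resP_apply (x : ↥(ffi_O P ↥(ffi_L P))) :
    s56fc_resP P x = IsLocalRing.residue ↥P (ffi_OtoA P ↥(ffi_L P) x) := rfl

theorem s56fc_resP_eq_zero_iff' (x : ↥(ffi_O P ↥(ffi_L P))) :
    s56fc_resP P x = 0 ↔ algebraMap ↥(ffi_O P ↥(ffi_L P)) Qb x ∈ P.nonunits := by
  rw [s56fc_resP_apply, IsLocalRing.residue_eq_zero_iff, ValuationSubring.mem_nonunits_iff,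
    P.valuation_lt_one_iff]
  rfl

variable {p : ℕ} [hp : Fact p.Prime]

theorem s56fc_resP_eq_zero_iff (hP : P.LiesOverPrime p) (x : ↥(ffi_O P ↥(ffi_L P))) :
    s56fc_resP P x = 0 ↔ ¬ IsUnit x := by
  have hctx := mzg_ctx p P hP
  have : IsDiscreteValuationRing ↥(ffi_O P ↥(ffi_L P)) := mzg_ctx_dvr p P hP
  rw [s56fc_resP_eq_zero_iff']
  constructor
  · intro h hu
    obtain ⟨y, hy⟩ := hu.exists_right_inv
    have h1 : algebraMap ↥(ffi_O P ↥(ffi_L P)) Qb x * algebraMap ↥(ffi_O P ↥(ffi_L P)) Qb y = 1 := by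
      rw [← map_mul, hy, map_one]
    have h2 : P.valuation (algebraMap ↥(ffi_O P ↥(ffi_L P)) Qb y) ≤ 1 :=
      (P.valuation_le_one_iff _).mpr (hctx.mem_A y)
    rw [ValuationSubring.mem_nonunits_iff] at h
    have h3 := congrArg P.valuation h1
    rw [map_mul, map_one] at h3
    have h4 : P.valuation (algebraMap ↥(ffi_O P ↥(ffi_L P)) Qb x) *
        P.valuation (algebraMap ↥(ffi_O P ↥(ffi_L P)) Qb y) < 1 :=
      mul_lt_one_of_nonneg_of_lt_one_left zero_le h h2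
    rw [h3] at h4
    exact lt_irrefl _ h4
  · intro hu
    by_contra hn
    apply hu
    rw [ValuationSubring.mem_nonunits_iff, not_lt] at hn
    have hx1 : P.valuation (algebraMap ↥(ffi_O P ↥(ffi_L P)) Qb x) = 1 :=
      le_antisymm ((P.valuation_le_one_iff _).mpr (hctx.mem_A x)) hn
    -- `x` is a unit of the valuation ring `O`
    have hx0 : (x : ↥(ffi_L P)) ≠ 0 := by
      intro h0
      have : algebraMap ↥(ffi_O P ↥(ffi_L P)) Qb x = 0 := by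
        rw [ffi_algebraMap_O_Qb, h0, map_zero]
      rw [this, map_zero] at hx1
      exact zero_ne_one hx1
    have hinv : ((x : ↥(ffi_L P)))⁻¹ ∈ ffi_O P ↥(ffi_L P) := by
      rw [ffi_mem_O, map_inv₀, ← P.valuation_le_one_iff, map_inv₀]
      have : P.valuation (algebraMap ↥(ffi_L P) Qb (x : ↥(ffi_L P))) = 1 := hx1
      rw [this, inv_one]
    refine IsUnit.of_mul_eq_one ⟨_, hinv⟩ ?_
    apply Subtype.ext
    show (x : ↥(ffi_L P)) * ((x : ↥(ffi_L P)))⁻¹ = 1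
    exact mul_inv_cancel₀ hx0

/-- the residue field of `P` has characteristic `p`. -/
theorem s56fc_residue_charP (hP : P.LiesOverPrime p) : CharP (IsLocalRing.ResidueField ↥P) p := by
  have h0 : ((p : ℕ) : IsLocalRing.ResidueField ↥P) = 0 := by
    have h1 : ((p : ℕ) : IsLocalRing.ResidueField ↥P)
        = IsLocalRing.residue ↥P ((p : ℕ) : ↥P) := (map_natCast _ p).symm
    rw [h1, IsLocalRing.residue_eq_zero_iff, P.valuation_lt_one_iff]
    have h2 : P.valuation ((p : ℕ) : Qb) < 1 := by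
      have : ((p : ℕ) : Qb) ∈ P.nonunits := hP
      rwa [ValuationSubring.mem_nonunits_iff] at this
    simpa using h2
  exact (CharP.charP_iff_prime_eq_zero hp.out).mpr h0

end resP

/-- two residue maps of a local ring have the same fibres. -/
theorem s56fc_res_congr {O : Type} [CommRing O] {𝕜₁ 𝕜₂ : Type} [Field 𝕜₁] [Field 𝕜₂]
    (res₁ : O →+* 𝕜₁) (res₂ : O →+* 𝕜₂) (h₁ : ∀ x : O, res₁ x = 0 ↔ ¬ IsUnit x)
    (h₂ : ∀ x : O, res₂ x = 0 ↔ ¬ IsUnit x) (a b : O) : res₁ a = res₁ b ↔ res₂ a = res₂ b := by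
  rw [← sub_eq_zero, ← map_sub, h₁, ← sub_eq_zero (a := res₂ a), ← map_sub, h₂]

/-! ### the tame symbol of a Kummer generator -/

section theta

variable (P : ValuationSubring Qb)

theorem s56fc_theta_resP {τ : s56fc_In P} {ψ : ↥(ffi_O P ↥(ffi_L P))} {ϖ : Qb} (hϖ0 : ϖ ≠ 0)
    (h : τ • ϖ = algebraMap ↥(ffi_O P ↥(ffi_L P)) Qb ψ * ϖ) :
    s56fc_theta P τ ϖ = s56fc_resP P ψ := by
  have e : τ • ϖ / ϖ = algebraMap ↥(ffi_O P ↥(ffi_L P)) Qb ψ := by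
    rw [h, mul_div_assoc, div_self hϖ0, mul_one]
  have hmem : τ • ϖ / ϖ ∈ P := by
    rw [e]
    exact (ffi_OtoA P ↥(ffi_L P) ψ).2
  rw [s56fc_theta_eq hmem, s56fc_resP_apply]
  congr 1
  exact Subtype.ext e

end theta

/-! ### parity of the degree -/

section parity

variable {p : ℕ} [hp : Fact p.Prime] {k : Type} [Field k] [Fintype k] [Algebra (ZMod p) k]

theorem s56fc_even_finrank {x : k} (h1 : x ^ (p ^ 2) = x) (h2 : x ^ p ≠ x) :
    2 ∣ Module.finrank (ZMod p) k := by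
  have hcard : Fintype.card k = p ^ Module.finrank (ZMod p) k := by
    rw [Module.card_eq_pow_finrank (K := ZMod p) (V := k), ZMod.card]
  have hx : x ^ (p ^ Module.finrank (ZMod p) k) = x := by
    rw [← hcard]
    exact FiniteField.pow_card x
  have hev : ∀ m : ℕ, x ^ (p ^ (2 * m)) = x := by
    intro m
    induction m with
    | zero => rw [mul_zero, pow_zero, pow_one]
    | succ m ih =>
      have e : p ^ (2 * (m + 1)) = p ^ (2 * m) * p ^ 2 := by rw [← pow_add]; ring_nf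
      rw [e, pow_mul, ih, h1]
  by_contra hodd
  obtain ⟨m, hm⟩ : ∃ m, Module.finrank (ZMod p) k = 2 * m + 1 :=
    ⟨Module.finrank (ZMod p) k / 2, by omega⟩
  apply h2
  rw [hm, pow_succ, pow_mul, hev m] at hx
  exact hx

end parity

/-! ### the supersingular shape -/

section ss

variable {p : ℕ} [hp : Fact p.Prime] {k : Type} [Field k]

/-- `P.valuation (p² - 1) = 1`. -/
theorem s56fc_val_sq_sub_one (P : ValuationSubring Qb) (hP : P.LiesOverPrime p) :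
    P.valuation (((p ^ 2 - 1 : ℕ) : ℕ) : Qb) = 1 := by
  have e2 : (((p ^ 2 - 1 : ℕ) : ℕ) : Qb) = ((p : ℕ) : Qb) ^ 2 - 1 := by
    rw [Nat.cast_sub (Nat.one_le_pow _ _ hp.out.pos)]
    push_cast
    ring
  rw [e2]
  have hplt : P.valuation (((p : ℕ) : Qb) ^ 2) < 1 := by
    rw [map_pow]
    have h5 : P.valuation ((p : ℕ) : Qb) < 1 := by
      have : ((p : ℕ) : Qb) ∈ P.nonunits := hP
      rwa [ValuationSubring.mem_nonunits_iff] at this
    exact pow_lt_one' h5 (by norm_num)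
  have h6 := Valuation.map_sub_eq_of_lt_right P.valuation
    (x := ((p : ℕ) : Qb) ^ 2) (y := 1) (by rw [map_one]; exact hplt)
  rw [h6, map_one]

/-- **the kernel of `χ` is the stabiliser of `ϖ`**: data as in `s56fc_SS`. -/
theorem s56fc_ss_ker (P : ValuationSubring Qb) (hP : P.LiesOverPrime p)
    (χ : s56fc_In P →* kˣ) {ϖ : Qb} (hϖ : ϖ ^ (p ^ 2 - 1) = -((p : ℕ) : Qb))
    (F : Subring k) (hF : ∀ σ : s56fc_In P, ((χ σ : kˣ) : k) ∈ F)
    (ι : ↥F →+* IsLocalRing.ResidueField ↥P)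
    (hι : ∀ σ : s56fc_In P, ι ⟨((χ σ : kˣ) : k), hF σ⟩ = s56fc_theta P σ ϖ)
    (σ : s56fc_In P) (hσ : χ σ = 1) : σ • ϖ = ϖ := by
  have hv := s56fc_in_val P
  have hp1 : 1 < p := hp.out.one_lt
  have hm : 0 < p ^ 2 - 1 := by
    rw [s56fc_sq_sub_one p hp1.le]
    exact Nat.mul_pos (by omega) (by omega)
  have hϖ0 : ϖ ≠ 0 := by
    intro h
    rw [h, zero_pow hm.ne'] at hϖ
    have h1 : ((p : ℕ) : Qb) = 0 := by
      rw [← neg_eq_zero]
      exact hϖ.symm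
    exact hp.out.ne_zero (Nat.cast_eq_zero.mp h1)
  have h1 : s56fc_theta P σ ϖ = 1 := by
    rw [← hι σ]
    have e : (⟨((χ σ : kˣ) : k), hF σ⟩ : ↥F) = 1 := by
      apply Subtype.ext
      show ((χ σ : kˣ) : k) = 1
      rw [hσ]
      rfl
    rw [e, map_one]
  rw [s56fc_theta_eq_one_iff hv σ hϖ0] at h1
  -- `η = σ ϖ / ϖ` is a root of unity of order dividing `p² - 1`, congruent to `1`
  have hfix : σ • ϖ ^ (p ^ 2 - 1) = ϖ ^ (p ^ 2 - 1) := by
    rw [hϖ]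
    show (σ : GQ) (-((p : ℕ) : Qb)) = _
    rw [map_neg, map_natCast]
  have hη : (σ • ϖ / ϖ) ^ (p ^ 2 - 1) = 1 := by
    rw [div_pow, ← smul_pow', hfix, div_self (pow_ne_zero _ hϖ0)]
  have hlt : P.valuation (σ • ϖ / ϖ - 1) < 1 := by
    have e : σ • ϖ / ϖ - 1 = (σ • ϖ - ϖ) / ϖ := by
      field_simp
    rw [e, map_div₀]
    exact (div_lt_one₀ (zero_lt_iff.mpr ((map_ne_zero _).mpr hϖ0))).mpr h1
  have h2 := s56fc_root_eq_one (A := P) hη (s56fc_val_sq_sub_one P hP) hlt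
  rw [div_eq_one_iff_eq hϖ0] at h2
  exact h2

end ss

/-! ### the package -/

section glue

variable {p : ℕ} [hp : Fact p.Prime] {k : Type} [Field k] [Fintype k] [CharP k p]
  [Algebra (ZMod p) k]

/-- **all the `rb`-dependent hypotheses of the matrix-level supersingular count** (`s56fu_shape`,
`Flat/SSMat.lean`) for `rb' = g rb g⁻¹`, from the supersingular shape `s56fc_SS`:
`I = I_P`, `res = s56fc_resP P`, `𝕜 = P / 𝔪_P`. -/
theorem s56fc_ss_glue (rb : FramedResidual k) (P : ValuationSubring Qb) (hP : P.LiesOverPrime p)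
    (h : s56fc_SS p rb.toMonoidHom P) :
    ∃ (g : GL (Fin 2) k) (ϖt : Qb) (ι₀ : k →+* IsLocalRing.ResidueField ↥P),
      ϖt ^ (p ^ 2 - 1) = -((p : ℕ) : Qb) ∧
      (∀ i ∈ P.inertiaSubgroupIn ℚ, s56fcj_conj g rb i 0 1 = 0 ∧ s56fcj_conj g rb i 1 0 = 0) ∧
      (∀ i ∈ P.inertiaSubgroupIn ℚ, s56fcj_conj g rb i 1 1 = s56fcj_conj g rb i 0 0 ^ p) ∧
      (∀ (τ : ↥(P.inertiaSubgroupIn ℚ)) (ψ : ↥(ffi_O P ↥(ffi_L P))),
        τ • ϖt = algebraMap ↥(ffi_O P ↥(ffi_L P)) Qb ψ * ϖt →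
        ι₀ (s56fcj_conj g rb (τ : GQ) 0 0) = s56fc_resP P ψ) ∧
      (∀ T : Subgroup ↥(P.inertiaSubgroupIn ℚ), (∀ σ, σ ∈ T ↔ σ • ϖt = ϖt) →
        (∀ s : ↥T, s56fcj_conj g rb (((s : ↥(P.inertiaSubgroupIn ℚ))) : GQ) = 1) ∧
        ((((T.map (P.inertiaSubgroupIn ℚ).subtype).subgroupOf
          (P.inertiaSubgroupIn ℚ)).index : ℕ) : k) ≠ 0) ∧
      2 ∣ Module.finrank (ZMod p) k ∧
      (∀ τ ∈ P.decompositionSubgroup ℚ,
        (s56fcj_conj g rb τ 0 1 = 0 ∧ s56fcj_conj g rb τ 1 0 = 0) ∨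
        (s56fcj_conj g rb τ 0 0 = 0 ∧ s56fcj_conj g rb τ 1 1 = 0)) ∧
      (∀ φ : GQ, P.IsFrobeniusAt φ p →
        s56fcj_conj g rb φ 0 0 = 0 ∧ s56fcj_conj g rb φ 1 1 = 0) := by
  obtain ⟨e₁, e₂, χ, ϖ, hW, hϖ, hI, ⟨σ₀, hσ₀⟩, hpow, ⟨F, hF, ι, hι⟩, hfix, hD, hφ, hirr⟩ := h
  have hp1 : 1 < p := hp.out.one_lt
  have hm : 0 < p ^ 2 - 1 := by
    rw [s56fc_sq_sub_one p hp1.le]
    exact Nat.mul_pos (by omega) (by omega)
  have hϖ0 : ϖ ≠ 0 := by
    intro h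
    rw [h, zero_pow hm.ne'] at hϖ
    have h1 : ((p : ℕ) : Qb) = 0 := by
      rw [← neg_eq_zero]
      exact hϖ.symm
    exact hp.out.ne_zero (Nat.cast_eq_zero.mp h1)
  have he₁ : e₁ ≠ 0 := s56fc_wedge_ne_left hW
  have hdet : (s56fc_colMat e₁ e₂).det ≠ 0 := by rw [s56fc_colMat_det]; exact hW
  obtain ⟨gM, hgM⟩ : ∃ gM : GL (Fin 2) k, (gM : Matrix (Fin 2) (Fin 2) k) = s56fc_colMat e₁ e₂ :=
    ⟨Matrix.GeneralLinearGroup.mkOfDetNeZero (s56fc_colMat e₁ e₂) hdet, rfl⟩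
  have key : ∀ σ : GQ, s56fc_colMat e₁ e₂ * (s56fcj_conj gM⁻¹ rb σ) = rb σ * s56fc_colMat e₁ e₂ := by
    intro σ
    rw [s56fcj_conj_apply, inv_inv, ← hgM, mul_assoc, Units.mul_inv_cancel_left]
  have : IsAlgClosed (IsLocalRing.ResidueField ↥P) := s56fc_residue_isAlgClosed P
  have : Finite k := Finite.of_fintype k
  obtain ⟨ι₀, hι₀⟩ := s56fc_extend_iota F ι
  -- the entries on inertia
  have hent : ∀ (i : GQ) (hi : i ∈ P.inertiaSubgroupIn ℚ),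
      s56fcj_conj gM⁻¹ rb i 0 0 = ((χ ⟨i, hi⟩ : kˣ) : k) ∧ s56fcj_conj gM⁻¹ rb i 1 0 = 0 ∧
      s56fcj_conj gM⁻¹ rb i 0 1 = 0 ∧ s56fcj_conj gM⁻¹ rb i 1 1 = ((χ ⟨i, hi⟩ : kˣ) : k) ^ p := by
    intro i hi
    obtain ⟨h1, h2⟩ := hI ⟨i, hi⟩
    obtain ⟨c1, c2⟩ := s56fc_conj_entry hW (key i)
    have h1' : rb i *ᵥ e₁ = ((χ ⟨i, hi⟩ : kˣ) : k) • e₁ + (0 : k) • e₂ := by
      rw [zero_smul, add_zero]; exact h1
    have h2' : rb i *ᵥ e₂ = (0 : k) • e₁ + ((χ ⟨i, hi⟩ : kˣ) : k) ^ p • e₂ := by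
      rw [zero_smul, zero_add]; exact h2
    obtain ⟨a1, a2⟩ := c1 _ _ h1'
    obtain ⟨b1, b2⟩ := c2 _ _ h2'
    exact ⟨a1, a2, b1, b2⟩
  -- the kernel of `χ`
  have hker : ∀ σ : s56fc_In P, χ σ = 1 ↔ σ • ϖ = ϖ := by
    intro σ
    constructor
    · exact s56fc_ss_ker P hP χ hϖ F hF ι hι σ
    · intro hσ
      have h1 := (hI σ).1
      rw [hfix σ hσ, Matrix.one_mulVec] at h1
      have h2 : (1 : k) • e₁ = ((χ σ : kˣ) : k) • e₁ := by rw [one_smul]; exact h1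
      exact Units.ext (s56fc_smul_eq_smul he₁ h2).symm
  refine ⟨gM⁻¹, ϖ, ι₀, hϖ, fun i hi => ⟨(hent i hi).2.2.1, (hent i hi).2.1⟩,
    fun i hi => by rw [(hent i hi).2.2.2, (hent i hi).1], fun τ ψ hτψ => ?_, fun T hT => ⟨?_, ?_⟩,
    ?_, fun τ hτ => ?_, fun φ hφ' => ?_⟩
  · rw [(hent (τ : GQ) τ.2).1, ← s56fc_theta_resP P hϖ0 hτψ, ← hι τ, ← hι₀]
  · intro s
    have h1 : rb (((s : ↥(P.inertiaSubgroupIn ℚ))) : GQ) = 1 :=
      hfix (s : ↥(P.inertiaSubgroupIn ℚ)) ((hT _).mp s.2)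
    rw [s56fcj_conj_apply, h1, mul_one, Units.mul_inv]
  · have hTker : T = χ.ker := by
      ext σ
      rw [hT σ, MonoidHom.mem_ker, hker σ]
    have e : (T.map (P.inertiaSubgroupIn ℚ).subtype).subgroupOf (P.inertiaSubgroupIn ℚ) = T :=
      Subgroup.comap_map_eq_self_of_injective (P.inertiaSubgroupIn ℚ).subtype_injective T
    rw [e, hTker, Subgroup.index_ker]
    have hdvd : Nat.card ↥χ.range ∣ p ^ 2 - 1 := s56fc_card_range_dvd χ (p ^ 2 - 1) hpow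
    intro h0
    rw [CharP.cast_eq_zero_iff k p] at h0
    have h1 : p ∣ p ^ 2 - 1 := h0.trans hdvd
    have h2 : p ∣ p ^ 2 := dvd_pow_self p (by norm_num)
    have h3 : p ∣ 1 := by
      have := (Nat.dvd_sub h2 h1)
      rwa [Nat.sub_sub_self (Nat.one_le_pow _ _ hp.out.pos)] at this
    exact hp.out.one_lt.ne' (Nat.dvd_one.mp h3)
  · have hx : ((χ σ₀ : kˣ) : k) ^ (p ^ 2 - 1) = 1 := by
      have := congrArg (fun u : kˣ => (u : k)) (hpow σ₀)
      simpa using this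
    refine s56fc_even_finrank (x := ((χ σ₀ : kˣ) : k)) ?_ hσ₀
    have e : p ^ 2 = (p ^ 2 - 1) + 1 := by omega
    rw [e, pow_succ, hx, one_mul]
  · obtain ⟨c1, c2⟩ := s56fc_conj_entry hW (key τ)
    rcases hD τ hτ with ⟨⟨x, hx⟩, ⟨y, hy⟩⟩ | ⟨⟨x, hx⟩, ⟨y, hy⟩⟩
    · left
      have h1' : rb τ *ᵥ e₁ = x • e₁ + (0 : k) • e₂ := by rw [zero_smul, add_zero]; exact hx
      have h2' : rb τ *ᵥ e₂ = (0 : k) • e₁ + y • e₂ := by rw [zero_smul, zero_add]; exact hy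
      exact ⟨(c2 _ _ h2').1, (c1 _ _ h1').2⟩
    · right
      have h1' : rb τ *ᵥ e₁ = (0 : k) • e₁ + x • e₂ := by rw [zero_smul, zero_add]; exact hx
      have h2' : rb τ *ᵥ e₂ = y • e₁ + (0 : k) • e₂ := by rw [zero_smul, add_zero]; exact hy
      exact ⟨(c1 _ _ h1').1, (c2 _ _ h2').2⟩
  · obtain ⟨c1, c2⟩ := s56fc_conj_entry hW (key φ)
    obtain ⟨⟨x, hx⟩, ⟨y, hy⟩⟩ := hφ φ hφ'
    have h1' : rb φ *ᵥ e₁ = (0 : k) • e₁ + x • e₂ := by rw [zero_smul, zero_add]; exact hx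
    have h2' : rb φ *ᵥ e₂ = y • e₁ + (0 : k) • e₂ := by rw [zero_smul, add_zero]; exact hy
    exact ⟨(c1 _ _ h1').1, (c2 _ _ h2').2⟩

end glue

end Fermat.Agent.S56
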