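/-
Project S56 (Taylor–Wiles primes), node [LOC-p-FLAT], cell [F-CLASS] part 12 (helper13).
Prefix `s56fc_`.  Namespace `Fermat.Agent.S56`.
THE SUPERSINGULAR BRANCH OF THE ASSEMBLY: from the two glue seams of `Flat/SSSeams.lean`
(`s56fr_Inst_stmt`, `s56fr_Excl_stmt`) and the supersingular shape `s56fc_SS`, the local shape
`s56a_LocShape rb D_P (cyclotomic determinant ∧ flat at p) 1`.

* `s56fc_ss_glue'`  : `s56fc_SS`  ⟹  the matrix form of `g rb g⁻¹` with the character `χ` exposed;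
* `s56fc_ss_branch` : the supersingular branch.
-/
import Mathlib
import Fermat.Agent.S56.Flat.ClassB
import Fermat.Agent.S56.Flat.SSSeams
import Fermat.Agent.S56.KumT.KnfSeam
import Fermat.Agent.S56.KumT.UniqAdd

set_option autoImplicit false
set_option linter.unusedSectionVars false

noncomputable section

namespace Fermat.Agent.S56

open Fermat.Agent.MZ Fermat.Agent.FF Fermat.Agent.S53 Fermat.Agent.S55 Matrix
open scoped Pointwise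

local notation "Qb" => AlgebraicClosure ℚ

section glue

variable {p : ℕ} [hp : Fact p.Prime] {k : Type} [Field k] [Fintype k] [CharP k p]
  [Algebra (ZMod p) k]

/-- the matrix form of the supersingular shape, with the character `χ` exposed. -/
theorem s56fc_ss_glue' (rb : FramedResidual k) (P : ValuationSubring Qb) (hP : P.LiesOverPrime p)
    (h : s56fc_SS p rb.toMonoidHom P) :
    ∃ (g : GL (Fin 2) k) (ϖt : Qb) (ι₀ : k →+* IsLocalRing.ResidueField ↥P)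
      (χ : ↥(P.inertiaSubgroupIn ℚ) →* kˣ),
      ϖt ^ (p ^ 2 - 1) = -((p : ℕ) : Qb) ∧
      (∀ σ : ↥(P.inertiaSubgroupIn ℚ),
        s56fcj_conj g rb (σ : GQ) 0 0 = ((χ σ : kˣ) : k) ∧
        s56fcj_conj g rb (σ : GQ) 1 1 = ((χ σ : kˣ) : k) ^ p ∧
        s56fcj_conj g rb (σ : GQ) 0 1 = 0 ∧ s56fcj_conj g rb (σ : GQ) 1 0 = 0) ∧
      (∃ σ₀ : ↥(P.inertiaSubgroupIn ℚ), ((χ σ₀ : kˣ) : k) ^ p ≠ ((χ σ₀ : kˣ) : k)) ∧
      (∀ σ : ↥(P.inertiaSubgroupIn ℚ), χ σ ^ (p ^ 2 - 1) = 1) ∧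
      (∀ σ : ↥(P.inertiaSubgroupIn ℚ), σ • ϖt = ϖt ↔ χ σ = 1) ∧
      (∀ σ : ↥(P.inertiaSubgroupIn ℚ), ι₀ ((χ σ : kˣ) : k) = s56fc_theta P σ ϖt) ∧
      (∀ σ : ↥(P.inertiaSubgroupIn ℚ), σ • ϖt = ϖt → s56fcj_conj g rb (σ : GQ) = 1) ∧
      2 ∣ Module.finrank (ZMod p) k ∧
      (∀ φ : GQ, P.IsFrobeniusAt φ p →
        s56fcj_conj g rb φ 0 0 = 0 ∧ s56fcj_conj g rb φ 1 1 = 0) := by
  obtain ⟨e₁, e₂, χ, ϖ, hW, hϖ, hI, ⟨σ₀, hσ₀⟩, hpow, ⟨F, hF, ι, hι⟩, hfix, hD, hφ, hirr⟩ := h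
  have he₁ : e₁ ≠ 0 := s56fc_wedge_ne_left hW
  have hdet : (s56fc_colMat e₁ e₂).det ≠ 0 := by rw [s56fc_colMat_det]; exact hW
  obtain ⟨gM, hgM⟩ : ∃ gM : GL (Fin 2) k, (gM : Matrix (Fin 2) (Fin 2) k) = s56fc_colMat e₁ e₂ :=
    ⟨Matrix.GeneralLinearGroup.mkOfDetNeZero (s56fc_colMat e₁ e₂) hdet, rfl⟩
  have key : ∀ σ : GQ, s56fc_colMat e₁ e₂ * (s56fcj_conj gM⁻¹ rb σ) = rb σ * s56fc_colMat e₁ e₂ := by
    intro σ
    rw [s56fcj_conj_apply, inv_inv, ← hgM, mul_assoc, Units.mul_inv_cancel_left]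
  have : IsAlgClosed (IsLocalRing.ResidueField ↥P) := s56fc_residue_isAlgClosed P
  have : Finite k := Finite.of_fintype k
  obtain ⟨ι₀, hι₀⟩ := s56fc_extend_iota F ι
  have hent : ∀ σ : ↥(P.inertiaSubgroupIn ℚ),
      s56fcj_conj gM⁻¹ rb (σ : GQ) 0 0 = ((χ σ : kˣ) : k) ∧
      s56fcj_conj gM⁻¹ rb (σ : GQ) 1 1 = ((χ σ : kˣ) : k) ^ p ∧
      s56fcj_conj gM⁻¹ rb (σ : GQ) 0 1 = 0 ∧ s56fcj_conj gM⁻¹ rb (σ : GQ) 1 0 = 0 := by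
    intro σ
    obtain ⟨h1, h2⟩ := hI σ
    obtain ⟨c1, c2⟩ := s56fc_conj_entry hW (key (σ : GQ))
    have h1' : rb (σ : GQ) *ᵥ e₁ = ((χ σ : kˣ) : k) • e₁ + (0 : k) • e₂ := by
      rw [zero_smul, add_zero]; exact h1
    have h2' : rb (σ : GQ) *ᵥ e₂ = (0 : k) • e₁ + ((χ σ : kˣ) : k) ^ p • e₂ := by
      rw [zero_smul, zero_add]; exact h2
    obtain ⟨a1, a2⟩ := c1 _ _ h1'
    obtain ⟨b1, b2⟩ := c2 _ _ h2'
    exact ⟨a1, b2, b1, a2⟩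
  have hker : ∀ σ : s56fc_In P, σ • ϖ = ϖ ↔ χ σ = 1 := by
    intro σ
    constructor
    · intro hσ
      have h1 := (hI σ).1
      rw [hfix σ hσ, Matrix.one_mulVec] at h1
      have h2 : (1 : k) • e₁ = ((χ σ : kˣ) : k) • e₁ := by rw [one_smul]; exact h1
      exact Units.ext (s56fc_smul_eq_smul he₁ h2).symm
    · exact s56fc_ss_ker P hP χ hϖ F hF ι hι σ
  refine ⟨gM⁻¹, ϖ, ι₀, χ, hϖ, hent, ⟨σ₀, hσ₀⟩, hpow, hker, fun σ => ?_, fun σ hσ => ?_, ?_,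
    fun φ hφ' => ?_⟩
  · rw [← hι σ, ← hι₀]
  · have h1 : rb (σ : GQ) = 1 := hfix σ hσ
    rw [s56fcj_conj_apply, h1, mul_one, Units.mul_inv]
  · have hx : ((χ σ₀ : kˣ) : k) ^ (p ^ 2 - 1) = 1 := by
      have := congrArg (fun u : kˣ => (u : k)) (hpow σ₀)
      simpa using this
    refine s56fc_even_finrank (x := ((χ σ₀ : kˣ) : k)) ?_ hσ₀
    have e : p ^ 2 = (p ^ 2 - 1) + 1 := by
      have := Nat.one_le_pow 2 p hp.out.pos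
      omega
    rw [e, pow_succ, hx, one_mul]
  · obtain ⟨c1, c2⟩ := s56fc_conj_entry hW (key φ)
    obtain ⟨⟨x, hx⟩, ⟨y, hy⟩⟩ := hφ φ hφ'
    have h1' : rb φ *ᵥ e₁ = (0 : k) • e₁ + x • e₂ := by rw [zero_smul, zero_add]; exact hx
    have h2' : rb φ *ᵥ e₂ = y • e₁ + (0 : k) • e₂ := by rw [zero_smul, add_zero]; exact hy
    exact ⟨(c1 _ _ h1').1, (c2 _ _ h2').2⟩

/-- **THE SUPERSINGULAR BRANCH** of [LOC-p-FLAT]. -/
theorem s56fc_ss_branch (hInst : s56fr_Inst_stmt) (hExcl : s56fr_Excl_stmt) (hp2 : p ≠ 2)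
    (rb : FramedResidual k) (P : ValuationSubring Qb) (hP : P.LiesOverPrime p)
    (h : s56fc_SS p rb.toMonoidHom P) :
    s56a_LocShape rb (P.decompositionSubgroup ℚ)
      (fun r => r.toGaloisRepAdic.DetIsCyclotomic p ∧ r.toGaloisRepAdic.IsFlatAt p) 1 := by
  obtain ⟨g, ϖt, ι₀, χ, hϖ, hent, hσ₀, hpow, hker, hιχ, hT1, hmd, hFrob⟩ :=
    s56fc_ss_glue' rb P hP h
  have : NeZero p := ⟨hp.out.ne_zero⟩
  obtain ⟨ζ, hζ⟩ := HasEnoughRootsOfUnity.exists_primitiveRoot Qb p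
  obtain ⟨res, hres, hlink, hidx, τ₀, ψ₀, ω₀, ω₀', hψ₀, hψv, hω₀, hωω', hψ1, hord, hωψ, -, φ,
    hφA, hφI, hφI', hφϖ, hφζ, hφO, hφF, hgen⟩ := hInst p hp2 P hP ϖt ζ hϖ hζ
  have hset := s56fh_setting p hp2 P hP hϖ hζ
  have : IsDiscreteValuationRing ↥(ffi_O P ↥(ffi_L P)) := mzg_ctx_dvr p P hP
  have : CharP (IsLocalRing.ResidueField ↥P) p := s56fc_residue_charP P hP
  apply s56fcj_flat p rb g _ 1
  refine s56fu_shape (s56fcj_conj g rb) (P.decompositionSubgroup ℚ) hset (s56ku_uniq hset)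
    (s56ku_add_stmt hset) (s56kt_knf hset) res hres ι₀ τ₀ ψ₀ hψ₀ hψv ω₀ ω₀' hω₀ hωω'
    (by rw [← map_pow, hψ1, map_one]) hord hωψ
    (fun i hi => ⟨(hent ⟨i, hi⟩).2.2.1, (hent ⟨i, hi⟩).2.2.2⟩)
    (by rw [(hent τ₀).1, hιχ τ₀, hlink τ₀ ψ₀ hψ₀])
    (by rw [(hent τ₀).2.1, (hent τ₀).1])
    (fun s => hT1 (s : ↥(P.inertiaSubgroupIn ℚ)) (MulAction.mem_stabilizer_iff.mp s.2))
    (hidx k) hmd φ hφA hφI hφI' hφϖ hφζ hφO (hFrob φ hφF) hgen _ ?_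
  rintro r hbar ⟨hdet, hflat⟩
  exact hExcl p hp2 P hP ϖt ζ hϖ hζ k (s56fcj_conj g rb) χ hent hσ₀ hpow hker r hbar hdet hflat

end glue

end Fermat.Agent.S56
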