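/-
Project S56 (Taylor–Wiles primes), node [LOC-p-FLAT] (owner helper27), cell F-KDICT (helper29).
Prefix `s56fk_`.  THE KUMMER DICTIONARY AT FINITE LEVEL, FOR AN ARBITRARY SUBGROUP `T` OF THE
GALOIS GROUP `Ω ≃ₐ[K] Ω` (used with `K = ℚ`, `Ω = AlgebraicClosure ℚ`, so that the group is `GQ`).
Mathlib only.

* `s56fk_pow_add`, `s56fk_pow_inj` : the exponential `ZMod p → Ω`, `x ↦ ζ ^ x.val`;
* `s56fk_hilbert90`  : HILBERT 90: `a : G → ZMod p` additive on `T`, of finite level, `ζ ^ p = 1`, `ζ`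
                       fixed by `T`  ⟹  `∃ w ≠ 0, ∀ s ∈ T, s w = ζ ^ (a s).val * w`
                       (Lagrange resolvent over the embeddings of the level field + Dedekind);
* `s56fk_IsGen T a ζ w` : `w` is a Kummer generator for `a` on `T`;
* `s56fk_pow_fixed` (i), `s56fk_gen_unique` (ii), `s56fk_gen_conj` (iii, equivariance under
  conjugation), `s56fk_gen_ker` (v), `s56fk_gen_mul` (vi);
* `s56fk_exp ζ w`, `s56fk_converse` (iv) : `w ≠ 0` with `w ^ p` fixed by `T` has an exponent function,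
                       additive on `T`, of finite level, with `w` as Kummer generator.
-/
import Mathlib

set_option autoImplicit false
set_option linter.unusedSectionVars false

noncomputable section

namespace Fermat.Agent.S56

section Exp

variable {Ω : Type} [Field Ω] {p : ℕ} [NeZero p]

/-- `ζ ^ n` only depends on `n` modulo `p` when `ζ ^ p = 1`. -/
theorem s56fk_pow_mod {ζ : Ω} (hζ : ζ ^ p = 1) (n : ℕ) : ζ ^ (n % p) = ζ ^ n := by
  conv_rhs => rw [← Nat.mod_add_div n p]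
  rw [pow_add, pow_mul, hζ, one_pow, mul_one]

/-- the exponential `ZMod p → Ω`, `x ↦ ζ ^ x.val`, is additive. -/
theorem s56fk_pow_add {ζ : Ω} (hζ : ζ ^ p = 1) (x y : ZMod p) :
    ζ ^ (x + y).val = ζ ^ x.val * ζ ^ y.val := by
  rw [ZMod.val_add, s56fk_pow_mod hζ, pow_add]

theorem s56fk_pow_zero (ζ : Ω) : ζ ^ (0 : ZMod p).val = 1 := by
  rw [ZMod.val_zero, pow_zero]

theorem s56fk_pow_neg {ζ : Ω} (hζ : ζ ^ p = 1) (x : ZMod p) :
    ζ ^ (-x).val * ζ ^ x.val = 1 := by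
  rw [← s56fk_pow_add hζ, neg_add_cancel, s56fk_pow_zero]

theorem s56fk_pow_ne_zero {ζ : Ω} (hζ : ζ ^ p = 1) (x : ZMod p) : ζ ^ x.val ≠ 0 := by
  intro h
  have := s56fk_pow_neg hζ x
  rw [h, mul_zero] at this
  exact zero_ne_one this

/-- for a primitive root the exponential is injective. -/
theorem s56fk_pow_inj {ζ : Ω} (hζ : IsPrimitiveRoot ζ p) {x y : ZMod p}
    (h : ζ ^ x.val = ζ ^ y.val) : x = y := by
  have h1 := hζ.pow_inj (ZMod.val_lt x) (ZMod.val_lt y) h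
  exact ZMod.val_injective p h1

end Exp


section H90

variable {K Ω : Type} [Field K] [Field Ω] [Algebra K Ω] {p : ℕ} [NeZero p]

/-- restriction of an automorphism to an intermediate field, as an embedding. -/
def s56fk_res (F : IntermediateField K Ω) (s : Ω ≃ₐ[K] Ω) : F →ₐ[K] Ω :=
  (s : Ω →ₐ[K] Ω).comp F.val

theorem s56fk_res_apply (F : IntermediateField K Ω) (s : Ω ≃ₐ[K] Ω) (x : F) :
    s56fk_res F s x = s (x : Ω) := rfl

theorem s56fk_res_mul (F : IntermediateField K Ω) (s t : Ω ≃ₐ[K] Ω) :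
    s56fk_res F (s * t) = (s : Ω →ₐ[K] Ω).comp (s56fk_res F t) := rfl

/-- a function additive on the subgroup `T` vanishes at `1` and is odd on `T`. -/
theorem s56fk_add_one {T : Subgroup (Ω ≃ₐ[K] Ω)} {a : (Ω ≃ₐ[K] Ω) → ZMod p}
    (hadd : ∀ s ∈ T, ∀ t ∈ T, a (s * t) = a s + a t) : a 1 = 0 := by
  have h := hadd 1 T.one_mem 1 T.one_mem
  rw [one_mul] at h
  exact left_eq_add.mp h

theorem s56fk_add_inv {T : Subgroup (Ω ≃ₐ[K] Ω)} {a : (Ω ≃ₐ[K] Ω) → ZMod p}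
    (hadd : ∀ s ∈ T, ∀ t ∈ T, a (s * t) = a s + a t) {s : Ω ≃ₐ[K] Ω} (hs : s ∈ T) :
    a s⁻¹ = - a s := by
  have h := hadd s hs s⁻¹ (T.inv_mem hs)
  rw [mul_inv_cancel, s56fk_add_one hadd] at h
  exact eq_neg_of_add_eq_zero_right h.symm

/-- two elements of `T` with the same restriction to the level field have the same value. -/
theorem s56fk_level_eq {F : IntermediateField K Ω} {a : (Ω ≃ₐ[K] Ω) → ZMod p}
    (hlev : ∀ σ s : Ω ≃ₐ[K] Ω, (∀ x ∈ F, s x = x) → a (σ * s) = a σ)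
    {s t : Ω ≃ₐ[K] Ω} (h : s56fk_res F s = s56fk_res F t) : a s = a t := by
  have h1 : ∀ x ∈ F, (t⁻¹ * s) x = x := by
    intro x hx
    have h2 := DFunLike.congr_fun h ⟨x, hx⟩
    rw [s56fk_res_apply, s56fk_res_apply] at h2
    rw [AlgEquiv.mul_apply, h2]
    exact t.symm_apply_apply x
  have h3 := hlev t (t⁻¹ * s) h1
  rwa [mul_inv_cancel_left] at h3

open Classical in
/-- the coefficients of the Lagrange resolvent. -/
def s56fk_coef (T : Subgroup (Ω ≃ₐ[K] Ω)) (a : (Ω ≃ₐ[K] Ω) → ZMod p) (ζ : Ω)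
    (F : IntermediateField K Ω) (φ : F →ₐ[K] Ω) : Ω :=
  if h : ∃ s ∈ T, s56fk_res F s = φ then ζ ^ (-(a (Classical.choose h))).val else 0

theorem s56fk_coef_res {T : Subgroup (Ω ≃ₐ[K] Ω)} {a : (Ω ≃ₐ[K] Ω) → ZMod p} (ζ : Ω)
    {F : IntermediateField K Ω}
    (hlev : ∀ σ s : Ω ≃ₐ[K] Ω, (∀ x ∈ F, s x = x) → a (σ * s) = a σ)
    {t : Ω ≃ₐ[K] Ω} (ht : t ∈ T) :
    s56fk_coef T a ζ F (s56fk_res F t) = ζ ^ (-(a t)).val := by
  have h : ∃ s ∈ T, s56fk_res F s = s56fk_res F t := ⟨t, ht, rfl⟩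
  unfold s56fk_coef
  rw [dif_pos h, s56fk_level_eq hlev (Classical.choose_spec h).2]

theorem s56fk_coef_of_not {T : Subgroup (Ω ≃ₐ[K] Ω)} {a : (Ω ≃ₐ[K] Ω) → ZMod p} (ζ : Ω)
    {F : IntermediateField K Ω} {φ : F →ₐ[K] Ω} (h : ¬ ∃ s ∈ T, s56fk_res F s = φ) :
    s56fk_coef T a ζ F φ = 0 := by
  unfold s56fk_coef
  rw [dif_neg h]

/-- the transformation rule of the coefficients. -/
theorem s56fk_coef_comp {T : Subgroup (Ω ≃ₐ[K] Ω)} {a : (Ω ≃ₐ[K] Ω) → ZMod p}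
    (hadd : ∀ s ∈ T, ∀ t ∈ T, a (s * t) = a s + a t) {ζ : Ω} (hζ : ζ ^ p = 1)
    {F : IntermediateField K Ω}
    (hlev : ∀ σ s : Ω ≃ₐ[K] Ω, (∀ x ∈ F, s x = x) → a (σ * s) = a σ)
    {s : Ω ≃ₐ[K] Ω} (hs : s ∈ T) (φ : F →ₐ[K] Ω) :
    s56fk_coef T a ζ F (((s⁻¹ : Ω ≃ₐ[K] Ω) : Ω →ₐ[K] Ω).comp φ) =
      ζ ^ (a s).val * s56fk_coef T a ζ F φ := by
  by_cases h : ∃ t ∈ T, s56fk_res F t = φ
  · obtain ⟨t, ht, rfl⟩ := h
    rw [← s56fk_res_mul, s56fk_coef_res ζ hlev (T.mul_mem (T.inv_mem hs) ht),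
      s56fk_coef_res ζ hlev ht, hadd _ (T.inv_mem hs) _ ht, s56fk_add_inv hadd hs, neg_add,
      neg_neg, s56fk_pow_add hζ]
  · have h' : ¬ ∃ t ∈ T, s56fk_res F t = ((s⁻¹ : Ω ≃ₐ[K] Ω) : Ω →ₐ[K] Ω).comp φ := by
      rintro ⟨t, ht, h2⟩
      apply h
      refine ⟨s * t, T.mul_mem hs ht, ?_⟩
      rw [s56fk_res_mul, h2]
      ext x
      simp
    rw [s56fk_coef_of_not ζ h, s56fk_coef_of_not ζ h', mul_zero]


/-- the Lagrange resolvent. -/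
def s56fk_resolvent (T : Subgroup (Ω ≃ₐ[K] Ω)) (a : (Ω ≃ₐ[K] Ω) → ZMod p) (ζ : Ω)
    (F : IntermediateField K Ω) [FiniteDimensional K F] (θ : F) : Ω :=
  ∑ φ : F →ₐ[K] Ω, s56fk_coef T a ζ F φ * φ θ

/-- `T` fixes the coefficients. -/
theorem s56fk_coef_fixed {T : Subgroup (Ω ≃ₐ[K] Ω)} {a : (Ω ≃ₐ[K] Ω) → ZMod p} {ζ : Ω}
    {F : IntermediateField K Ω} {s : Ω ≃ₐ[K] Ω} (hs : s ζ = ζ) (φ : F →ₐ[K] Ω) :
    s (s56fk_coef T a ζ F φ) = s56fk_coef T a ζ F φ := by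
  unfold s56fk_coef
  split_ifs with h
  · rw [map_pow, hs]
  · exact map_zero s

/-- composition with an automorphism permutes the embeddings. -/
def s56fk_perm (F : IntermediateField K Ω) (s : Ω ≃ₐ[K] Ω) : (F →ₐ[K] Ω) ≃ (F →ₐ[K] Ω) where
  toFun φ := (s : Ω →ₐ[K] Ω).comp φ
  invFun φ := ((s⁻¹ : Ω ≃ₐ[K] Ω) : Ω →ₐ[K] Ω).comp φ
  left_inv φ := by
    ext x
    simp
  right_inv φ := by
    ext x
    simp

/-- **the resolvent transforms by the character `ζ ^ a`**. -/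
theorem s56fk_resolvent_smul {T : Subgroup (Ω ≃ₐ[K] Ω)} {a : (Ω ≃ₐ[K] Ω) → ZMod p}
    (hadd : ∀ s ∈ T, ∀ t ∈ T, a (s * t) = a s + a t) {ζ : Ω} (hζ : ζ ^ p = 1)
    {F : IntermediateField K Ω} [FiniteDimensional K F]
    (hlev : ∀ σ s : Ω ≃ₐ[K] Ω, (∀ x ∈ F, s x = x) → a (σ * s) = a σ)
    {s : Ω ≃ₐ[K] Ω} (hs : s ∈ T) (hsζ : s ζ = ζ) (θ : F) :
    s (s56fk_resolvent T a ζ F θ) = ζ ^ (a s).val * s56fk_resolvent T a ζ F θ := by
  unfold s56fk_resolvent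
  rw [map_sum, Finset.mul_sum]
  have h1 : ∀ φ : F →ₐ[K] Ω, s (s56fk_coef T a ζ F φ * φ θ) =
      s56fk_coef T a ζ F φ * (s56fk_perm F s φ) θ := by
    intro φ
    rw [map_mul, s56fk_coef_fixed hsζ]
    rfl
  simp only [h1]
  refine Fintype.sum_equiv (s56fk_perm F s) _ _ fun φ => ?_
  rw [← mul_assoc, ← s56fk_coef_comp hadd hζ hlev hs]
  congr 2
  exact ((s56fk_perm F s).left_inv φ).symm

/-- the resolvent does not vanish identically (Dedekind). -/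
theorem s56fk_resolvent_ne {T : Subgroup (Ω ≃ₐ[K] Ω)} {a : (Ω ≃ₐ[K] Ω) → ZMod p}
    {ζ : Ω} (hζ : ζ ^ p = 1) {F : IntermediateField K Ω} [FiniteDimensional K F]
    (hlev : ∀ σ s : Ω ≃ₐ[K] Ω, (∀ x ∈ F, s x = x) → a (σ * s) = a σ) :
    ∃ θ : F, s56fk_resolvent T a ζ F θ ≠ 0 := by
  by_contra hall
  push Not at hall
  have hli : LinearIndependent Ω (fun φ : F →ₐ[K] Ω => ((φ : F →* Ω) : F → Ω)) := by
    refine (linearIndependent_monoidHom F Ω).comp (fun φ : F →ₐ[K] Ω => (φ : F →* Ω)) ?_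
    intro φ ψ h
    ext x
    exact DFunLike.congr_fun h x
  have hsum : ∑ φ : F →ₐ[K] Ω, s56fk_coef T a ζ F φ • ((φ : F →* Ω) : F → Ω) = 0 := by
    funext θ
    rw [Finset.sum_apply]
    exact hall θ
  have h1 := Fintype.linearIndependent_iff.mp hli _ hsum (s56fk_res F 1)
  rw [s56fk_coef_res ζ hlev T.one_mem] at h1
  exact s56fk_pow_ne_zero hζ _ h1

/-- **Hilbert 90 at finite level for an arbitrary subgroup `T`** of the absolute Galois group: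
a function `a` into `ZMod p`, additive on `T` and of finite level, is a Kummer character on `T`
as soon as `T` fixes the `p`-th root of unity `ζ`. -/
theorem s56fk_hilbert90 (T : Subgroup (Ω ≃ₐ[K] Ω)) (a : (Ω ≃ₐ[K] Ω) → ZMod p)
    (hadd : ∀ s ∈ T, ∀ t ∈ T, a (s * t) = a s + a t)
    (hlev : ∃ F : IntermediateField K Ω, FiniteDimensional K F ∧
      ∀ σ s : Ω ≃ₐ[K] Ω, (∀ x ∈ F, s x = x) → a (σ * s) = a σ)
    (ζ : Ω) (hζ : ζ ^ p = 1) (hζT : ∀ s ∈ T, s ζ = ζ) :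
    ∃ w : Ω, w ≠ 0 ∧ ∀ s ∈ T, s w = ζ ^ (a s).val * w := by
  obtain ⟨F, hF, hlev⟩ := hlev
  obtain ⟨θ, hθ⟩ := s56fk_resolvent_ne (T := T) hζ hlev
  exact ⟨_, hθ, fun s hs => s56fk_resolvent_smul hadd hζ hlev hs (hζT s hs) θ⟩

end H90


section Dict

variable {K Ω : Type} [Field K] [Field Ω] [Algebra K Ω] {p : ℕ} [NeZero p]

/-- `w` is a **Kummer generator** for `a` on `T` (with respect to `ζ`). -/
def s56fk_IsGen (T : Subgroup (Ω ≃ₐ[K] Ω)) (a : (Ω ≃ₐ[K] Ω) → ZMod p) (ζ w : Ω) : Prop :=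
  ∀ s ∈ T, s w = ζ ^ (a s).val * w

/-- (i) the Kummer element `u = w ^ p` is fixed by `T`. -/
theorem s56fk_pow_fixed {T : Subgroup (Ω ≃ₐ[K] Ω)} {a : (Ω ≃ₐ[K] Ω) → ZMod p} {ζ w : Ω}
    (hζ : ζ ^ p = 1) (hw : s56fk_IsGen T a ζ w) {s : Ω ≃ₐ[K] Ω} (hs : s ∈ T) :
    s (w ^ p) = w ^ p := by
  rw [map_pow, hw s hs, mul_pow, ← pow_mul, mul_comm (a s).val, pow_mul, hζ, one_pow, one_mul]

/-- (ii) uniqueness: two Kummer generators for the same `a` differ by a `T`-fixed factor. -/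
theorem s56fk_gen_unique {T : Subgroup (Ω ≃ₐ[K] Ω)} {a : (Ω ≃ₐ[K] Ω) → ZMod p} {ζ w w' : Ω}
    (hζ : ζ ^ p = 1) (hw : s56fk_IsGen T a ζ w) (hw' : s56fk_IsGen T a ζ w')
    {s : Ω ≃ₐ[K] Ω} (hs : s ∈ T) : s (w' / w) = w' / w := by
  rw [map_div₀, hw s hs, hw' s hs, mul_div_mul_left _ _ (s56fk_pow_ne_zero hζ _)]

/-- (iii) equivariance: `τ w` is a Kummer generator on `τ T τ⁻¹` for `s ↦ a (τ⁻¹ s τ)`, with
respect to `τ ζ`. -/
theorem s56fk_gen_conj {T : Subgroup (Ω ≃ₐ[K] Ω)} {a : (Ω ≃ₐ[K] Ω) → ZMod p} {ζ w : Ω}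
    (hw : s56fk_IsGen T a ζ w) (τ : Ω ≃ₐ[K] Ω) {s : Ω ≃ₐ[K] Ω} (hs : τ⁻¹ * s * τ ∈ T) :
    s (τ w) = (τ ζ) ^ (a (τ⁻¹ * s * τ)).val * τ w := by
  have h := congrArg τ (hw _ hs)
  rw [map_mul, map_pow] at h
  rw [← h]
  simp only [AlgEquiv.mul_apply]
  rw [show τ (τ⁻¹ (s (τ w))) = s (τ w) from τ.apply_symm_apply _]

/-- (vi) products of Kummer generators. -/
theorem s56fk_gen_mul {T : Subgroup (Ω ≃ₐ[K] Ω)} {a b : (Ω ≃ₐ[K] Ω) → ZMod p} {ζ w w' : Ω}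
    (hζ : ζ ^ p = 1) (hw : s56fk_IsGen T a ζ w) (hw' : s56fk_IsGen T b ζ w') :
    s56fk_IsGen T (fun s => a s + b s) ζ (w * w') := by
  intro s hs
  rw [map_mul, hw s hs, hw' s hs, s56fk_pow_add hζ]
  ring

/-- (v) the kernel: `a s = 0 ↔ s w = w` on `T`. -/
theorem s56fk_gen_ker {T : Subgroup (Ω ≃ₐ[K] Ω)} {a : (Ω ≃ₐ[K] Ω) → ZMod p} {ζ w : Ω}
    (hζ : IsPrimitiveRoot ζ p) (hw0 : w ≠ 0) (hw : s56fk_IsGen T a ζ w)
    {s : Ω ≃ₐ[K] Ω} (hs : s ∈ T) : a s = 0 ↔ s w = w := by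
  constructor
  · intro h
    rw [hw s hs, h, s56fk_pow_zero, one_mul]
  · intro h
    have h1 := hw s hs
    rw [h] at h1
    have h2 : ζ ^ (a s).val = ζ ^ (0 : ZMod p).val := by
      rw [s56fk_pow_zero]
      exact (mul_right_cancel₀ hw0 (by rw [one_mul]; exact h1)).symm
    exact s56fk_pow_inj hζ h2

open Classical in
/-- the exponent of `y` relative to `w`: the `k` with `y = ζ ^ k * w`, if there is one. -/
def s56fk_expOf (p : ℕ) (ζ w y : Ω) : ZMod p :=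
  if h : ∃ k : ZMod p, y = ζ ^ k.val * w then Classical.choose h else 0

/-- the exponent function of an element `w` with `w ^ p` fixed by `T`. -/
def s56fk_exp (ζ w : Ω) (s : Ω ≃ₐ[K] Ω) : ZMod p := s56fk_expOf p ζ w (s w)

theorem s56fk_exp_spec {ζ w : Ω} {s : Ω ≃ₐ[K] Ω} (h : ∃ k : ZMod p, s w = ζ ^ k.val * w) :
    s w = ζ ^ (s56fk_exp (K := K) (p := p) ζ w s).val * w := by
  unfold s56fk_exp s56fk_expOf
  rw [dif_pos h]
  exact Classical.choose_spec h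

theorem s56fk_exp_congr {ζ w : Ω} {s t : Ω ≃ₐ[K] Ω} (h : s w = t w) :
    s56fk_exp (K := K) (p := p) ζ w s = s56fk_exp ζ w t := by
  unfold s56fk_exp
  rw [h]

/-- (iv) the converse dictionary: `w ≠ 0` with `w ^ p` fixed by `T` has an exponent function
which is additive on `T`, of finite level, and for which `w` is a Kummer generator. -/
theorem s56fk_converse [Algebra.IsAlgebraic K Ω] (T : Subgroup (Ω ≃ₐ[K] Ω)) {ζ w : Ω}
    (hζ : IsPrimitiveRoot ζ p) (hζT : ∀ s ∈ T, s ζ = ζ) (hw0 : w ≠ 0)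
    (hfix : ∀ s ∈ T, s (w ^ p) = w ^ p) :
    s56fk_IsGen T (s56fk_exp (p := p) ζ w) ζ w ∧
    (∀ s ∈ T, ∀ t ∈ T, s56fk_exp (K := K) (p := p) ζ w (s * t) =
      s56fk_exp ζ w s + s56fk_exp ζ w t) ∧
    ∃ F : IntermediateField K Ω, FiniteDimensional K F ∧
      ∀ σ s : Ω ≃ₐ[K] Ω, (∀ x ∈ F, s x = x) →
        s56fk_exp (K := K) (p := p) ζ w (σ * s) = s56fk_exp ζ w σ := by
  have hp : 0 < p := Nat.pos_of_ne_zero (NeZero.ne p)
  have hex : ∀ s ∈ T, ∃ k : ZMod p, s w = ζ ^ k.val * w := by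
    intro s hs
    have h1 : (s w / w) ^ p = 1 := by
      rw [div_pow, ← map_pow, hfix s hs, div_self (pow_ne_zero _ hw0)]
    obtain ⟨i, hi, hi'⟩ := hζ.eq_pow_of_pow_eq_one h1
    refine ⟨(i : ZMod p), ?_⟩
    rw [ZMod.val_cast_of_lt hi, hi', div_mul_cancel₀ _ hw0]
  have hgen : s56fk_IsGen T (s56fk_exp (p := p) ζ w) ζ w := fun s hs => s56fk_exp_spec (hex s hs)
  refine ⟨hgen, fun s hs t ht => ?_, IntermediateField.adjoin K {w}, ?_, fun σ s hs => ?_⟩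
  · have h1 := hgen (s * t) (T.mul_mem hs ht)
    rw [AlgEquiv.mul_apply, hgen t ht, map_mul, map_pow, hζT s hs, hgen s hs, ← mul_assoc,
      mul_comm (ζ ^ _) (ζ ^ _), ← s56fk_pow_add hζ.pow_eq_one] at h1
    exact (s56fk_pow_inj hζ (mul_right_cancel₀ hw0 h1)).symm
  · exact IntermediateField.adjoin.finiteDimensional (Algebra.IsIntegral.isIntegral w)
  · apply s56fk_exp_congr
    rw [AlgEquiv.mul_apply, hs w (IntermediateField.mem_adjoin_simple_self K w)]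

end Dict

end Fermat.Agent.S56
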