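/-
Project S56 (Taylor–Wiles primes), node [LOC-p-FLAT], cell [F-CLASS] part 3 (helper13).
Prefix `s56fc_`.  Namespace `Fermat.Agent.S56`.
ROOTS OF UNITY AND THE TAME KUMMER ELEMENT, abstract vocabulary (`hctx : mzo_Ctx r O L A Γ`).

* `s56fc_root_eq_one`   : the reduction is injective on the roots of unity of order prime to `r`;
* `s56fc_val_zeta`      : `v (ζ - 1) ^ (r - 1) = v r` for a primitive `r`-th root of unity `ζ`;
* `s56fc_theta_zeta`    : `σ ζ = ζ ^ a`  ⟹  `θ_{ζ - 1} (σ) = a`  (the cyclotomic character mod `r`);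
* `s56fc_orbit_full`    : `v ϖ ^ m = v r`, `ϖ ^ m` fixed by `Γ`, `ζ₀ ^ m = 1`  ⟹  `σ ϖ = ζ₀ ϖ` for
                          some `σ ∈ Γ` (the orbit of `ϖ` is the full set of roots of `X ^ m - ϖ ^ m`).
-/
import Mathlib
import Fermat.Agent.S56.Flat.Wild

set_option autoImplicit false
set_option linter.unusedSectionVars false

noncomputable section

namespace Fermat.Agent.S56

open Fermat.Agent.MZ Finset

section roots

variable {L : Type} [Field L] {A : ValuationSubring L}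

theorem s56fc_mem_of_sub_one {ξ : L} (h : A.valuation (ξ - 1) < 1) : ξ ∈ A := by
  have e : ξ = (ξ - 1) + 1 := by ring
  rw [e]
  exact add_mem ((A.valuation_le_one_iff _).mp h.le) A.one_mem

theorem s56fc_val_geom_le {ξ : L} (hξ : ξ ∈ A) (n : ℕ) :
    A.valuation (∑ i ∈ range n, ξ ^ i) ≤ 1 :=
  (A.valuation_le_one_iff _).mpr (sum_mem fun i _ => pow_mem hξ i)

theorem s56fc_pow_sub_one_lt {ξ : L} (h : A.valuation (ξ - 1) < 1) (n : ℕ) :
    A.valuation (ξ ^ n - 1) < 1 := by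
  rw [← mul_geom_sum, map_mul]
  exact mul_lt_one_of_nonneg_of_lt_one_left zero_le h
    (s56fc_val_geom_le (s56fc_mem_of_sub_one h) n)

/-- the reduction is injective on roots of unity of order prime to the residue characteristic. -/
theorem s56fc_root_eq_one {ξ : L} {m : ℕ} (hξ : ξ ^ m = 1) (hm : A.valuation (m : L) = 1)
    (h : A.valuation (ξ - 1) < 1) : ξ = 1 := by
  by_contra hne
  have h1 : (ξ - 1) * ∑ i ∈ range m, ξ ^ i = 0 := by rw [mul_geom_sum, hξ, sub_self]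
  have h2 : ∑ i ∈ range m, ξ ^ i = 0 :=
    (mul_eq_zero.mp h1).resolve_left (sub_ne_zero.mpr hne)
  have h3 : (m : L) = - ∑ i ∈ range m, (ξ ^ i - 1) := by
    rw [sum_sub_distrib, h2, sum_const, card_range, nsmul_eq_mul, mul_one]
    ring
  have h4 : A.valuation (∑ i ∈ range m, (ξ ^ i - 1)) < 1 :=
    A.valuation.map_sum_lt one_ne_zero fun i _ => s56fc_pow_sub_one_lt h i
  rw [h3, Valuation.map_neg] at hm
  rw [hm] at h4
  exact lt_irrefl _ h4

end roots

section cyc

variable {r : ℕ} {O : Type} [CommRing O] [IsDomain O] [IsDiscreteValuationRing O]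
  {L : Type} [Field L] [Algebra O L] {A : ValuationSubring L}
  {Γ : Type} [Group Γ] [MulSemiringAction Γ L]

theorem s56fc_val_root {ζ : L} {n : ℕ} (hn : 0 < n) (hζ : ζ ^ n = 1) : A.valuation ζ = 1 := by
  have h1 : A.valuation ζ ^ n = 1 := by rw [← map_pow, hζ, map_one]
  exact (pow_eq_one_iff_of_nonneg zero_le hn.ne').mp h1

/-- `v (1 - ζ ^ i) ≤ v (1 - ζ)`. -/
theorem s56fc_val_one_sub_pow_le {ζ : L} (hζ : ζ ∈ A) (i : ℕ) :
    A.valuation (1 - ζ ^ i) ≤ A.valuation (1 - ζ) := by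
  have e : 1 - ζ ^ i = (1 - ζ) * ∑ j ∈ range i, ζ ^ j := by
    have := mul_geom_sum ζ i
    linear_combination this
  rw [e, map_mul]
  exact mul_le_of_le_one_right' (s56fc_val_geom_le hζ i)

/-- **`v (ζ - 1) ^ (r - 1) = v r`** for a primitive `r`-th root of unity, `r` prime. -/
theorem s56fc_val_zeta (hr : r.Prime) {ζ : L} (hζ : IsPrimitiveRoot ζ r) :
    A.valuation (ζ - 1) ^ (r - 1) = A.valuation (r : L) := by
  classical
  have : NeZero r := ⟨hr.ne_zero⟩
  have hcyc := Polynomial.cyclotomic_eq_prod_X_sub_primitiveRoots (K := L) hζ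
  have h1 : ((r : ℕ) : L) = ∏ μ ∈ primitiveRoots r L, (1 - μ) := by
    have h2 := congrArg (Polynomial.eval 1) hcyc
    have : Fact r.Prime := ⟨hr⟩
    rw [Polynomial.eval_one_cyclotomic_prime, Polynomial.eval_prod] at h2
    rw [h2]
    refine Finset.prod_congr rfl fun μ _ => ?_
    simp
  have hval : ∀ μ ∈ primitiveRoots r L, A.valuation (1 - μ) = A.valuation (ζ - 1) := by
    intro μ hμ
    rw [mem_primitiveRoots hr.pos] at hμ
    obtain ⟨i, -, hi⟩ := hζ.eq_pow_of_pow_eq_one hμ.pow_eq_one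
    obtain ⟨i', -, hi'⟩ := hμ.eq_pow_of_pow_eq_one hζ.pow_eq_one
    have hζA : ζ ∈ A := (A.valuation_le_one_iff _).mp (s56fc_val_root hr.pos hζ.pow_eq_one).le
    have hμA : μ ∈ A := (A.valuation_le_one_iff _).mp (s56fc_val_root hr.pos hμ.pow_eq_one).le
    have e : A.valuation (ζ - 1) = A.valuation (1 - ζ) := by
      rw [← Valuation.map_neg, neg_sub]
    rw [e]
    refine le_antisymm ?_ ?_
    · rw [← hi]
      exact s56fc_val_one_sub_pow_le hζA i
    · rw [← hi']
      exact s56fc_val_one_sub_pow_le hμA i'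
  rw [h1, map_prod, Finset.prod_congr rfl hval, Finset.prod_const, hζ.card_primitiveRoots,
    Nat.totient_prime hr]

theorem s56fc_val_zeta_lt (hctx : mzo_Ctx r O L A Γ) {ζ : L} (hζ : IsPrimitiveRoot ζ r) :
    A.valuation (ζ - 1) < 1 := by
  have hr := hctx.r_prime
  have h1 := s56fc_val_zeta (A := A) hr hζ
  have hr1 : A.valuation (r : L) < 1 := by
    have := hctx.r_mem
    rwa [ValuationSubring.mem_nonunits_iff] at this
  by_contra hn
  rw [not_lt] at hn
  have h2 : 1 ≤ A.valuation (ζ - 1) ^ (r - 1) := one_le_pow_of_one_le' hn _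
  rw [h1] at h2
  exact absurd hr1 (not_lt.mpr h2)

theorem s56fc_zeta_sub_one_ne (hr : r.Prime) {ζ : L} (hζ : IsPrimitiveRoot ζ r) : ζ - 1 ≠ 0 :=
  sub_ne_zero.mpr (hζ.ne_one hr.one_lt)

/-- **the cyclotomic character**: `σ ζ = ζ ^ a`  ⟹  `θ_{ζ - 1} (σ) = a`. -/
theorem s56fc_theta_zeta (hctx : mzo_Ctx r O L A Γ) {ζ : L} (hζ : IsPrimitiveRoot ζ r) (σ : Γ)
    (a : ℕ) (hσ : σ • ζ = ζ ^ a) :
    s56fc_theta A σ (ζ - 1) = ((a : ℕ) : IsLocalRing.ResidueField ↥A) := by
  have hr := hctx.r_prime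
  have hne := s56fc_zeta_sub_one_ne (L := L) hr hζ
  have hlt := s56fc_val_zeta_lt hctx hζ
  have hζA : ζ ∈ A := s56fc_mem_of_sub_one hlt
  have e : σ • (ζ - 1) / (ζ - 1) = ∑ i ∈ range a, ζ ^ i := by
    rw [smul_sub, smul_one, hσ, ← mul_geom_sum, mul_div_cancel_left₀ _ hne]
  have hmem : σ • (ζ - 1) / (ζ - 1) ∈ A := by
    rw [e]
    exact sum_mem fun i _ => pow_mem hζA i
  rw [s56fc_theta_eq hmem]
  have h1 : ((a : ℕ) : IsLocalRing.ResidueField ↥A)
      = IsLocalRing.residue ↥A ⟨(a : L), natCast_mem A a⟩ := by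
    rw [← map_natCast (IsLocalRing.residue ↥A) a]
    rfl
  rw [h1, s56fc_residue_eq_iff]
  have e2 : σ • (ζ - 1) / (ζ - 1) - (a : L) = ∑ i ∈ range a, (ζ ^ i - 1) := by
    rw [e, sum_sub_distrib, sum_const, card_range, nsmul_eq_mul, mul_one]
  rw [e2]
  exact A.valuation.map_sum_lt one_ne_zero fun i _ => s56fc_pow_sub_one_lt hlt i

end cyc

section kummer

variable {r : ℕ} {O : Type} [CommRing O] [IsDomain O] [IsDiscreteValuationRing O]
  {L : Type} [Field L] [Algebra O L] {A : ValuationSubring L}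
  {Γ : Type} [Group Γ] [MulSemiringAction Γ L]

/-- **the orbit of a tame Kummer element is full**: if `ϖ ^ m` is fixed by `Γ` and
`v ϖ ^ m = v r`, then for every `ζ₀` with `ζ₀ ^ m = 1` some `σ ∈ Γ` has `σ ϖ = ζ₀ ϖ`. -/
theorem s56fc_orbit_full (hctx : mzo_Ctx r O L A Γ) {ϖ : L} {m : ℕ} (hm : 0 < m)
    (hfix : ∀ σ : Γ, σ • ϖ ^ m = ϖ ^ m) (hval : A.valuation ϖ ^ m = A.valuation (r : L))
    {ζ₀ : L} (hζ₀ : ζ₀ ^ m = 1) : ∃ σ : Γ, σ • ϖ = ζ₀ * ϖ := by
  classical
  have hr0 : 0 < A.valuation (r : L) := zero_lt_iff.mpr ((map_ne_zero _).mpr hctx.r_ne)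
  have hr1 : A.valuation (r : L) < 1 := by
    have := hctx.r_mem
    rwa [ValuationSubring.mem_nonunits_iff] at this
  have hϖ0 : A.valuation ϖ ≠ 0 := by
    intro h
    rw [h, zero_pow hm.ne'] at hval
    exact hr0.ne hval
  have hϖ1 : A.valuation ϖ < 1 := by
    by_contra hn
    rw [not_lt] at hn
    have h2 : 1 ≤ A.valuation ϖ ^ m := one_le_pow_of_one_le' hn _
    rw [hval] at h2
    exact absurd hr1 (not_lt.mpr h2)
  set c := ϖ ^ m with hc
  set S : Finset L := (Polynomial.nthRoots m c).toFinset with hS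
  have hmemS : ∀ y : L, y ∈ S ↔ y ^ m = c := fun y => by
    rw [hS, Multiset.mem_toFinset, Polynomial.mem_nthRoots hm]
  have hScard : S.card ≤ m :=
    (Multiset.toFinset_card_le _).trans (Polynomial.card_nthRoots m c)
  have hsub : MulAction.orbit Γ ϖ ⊆ (S : Set L) := by
    rintro _ ⟨σ, rfl⟩
    show σ • ϖ ∈ S
    rw [hmemS, ← smul_pow', hfix]
  have hfin : (MulAction.orbit Γ ϖ).Finite := S.finite_toSet.subset hsub
  have := hfin.fintype
  set N : L := ∏ y : ↥(MulAction.orbit Γ ϖ), (y : L) with hN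
  have hvaly : ∀ y : ↥(MulAction.orbit Γ ϖ), A.valuation (y : L) = A.valuation ϖ := by
    intro y
    have h1 : (y : L) ^ m = c := (hmemS _).mp (hsub y.2)
    have h2 : A.valuation (y : L) ^ m = A.valuation ϖ ^ m := by
      rw [← map_pow, h1, hc, map_pow]
    exact (pow_left_inj₀ zero_le zero_le hm.ne').mp h2
  have hNval : A.valuation N = A.valuation ϖ ^ Fintype.card ↥(MulAction.orbit Γ ϖ) := by
    rw [hN, map_prod, Finset.prod_congr rfl fun y _ => hvaly y, Finset.prod_const,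
      Finset.card_univ]
  have hNA : N ∈ A := by
    rw [← A.valuation_le_one_iff, hNval]
    exact pow_le_one' hϖ1.le _
  have hN0 : N ≠ 0 := by
    rw [← map_ne_zero A.valuation, hNval]
    exact pow_ne_zero _ hϖ0
  have hNfix : ∀ σ : Γ, σ • N = N := by
    intro σ
    have h1 : σ • N = ∏ y : ↥(MulAction.orbit Γ ϖ), ((σ • y : ↥(MulAction.orbit Γ ϖ)) : L) := by
      rw [hN, ← MulSemiringAction.toRingHom_apply, map_prod]
      refine Finset.prod_congr rfl fun y _ => ?_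
      rw [MulSemiringAction.toRingHom_apply, MulAction.orbit.coe_smul]
    rw [h1]
    exact Equiv.prod_comp (MulAction.toPerm σ) (fun y : ↥(MulAction.orbit Γ ϖ) => (y : L))
  obtain ⟨j, hj⟩ := s56fl_val_fixed hctx hNA hN0 hNfix
  rw [hNval, ← hval, ← pow_mul] at hj
  have hcard : Fintype.card ↥(MulAction.orbit Γ ϖ) = m * j :=
    (pow_right_injective₀ (zero_lt_iff.mpr hϖ0) hϖ1.ne) hj
  have hpos : 0 < Fintype.card ↥(MulAction.orbit Γ ϖ) :=
    Fintype.card_pos_iff.mpr ⟨⟨ϖ, MulAction.mem_orbit_self ϖ⟩⟩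
  have hj1 : 1 ≤ j := by
    by_contra h0
    have : j = 0 := by omega
    rw [this, mul_zero] at hcard
    omega
  have hge : m ≤ Fintype.card ↥(MulAction.orbit Γ ϖ) := by
    rw [hcard]
    exact Nat.le_mul_of_pos_right m hj1
  -- the orbit is all of `S`
  have hTS : hfin.toFinset = S := by
    refine Finset.eq_of_subset_of_card_le (fun y hy => ?_) ?_
    · exact hsub (hfin.mem_toFinset.mp hy)
    · rw [← Set.toFinset_card] at hge
      have e : (MulAction.orbit Γ ϖ).toFinset = hfin.toFinset := by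
        ext y
        simp
      rw [e] at hge
      exact hScard.trans hge
  have hmem : ζ₀ * ϖ ∈ S := by
    rw [hmemS, mul_pow, hζ₀, one_mul]
  rw [← hTS, hfin.mem_toFinset] at hmem
  obtain ⟨σ, hσ⟩ := hmem
  exact ⟨σ, hσ⟩

end kummer

end Fermat.Agent.S56
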