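/-
Project S56 (Taylor–Wiles primes), node [S56-FLAT], cell [S56-FLAT-L] (helper13).  Prefix `s56fl_`.
LEADING TERMS OF THE POINTS OF AN ORDER (the sharp `e = 1` lemma).  Mathlib + `MZ/Hopf` +
`S56/Flat/Near.lean`.

* `s56fl_exists_max`  : the values `v (φ x - φ 0)` (`φ ∈ H`, `x` in a finite set) have a maximum;
* `s56fl_delta`       : the reduced comultiplication `φ (x+y) - φ x - φ y + φ 0 = ∑ (aᵢ x - aᵢ 0)(bᵢ y - bᵢ 0)`;
* `s56fl_fwdDiff_le`  : the iterated differences `Δ_x^j φ` are `≤ c^j` if `v (ψ x - ψ 0) ≤ c` on `H`;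
* `s56fl_core`        : `r x = 0`  ⟹  `v r * v (φ x - φ 0) ≤ max (v r * c²) (c^r)`;
* `s56fl_sharp` (B1)  : `x ≠ 0`, `r x = 0`, `x ∈ X⁰`  ⟹  the maximal value `c` of `v (φ x - φ 0)`
                         satisfies `v r ≤ c ^ (r - 1)`  (no fixedness hypothesis).
-/
import Mathlib
import Fermat.Agent.S56.Flat.Near

set_option autoImplicit false
set_option linter.unusedSectionVars false

noncomputable section

namespace Fermat.Agent.S56

open Fermat.Agent.MZ Finset fwdDiff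

section

variable {r : ℕ} {O : Type} [CommRing O] [IsDomain O] [IsDiscreteValuationRing O]
  {L : Type} [Field L] [Algebra O L] {A : ValuationSubring L}
  {Γ : Type} [Group Γ] [MulSemiringAction Γ L]
  {G : Type} [AddCommGroup G] [DistribMulAction Γ G] {H : Subalgebra O (G → L)}

theorem s56fl_val_algebraMap_le (hctx : mzo_Ctx r O L A Γ) (o : O) :
    A.valuation (algebraMap O L o) ≤ 1 :=
  (A.valuation_le_one_iff _).mpr (hctx.mem_A o)

theorem s56fl_val_natCast_le (A : ValuationSubring L) (n : ℕ) : A.valuation (n : L) ≤ 1 :=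
  (A.valuation_le_one_iff _).mpr (natCast_mem A n)

/-- every function of an order is an `O`-combination of finitely many generators. -/
theorem s56fl_exists_repr (hH : mzo_IsOrder A Γ G H) :
    ∃ S₀ : Finset ↥H, ∀ φ ∈ H, ∃ f : ↥H → O,
      ∀ x : G, φ x = ∑ a ∈ S₀, algebraMap O L (f a) * (a : G → L) x := by
  obtain ⟨S₀, hS₀⟩ := hH.fin.fg_top
  refine ⟨S₀, fun φ hφ => ?_⟩
  have hmem : (⟨φ, hφ⟩ : ↥H) ∈ Submodule.span O (S₀ : Set ↥H) := by
    rw [hS₀]; exact Submodule.mem_top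
  obtain ⟨f, -, hf⟩ := Submodule.mem_span_finset.mp hmem
  refine ⟨f, fun x => ?_⟩
  have h1 := congrArg (fun ψ : ↥H => (ψ : G → L) x) hf
  simp only at h1
  rw [← h1, AddSubmonoidClass.coe_finsetSum, Finset.sum_apply]
  refine Finset.sum_congr rfl fun a _ => ?_
  rw [SetLike.val_smul, Pi.smul_apply, Algebra.smul_def]

/-- the values `v (φ x - φ 0)`, `φ ∈ H`, `x ∈ T`, have a maximum. -/
theorem s56fl_exists_max (hctx : mzo_Ctx r O L A Γ) (hH : mzo_IsOrder A Γ G H) (T : Finset G)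
    (hT : T.Nonempty) :
    ∃ φ₀ ∈ H, ∃ x₀ ∈ T, ∀ φ ∈ H, ∀ x ∈ T,
      A.valuation (φ x - φ 0) ≤ A.valuation (φ₀ x₀ - φ₀ 0) := by
  classical
  obtain ⟨S₀, hrepr⟩ := s56fl_exists_repr hH
  by_cases hne : S₀.Nonempty
  · obtain ⟨⟨a₀, x₀⟩, hmem, hmax⟩ := Finset.exists_max_image (S₀ ×ˢ T)
      (fun q => A.valuation ((q.1 : G → L) q.2 - (q.1 : G → L) 0)) (hne.product hT)
    refine ⟨a₀, a₀.2, x₀, (Finset.mem_product.mp hmem).2, fun φ hφ x hx => ?_⟩
    obtain ⟨f, hf⟩ := hrepr φ hφ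
    rw [hf x, hf 0, ← Finset.sum_sub_distrib]
    refine A.valuation.map_sum_le fun a ha => ?_
    rw [← mul_sub, map_mul]
    calc A.valuation (algebraMap O L (f a)) * A.valuation ((a : G → L) x - (a : G → L) 0)
        ≤ 1 * A.valuation ((a : G → L) x - (a : G → L) 0) :=
          mul_le_mul_left (s56fl_val_algebraMap_le hctx _) _
      _ = A.valuation ((a : G → L) x - (a : G → L) 0) := one_mul _
      _ ≤ _ := hmax (a, x) (Finset.mem_product.mpr ⟨ha, hx⟩)
  · exfalso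
    rw [Finset.not_nonempty_iff_eq_empty] at hne
    obtain ⟨f, hf⟩ := hrepr 1 H.one_mem
    have := hf 0
    rw [hne, Finset.sum_empty, Pi.one_apply] at this
    exact one_ne_zero this

/-- the reduced comultiplication. -/
theorem s56fl_delta (hH : mzo_IsOrder A Γ G H) {φ : G → L} (hφ : φ ∈ H) :
    ∃ (n : ℕ) (a b : Fin n → G → L), (∀ i, a i ∈ H) ∧ (∀ i, b i ∈ H) ∧
      (∀ x y : G, φ (x + y) - φ x - φ y + φ 0 = ∑ i, (a i x - a i 0) * (b i y - b i 0)) ∧
      ∀ x y : G, φ (y + x) - φ y = ∑ i, (b i x - b i 0) * a i y := by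
  obtain ⟨n, a, b, ha, hb, h⟩ := hH.comul φ hφ
  refine ⟨n, a, b, ha, hb, fun x y => ?_, fun x y => ?_⟩
  · have e1 : φ (x + 0) = ∑ i, a i x * b i 0 := h x 0
    have e2 : φ (0 + y) = ∑ i, a i 0 * b i y := h 0 y
    have e3 : φ ((0 : G) + 0) = ∑ i, a i 0 * b i 0 := h 0 0
    rw [add_zero] at e1 e3
    rw [zero_add] at e2
    have e4 : ∑ i, (a i x - a i 0) * (b i y - b i 0)
        = (∑ i, a i x * b i y) - (∑ i, a i x * b i 0) - (∑ i, a i 0 * b i y)
          + ∑ i, a i 0 * b i 0 := by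
      rw [← Finset.sum_sub_distrib, ← Finset.sum_sub_distrib, ← Finset.sum_add_distrib]
      refine Finset.sum_congr rfl fun i _ => ?_
      ring
    rw [e4, ← e1, ← e2, ← e3, h]
  · have e1 : φ (y + 0) = ∑ i, a i y * b i 0 := h y 0
    rw [add_zero] at e1
    rw [h, e1, ← Finset.sum_sub_distrib]
    refine Finset.sum_congr rfl fun i _ => ?_
    ring

/-- the iterated differences `Δ_x^j φ` of the functions of an order are `≤ c ^ j`. -/
theorem s56fl_fwdDiff_le (hH : mzo_IsOrder A Γ G H) {x : G} {c : A.ValueGroup}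
    (hc : ∀ ψ ∈ H, A.valuation (ψ x - ψ 0) ≤ c) (j : ℕ) :
    ∀ φ ∈ H, ∀ y : G, A.valuation (((fwdDiff x)^[j] φ) y) ≤ c ^ j := by
  induction j with
  | zero =>
    intro φ hφ y
    rw [Function.iterate_zero, id_eq, pow_zero]
    exact (A.valuation_le_one_iff _).mpr (hH.int φ hφ y)
  | succ j ih =>
    intro φ hφ y
    obtain ⟨n, a, b, ha, hb, -, h2⟩ := s56fl_delta hH hφ
    have e : fwdDiff x φ = ∑ i, (b i x - b i 0) • a i := by
      funext y
      rw [fwdDiff, h2, Finset.sum_apply]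
      refine Finset.sum_congr rfl fun i _ => ?_
      rw [Pi.smul_apply, smul_eq_mul]
    rw [Function.iterate_succ_apply, e, fwdDiff_iter_finsetSum, Finset.sum_apply]
    refine A.valuation.map_sum_le fun i _ => ?_
    rw [fwdDiff_iter_const_smul, Pi.smul_apply, smul_eq_mul, map_mul, pow_succ, mul_comm]
    exact mul_le_mul' (ih (a i) (ha i) y) (hc (b i) (hb i))

end

section

variable {r : ℕ} {O : Type} [CommRing O] [IsDomain O] [IsDiscreteValuationRing O]
  {L : Type} [Field L] [Algebra O L] {A : ValuationSubring L}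
  {Γ : Type} [Group Γ] [MulSemiringAction Γ L]
  {G : Type} [AddCommGroup G] [DistribMulAction Γ G] {H : Subalgebra O (G → L)}

/-- **(B1), core**: `r x = 0` and `v (ψ x - ψ 0) ≤ c ≤ 1` for all `ψ ∈ H`  ⟹
`v r * v (φ x - φ 0) ≤ max (v r * c²) (c ^ r)` for all `φ ∈ H`. -/
theorem s56fl_core (hctx : mzo_Ctx r O L A Γ) (hH : mzo_IsOrder A Γ G H) {x : G}
    (hrx : r • x = 0) {c : A.ValueGroup} (hc1 : c ≤ 1)
    (hc : ∀ ψ ∈ H, A.valuation (ψ x - ψ 0) ≤ c) {φ : G → L} (hφ : φ ∈ H) :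
    A.valuation (r : L) * A.valuation (φ x - φ 0)
      ≤ max (A.valuation (r : L) * c ^ 2) (c ^ r) := by
  have hr := hctx.r_prime
  have hr2 : 2 ≤ r := hr.two_le
  have hN := shift_eq_sum_fwdDiff_iter x φ r 0
  rw [zero_add, hrx, Finset.range_eq_Ico, Finset.sum_eq_sum_Ico_succ_bot (by omega),
    Finset.sum_eq_sum_Ico_succ_bot (by omega)] at hN
  simp only [Nat.choose_zero_right, Function.iterate_zero, id_eq, one_smul, zero_add,
    Nat.choose_one_right, Function.iterate_one, nsmul_eq_mul] at hN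
  have hd : fwdDiff x φ 0 = φ x - φ 0 := by rw [fwdDiff, zero_add]
  rw [hd] at hN
  have key : (r : L) * (φ x - φ 0)
      = - ∑ k ∈ Finset.Ico 2 (r + 1), ((r.choose k : ℕ) : L) * ((fwdDiff x)^[k] φ) 0 := by
    linear_combination -hN
  rw [← map_mul, key, Valuation.map_neg]
  refine A.valuation.map_sum_le fun k hk => ?_
  rw [Finset.mem_Ico] at hk
  have hfd := s56fl_fwdDiff_le hH hc k φ hφ 0
  rw [map_mul]
  rcases Nat.lt_or_ge k r with hkr | hkr
  · -- `r ∣ choose r k`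
    refine le_trans ?_ (le_max_left _ _)
    obtain ⟨m, hm⟩ := hr.dvd_choose_self (by omega) hkr
    have h1 : A.valuation ((r.choose k : ℕ) : L) ≤ A.valuation (r : L) := by
      rw [hm, Nat.cast_mul, map_mul]
      calc A.valuation (r : L) * A.valuation (m : L) ≤ A.valuation (r : L) * 1 :=
            mul_le_mul_right (s56fl_val_natCast_le A m) _
        _ = A.valuation (r : L) := mul_one _
    have h2 : c ^ k ≤ c ^ 2 := pow_le_pow_right_of_le_one' hc1 hk.1
    exact mul_le_mul' h1 (hfd.trans h2)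
  · have hk' : k = r := by omega
    subst hk'
    refine le_trans ?_ (le_max_right _ _)
    rw [Nat.choose_self, Nat.cast_one, map_one, one_mul]
    exact hfd

/-- **(B1), the sharp `e = 1` lemma**: a point `x ≠ 0` of the connected part with `r x = 0`; the
maximal value `c = v (φ x - φ 0)` (`φ ∈ H`) satisfies `v r ≤ c ^ (r - 1)`.  No fixedness hypothesis
on `x`. -/
theorem s56fl_sharp (hctx : mzo_Ctx r O L A Γ) (hH : mzo_IsOrder A Γ G H) {x : G} (hx0 : x ≠ 0)
    (hrx : r • x = 0) (hx : x ∈ s56fl_X0 hH) :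
    ∃ φ ∈ H, (∀ ψ ∈ H, A.valuation (ψ x - ψ 0) ≤ A.valuation (φ x - φ 0)) ∧
      A.valuation (φ x - φ 0) ≠ 0 ∧ A.valuation (φ x - φ 0) < 1 ∧
      A.valuation (r : L) ≤ A.valuation (φ x - φ 0) ^ (r - 1) := by
  classical
  obtain ⟨φ, hφ, x₀, hx₀, hmax⟩ := s56fl_exists_max hctx hH {x} (Finset.singleton_nonempty x)
  rw [Finset.mem_singleton] at hx₀
  subst hx₀
  have hmax' : ∀ ψ ∈ H, A.valuation (ψ x₀ - ψ 0) ≤ A.valuation (φ x₀ - φ 0) :=
    fun ψ hψ => hmax ψ hψ x₀ (Finset.mem_singleton_self x₀)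
  set c := A.valuation (φ x₀ - φ 0) with hcdef
  have hc0 : c ≠ 0 := by
    obtain ⟨ψ, hψ, hne⟩ := hH.sep x₀ 0 hx0
    have h1 : A.valuation (ψ x₀ - ψ 0) ≠ 0 := (map_ne_zero _).mpr (sub_ne_zero.mpr hne)
    intro h0
    have h2 := hmax' ψ hψ
    rw [h0, le_zero_iff] at h2
    exact h1 h2
  have hc1 : c < 1 := by
    have := (s56fl_mem_X0 hH x₀).mp hx φ hφ
    rwa [ValuationSubring.mem_nonunits_iff] at this
  refine ⟨φ, hφ, hmax', hc0, hc1, ?_⟩
  have hcore := s56fl_core hctx hH hrx hc1.le hmax' hφ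
  rw [← hcdef] at hcore
  have hr0 : A.valuation (r : L) ≠ 0 := (map_ne_zero _).mpr hctx.r_ne
  have hcpos : 0 < c := zero_lt_iff.mpr hc0
  rcases le_max_iff.mp hcore with h | h
  · exfalso
    have h1 : c ≤ c ^ 2 := (mul_le_mul_iff_right₀ (zero_lt_iff.mpr hr0)).mp h
    rw [pow_two] at h1
    have h2 : c * c < c * 1 := (mul_lt_mul_iff_right₀ hcpos).mpr hc1
    rw [mul_one] at h2
    exact absurd h1 (not_le.mpr h2)
  · have hr1 : c ^ r = c ^ (r - 1) * c := by
      rw [← pow_succ]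
      congr 1
      have := hctx.r_prime.two_le
      omega
    rw [hr1] at h
    exact (mul_le_mul_iff_left₀ hcpos).mp h

end

end Fermat.Agent.S56
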