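/-
Project S56, node [LOC-p-FLAT] (owner helper27), cell F-PROD (helper17).  Prefix `s56fp_`.
THE PRODUCT OF TWO ORDERS IS AN ORDER FOR THE PRODUCT GROUP.

`H₁ ⊆ Map(G₁, L)`, `H₂ ⊆ Map(G₂, L)` orders for the `Γ`-modules `G₁`, `G₂`:
`s56fp_prod H₁ H₂ ⊆ Map(G₁ × G₂, L)` := the `O`-subalgebra generated by the `φ ∘ fst` (`φ ∈ H₁`)
and the `ψ ∘ snd` (`ψ ∈ H₂`) `= H₁ ⊗ H₂`.
* `s56fp_isOrder`     : it is an order for `G₁ × G₂` (componentwise action);
* `s56fp_fst_mem`, `s56fp_snd_mem`, `s56fp_mul_mem`;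
* `s56fp_restr_inl`, `s56fp_restr_inr` : its restrictions to the two factors are `H₁`, `H₂`;
* `s56fp_single`      : `λ₁ δ₀ ∈ H₁`, `λ₂ δ₀ ∈ H₂ ⟹ λ₁ λ₂ δ₀ ∈ H₁ ⊗ H₂`.
Mathlib + `MZ/Hopf/Defs`.
-/
import Mathlib
import Fermat.Agent.MZ.Hopf.Defs
import Fermat.Agent.MZ.Hopf.Ctx

set_option autoImplicit false
set_option linter.unusedSectionVars false
set_option linter.style.haveILetI false

noncomputable section

namespace Fermat.Agent.S56

open Fermat.Agent.MZ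

variable {O : Type} [CommRing O] {L : Type} [Field L] [Algebra O L]
  {G₁ G₂ : Type}

/-- pull back along the first projection, as an algebra homomorphism -/
def s56fp_fstHom (O L G₁ G₂ : Type) [CommRing O] [Field L] [Algebra O L] :
    (G₁ → L) →ₐ[O] (G₁ × G₂ → L) where
  toFun φ := φ ∘ Prod.fst
  map_one' := rfl
  map_mul' _ _ := rfl
  map_zero' := rfl
  map_add' _ _ := rfl
  commutes' _ := rfl

/-- pull back along the second projection, as an algebra homomorphism -/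
def s56fp_sndHom (O L G₁ G₂ : Type) [CommRing O] [Field L] [Algebra O L] :
    (G₂ → L) →ₐ[O] (G₁ × G₂ → L) where
  toFun φ := φ ∘ Prod.snd
  map_one' := rfl
  map_mul' _ _ := rfl
  map_zero' := rfl
  map_add' _ _ := rfl
  commutes' _ := rfl

/-- **the product order** `H₁ ⊗ H₂ ⊆ Map(G₁ × G₂, L)` -/
def s56fp_prod (H₁ : Subalgebra O (G₁ → L)) (H₂ : Subalgebra O (G₂ → L)) :
    Subalgebra O (G₁ × G₂ → L) :=
  H₁.map (s56fp_fstHom O L G₁ G₂) ⊔ H₂.map (s56fp_sndHom O L G₁ G₂)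

theorem s56fp_fst_mem {H₁ : Subalgebra O (G₁ → L)} (H₂ : Subalgebra O (G₂ → L)) {φ : G₁ → L}
    (hφ : φ ∈ H₁) : φ ∘ Prod.fst ∈ s56fp_prod H₁ H₂ :=
  (le_sup_left : H₁.map (s56fp_fstHom O L G₁ G₂) ≤ _) ⟨φ, hφ, rfl⟩

theorem s56fp_snd_mem (H₁ : Subalgebra O (G₁ → L)) {H₂ : Subalgebra O (G₂ → L)} {ψ : G₂ → L}
    (hψ : ψ ∈ H₂) : ψ ∘ Prod.snd ∈ s56fp_prod H₁ H₂ :=
  (le_sup_right : H₂.map (s56fp_sndHom O L G₁ G₂) ≤ _) ⟨ψ, hψ, rfl⟩

theorem s56fp_mul_mem {H₁ : Subalgebra O (G₁ → L)} {H₂ : Subalgebra O (G₂ → L)} {φ : G₁ → L}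
    {ψ : G₂ → L} (hφ : φ ∈ H₁) (hψ : ψ ∈ H₂) :
    (fun x : G₁ × G₂ => φ x.1 * ψ x.2) ∈ s56fp_prod H₁ H₂ :=
  (s56fp_prod H₁ H₂).mul_mem (s56fp_fst_mem H₂ hφ) (s56fp_snd_mem H₁ hψ)

/-- induction principle for the product order -/
theorem s56fp_induction {H₁ : Subalgebra O (G₁ → L)} {H₂ : Subalgebra O (G₂ → L)}
    {C : (G₁ × G₂ → L) → Prop}
    (h1 : ∀ φ ∈ H₁, C (φ ∘ Prod.fst)) (h2 : ∀ ψ ∈ H₂, C (ψ ∘ Prod.snd))
    (hadd : ∀ f g, C f → C g → C (f + g)) (hmul : ∀ f g, C f → C g → C (f * g))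
    {f : G₁ × G₂ → L} (hf : f ∈ s56fp_prod H₁ H₂) : C f := by
  have hsup : s56fp_prod H₁ H₂ = Algebra.adjoin O
      ((H₁.map (s56fp_fstHom O L G₁ G₂) : Set (G₁ × G₂ → L)) ∪
        (H₂.map (s56fp_sndHom O L G₁ G₂) : Set (G₁ × G₂ → L))) := by
    rw [s56fp_prod, Algebra.adjoin_union, Algebra.adjoin_eq, Algebra.adjoin_eq]
  rw [hsup] at hf
  induction hf using Algebra.adjoin_induction with
  | mem x hx =>
    rcases hx with ⟨φ, hφ, rfl⟩ | ⟨ψ, hψ, rfl⟩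
    · exact h1 φ hφ
    · exact h2 ψ hψ
  | algebraMap c =>
    have : algebraMap O (G₁ × G₂ → L) c = (algebraMap O (G₁ → L) c) ∘ Prod.fst := rfl
    rw [this]
    exact h1 _ (H₁.algebraMap_mem c)
  | add f g _ _ hf hg => exact hadd f g hf hg
  | mul f g _ _ hf hg => exact hmul f g hf hg

section order

variable {A : ValuationSubring L} {Γ : Type} [Group Γ] [MulSemiringAction Γ L]
  [AddCommGroup G₁] [DistribMulAction Γ G₁] [AddCommGroup G₂] [DistribMulAction Γ G₂]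

/-- decompositions `f (x + y) = ∑ aᵢ x bᵢ y` over an arbitrary finite index type -/
theorem s56fp_dec_of_fintype {G : Type} [Add G] (H : Subalgebra O (G → L)) {ι : Type} [Fintype ι]
    (a b : ι → G → L) (ha : ∀ i, a i ∈ H) (hb : ∀ i, b i ∈ H) {f : G → L}
    (hf : ∀ x y : G, f (x + y) = ∑ i, a i x * b i y) :
    ∃ (n : ℕ) (a b : Fin n → G → L), (∀ i, a i ∈ H) ∧ (∀ i, b i ∈ H) ∧
      ∀ x y : G, f (x + y) = ∑ i, a i x * b i y := by
  refine ⟨Fintype.card ι, fun j => a ((Fintype.equivFin ι).symm j),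
    fun j => b ((Fintype.equivFin ι).symm j), fun j => ha _, fun j => hb _, fun x y => ?_⟩
  rw [hf]
  exact (Equiv.sum_comp (Fintype.equivFin ι).symm (fun i => a i x * b i y)).symm

/-- **the product of two orders is an order** -/
theorem s56fp_isOrder {H₁ : Subalgebra O (G₁ → L)} {H₂ : Subalgebra O (G₂ → L)}
    (hH₁ : mzo_IsOrder A Γ G₁ H₁) (hH₂ : mzo_IsOrder A Γ G₂ H₂) :
    mzo_IsOrder A Γ (G₁ × G₂) (s56fp_prod H₁ H₂) where
  int := by
    intro f hf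
    refine s56fp_induction (C := fun f => ∀ x, f x ∈ A) ?_ ?_ ?_ ?_ hf
    · intro φ hφ x
      exact hH₁.int φ hφ x.1
    · intro ψ hψ x
      exact hH₂.int ψ hψ x.2
    · intro f g hf hg x
      exact A.add_mem _ _ (hf x) (hg x)
    · intro f g hf hg x
      exact A.mul_mem _ _ (hf x) (hg x)
  equiv := by
    intro f hf
    refine s56fp_induction (C := fun f => ∀ (σ : Γ) (x : G₁ × G₂), f (σ • x) = σ • f x)
      ?_ ?_ ?_ ?_ hf
    · intro φ hφ σ x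
      exact hH₁.equiv φ hφ σ x.1
    · intro ψ hψ σ x
      exact hH₂.equiv ψ hψ σ x.2
    · intro f g hf hg σ x
      rw [Pi.add_apply, Pi.add_apply, hf, hg, smul_add]
    · intro f g hf hg σ x
      rw [Pi.mul_apply, Pi.mul_apply, hf, hg, smul_mul']
  sep := by
    intro x y hxy
    by_cases h1 : x.1 = y.1
    · have h2 : x.2 ≠ y.2 := fun h2 => hxy (Prod.ext h1 h2)
      obtain ⟨ψ, hψ, h⟩ := hH₂.sep x.2 y.2 h2
      exact ⟨ψ ∘ Prod.snd, s56fp_snd_mem H₁ hψ, h⟩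
    · obtain ⟨φ, hφ, h⟩ := hH₁.sep x.1 y.1 h1
      exact ⟨φ ∘ Prod.fst, s56fp_fst_mem H₂ hφ, h⟩
  fin := by
    haveI := hH₁.fin
    haveI := hH₂.fin
    haveI : Module.Finite O ↥(H₁.map (s56fp_fstHom O L G₁ G₂)) :=
      Module.Finite.of_surjective
        ((s56fp_fstHom O L G₁ G₂).toLinearMap.restrict (p := Subalgebra.toSubmodule H₁)
          (q := Subalgebra.toSubmodule (H₁.map (s56fp_fstHom O L G₁ G₂)))
          (fun φ hφ => ⟨φ, hφ, rfl⟩))
        (by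
          rintro ⟨_, φ, hφ, rfl⟩
          exact ⟨⟨φ, hφ⟩, rfl⟩)
    haveI : Module.Finite O ↥(H₂.map (s56fp_sndHom O L G₁ G₂)) :=
      Module.Finite.of_surjective
        ((s56fp_sndHom O L G₁ G₂).toLinearMap.restrict (p := Subalgebra.toSubmodule H₂)
          (q := Subalgebra.toSubmodule (H₂.map (s56fp_sndHom O L G₁ G₂)))
          (fun φ hφ => ⟨φ, hφ, rfl⟩))
        (by
          rintro ⟨_, φ, hφ, rfl⟩
          exact ⟨⟨φ, hφ⟩, rfl⟩)
    exact Subalgebra.finite_sup _ _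
  comul := by
    intro f hf
    refine s56fp_induction (C := fun f => ∃ (n : ℕ) (a b : Fin n → G₁ × G₂ → L),
      (∀ i, a i ∈ s56fp_prod H₁ H₂) ∧ (∀ i, b i ∈ s56fp_prod H₁ H₂) ∧
        ∀ x y : G₁ × G₂, f (x + y) = ∑ i, a i x * b i y) ?_ ?_ ?_ ?_ hf
    · intro φ hφ
      obtain ⟨n, a, b, ha, hb, h⟩ := hH₁.comul φ hφ
      exact ⟨n, fun i => a i ∘ Prod.fst, fun i => b i ∘ Prod.fst,
        fun i => s56fp_fst_mem H₂ (ha i), fun i => s56fp_fst_mem H₂ (hb i),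
        fun x y => h x.1 y.1⟩
    · intro ψ hψ
      obtain ⟨n, a, b, ha, hb, h⟩ := hH₂.comul ψ hψ
      exact ⟨n, fun i => a i ∘ Prod.snd, fun i => b i ∘ Prod.snd,
        fun i => s56fp_snd_mem H₁ (ha i), fun i => s56fp_snd_mem H₁ (hb i),
        fun x y => h x.2 y.2⟩
    · rintro f g ⟨n, a, b, ha, hb, h⟩ ⟨n', a', b', ha', hb', h'⟩
      refine s56fp_dec_of_fintype (s56fp_prod H₁ H₂) (ι := Fin n ⊕ Fin n') (Sum.elim a a')
        (Sum.elim b b') ?_ ?_ ?_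
      · rintro (i | i)
        · exact ha i
        · exact ha' i
      · rintro (i | i)
        · exact hb i
        · exact hb' i
      · intro x y
        rw [Fintype.sum_sum_type, Pi.add_apply, h, h']
        rfl
    · rintro f g ⟨n, a, b, ha, hb, h⟩ ⟨n', a', b', ha', hb', h'⟩
      refine s56fp_dec_of_fintype (s56fp_prod H₁ H₂) (ι := Fin n × Fin n')
        (fun i => a i.1 * a' i.2) (fun i => b i.1 * b' i.2)
        (fun i => (s56fp_prod H₁ H₂).mul_mem (ha _) (ha' _))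
        (fun i => (s56fp_prod H₁ H₂).mul_mem (hb _) (hb' _)) ?_
      intro x y
      rw [Pi.mul_apply, h, h', Finset.sum_mul_sum, Fintype.sum_prod_type]
      refine Finset.sum_congr rfl fun i _ => Finset.sum_congr rfl fun j _ => ?_
      simp only [Pi.mul_apply]
      ring

end order

section restr

variable {r : ℕ} [IsDomain O] [IsDiscreteValuationRing O] {A : ValuationSubring L}
  {Γ : Type} [Group Γ] [MulSemiringAction Γ L]
  [AddCommGroup G₁] [DistribMulAction Γ G₁] [AddCommGroup G₂] [DistribMulAction Γ G₂]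

/-- the value at `0` of an element of an order lies in `O` -/
theorem s56fp_counit (hctx : mzo_Ctx r O L A Γ) {G : Type} [AddCommGroup G]
    [DistribMulAction Γ G] {H : Subalgebra O (G → L)} (hH : mzo_IsOrder A Γ G H) {φ : G → L}
    (hφ : φ ∈ H) : ∃ o : O, algebraMap O L o = φ 0 :=
  hctx.exists_of_fixed (hH.int φ hφ 0) (fun σ => by rw [← hH.equiv φ hφ σ 0, smul_zero])

/-- the restriction of the product order to the first factor is `H₁` -/
theorem s56fp_restr_inl (hctx : mzo_Ctx r O L A Γ) {H₁ : Subalgebra O (G₁ → L)}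
    {H₂ : Subalgebra O (G₂ → L)} (hH₂ : mzo_IsOrder A Γ G₂ H₂) :
    mzo_restr (fun x : G₁ => ((x, 0) : G₁ × G₂)) (s56fp_prod H₁ H₂) = H₁ := by
  apply le_antisymm
  · rintro _ ⟨f, hf, rfl⟩
    refine s56fp_induction (C := fun f => f ∘ (fun x : G₁ => ((x, 0) : G₁ × G₂)) ∈ H₁)
      ?_ ?_ ?_ ?_ hf
    · intro φ hφ
      exact hφ
    · intro ψ hψ
      obtain ⟨o, ho⟩ := s56fp_counit hctx hH₂ hψ
      have : (ψ ∘ Prod.snd) ∘ (fun x : G₁ => ((x, 0) : G₁ × G₂)) = algebraMap O (G₁ → L) o := by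
        funext x
        show ψ 0 = algebraMap O L o
        rw [ho]
      rw [this]
      exact H₁.algebraMap_mem o
    · intro f g hf hg
      exact H₁.add_mem hf hg
    · intro f g hf hg
      exact H₁.mul_mem hf hg
  · intro φ hφ
    exact ⟨φ ∘ Prod.fst, s56fp_fst_mem H₂ hφ, rfl⟩

/-- the restriction of the product order to the second factor is `H₂` -/
theorem s56fp_restr_inr (hctx : mzo_Ctx r O L A Γ) {H₁ : Subalgebra O (G₁ → L)}
    {H₂ : Subalgebra O (G₂ → L)} (hH₁ : mzo_IsOrder A Γ G₁ H₁) :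
    mzo_restr (fun y : G₂ => ((0, y) : G₁ × G₂)) (s56fp_prod H₁ H₂) = H₂ := by
  apply le_antisymm
  · rintro _ ⟨f, hf, rfl⟩
    refine s56fp_induction (C := fun f => f ∘ (fun y : G₂ => ((0, y) : G₁ × G₂)) ∈ H₂)
      ?_ ?_ ?_ ?_ hf
    · intro φ hφ
      obtain ⟨o, ho⟩ := s56fp_counit hctx hH₁ hφ
      have : (φ ∘ Prod.fst) ∘ (fun y : G₂ => ((0, y) : G₁ × G₂)) = algebraMap O (G₂ → L) o := by
        funext x
        show φ 0 = algebraMap O L o
        rw [ho]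
      rw [this]
      exact H₂.algebraMap_mem o
    · intro ψ hψ
      exact hψ
    · intro f g hf hg
      exact H₂.add_mem hf hg
    · intro f g hf hg
      exact H₂.mul_mem hf hg
  · intro ψ hψ
    exact ⟨ψ ∘ Prod.snd, s56fp_snd_mem H₁ hψ, rfl⟩

end restr

section single

variable [AddCommGroup G₁] [AddCommGroup G₂] [DecidableEq G₁] [DecidableEq G₂]

/-- Larson's ideals multiply: `λ₁ δ₀ ∈ H₁`, `λ₂ δ₀ ∈ H₂ ⟹ λ₁ λ₂ δ₀ ∈ H₁ ⊗ H₂` -/
theorem s56fp_single {H₁ : Subalgebra O (G₁ → L)} {H₂ : Subalgebra O (G₂ → L)} {l1 l2 : L}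
    (h1 : l1 • (Pi.single 0 1 : G₁ → L) ∈ H₁) (h2 : l2 • (Pi.single 0 1 : G₂ → L) ∈ H₂) :
    (l1 * l2) • (Pi.single 0 1 : G₁ × G₂ → L) ∈ s56fp_prod H₁ H₂ := by
  have h3 := s56fp_mul_mem h1 h2
  have h4 : (fun x : G₁ × G₂ => (l1 • (Pi.single 0 1 : G₁ → L)) x.1 *
      (l2 • (Pi.single 0 1 : G₂ → L)) x.2) = (l1 * l2) • (Pi.single 0 1 : G₁ × G₂ → L) := by
    funext x
    simp only [Pi.smul_apply, Pi.single_apply, smul_eq_mul]
    by_cases hx1 : x.1 = 0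
    · by_cases hx2 : x.2 = 0
      · have hx : x = 0 := Prod.ext hx1 hx2
        rw [if_pos hx1, if_pos hx2, if_pos hx]
        ring
      · have hx : x ≠ 0 := fun h => hx2 (by rw [h]; rfl)
        rw [if_neg hx2, if_neg hx]
        ring
    · have hx : x ≠ 0 := fun h => hx1 (by rw [h]; rfl)
      rw [if_neg hx1, if_neg hx]
      ring
  rwa [h4] at h3

end single

end Fermat.Agent.S56
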