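/-
Project S56, node [LOC-p-FLAT], supersingular case (helper27).  Prefix `s56fr_`.
GLUE for the final assembly:

* `s56fr_extend`   : a ring homomorphism from a subring of a finite field `k` to an algebraically
                     closed field extends to `k`;
* `s56fr_E`, `s56fr_g` : the base change matrix of a basis `e₁, e₂` of `k²` and the conjugating
                     element `g = E⁻¹` of `GL₂(k)`; `s56fr_conj_eq`: the matrix of `M` in the basis;
* `s56fr_two_dvd`  : an element `x ∈ k` with `x ^ p² = x ≠ x ^ p` forces `2 ∣ [k : 𝔽_p]`.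
-/
import Mathlib
import Fermat.Agent.S56.Flat.Conj
import Fermat.Agent.S56.Flat.Cliff

set_option autoImplicit false
set_option linter.unusedSectionVars false
set_option linter.style.haveILetI false

noncomputable section

namespace Fermat.Agent.S56

open Fermat.Agent.S53 Matrix

/-! ### extension of embeddings -/

theorem s56fr_extend {k : Type} [Field k] [Finite k] (F : Subring k) {𝕜 : Type} [Field 𝕜]
    [IsAlgClosed 𝕜] (ι : ↥F →+* 𝕜) : ∃ ι₀ : k →+* 𝕜, ∀ x : ↥F, ι₀ (x : k) = ι x := by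
  letI : Algebra ↥F 𝕜 := ι.toAlgebra
  haveI : Finite ↥F := inferInstance
  haveI hFf : IsField ↥F := Finite.isDomain_to_isField ↥F
  letI : Field ↥F := hFf.toField
  haveI : Algebra.IsAlgebraic ↥F k := Algebra.IsAlgebraic.of_finite ↥F k
  refine ⟨(IsAlgClosed.lift (R := ↥F) (S := k) (M := 𝕜)).toRingHom, fun x => ?_⟩
  have := (IsAlgClosed.lift (R := ↥F) (S := k) (M := 𝕜)).commutes x
  exact this

/-! ### the eigenbasis -/

section Basis

variable {k : Type} [Field k]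

/-- the matrix with columns `e₁, e₂`. -/
def s56fr_E (e₁ e₂ : Fin 2 → k) : Matrix (Fin 2) (Fin 2) k :=
  !![e₁ 0, e₂ 0; e₁ 1, e₂ 1]

theorem s56fr_E_det (e₁ e₂ : Fin 2 → k) : (s56fr_E e₁ e₂).det = s56fc_wedge e₁ e₂ := by
  rw [s56fr_E, Matrix.det_fin_two_of, s56fc_wedge]
  ring

/-- the conjugating element: `g = E⁻¹`. -/
def s56fr_g (e₁ e₂ : Fin 2 → k) (h : s56fc_wedge e₁ e₂ ≠ 0) : GL (Fin 2) k :=
  (Matrix.GeneralLinearGroup.mkOfDetNeZero (s56fr_E e₁ e₂) (by rw [s56fr_E_det]; exact h))⁻¹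

theorem s56fr_g_inv (e₁ e₂ : Fin 2 → k) (h : s56fc_wedge e₁ e₂ ≠ 0) :
    (((s56fr_g e₁ e₂ h)⁻¹ : GL (Fin 2) k) : Matrix (Fin 2) (Fin 2) k) = s56fr_E e₁ e₂ := by
  rw [s56fr_g, inv_inv]
  rfl

/-- the matrix of `M` in the basis `e₁, e₂`. -/
theorem s56fr_conj_eq (e₁ e₂ : Fin 2 → k) (h : s56fc_wedge e₁ e₂ ≠ 0)
    (M : Matrix (Fin 2) (Fin 2) k) {a b c d : k}
    (h₁ : M *ᵥ e₁ = a • e₁ + c • e₂) (h₂ : M *ᵥ e₂ = b • e₁ + d • e₂) :
    ((s56fr_g e₁ e₂ h : GL (Fin 2) k) : Matrix (Fin 2) (Fin 2) k) * M *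
      (((s56fr_g e₁ e₂ h)⁻¹ : GL (Fin 2) k) : Matrix (Fin 2) (Fin 2) k) = !![a, b; c, d] := by
  have hME : M * s56fr_E e₁ e₂ = s56fr_E e₁ e₂ * !![a, b; c, d] := by
    ext i j
    have e1 := congrFun h₁ i
    have e2 := congrFun h₂ i
    simp only [Matrix.mulVec, dotProduct, Fin.sum_univ_two, Pi.add_apply, Pi.smul_apply,
      smul_eq_mul] at e1 e2
    fin_cases j
    · simp only [Matrix.mul_apply, Fin.sum_univ_two, s56fr_E]
      fin_cases i <;> simp at e1 ⊢ <;> linear_combination e1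
    · simp only [Matrix.mul_apply, Fin.sum_univ_two, s56fr_E]
      fin_cases i <;> simp at e2 ⊢ <;> linear_combination e2
  rw [s56fr_g_inv, mul_assoc, hME, ← mul_assoc]
  have : ((s56fr_g e₁ e₂ h : GL (Fin 2) k) : Matrix (Fin 2) (Fin 2) k) * s56fr_E e₁ e₂ = 1 := by
    rw [← s56fr_g_inv e₁ e₂ h]
    exact Units.mul_inv _
  rw [this, one_mul]

end Basis

/-! ### `𝔽_{p²} ⊆ k` -/

theorem s56fr_two_dvd {p : ℕ} [Fact p.Prime] {k : Type} [Field k] [Fintype k] [CharP k p]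
    [Algebra (ZMod p) k] {x : k} (h2 : x ^ p ^ 2 = x) (h1 : x ^ p ≠ x) :
    2 ∣ Module.finrank (ZMod p) k := by
  by_contra hodd
  set d := Module.finrank (ZMod p) k with hd
  have hcard : Fintype.card k = p ^ d := by
    rw [Module.card_eq_pow_finrank (K := ZMod p) (V := k), ZMod.card]
  have hx : x ^ p ^ d = x := by
    rw [← hcard]
    exact FiniteField.pow_card x
  obtain ⟨m, hm⟩ : ∃ m, d = 2 * m + 1 := ⟨d / 2, by omega⟩
  have heven : ∀ n : ℕ, x ^ p ^ (2 * n) = x := by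
    intro n
    induction n with
    | zero => rw [mul_zero, pow_zero, pow_one]
    | succ n ih =>
      have e : p ^ (2 * (n + 1)) = p ^ (2 * n) * p ^ 2 := by
        rw [← pow_add, mul_add, mul_one]
      rw [e, pow_mul, ih, h2]
  apply h1
  have e : p ^ d = p ^ (2 * m) * p := by rw [hm, pow_succ]
  rw [e, pow_mul, heven m] at hx
  exact hx

end Fermat.Agent.S56
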