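/-
Project S56, node [LOC-p-FLAT], supersingular case (helper27).  Prefix `s56fr_`.
THE SUPERSINGULAR CASE OF [LOC-p-FLAT] FROM THE TWO GLUE SEAMS:

  `s56fr_ss : s56fr_Inst_stmt → s56fr_Excl_stmt → (s56fc_SS p rb P ⟹ s56a_LocShape rb D_P … 1)`.

`s56fc_SS` (helper13, `Flat/ClassI.lean`) gives the eigenbasis `e₁, e₂`; conjugating by
`g = [e₁ | e₂]⁻¹` (helper10's `s56fcj_flat`) makes `rb` diagonal on inertia and antidiagonal at the
Frobenius; then `s56fu_shape` (`Flat/SSMat.lean`).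
-/
import Mathlib
import Fermat.Agent.S56.Flat.SSSeams
import Fermat.Agent.S56.Flat.SSGlue
import Fermat.Agent.S56.Flat.ClassB
import Fermat.Agent.S56.KumT.UniqAdd
import Fermat.Agent.S56.KumT.KnfSeam

set_option autoImplicit false
set_option linter.unusedSectionVars false
set_option linter.style.haveILetI false

noncomputable section

namespace Fermat.Agent.S56

open Fermat.Agent.MZ Fermat.Agent.FF Fermat.Agent.S53 Matrix

local notation "GQ" => (AlgebraicClosure ℚ ≃ₐ[ℚ] AlgebraicClosure ℚ)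
local notation "Qb" => AlgebraicClosure ℚ

section SS

variable {p : ℕ} [hp : Fact p.Prime] {k : Type} [Field k] [Fintype k] [CharP k p]
  [Algebra (ZMod p) k]

/-- **the supersingular case.** -/
theorem s56fr_ss (hInst : s56fr_Inst_stmt) (hExcl : s56fr_Excl_stmt) (hp2 : p ≠ 2)
    (rb : FramedResidual k) (P : ValuationSubring Qb) (hP : P.LiesOverPrime p)
    (hSS : s56fc_SS p rb.toMonoidHom P) :
    s56a_LocShape rb (P.decompositionSubgroup ℚ)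
      (fun r => r.toGaloisRepAdic.DetIsCyclotomic p ∧ r.toGaloisRepAdic.IsFlatAt p) 1 := by
  obtain ⟨e₁, e₂, χ, ϖ, hW, hϖ, hI, ⟨σ₀, hσ₀⟩, hpow, ⟨F, hF, ι, hι⟩, hfix, hD, hφ, hirr⟩ := hSS
  obtain ⟨-, ζ, -, hζ⟩ := s56fh_exists p
  have hϖ' : ϖ ^ (p ^ 2 - 1) = -(p : ff_Qb) := hϖ
  have hp1 : 1 < p := hp.out.one_lt
  have hm : 0 < p ^ 2 - 1 := by
    have : 1 < p ^ 2 := Nat.one_lt_pow (by norm_num) hp1
    omega
  have hϖ0 : ϖ ≠ 0 := by
    intro h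
    rw [h, zero_pow hm.ne'] at hϖ
    have h1 : ((p : ℕ) : Qb) = 0 := by
      rw [← neg_eq_zero]
      exact hϖ.symm
    exact hp.out.ne_zero (Nat.cast_eq_zero.mp h1)
  -- the conjugated representation
  apply s56fcj_flat p rb (s56fr_g e₁ e₂ hW) _ 1
  set rb' : FramedResidual k := s56fcj_conj (s56fr_g e₁ e₂ hW) rb with hrb'
  have hent : ∀ σ : ↥(P.inertiaSubgroupIn ℚ),
      rb' (σ : GQ) = !![((χ σ : kˣ) : k), 0; 0, ((χ σ : kˣ) : k) ^ p] := by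
    intro σ
    obtain ⟨h1, h2⟩ := hI σ
    rw [hrb', s56fcj_conj_apply]
    refine s56fr_conj_eq e₁ e₂ hW _ ?_ ?_
    · rw [zero_smul, add_zero]; exact h1
    · rw [zero_smul, zero_add]; exact h2
  have hentφ : ∀ φ : GQ, P.IsFrobeniusAt φ p → rb' φ 0 0 = 0 ∧ rb' φ 1 1 = 0 := by
    intro φ hφF
    obtain ⟨⟨x, hx⟩, ⟨y, hy⟩⟩ := hφ φ hφF
    have h1 : rb' φ = !![0, y; x, 0] := by
      rw [hrb', s56fcj_conj_apply]
      refine s56fr_conj_eq e₁ e₂ hW _ ?_ ?_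
      · rw [zero_smul, zero_add]; exact hx
      · rw [zero_smul, add_zero]; exact hy
    rw [h1]
    exact ⟨rfl, rfl⟩
  -- the local data
  obtain ⟨res, hres, hlink, hidx, τ₀, ψ₀, ω₀, ω₀', hψ₀, hψv, hω₀, hωω', hψ1O, hord, hωψ, hall,
    φ, hφA, hφI, hφI', hφϖ, hφζ, hφO, hφF, hgen⟩ := hInst p hp2 P hP ϖ ζ hϖ' hζ
  have hset := s56fh_setting p hp2 P hP hϖ' hζ
  haveI : IsDiscreteValuationRing ↥(ffi_O P ↥(ffi_L P)) := mzg_ctx_dvr p P hP
  haveI : CharP (IsLocalRing.ResidueField ↥P) p := s56fc_residue_charP P hP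
  haveI : IsAlgClosed (IsLocalRing.ResidueField ↥P) := s56fc_residue_isAlgClosed P
  haveI : Finite k := Finite.of_fintype k
  obtain ⟨ι₀, hι₀⟩ := s56fr_extend F ι
  have he₁ : e₁ ≠ 0 := s56fc_wedge_ne_left hW
  -- the kernel of `χ`
  have hker : ∀ σ : ↥(P.inertiaSubgroupIn ℚ), σ • ϖ = ϖ ↔ χ σ = 1 := by
    intro σ
    constructor
    · intro hσ
      have h1 := (hI σ).1
      rw [hfix σ hσ, Matrix.one_mulVec] at h1
      have h2 : (1 : k) • e₁ = ((χ σ : kˣ) : k) • e₁ := by rw [one_smul]; exact h1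
      exact Units.ext (s56fc_smul_eq_smul he₁ h2).symm
    · exact s56fc_ss_ker P hP χ hϖ F hF ι hι σ
  have hψ1 : res ψ₀ ^ (p ^ 2 - 1) = 1 := by rw [← map_pow, hψ1O, map_one]
  have hx0 : ((χ σ₀ : kˣ) : k) ^ (p ^ 2 - 1) = 1 := by
    have := congrArg (fun u : kˣ => (u : k)) (hpow σ₀)
    simpa using this
  have hmd : 2 ∣ Module.finrank (ZMod p) k := by
    refine s56fr_two_dvd (x := ((χ σ₀ : kˣ) : k)) ?_ hσ₀
    have e : p ^ 2 = (p ^ 2 - 1) + 1 := by omega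
    rw [e, pow_succ, hx0, one_mul]
  refine s56fu_shape rb' (P.decompositionSubgroup ℚ) hset (s56ku_uniq hset) (s56ku_add_stmt hset)
    (s56kt_knf hset) res hres ι₀ τ₀ ψ₀ hψ₀ hψv ω₀ ω₀' hω₀ hωω' hψ1 hord hωψ ?_ ?_ ?_ ?_
    (hidx k) hmd φ hφA hφI hφI' hφϖ hφζ hφO (hentφ φ hφF) hgen _ ?_
  · -- diagonal on inertia
    intro i hi
    rw [hent ⟨i, hi⟩]
    exact ⟨rfl, rfl⟩
  · -- `ι₀ (χ τ₀) = res ψ₀`
    rw [hent τ₀]
    show ι₀ ((χ τ₀ : kˣ) : k) = res ψ₀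
    rw [hlink τ₀ ψ₀ hψ₀, ← hι τ₀, ← hι₀]
  · rw [hent τ₀]
    rfl
  · -- `T ≤ ker rb'`
    intro s
    have h1 : ((s : ↥(P.inertiaSubgroupIn ℚ))) • ϖ = ϖ := MulAction.mem_stabilizer_iff.mp s.2
    have h2 : rb (((s : ↥(P.inertiaSubgroupIn ℚ))) : GQ) = 1 := hfix _ h1
    rw [hrb', s56fcj_conj_apply, h2, mul_one, Units.mul_inv]
  · -- the lifts
    intro r hb hPr
    refine hExcl p hp2 P hP ϖ ζ hϖ' hζ k rb' χ (fun σ => ?_) ⟨σ₀, hσ₀⟩ hpow hker r hb hPr.1 hPr.2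
    rw [hent σ]
    exact ⟨rfl, rfl, rfl, rfl⟩

end SS

end Fermat.Agent.S56
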