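/-
Project S56 (Taylor–Wiles primes), node [LOC-p-FLAT], cell SSSUB (helper13).  Prefix `s56fsb_`.
Namespace `Fermat.Agent.S56`.  Mathlib only.
THE SUBFIELD `𝔽_{p²}` OF A FIELD `k` OF CHARACTERISTIC `p`.

* `s56fsb_sub k p`   : the subfield `{y | y ^ p² = y}`;
* `s56fsb_mem`       : membership;
* `s56fsb_card`      : it has `p²` elements as soon as some `x` has `x ^ p² = x`, `x ^ p ≠ x`.
-/
import Mathlib

set_option autoImplicit false
set_option linter.unusedSectionVars false

noncomputable section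

namespace Fermat.Agent.S56

open Polynomial

section

variable (k : Type) [Field k] (p : ℕ) [hp : Fact p.Prime] [CharP k p]

/-- the subfield `{y | y ^ p² = y}` of a field of characteristic `p`. -/
def s56fsb_sub : Subfield k :=
  (iterateFrobenius k p 2).eqLocusField (RingHom.id k)

variable {k p}

theorem s56fsb_mem {y : k} : y ∈ s56fsb_sub k p ↔ y ^ p ^ 2 = y := Iff.rfl

theorem s56fsb_pow (y : ↥(s56fsb_sub k p)) : y ^ p ^ 2 = y :=
  Subtype.ext (s56fsb_mem.mp y.2)

theorem s56fsb_charP : CharP ↥(s56fsb_sub k p) p :=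
  (RingHom.charP_iff (s56fsb_sub k p).subtype Subtype.val_injective p).mpr inferInstance

/-- the subfield has at most `p²` elements. -/
theorem s56fsb_card_le [Fintype ↥(s56fsb_sub k p)] :
    Fintype.card ↥(s56fsb_sub k p) ≤ p ^ 2 := by
  classical
  have hp1 : 1 < p := hp.out.one_lt
  have hne : (X ^ p ^ 2 - X : (↥(s56fsb_sub k p))[X]) ≠ 0 :=
    FiniteField.X_pow_card_pow_sub_X_ne_zero _ (by norm_num) hp1
  have hsub : (Finset.univ : Finset ↥(s56fsb_sub k p)).val ⊆
      (X ^ p ^ 2 - X : (↥(s56fsb_sub k p))[X]).roots := by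
    intro y _
    rw [mem_roots hne, IsRoot.def, eval_sub, eval_pow, eval_X, s56fsb_pow, sub_self]
  have h1 := card_le_degree_of_subset_roots hsub
  rw [FiniteField.X_pow_card_pow_sub_X_natDegree_eq _ (by norm_num) hp1] at h1
  exact h1

/-- **the subfield has `p²` elements** as soon as some `x` has `x ^ p² = x`, `x ^ p ≠ x`. -/
theorem s56fsb_card' [Fintype ↥(s56fsb_sub k p)] {x : k} (h2 : x ^ p ^ 2 = x) (h1 : x ^ p ≠ x) :
    Fintype.card ↥(s56fsb_sub k p) = p ^ 2 := by
  have hp1 : 1 < p := hp.out.one_lt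
  have : CharP ↥(s56fsb_sub k p) p := s56fsb_charP
  obtain ⟨n, -, hn⟩ := FiniteField.card ↥(s56fsb_sub k p) p
  have hle := s56fsb_card_le (k := k) (p := p)
  rw [hn] at hle ⊢
  have hn2 : (n : ℕ) ≤ 2 := (Nat.pow_le_pow_iff_right hp1).mp hle
  have hn0 : 0 < (n : ℕ) := n.pos
  have hn1 : (n : ℕ) ≠ 1 := by
    intro h
    rw [h, pow_one] at hn
    have hx := FiniteField.pow_card (⟨x, s56fsb_mem.mpr h2⟩ : ↥(s56fsb_sub k p))
    rw [hn] at hx
    exact h1 (congrArg Subtype.val hx)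
  have : (n : ℕ) = 2 := by omega
  rw [this]

theorem s56fsb_card [Finite k] {x : k} (h2 : x ^ p ^ 2 = x) (h1 : x ^ p ≠ x) :
    Nat.card ↥(s56fsb_sub k p) = p ^ 2 := by
  have : Fintype ↥(s56fsb_sub k p) := Fintype.ofFinite _
  rw [Nat.card_eq_fintype_card]
  exact s56fsb_card' h2 h1

end

end Fermat.Agent.S56
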