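/-
Project S56 (Taylor–Wiles primes), node [LOC-p-FLAT] (owner helper27), add-on to helper13's cell
SSSUB (`Flat/SSSub.lean`, `s56fsb_sub k p = {y | y ^ (p²) = y}`) (helper29).  Prefix `s56fsl_`.

* `s56fsl_pow_mem`            : `y ∈ F ⟹ y ^ p ∈ F`;
* `s56fsl_frob : ↥F →+* k`    : `y ↦ y ^ p`  (`s56fsl_frob_apply`, rfl);
* `s56fsl_mem_of_pow_eq_one`  : `u ^ (p² - 1) = 1 ⟹ u ∈ F`;
* `s56fsl_lift χ hχ : Γ →* (↥F)ˣ` for `χ : Γ →* kˣ` with `χ ^ (p² - 1) = 1`;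
  `s56fsl_lift_coe`, `s56fsl_frob_lift` (both `rfl`).
-/
import Mathlib
import Fermat.Agent.S56.Flat.SSSub

set_option autoImplicit false

namespace Fermat.Agent.S56

section SSSubLift

variable {p : ℕ} [hp : Fact p.Prime] {k : Type} [Field k] [CharP k p]

theorem s56fsl_pow_mem {y : k} (hy : y ∈ s56fsb_sub k p) : y ^ p ∈ s56fsb_sub k p := by
  rw [s56fsb_mem] at hy ⊢
  rw [← pow_mul, mul_comm, pow_mul, hy]

variable (p k) in
/-- the Frobenius `F → k`, `y ↦ y ^ p`. -/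
def s56fsl_frob : ↥(s56fsb_sub k p) →+* k :=
  (frobenius k p).comp (s56fsb_sub k p).subtype

theorem s56fsl_frob_apply (y : ↥(s56fsb_sub k p)) : s56fsl_frob p k y = (y : k) ^ p := rfl

theorem s56fsl_mem_of_pow_eq_one {u : k} (hu : u ^ (p ^ 2 - 1) = 1) : u ∈ s56fsb_sub k p := by
  rw [s56fsb_mem]
  have h1 : p ^ 2 = (p ^ 2 - 1) + 1 :=
    (Nat.sub_add_cancel (Nat.one_le_pow _ _ hp.out.pos)).symm
  conv_lhs => rw [h1, pow_succ, hu, one_mul]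

/-- a character with values in `μ_{p² - 1}(k)`, as a character into `Fˣ`. -/
def s56fsl_lift {Γ : Type*} [Group Γ] (χ : Γ →* kˣ) (hχ : ∀ σ : Γ, χ σ ^ (p ^ 2 - 1) = 1) :
    Γ →* (↥(s56fsb_sub k p))ˣ :=
  MonoidHom.toHomUnits
    { toFun := fun σ => ⟨((χ σ : kˣ) : k), s56fsl_mem_of_pow_eq_one (by
        rw [← Units.val_pow_eq_pow_val, hχ σ, Units.val_one])⟩
      map_one' := by
        apply Subtype.ext
        show ((χ 1 : kˣ) : k) = 1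
        rw [map_one, Units.val_one]
      map_mul' := fun σ τ => by
        apply Subtype.ext
        show ((χ (σ * τ) : kˣ) : k) = ((χ σ : kˣ) : k) * ((χ τ : kˣ) : k)
        rw [map_mul, Units.val_mul] }

theorem s56fsl_lift_coe {Γ : Type*} [Group Γ] (χ : Γ →* kˣ)
    (hχ : ∀ σ : Γ, χ σ ^ (p ^ 2 - 1) = 1) (σ : Γ) :
    (((s56fsl_lift χ hχ σ : (↥(s56fsb_sub k p))ˣ) : ↥(s56fsb_sub k p)) : k) = ((χ σ : kˣ) : k) :=
  rfl

theorem s56fsl_frob_lift {Γ : Type*} [Group Γ] (χ : Γ →* kˣ)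
    (hχ : ∀ σ : Γ, χ σ ^ (p ^ 2 - 1) = 1) (σ : Γ) :
    s56fsl_frob p k ((s56fsl_lift χ hχ σ : (↥(s56fsb_sub k p))ˣ) : ↥(s56fsb_sub k p)) =
      ((χ σ : kˣ) : k) ^ p := rfl

end SSSubLift

end Fermat.Agent.S56
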