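/-
Project S56 (Taylor–Wiles primes), node [S56-FLAT], cell [S56-FLAT-L] (helper13).  Prefix `s56fl_`.
THE TAME CHARACTER OF A CONNECTED ORDER (Raynaud's shape theorem, abstract form).
Mathlib + `MZ/Hopf` + `S56/Flat/{Near,Lead}.lean`.

`H` an order for the finite `Γ`-module `G`, CONNECTED (`X⁰ = G`), `G ≠ 0`.  Let `c < 1` be the maximum
of the `v (φ x - φ 0)` (`s56fl_Top`), attained at `(φ₀, x₀)`, `w x := φ₀ x - φ₀ 0`, `z := w x₀`.

* `s56fl_w_add`    (B2): `w` is additive modulo `{v < c}`;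
* `s56fl_theta`         : `σ u ≡ (σ z / z) u  mod {v < v z}` for `v u ≤ v z` (`σ z / z mod 𝔪_A` is the
                          tame character `θ_z` of `Γ`);
* `s56fl_w_theta`       : `w (σ x) ≡ (σ z / z) w x  mod {v < c}`;
* `s56fl_smul_sub_mem_lt` (L2c): if `v (σ z - z) < v z` (`θ_z σ = 1`) then `σ x - x ≡ 0 mod {v < c}`
                          for all `x`;
* `s56fl_shape`    (B3): if `Γ` acts on `G` through `χ : Γ → R₀` (`R₀` a commutative ring acting on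
                          `G`), there is a ring homomorphism `ι` from the subring generated by the
                          `χ σ` to the residue field of `A` with `ι (χ σ) = σ z / z mod 𝔪_A`.
-/
import Mathlib
import Fermat.Agent.S56.Flat.Lead

set_option autoImplicit false
set_option linter.unusedSectionVars false

noncomputable section

namespace Fermat.Agent.S56

open Fermat.Agent.MZ Finset

section

variable {r : ℕ} {O : Type} [CommRing O] [IsDomain O] [IsDiscreteValuationRing O]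
  {L : Type} [Field L] [Algebra O L] {A : ValuationSubring L}
  {Γ : Type} [Group Γ] [MulSemiringAction Γ L]
  {G : Type} [AddCommGroup G] [DistribMulAction Γ G] {H : Subalgebra O (G → L)}

/-- **(θ)** for `v u ≤ v z`: `σ u ≡ (σ z / z) u` modulo `{v < v z}`. -/
theorem s56fl_theta (hctx : mzo_Ctx r O L A Γ) {z u : L} (hz : z ≠ 0)
    (hu : A.valuation u ≤ A.valuation z) (σ : Γ) (hσz : A.valuation (σ • z) = A.valuation z) :
    A.valuation (σ • u - (σ • z / z) * u) < A.valuation z := by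
  have hvz : A.valuation z ≠ 0 := (map_ne_zero _).mpr hz
  have hq : u / z ∈ A := by
    rw [← A.valuation_le_one_iff, map_div₀]
    exact (div_le_one₀ (zero_lt_iff.mpr hvz)).mpr hu
  have e : σ • u - (σ • z / z) * u = (σ • (u / z) - u / z) * σ • z := by
    have hu' : σ • u = σ • (u / z) * σ • z := by rw [← smul_mul', div_mul_cancel₀ u hz]
    rw [hu']
    field_simp
  rw [e, map_mul, hσz]
  have h1 := hctx.inert σ _ hq
  rw [ValuationSubring.mem_nonunits_iff] at h1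
  calc A.valuation (σ • (u / z) - u / z) * A.valuation z < 1 * A.valuation z :=
        (mul_lt_mul_iff_left₀ (zero_lt_iff.mpr hvz)).mpr h1
    _ = A.valuation z := one_mul _

/-- `(φ₀, x₀)` realises the maximum `c` of the `v (φ x - φ 0)`, and `0 < c < 1`. -/
structure s56fl_Top (A : ValuationSubring L) (H : Subalgebra O (G → L)) (φ₀ : G → L) (x₀ : G) :
    Prop where
  mem : φ₀ ∈ H
  max : ∀ φ ∈ H, ∀ x : G, A.valuation (φ x - φ 0) ≤ A.valuation (φ₀ x₀ - φ₀ 0)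
  ne : A.valuation (φ₀ x₀ - φ₀ 0) ≠ 0
  lt : A.valuation (φ₀ x₀ - φ₀ 0) < 1

/-- a connected order of a nonzero finite module has a top pair. -/
theorem s56fl_exists_top [Finite G] (hctx : mzo_Ctx r O L A Γ) (hH : mzo_IsOrder A Γ G H)
    (hconn : ∀ x : G, x ∈ s56fl_X0 hH) (hnt : ∃ x : G, x ≠ 0) :
    ∃ (φ₀ : G → L) (x₀ : G), s56fl_Top A H φ₀ x₀ := by
  classical
  have := Fintype.ofFinite G
  obtain ⟨φ₀, hφ₀, x₀, -, hmax⟩ := s56fl_exists_max hctx hH (Finset.univ : Finset G)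
    Finset.univ_nonempty
  refine ⟨φ₀, x₀, hφ₀, fun φ hφ x => hmax φ hφ x (Finset.mem_univ x), ?_, ?_⟩
  · obtain ⟨x, hx⟩ := hnt
    obtain ⟨ψ, hψ, hne⟩ := hH.sep x 0 hx
    have h1 : A.valuation (ψ x - ψ 0) ≠ 0 := (map_ne_zero _).mpr (sub_ne_zero.mpr hne)
    intro h0
    have h2 := hmax ψ hψ x (Finset.mem_univ x)
    rw [h0, le_zero_iff] at h2
    exact h1 h2
  · have := (s56fl_mem_X0 hH x₀).mp (hconn x₀) φ₀ hφ₀
    rwa [ValuationSubring.mem_nonunits_iff] at this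

variable {φ₀ : G → L} {x₀ : G}

theorem s56fl_top_sq_lt (ht : s56fl_Top A H φ₀ x₀) :
    A.valuation (φ₀ x₀ - φ₀ 0) * A.valuation (φ₀ x₀ - φ₀ 0) < A.valuation (φ₀ x₀ - φ₀ 0) := by
  have h := (mul_lt_mul_iff_right₀ (zero_lt_iff.mpr ht.ne)).mpr ht.lt
  rwa [mul_one] at h

/-- **(B2)** every `φ ∈ H` is additive modulo `c²`. -/
theorem s56fl_top_add (hH : mzo_IsOrder A Γ G H) (ht : s56fl_Top A H φ₀ x₀) {φ : G → L}
    (hφ : φ ∈ H) (x y : G) :
    A.valuation (φ (x + y) - φ x - φ y + φ 0)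
      ≤ A.valuation (φ₀ x₀ - φ₀ 0) * A.valuation (φ₀ x₀ - φ₀ 0) := by
  obtain ⟨n, a, b, ha, hb, h1, -⟩ := s56fl_delta hH hφ
  rw [h1]
  refine A.valuation.map_sum_le fun i _ => ?_
  rw [map_mul]
  exact mul_le_mul' (ht.max (a i) (ha i) x) (ht.max (b i) (hb i) y)

/-- **(B2)** the coordinate `w x = φ₀ x - φ₀ 0` is additive modulo `{v < c}`. -/
theorem s56fl_w_add (hH : mzo_IsOrder A Γ G H) (ht : s56fl_Top A H φ₀ x₀) (x y : G) :
    A.valuation ((φ₀ (x + y) - φ₀ 0) - (φ₀ x - φ₀ 0) - (φ₀ y - φ₀ 0))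
      < A.valuation (φ₀ x₀ - φ₀ 0) := by
  have e : (φ₀ (x + y) - φ₀ 0) - (φ₀ x - φ₀ 0) - (φ₀ y - φ₀ 0)
      = φ₀ (x + y) - φ₀ x - φ₀ y + φ₀ 0 := by ring
  rw [e]
  exact lt_of_le_of_lt (s56fl_top_add hH ht ht.mem x y) (s56fl_top_sq_lt ht)

theorem s56fl_w_smul (hH : mzo_IsOrder A Γ G H) (ht : s56fl_Top A H φ₀ x₀) (σ : Γ) (x : G) :
    φ₀ (σ • x) - φ₀ 0 = σ • (φ₀ x - φ₀ 0) := by
  have h0 : φ₀ 0 = σ • φ₀ 0 := by
    rw [← hH.equiv φ₀ ht.mem σ 0, smul_zero]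
  rw [smul_sub, ← h0, hH.equiv φ₀ ht.mem]

theorem s56fl_top_val_smul [Finite G] (hctx : mzo_Ctx r O L A Γ) (hH : mzo_IsOrder A Γ G H)
    (ht : s56fl_Top A H φ₀ x₀) (σ : Γ) :
    A.valuation (σ • (φ₀ x₀ - φ₀ 0)) = A.valuation (φ₀ x₀ - φ₀ 0) :=
  s56fl_val_smul_eq hctx hH ht.mem σ x₀ 0

/-- `w (σ x) ≡ (σ z / z) w x` modulo `{v < c}`. -/
theorem s56fl_w_theta [Finite G] (hctx : mzo_Ctx r O L A Γ) (hH : mzo_IsOrder A Γ G H)
    (ht : s56fl_Top A H φ₀ x₀) (σ : Γ) (x : G) :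
    A.valuation ((φ₀ (σ • x) - φ₀ 0)
        - (σ • (φ₀ x₀ - φ₀ 0) / (φ₀ x₀ - φ₀ 0)) * (φ₀ x - φ₀ 0))
      < A.valuation (φ₀ x₀ - φ₀ 0) := by
  rw [s56fl_w_smul hH ht]
  exact s56fl_theta hctx ((map_ne_zero _).mp ht.ne) (ht.max φ₀ ht.mem x) σ
    (s56fl_top_val_smul hctx hH ht σ)

/-- **(L2c)** if `v (σ z - z) < v z` (the tame character `θ_z` is trivial at `σ`) then `σ x - x`
is congruent to `0` modulo `{v < c}` for every `x`. -/
theorem s56fl_smul_sub_mem_lt [Finite G] (hctx : mzo_Ctx r O L A Γ) (hH : mzo_IsOrder A Γ G H)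
    (ht : s56fl_Top A H φ₀ x₀) (σ : Γ)
    (hσ : A.valuation (σ • (φ₀ x₀ - φ₀ 0) - (φ₀ x₀ - φ₀ 0)) < A.valuation (φ₀ x₀ - φ₀ 0))
    (x : G) :
    σ • x - x ∈ s56fl_ball hH (s56fl_lt A _ ht.ne) (s56fl_lt_isIdeal _ ht.ne) := by
  set z := φ₀ x₀ - φ₀ 0 with hz
  have hz0 : z ≠ 0 := (map_ne_zero _).mp ht.ne
  refine (s56fl_key hH (s56fl_lt_isIdeal _ ht.ne) σ x).mp fun φ hφ => ?_
  rw [s56fl_mem_lt]
  have h0 : σ • φ 0 = φ 0 := by rw [← hH.equiv φ hφ σ 0, smul_zero]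
  have e : σ • φ x - φ x
      = (σ • (φ x - φ 0) - (σ • z / z) * (φ x - φ 0)) + ((σ • z - z) / z) * (φ x - φ 0) := by
    rw [smul_sub, h0]
    field_simp
    ring
  rw [e]
  refine A.valuation.map_add_lt ?_ ?_
  · exact s56fl_theta hctx hz0 (ht.max φ hφ x) σ (s56fl_top_val_smul hctx hH ht σ)
  · rw [map_mul, map_div₀]
    have h1 : A.valuation (σ • z - z) / A.valuation z < 1 :=
      (div_lt_one₀ (zero_lt_iff.mpr ht.ne)).mpr hσ
    calc A.valuation (σ • z - z) / A.valuation z * A.valuation (φ x - φ 0)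
        ≤ A.valuation (σ • z - z) / A.valuation z * A.valuation z :=
          mul_le_mul_right (ht.max φ hφ x) _
      _ < 1 * A.valuation z := (mul_lt_mul_iff_left₀ (zero_lt_iff.mpr ht.ne)).mpr h1
      _ = A.valuation z := one_mul _

end

/-! ### (B3): the ring homomorphism `ι` -/

section

variable {r : ℕ} {O : Type} [CommRing O] [IsDomain O] [IsDiscreteValuationRing O]
  {L : Type} [Field L] [Algebra O L] {A : ValuationSubring L}
  {Γ : Type} [Group Γ] [MulSemiringAction Γ L]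
  {G : Type} [AddCommGroup G] [DistribMulAction Γ G] {H : Subalgebra O (G → L)}
  {φ₀ : G → L} {x₀ : G} {R₀ : Type} [CommRing R₀] [Module R₀ G]

/-- the relation "`b` acts on leading terms as multiplication by `a`". -/
def s56fl_Rel (A : ValuationSubring L) (φ₀ : G → L) (x₀ : G) (b : R₀) (a : L) : Prop :=
  ∀ x : G, A.valuation ((φ₀ (b • x) - φ₀ 0) - a * (φ₀ x - φ₀ 0)) < A.valuation (φ₀ x₀ - φ₀ 0)

theorem s56fl_rel_zero (ht : s56fl_Top A H φ₀ x₀) : s56fl_Rel A φ₀ x₀ (0 : R₀) 0 := by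
  intro x
  rw [zero_smul, sub_self, zero_mul, sub_zero, map_zero]
  exact zero_lt_iff.mpr ht.ne

theorem s56fl_rel_one (ht : s56fl_Top A H φ₀ x₀) : s56fl_Rel A φ₀ x₀ (1 : R₀) 1 := by
  intro x
  rw [one_smul, one_mul, sub_self, map_zero]
  exact zero_lt_iff.mpr ht.ne

theorem s56fl_rel_add (hH : mzo_IsOrder A Γ G H) (ht : s56fl_Top A H φ₀ x₀) {b b' : R₀}
    {a a' : L} (h : s56fl_Rel A φ₀ x₀ b a) (h' : s56fl_Rel A φ₀ x₀ b' a') :
    s56fl_Rel A φ₀ x₀ (b + b') (a + a') := by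
  intro x
  have e : (φ₀ ((b + b') • x) - φ₀ 0) - (a + a') * (φ₀ x - φ₀ 0)
      = ((φ₀ (b • x + b' • x) - φ₀ 0) - (φ₀ (b • x) - φ₀ 0) - (φ₀ (b' • x) - φ₀ 0))
        + (((φ₀ (b • x) - φ₀ 0) - a * (φ₀ x - φ₀ 0))
          + ((φ₀ (b' • x) - φ₀ 0) - a' * (φ₀ x - φ₀ 0))) := by
    rw [add_smul]; ring
  rw [e]
  exact A.valuation.map_add_lt (s56fl_w_add hH ht _ _) (A.valuation.map_add_lt (h x) (h' x))

theorem s56fl_rel_neg (hH : mzo_IsOrder A Γ G H) (ht : s56fl_Top A H φ₀ x₀) {b : R₀}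
    {a : L} (h : s56fl_Rel A φ₀ x₀ b a) : s56fl_Rel A φ₀ x₀ (-b) (-a) := by
  intro x
  have h1 := s56fl_w_add hH ht (b • x) (-(b • x))
  rw [add_neg_cancel, sub_self, zero_sub] at h1
  have e : (φ₀ ((-b) • x) - φ₀ 0) - (-a) * (φ₀ x - φ₀ 0)
      = -(-(φ₀ (b • x) - φ₀ 0) - (φ₀ (-(b • x)) - φ₀ 0))
        - ((φ₀ (b • x) - φ₀ 0) - a * (φ₀ x - φ₀ 0)) := by
    rw [neg_smul]; ring
  rw [e]
  refine A.valuation.map_sub_lt ?_ (h x)
  rw [Valuation.map_neg]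
  exact h1

theorem s56fl_rel_mul {b b' : R₀}
    {a a' : L} (ha : a ∈ A) (h : s56fl_Rel A φ₀ x₀ b a) (h' : s56fl_Rel A φ₀ x₀ b' a') :
    s56fl_Rel A φ₀ x₀ (b * b') (a * a') := by
  intro x
  have e : (φ₀ ((b * b') • x) - φ₀ 0) - (a * a') * (φ₀ x - φ₀ 0)
      = ((φ₀ (b • (b' • x)) - φ₀ 0) - a * (φ₀ (b' • x) - φ₀ 0))
        + a * ((φ₀ (b' • x) - φ₀ 0) - a' * (φ₀ x - φ₀ 0)) := by
    rw [mul_smul]; ring
  rw [e]
  refine A.valuation.map_add_lt (h (b' • x)) ?_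
  rw [map_mul]
  calc A.valuation a * A.valuation ((φ₀ (b' • x) - φ₀ 0) - a' * (φ₀ x - φ₀ 0))
      ≤ 1 * A.valuation ((φ₀ (b' • x) - φ₀ 0) - a' * (φ₀ x - φ₀ 0)) :=
        mul_le_mul_left ((A.valuation_le_one_iff a).mpr ha) _
    _ = _ := one_mul _
    _ < _ := h' x

/-- uniqueness of the multiplier modulo `𝔪_A`. -/
theorem s56fl_rel_unique {b : R₀} {a a' : L}
    (h : s56fl_Rel A φ₀ x₀ b a) (h' : s56fl_Rel A φ₀ x₀ b a') : A.valuation (a - a') < 1 := by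
  have h1 := A.valuation.map_sub_lt (h' x₀) (h x₀)
  have e : ((φ₀ (b • x₀) - φ₀ 0) - a' * (φ₀ x₀ - φ₀ 0))
      - ((φ₀ (b • x₀) - φ₀ 0) - a * (φ₀ x₀ - φ₀ 0)) = (a - a') * (φ₀ x₀ - φ₀ 0) := by ring
  rw [e, map_mul] at h1
  by_contra hn
  rw [not_lt] at hn
  have h2 : 1 * A.valuation (φ₀ x₀ - φ₀ 0)
      ≤ A.valuation (a - a') * A.valuation (φ₀ x₀ - φ₀ 0) := mul_le_mul_left hn _
  rw [one_mul] at h2
  exact absurd h1 (not_lt.mpr h2)

/-- the graph of `ι`, as a subring of `R₀ × (A / 𝔪_A)`. -/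
def s56fl_graph (hH : mzo_IsOrder A Γ G H) (ht : s56fl_Top A H φ₀ x₀) (R₀ : Type) [CommRing R₀]
    [Module R₀ G] : Subring (R₀ × IsLocalRing.ResidueField ↥A) where
  carrier := {q | ∃ a : ↥A, IsLocalRing.residue ↥A a = q.2 ∧ s56fl_Rel A φ₀ x₀ q.1 (a : L)}
  mul_mem' := by
    rintro ⟨b, t⟩ ⟨b', t'⟩ ⟨a, rfl, h⟩ ⟨a', rfl, h'⟩
    exact ⟨a * a', map_mul _ _ _, s56fl_rel_mul a.2 h h'⟩
  one_mem' := ⟨1, map_one _, s56fl_rel_one ht⟩
  add_mem' := by
    rintro ⟨b, t⟩ ⟨b', t'⟩ ⟨a, rfl, h⟩ ⟨a', rfl, h'⟩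
    exact ⟨a + a', map_add _ _ _, s56fl_rel_add hH ht h h'⟩
  zero_mem' := ⟨0, map_zero _, s56fl_rel_zero ht⟩
  neg_mem' := by
    rintro ⟨b, t⟩ ⟨a, rfl, h⟩
    exact ⟨-a, map_neg _ _, s56fl_rel_neg hH ht h⟩

theorem s56fl_graph_unique (hH : mzo_IsOrder A Γ G H) (ht : s56fl_Top A H φ₀ x₀)
    {q q' : R₀ × IsLocalRing.ResidueField ↥A} (hq : q ∈ s56fl_graph hH ht R₀)
    (hq' : q' ∈ s56fl_graph hH ht R₀) (h1 : q.1 = q'.1) : q = q' := by
  obtain ⟨a, ha, h⟩ := hq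
  obtain ⟨a', ha', h'⟩ := hq'
  refine Prod.ext h1 ?_
  rw [← ha, ← ha']
  rw [h1] at h
  have h2 := s56fl_rel_unique h h'
  have h3 : a - a' ∈ IsLocalRing.maximalIdeal ↥A := by
    rw [A.valuation_lt_one_iff]
    exact h2
  rw [← sub_eq_zero, ← map_sub]
  exact (IsLocalRing.residue_eq_zero_iff _).mpr h3

/-- the multiplier `σ z / z` of `σ ∈ Γ`, as an element of `A`. -/
theorem s56fl_theta_mem [Finite G] (hctx : mzo_Ctx r O L A Γ) (hH : mzo_IsOrder A Γ G H)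
    (ht : s56fl_Top A H φ₀ x₀) (σ : Γ) : σ • (φ₀ x₀ - φ₀ 0) / (φ₀ x₀ - φ₀ 0) ∈ A := by
  rw [← A.valuation_le_one_iff, map_div₀, s56fl_top_val_smul hctx hH ht σ,
    div_self ht.ne]

/-- **(B3)** `Γ` acts on `G` through `χ : Γ → R₀`: there is a ring homomorphism `ι` from the
subring generated by the `χ σ` to the residue field of `A` with
`ι (χ σ) = σ z / z mod 𝔪_A`, `z = φ₀ x₀ - φ₀ 0`. -/
theorem s56fl_shape [Finite G] (hctx : mzo_Ctx r O L A Γ) (hH : mzo_IsOrder A Γ G H)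
    (ht : s56fl_Top A H φ₀ x₀) (χ : Γ → R₀) (hχ : ∀ (σ : Γ) (x : G), σ • x = χ σ • x) :
    ∃ ι : ↥(Subring.closure (Set.range χ)) →+* IsLocalRing.ResidueField ↥A,
      ∀ σ : Γ, ι ⟨χ σ, Subring.subset_closure ⟨σ, rfl⟩⟩
        = IsLocalRing.residue ↥A ⟨_, s56fl_theta_mem hctx hH ht σ⟩ := by
  set S := s56fl_graph hH ht R₀ with hS
  have hmemχ : ∀ σ : Γ, ((χ σ, IsLocalRing.residue ↥A ⟨_, s56fl_theta_mem hctx hH ht σ⟩) :
      R₀ × IsLocalRing.ResidueField ↥A) ∈ S := by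
    intro σ
    refine ⟨⟨_, s56fl_theta_mem hctx hH ht σ⟩, rfl, fun x => ?_⟩
    show A.valuation ((φ₀ (χ σ • x) - φ₀ 0)
      - (σ • (φ₀ x₀ - φ₀ 0) / (φ₀ x₀ - φ₀ 0)) * (φ₀ x - φ₀ 0)) < _
    rw [← hχ]
    exact s56fl_w_theta hctx hH ht σ x
  let fstS : ↥S →+* R₀ := (RingHom.fst R₀ (IsLocalRing.ResidueField ↥A)).comp S.subtype
  let sndS : ↥S →+* IsLocalRing.ResidueField ↥A :=
    (RingHom.snd R₀ (IsLocalRing.ResidueField ↥A)).comp S.subtype
  have hinj : Function.Injective fstS := by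
    intro q q' h
    exact Subtype.ext (s56fl_graph_unique hH ht q.2 q'.2 h)
  have hle : Subring.closure (Set.range χ) ≤ fstS.range := by
    rw [Subring.closure_le]
    rintro _ ⟨σ, rfl⟩
    exact ⟨⟨_, hmemχ σ⟩, rfl⟩
  let e : ↥S ≃+* ↥fstS.range :=
    RingEquiv.ofBijective fstS.rangeRestrict
      ⟨fun q q' h => hinj (congrArg Subtype.val h), fstS.rangeRestrict_surjective⟩
  refine ⟨sndS.comp (e.symm.toRingHom.comp (Subring.inclusion hle)), fun σ => ?_⟩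
  have h1 : e.symm (Subring.inclusion hle ⟨χ σ, Subring.subset_closure ⟨σ, rfl⟩⟩)
      = ⟨_, hmemχ σ⟩ := by
    rw [RingEquiv.symm_apply_eq]
    exact Subtype.ext rfl
  show sndS (e.symm (Subring.inclusion hle ⟨χ σ, _⟩)) = _
  rw [h1]
  rfl

end

/-! ### the valuation of `z`: the orbit norm -/

section

variable {r : ℕ} {O : Type} [CommRing O] [IsDomain O] [IsDiscreteValuationRing O]
  {L : Type} [Field L] [Algebra O L] {A : ValuationSubring L}
  {Γ : Type} [Group Γ] [MulSemiringAction Γ L]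
  {G : Type} [AddCommGroup G] [DistribMulAction Γ G] {H : Subalgebra O (G → L)}
  {φ₀ : G → L} {x₀ : G}

/-- the valuation of a unit of `O` is `1`. -/
theorem s56fl_val_unit (hctx : mzo_Ctx r O L A Γ) (u : Oˣ) :
    A.valuation (algebraMap O L (u : O)) = 1 := by
  have h1 : algebraMap O L (u : O) * algebraMap O L ((u⁻¹ : Oˣ) : O) = 1 := by
    rw [← map_mul, Units.mul_inv, map_one]
  have h2 := congrArg A.valuation h1
  rw [map_mul, map_one] at h2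
  refine le_antisymm (s56fl_val_algebraMap_le hctx _) ?_
  calc (1 : A.ValueGroup) = A.valuation (algebraMap O L (u : O))
        * A.valuation (algebraMap O L ((u⁻¹ : Oˣ) : O)) := h2.symm
    _ ≤ A.valuation (algebraMap O L (u : O)) * 1 :=
        mul_le_mul_right (s56fl_val_algebraMap_le hctx _) _
    _ = _ := mul_one _

/-- a nonzero `Γ`-fixed element of `A` has the valuation of a power of `r`. -/
theorem s56fl_val_fixed (hctx : mzo_Ctx r O L A Γ) {a : L} (ha : a ∈ A) (ha0 : a ≠ 0)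
    (hfix : ∀ σ : Γ, σ • a = a) : ∃ j : ℕ, A.valuation a = A.valuation (r : L) ^ j := by
  obtain ⟨o, rfl⟩ := hctx.exists_of_fixed ha hfix
  have ho : o ≠ 0 := fun h => ha0 (by rw [h, map_zero])
  obtain ⟨j, u, hu⟩ := IsDiscreteValuationRing.eq_unit_mul_pow_irreducible ho hctx.irreducible_r
  refine ⟨j, ?_⟩
  rw [hu, map_mul, map_pow, map_natCast, map_mul, map_pow, s56fl_val_unit hctx u, one_mul]

/-- **the orbit norm**: `c ^ e = v r ^ j` with `e` the length of the `Γ`-orbit of `x₀`, `1 ≤ j`. -/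
theorem s56fl_orbit_norm [Finite G] (hctx : mzo_Ctx r O L A Γ) (hH : mzo_IsOrder A Γ G H)
    (ht : s56fl_Top A H φ₀ x₀) :
    ∃ j : ℕ, 1 ≤ j ∧ A.valuation (φ₀ x₀ - φ₀ 0) ^ Nat.card (MulAction.orbit Γ x₀)
      = A.valuation (r : L) ^ j := by
  classical
  have := Fintype.ofFinite ↥(MulAction.orbit Γ x₀)
  set w : G → L := fun x => φ₀ x - φ₀ 0 with hw
  set N : L := ∏ y : ↥(MulAction.orbit Γ x₀), w (y : G) with hN
  have hval : ∀ y : ↥(MulAction.orbit Γ x₀), A.valuation (w (y : G)) = A.valuation (w x₀) := by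
    rintro ⟨y, τ, rfl⟩
    show A.valuation (φ₀ (τ • x₀) - φ₀ 0) = _
    rw [s56fl_w_smul hH ht]
    exact s56fl_top_val_smul hctx hH ht τ
  have hNval : A.valuation N = A.valuation (w x₀) ^ Nat.card (MulAction.orbit Γ x₀) := by
    rw [hN, map_prod, Finset.prod_congr rfl fun y _ => hval y, Finset.prod_const,
      Finset.card_univ, Nat.card_eq_fintype_card]
  have hNA : N ∈ A := by
    rw [← A.valuation_le_one_iff, hNval]
    exact pow_le_one' ht.lt.le _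
  have hN0 : N ≠ 0 := by
    rw [← map_ne_zero A.valuation, hNval]
    exact pow_ne_zero _ ht.ne
  have hNfix : ∀ σ : Γ, σ • N = N := by
    intro σ
    have h1 : σ • N = ∏ y : ↥(MulAction.orbit Γ x₀), w ((σ • y : ↥(MulAction.orbit Γ x₀)) : G) := by
      rw [hN, ← MulSemiringAction.toRingHom_apply, map_prod]
      refine Finset.prod_congr rfl fun y _ => ?_
      rw [MulSemiringAction.toRingHom_apply, MulAction.orbit.coe_smul]
      exact (s56fl_w_smul hH ht σ (y : G)).symm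
    rw [h1]
    exact Equiv.prod_comp (MulAction.toPerm σ) (fun y : ↥(MulAction.orbit Γ x₀) => w (y : G))
  obtain ⟨j, hj⟩ := s56fl_val_fixed hctx hNA hN0 hNfix
  rw [hNval] at hj
  refine ⟨j, ?_, hj⟩
  by_contra h0
  have hj0 : j = 0 := by omega
  rw [hj0, pow_zero] at hj
  have : Nonempty ↥(MulAction.orbit Γ x₀) := ⟨⟨x₀, MulAction.mem_orbit_self x₀⟩⟩
  have hpos : 0 < Nat.card (MulAction.orbit Γ x₀) := Nat.card_pos
  have h2 : A.valuation (w x₀) ^ Nat.card (MulAction.orbit Γ x₀) < 1 :=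
    pow_lt_one' ht.lt hpos.ne'
  rw [hj] at h2
  exact lt_irrefl _ h2

/-- **(B3), the bound**: `j (r - 1) ≤ e` for the exponent `j` of the orbit norm (`r x₀ = 0`). -/
theorem s56fl_orbit_bound [Finite G] (hctx : mzo_Ctx r O L A Γ) (hH : mzo_IsOrder A Γ G H)
    (ht : s56fl_Top A H φ₀ x₀) (hconn : ∀ x : G, x ∈ s56fl_X0 hH) (hrx : r • x₀ = 0) {j : ℕ}
    (hj : A.valuation (φ₀ x₀ - φ₀ 0) ^ Nat.card (MulAction.orbit Γ x₀) = A.valuation (r : L) ^ j) :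
    j * (r - 1) ≤ Nat.card (MulAction.orbit Γ x₀) := by
  have hx0 : x₀ ≠ 0 := by
    rintro rfl
    exact ht.ne (by rw [sub_self, map_zero])
  obtain ⟨φ, hφ, -, -, -, hsharp⟩ := s56fl_sharp hctx hH hx0 hrx (hconn x₀)
  set c := A.valuation (φ₀ x₀ - φ₀ 0) with hc
  set e := Nat.card (MulAction.orbit Γ x₀) with he
  have h1 : A.valuation (r : L) ≤ c ^ (r - 1) :=
    hsharp.trans (pow_le_pow_left' (ht.max φ hφ x₀) _)
  have h2 : A.valuation (r : L) ^ e ≤ A.valuation (r : L) ^ (j * (r - 1)) := by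
    calc A.valuation (r : L) ^ e ≤ (c ^ (r - 1)) ^ e := pow_le_pow_left' h1 _
      _ = (c ^ e) ^ (r - 1) := by rw [← pow_mul, ← pow_mul, mul_comm]
      _ = A.valuation (r : L) ^ (j * (r - 1)) := by rw [hj, ← pow_mul]
  have hr0 : 0 < A.valuation (r : L) := zero_lt_iff.mpr ((map_ne_zero _).mpr hctx.r_ne)
  have hr1 : A.valuation (r : L) < 1 := by
    have := hctx.r_mem
    rwa [ValuationSubring.mem_nonunits_iff] at this
  exact (pow_le_pow_iff_right_of_lt_one₀ hr0 hr1).mp h2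

end

end Fermat.Agent.S56
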